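import Fermat.Agent.LevelLowering.FreeCorr

/-!
# Composition of double coset operators

If the middle cosets of two correspondences are met by the image, the product of their
operators is the operator of the composed correspondence. Used for multiplicativity of the Hecke
operators on the kernel of a character.
-/

noncomputable section

namespace Fermat.Agent.LevelLowering

open scoped MatrixGroups
open Fermat.Agent.Grp Fermat.Agent.Ihara

variable {G : Subgroup SL(2, ℤ)} {A : Type*} [AddCommGroup A]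

/-- The product of two correspondences whose middle cosets are met by the image. -/
theorem Corr.op_op {C C' D : Corr G}
    (hK : ∀ g : G, (g : SL(2, ℤ)) ∈ D.K₁ ↔
      ∃ h : (g : SL(2, ℤ)) ∈ C.K₁, (C.e ⟨g, h⟩ : SL(2, ℤ)) ∈ C'.K₁)
    (hconj : ∀ (k : D.K₁) (h : (k : SL(2, ℤ)) ∈ C.K₁) (h' : (C.e ⟨k, h⟩ : SL(2, ℤ)) ∈ C'.K₁),
      D.conj k = C'.conj ⟨_, h'⟩)
    (hs : ∀ g : G, ∃ s : C.K₁, (((C.conj s)⁻¹ * g : G) : SL(2, ℤ)) ∈ C'.K₁)
    (χ : Additive G →+ A) : C.op (C'.op χ) = D.op χ := by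
  have := C.fin₁
  have := C'.fin₁
  have := (C.K₁.subgroupOf G).fintypeQuotientOfFiniteIndex
  have := (C'.K₁.subgroupOf G).fintypeQuotientOfFiniteIndex
  choose s hs using fun j : G ⧸ C'.K₁.subgroupOf G => hs j.out
  have hsmk : ∀ j, ((C.conj (s j) : G) : G ⧸ C'.K₁.subgroupOf G) = j := fun j => by
    conv_rhs => rw [← QuotientGroup.out_eq' j]
    rw [QuotientGroup.eq, Subgroup.mem_subgroupOf]
    exact hs j
  refine Hecke.addChar_ext fun g => ?_
  let r := fun i : G ⧸ C.K₁.subgroupOf G => i.out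
  have hr : Function.Bijective fun i => ((r i : G) : G ⧸ C.K₁.subgroupOf G) := by
    simp only [r, QuotientGroup.out_eq']; exact Function.bijective_id
  have hσ : ∀ i, ((r (g • i))⁻¹ * (g * r i) : G).1 ∈ C.K₁ := fun i =>
    Subgroup.mem_subgroupOf.mp (Hecke.cocycle_mem Quotient.out QuotientGroup.out_eq' g i)
  let z : (G ⧸ C.K₁.subgroupOf G) → C.K₁ := fun i => ⟨_, hσ i⟩
  have hbij' : Function.Bijective fun j =>
      ((C.conj (s j) : G) : G ⧸ C'.K₁.subgroupOf G) := by
    simp only [hsmk]; exact Function.bijective_id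
  have hσ' : ∀ i j, ((C.conj (s (C.conj (z i) • j)))⁻¹ * (C.conj (z i) * C.conj (s j)) : G).1 ∈
      C'.K₁ := fun i j =>
    Subgroup.mem_subgroupOf.mp (Hecke.cocycle_mem (fun y => C.conj (s y)) hsmk (C.conj (z i)) j)
  rw [C.op_apply_reps _ r hr g (fun i => g • i) hσ,
    Finset.sum_congr rfl fun i _ => C'.op_apply_reps χ (fun j => C.conj (s j)) hbij'
      (C.conj (z i)) (fun j => C.conj (z i) • j) (hσ' i)]
  let R : (G ⧸ C.K₁.subgroupOf G) × (G ⧸ C'.K₁.subgroupOf G) → G :=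
    fun p => r p.1 * Subgroup.inclusion C.le₁ (s p.2)
  have hR : Function.Bijective fun p => ((R p : G) : G ⧸ D.K₁.subgroupOf G) := by
    constructor
    · rintro ⟨i, j⟩ ⟨i', j'⟩ h
      rw [QuotientGroup.eq, Subgroup.mem_subgroupOf, hK] at h
      obtain ⟨h1, h2⟩ := h
      have hii : i = i' := by
        refine hr.1 ?_
        rw [QuotientGroup.eq, Subgroup.mem_subgroupOf]
        have := mul_mem (mul_mem (s j).2 h1) (inv_mem (s j').2)
        simpa [R, mul_assoc] using this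
      subst hii
      refine Prod.ext rfl (hbij'.1 ?_)
      rw [QuotientGroup.eq, Subgroup.mem_subgroupOf]
      have e : C.conj ⟨_, h1⟩ = (C.conj (s j))⁻¹ * C.conj (s j') := by
        rw [← map_inv, ← map_mul]
        exact congrArg C.conj (Subtype.ext (by simp [R, mul_assoc]))
      rw [← e]
      exact h2
    · intro y
      obtain ⟨i, hi⟩ := hr.2 ((y.out : G) : G ⧸ C.K₁.subgroupOf G)
      rw [QuotientGroup.eq, Subgroup.mem_subgroupOf] at hi
      obtain ⟨j, hj⟩ := hbij'.2 ((C.conj ⟨_, hi⟩ : G) : G ⧸ C'.K₁.subgroupOf G)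
      refine ⟨(i, j), ?_⟩
      conv_rhs => rw [← QuotientGroup.out_eq' y]
      rw [QuotientGroup.eq, Subgroup.mem_subgroupOf] at hj ⊢
      rw [hK]
      have h1 : ((R (i, j))⁻¹ * y.out : G).1 ∈ C.K₁ := by
        have := mul_mem (inv_mem (s j).2) hi
        simpa [R, mul_assoc] using this
      refine ⟨h1, ?_⟩
      have e : C.conj ⟨_, h1⟩ = (C.conj (s j))⁻¹ * C.conj ⟨_, hi⟩ := by
        rw [← map_inv, ← map_mul]
        exact congrArg C.conj (Subtype.ext (by simp [R, mul_assoc]))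
      rw [← e] at hj
      exact hj
  let σ : (G ⧸ C.K₁.subgroupOf G) × (G ⧸ C'.K₁.subgroupOf G) →
      (G ⧸ C.K₁.subgroupOf G) × (G ⧸ C'.K₁.subgroupOf G) :=
    fun p => (g • p.1, C.conj (z p.1) • p.2)
  have hS1 : ∀ p, ((R (σ p))⁻¹ * (g * R p) : G).1 ∈ C.K₁ := fun p => by
    have := mul_mem (mul_mem (inv_mem (s (C.conj (z p.1) • p.2)).2) (z p.1).2) (s p.2).2
    simpa [R, σ, z, mul_assoc] using this
  have hS2 : ∀ p, C.conj ⟨_, hS1 p⟩ =
      (C.conj (s (σ p).2))⁻¹ * (C.conj (z p.1) * C.conj (s p.2)) := fun p => by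
    rw [← map_inv, ← map_mul, ← map_mul]
    exact congrArg C.conj (Subtype.ext (by simp [R, σ, z, mul_assoc]))
  have hS : ∀ p, ((R (σ p))⁻¹ * (g * R p) : G).1 ∈ D.K₁ := fun p => by
    rw [hK]
    refine ⟨hS1 p, ?_⟩
    have := hσ' p.1 p.2
    rw [← hS2 p] at this
    exact this
  rw [D.op_apply_reps χ R hR g σ hS, Fintype.sum_prod_type]
  refine Finset.sum_congr rfl fun i _ => Finset.sum_congr rfl fun j _ => ?_
  have h' : (C.e ⟨_, hS1 (i, j)⟩ : SL(2, ℤ)) ∈ C'.K₁ := by
    have := hσ' i j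
    rw [show C.conj (s (C.conj (z i) • j)) = C.conj (s (σ (i, j)).2) from rfl, ← hS2 (i, j)] at this
    exact this
  rw [hconj ⟨_, hS (i, j)⟩ (hS1 (i, j)) h']
  refine congrArg χ (congrArg Additive.ofMul (congrArg C'.conj (Subtype.ext ?_)))
  exact (congrArg Subtype.val (hS2 (i, j))).symm

end Fermat.Agent.LevelLowering
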