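import Mathlib.Algebra.Module.LinearMap.End
import Fermat.Agent.Ihara.Cores
import Fermat.Agent.Ihara.PairingMain

/-!
# Double coset operators and kernels of characters

Correspondences on a subgroup `G ⊆ SL(2,ℤ)`, their operators on `Hom_cl(G, A)`, and their
restriction to the kernel `H` of a compatible character `d : G → Δ` with values in a finite
abelian group. The restricted operators commute with restriction and with conjugation by `G`.
-/

noncomputable section

namespace Fermat.Agent.LevelLowering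

open scoped MatrixGroups
open Fermat.Agent.Grp Fermat.Agent.Ihara

variable (G : Subgroup SL(2, ℤ))

/-- A double coset correspondence on `G` given by an integral matrix of positive determinant. -/
structure Corr where
  /-- The source subgroup. -/
  K₁ : Subgroup SL(2, ℤ)
  /-- The target subgroup. -/
  K₂ : Subgroup SL(2, ℤ)
  le₁ : K₁ ≤ G
  le₂ : K₂ ≤ G
  neg₁ : (-1 : SL(2, ℤ)) ∈ K₁
  neg₂ : (-1 : SL(2, ℤ)) ∈ K₂
  fin₁ : K₁.FiniteIndex
  fin₂ : K₂.FiniteIndex
  /-- Conjugation by the matrix. -/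
  e : K₁ ≃* K₂
  /-- The integral matrix. -/
  mat : Matrix (Fin 2) (Fin 2) ℤ
  det_pos : 0 < mat.det
  intertwine : ∀ γ : K₁, mat * ((γ : SL(2, ℤ)) : Matrix (Fin 2) (Fin 2) ℤ) =
    ((e γ : SL(2, ℤ)) : Matrix (Fin 2) (Fin 2) ℤ) * mat

variable {G}

namespace Corr

variable (C : Corr G)

/-- The map `K₁ → G`. -/
def conj : C.K₁ →* G := (Subgroup.inclusion C.le₂).comp C.e.toMonoidHom

theorem tr_e (γ : C.K₁) : tr (C.e γ : SL(2, ℤ)) = tr (γ : SL(2, ℤ)) :=
  tr_eq_of_intertwine C.det_pos (C.intertwine γ)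

/-- The degree. -/
def deg : ℕ := (C.K₁.subgroupOf G).index

variable {A B : Type*} [AddCommGroup A] [AddCommGroup B]

/-- The double coset operator on characters. -/
def op (χ : Additive G →+ A) : Additive G →+ A :=
  haveI := C.fin₁
  coresHom C.le₁ (χ.comp (MonoidHom.toAdditive C.conj))

theorem op_add (χ χ' : Additive G →+ A) : C.op (χ + χ') = C.op χ + C.op χ' := by
  have := C.fin₁
  rw [op, AddMonoidHom.add_comp, coresHom_add]
  rfl

theorem op_smul {R : Type*} [Semiring R] [Module R A] (c : R) (χ : Additive G →+ A) :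
    C.op (c • χ) = c • C.op χ := by
  have := C.fin₁
  rw [op, op, ← coresHom_smul]
  rfl

theorem op_comp (f : A →+ B) (χ : Additive G →+ A) : C.op (f.comp χ) = f.comp (C.op χ) := by
  have := C.fin₁
  rw [op, op, ← coresHom_comp]
  rfl

theorem op_apply_reps (χ : Additive G →+ A) {ι : Type*} [Fintype ι] (r : ι → G)
    (hr : Function.Bijective fun i => ((r i : G) : G ⧸ C.K₁.subgroupOf G)) (g : G) (σ : ι → ι)
    (hσ : ∀ i, ((r (σ i))⁻¹ * (g * r i) : G).1 ∈ C.K₁) :
    C.op χ (Additive.ofMul g) =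
      ∑ i, χ (Additive.ofMul (C.conj ⟨((r (σ i))⁻¹ * (g * r i) : G).1, hσ i⟩)) := by
  have := C.fin₁
  rw [op, coresHom_apply_reps C.le₁ _ r hr g σ hσ]
  rfl

theorem isClHom_op {χ : Additive G →+ A} (hχ : IsClHom G χ) : IsClHom G (C.op χ) := by
  have := C.fin₁
  refine isClHom_coresHom C.le₁ fun γ hγ => ?_
  exact hχ (C.conj γ) (by
    show |tr (C.e γ : SL(2, ℤ))| ≤ 2
    rwa [C.tr_e])

/-- The operator on `Hom_cl`. -/
def opCl (R : Type*) [Semiring R] (A : Type*) [AddCommGroup A] [Module R A] :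
    Module.End R (clHoms R G A) where
  toFun χ := ⟨C.op χ.1, C.isClHom_op χ.2⟩
  map_add' χ χ' := Subtype.ext (C.op_add χ.1 χ'.1)
  map_smul' c χ := Subtype.ext (C.op_smul c χ.1)

end Corr

section Kernel

variable {Δ : Type*} [CommGroup Δ] (d : G →* Δ) {H : Subgroup SL(2, ℤ)}

/-- The two subgroups of the correspondence have the same index. -/
def Corr.Balanced (C : Corr G) : Prop := (C.K₂.subgroupOf G).index = C.deg

/-- Compatibility of a correspondence with a character. -/
structure Corr.Compat (C : Corr G) : Prop where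
  d_conj : ∀ k : C.K₁, d (C.conj k) = d (Subgroup.inclusion C.le₁ k)
  d_surj : ∀ δ, ∃ k : C.K₁, d (Subgroup.inclusion C.le₁ k) = δ

variable {d}

variable (hHG : H ≤ G) (hker : ∀ g : G, (g : SL(2, ℤ)) ∈ H ↔ d g = 1)

include hker in
theorem d_inclusion (h : H) : d (Subgroup.inclusion hHG h) = 1 := (hker _).mp h.2

variable {hHG}

include hker in
theorem conj_mem_ker (g : G) (h : H) :
    ((g⁻¹ * Subgroup.inclusion hHG h * g : G) : SL(2, ℤ)) ∈ H := by
  rw [hker, map_mul, map_mul, d_inclusion hHG hker, mul_one, ← map_mul, inv_mul_cancel, map_one]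

/-- Conjugation of the kernel by `g`. -/
def conjKer (g : G) : H →* H :=
  MonoidHom.mk' (fun h => ⟨((g⁻¹ * Subgroup.inclusion hHG h * g : G) : SL(2, ℤ)),
    conj_mem_ker hker g h⟩)
    fun a b => Subtype.ext (by simp [mul_assoc])

variable (hHG)

/-- The restriction of a compatible correspondence to the kernel. -/
def Corr.restrict {C : Corr G} (hC : C.Compat d) [H.FiniteIndex]
    (hneg : (-1 : SL(2, ℤ)) ∈ H) : Corr H where
  K₁ := C.K₁ ⊓ H
  K₂ := C.K₂ ⊓ H
  le₁ := inf_le_right
  le₂ := inf_le_right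
  neg₁ := ⟨C.neg₁, hneg⟩
  neg₂ := ⟨C.neg₂, hneg⟩
  fin₁ := by have := C.fin₁; exact inferInstance
  fin₂ := by have := C.fin₂; exact inferInstance
  e :=
    have key : ∀ x : C.K₁, ((C.e x : SL(2, ℤ)) ∈ H) ↔ ((x : SL(2, ℤ)) ∈ H) := fun x => by
      have h1 := hker (C.conj x)
      have h2 := hker (Subgroup.inclusion C.le₁ x)
      rw [hC.d_conj] at h1
      exact h1.trans h2.symm
    { toFun := fun x => ⟨(C.e ⟨x.1, x.2.1⟩ : SL(2, ℤ)), (C.e _).2, (key _).mpr x.2.2⟩
      invFun := fun y => ⟨(C.e.symm ⟨y.1, y.2.1⟩ : SL(2, ℤ)), (C.e.symm _).2,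
        (key _).mp (by rw [MulEquiv.apply_symm_apply]; exact y.2.2)⟩
      left_inv := fun x => Subtype.ext (by simp)
      right_inv := fun y => Subtype.ext (by simp)
      map_mul' := fun a b => Subtype.ext (by
        exact congrArg (fun z : C.K₂ => (z : SL(2, ℤ)))
          (map_mul C.e ⟨a.1, a.2.1⟩ ⟨b.1, b.2.1⟩)) }
  mat := C.mat
  det_pos := C.det_pos
  intertwine γ := C.intertwine ⟨γ.1, γ.2.1⟩

variable {A : Type*} [AddCommGroup A] {C : Corr G} (hC : C.Compat d) [H.FiniteIndex]
  (hneg : (-1 : SL(2, ℤ)) ∈ H)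

include hker in
/-- The restricted operator computed with representatives of `G/K₁` lying in `H`. -/
theorem restrict_op_apply (φ : Additive H →+ A) {ι : Type*} [Fintype ι] (r : ι → H)
    (hr : Function.Bijective fun i =>
      ((Subgroup.inclusion hHG (r i) : G) : G ⧸ C.K₁.subgroupOf G))
    (h : H) (σ : ι → ι)
    (hσ : ∀ i, (((r (σ i))⁻¹ * (h * r i) : H) : SL(2, ℤ)) ∈ C.K₁) :
    (C.restrict hker hC hneg).op φ (Additive.ofMul h) =
      ∑ i, φ (Additive.ofMul ⟨(C.e ⟨_, hσ i⟩ : SL(2, ℤ)),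
        (hker (C.conj ⟨_, hσ i⟩)).mpr (by
          rw [hC.d_conj]
          exact (hker _).mp ((r (σ i))⁻¹ * (h * r i)).2)⟩) := by
  have hr' : Function.Bijective fun i =>
      ((r i : H) : H ⧸ (C.K₁ ⊓ H).subgroupOf H) := by
    constructor
    · intro i j hij
      refine hr.1 ?_
      rw [QuotientGroup.eq, Subgroup.mem_subgroupOf] at hij ⊢
      exact hij.1
    · intro x
      obtain ⟨i, hi⟩ := hr.2 ((Subgroup.inclusion hHG x.out : G) : G ⧸ C.K₁.subgroupOf G)
      refine ⟨i, ?_⟩
      rw [← QuotientGroup.out_eq' x]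
      rw [QuotientGroup.eq, Subgroup.mem_subgroupOf] at hi ⊢
      exact ⟨hi, ((r i)⁻¹ * x.out).2⟩
  rw [(C.restrict hker hC hneg).op_apply_reps φ r hr' h σ
    fun i => ⟨hσ i, ((r (σ i))⁻¹ * (h * r i)).2⟩]
  rfl

omit [H.FiniteIndex] in
include hker hC in
/-- Representatives of `G/K₁` lying in the kernel. -/
theorem exists_kernel_reps :
    ∃ t : G ⧸ C.K₁.subgroupOf G → H,
      ∀ x, ((Subgroup.inclusion hHG (t x) : G) : G ⧸ C.K₁.subgroupOf G) = x := by
  have : ∀ x : G ⧸ C.K₁.subgroupOf G, ∃ h : H,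
      ((Subgroup.inclusion hHG h : G) : G ⧸ C.K₁.subgroupOf G) = x := by
    intro x
    obtain ⟨k, hk⟩ := hC.d_surj (d x.out)⁻¹
    refine ⟨⟨((x.out * Subgroup.inclusion C.le₁ k : G) : SL(2, ℤ)), (hker _).mpr (by
      rw [map_mul, hk, mul_inv_cancel])⟩, ?_⟩
    conv_rhs => rw [← QuotientGroup.out_eq' x]
    rw [eq_comm, QuotientGroup.eq, Subgroup.mem_subgroupOf]
    simp
  exact ⟨fun x => (this x).choose, fun x => (this x).choose_spec⟩

include hker in
/-- Restriction commutes with the operators. -/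
theorem restrict_op_res (ψ : Additive G →+ A) :
    (C.restrict hker hC hneg).op (resHom hHG ψ) = resHom hHG (C.op ψ) := by
  have := C.fin₁
  have := (C.K₁.subgroupOf G).fintypeQuotientOfFiniteIndex
  obtain ⟨t, ht⟩ := exists_kernel_reps hHG hker hC
  refine Hecke.addChar_ext fun h => ?_
  have hbij : Function.Bijective fun x =>
      ((Subgroup.inclusion hHG (t x) : G) : G ⧸ C.K₁.subgroupOf G) := by
    simp only [ht]; exact Function.bijective_id
  have hσ : ∀ x, ((Subgroup.inclusion hHG (t (Subgroup.inclusion hHG h • x)))⁻¹ *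
      (Subgroup.inclusion hHG h * Subgroup.inclusion hHG (t x)) : G).1 ∈ C.K₁ := fun x =>
    Subgroup.mem_subgroupOf.mp
      (Hecke.cocycle_mem (fun y => Subgroup.inclusion hHG (t y)) ht _ x)
  rw [restrict_op_apply hHG hker hC hneg _ t hbij h (fun x => Subgroup.inclusion hHG h • x) hσ]
  show _ = C.op ψ (Additive.ofMul (Subgroup.inclusion hHG h))
  rw [C.op_apply_reps ψ (fun x => Subgroup.inclusion hHG (t x)) hbij _
    (fun x => Subgroup.inclusion hHG h • x) hσ]
  rfl

/-- Conjugation of characters of the kernel. -/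
def conjChar (g : G) (φ : Additive H →+ A) : Additive H →+ A :=
  φ.comp (MonoidHom.toAdditive (conjKer (hHG := hHG) hker g))

omit [H.FiniteIndex] in
include hker in
theorem conjChar_mul (g g' : G) (φ : Additive H →+ A) :
    conjChar hHG hker g (conjChar hHG hker g' φ) = conjChar hHG hker (g * g') φ := by
  refine Hecke.addChar_ext fun h => ?_
  refine congrArg φ (congrArg Additive.ofMul (Subtype.ext ?_))
  simp [conjKer, mul_assoc]

omit [H.FiniteIndex] in
include hker in
theorem conjChar_congr {g g' : G} (h : d g = d g') (φ : Additive H →+ A) :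
    conjChar hHG hker g φ = conjChar hHG hker g' φ := by
  refine Hecke.addChar_ext fun x => ?_
  let u : H := ⟨((g⁻¹ * g' : G) : SL(2, ℤ)), (hker _).mpr (by
    rw [map_mul, map_inv, h, inv_mul_cancel])⟩
  show φ (Additive.ofMul (conjKer (hHG := hHG) hker g x)) =
    φ (Additive.ofMul (conjKer (hHG := hHG) hker g' x))
  rw [show conjKer (hHG := hHG) hker g' x = u⁻¹ * conjKer (hHG := hHG) hker g x * u from
    Subtype.ext (by simp [conjKer, u, mul_assoc]), ofMul_mul, ofMul_mul, ofMul_inv, map_add,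
    map_add, map_neg]
  abel

include hker in
/-- The restricted operators commute with conjugation. -/
theorem restrict_op_conjChar (g : G) (φ : Additive H →+ A) :
    (C.restrict hker hC hneg).op (conjChar hHG hker g φ) =
      conjChar hHG hker g ((C.restrict hker hC hneg).op φ) := by
  have := C.fin₁
  have := (C.K₁.subgroupOf G).fintypeQuotientOfFiniteIndex
  obtain ⟨t, ht⟩ := exists_kernel_reps hHG hker hC
  obtain ⟨k, hk⟩ := hC.d_surj (d g)
  rw [conjChar_congr hHG hker hk.symm φ,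
    conjChar_congr hHG hker hk.symm ((C.restrict hker hC hneg).op φ)]
  set k' : G := Subgroup.inclusion C.le₁ k with hk'
  have hkK : (k' : SL(2, ℤ)) ∈ C.K₁ := k.2
  refine Hecke.addChar_ext fun h => ?_
  have hbij : Function.Bijective fun x =>
      ((Subgroup.inclusion hHG (t x) : G) : G ⧸ C.K₁.subgroupOf G) := by
    simp only [ht]; exact Function.bijective_id
  have hσ : ∀ x, ((Subgroup.inclusion hHG (t (Subgroup.inclusion hHG h • x)))⁻¹ *
      (Subgroup.inclusion hHG h * Subgroup.inclusion hHG (t x)) : G).1 ∈ C.K₁ := fun x =>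
    Subgroup.mem_subgroupOf.mp
      (Hecke.cocycle_mem (fun y => Subgroup.inclusion hHG (t y)) ht _ x)
  rw [restrict_op_apply hHG hker hC hneg _ t hbij h (fun x => Subgroup.inclusion hHG h • x) hσ]
  show _ = (C.restrict hker hC hneg).op φ (Additive.ofMul (conjKer (hHG := hHG) hker k' h))
  have hbij' : Function.Bijective fun x =>
      ((Subgroup.inclusion hHG (conjKer (hHG := hHG) hker k' (t x)) : G) :
        G ⧸ C.K₁.subgroupOf G) := by
    constructor
    · intro x y hxy
      refine hbij.1 ?_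
      rw [QuotientGroup.eq, Subgroup.mem_subgroupOf] at hxy ⊢
      have := mul_mem (mul_mem hkK hxy) (inv_mem hkK)
      simpa [conjKer, mul_assoc] using this
    · intro y
      obtain ⟨x, hx⟩ := hbij.2 ((k' * y.out : G) : G ⧸ C.K₁.subgroupOf G)
      refine ⟨x, ?_⟩
      conv_rhs => rw [← QuotientGroup.out_eq' y]
      rw [QuotientGroup.eq, Subgroup.mem_subgroupOf] at hx ⊢
      have := mul_mem (inv_mem hkK) hx
      simpa [conjKer, mul_assoc] using this
  have hσ' : ∀ x, (((conjKer (hHG := hHG) hker k' (t (Subgroup.inclusion hHG h • x)))⁻¹ *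
      (conjKer (hHG := hHG) hker k' h * conjKer (hHG := hHG) hker k' (t x)) : H) : SL(2, ℤ)) ∈
        C.K₁ := by
    intro x
    have := mul_mem (mul_mem (inv_mem hkK) (hσ x)) hkK
    simpa [conjKer, mul_assoc] using this
  rw [restrict_op_apply hHG hker hC hneg φ _ hbij' _ (fun x => Subgroup.inclusion hHG h • x) hσ']
  refine Finset.sum_congr rfl fun x _ => ?_
  let u : H := ⟨((k'⁻¹ * C.conj k : G) : SL(2, ℤ)), (hker _).mpr (by
    rw [map_mul, map_inv, hC.d_conj, ← hk', inv_mul_cancel])⟩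
  let z : C.K₁ := ⟨_, hσ x⟩
  let w : H := ⟨(C.e z : SL(2, ℤ)), (hker (C.conj z)).mpr (by
    rw [hC.d_conj]; exact (hker _).mp ((t (Subgroup.inclusion hHG h • x))⁻¹ * (h * t x)).2)⟩
  have hz : (⟨_, hσ' x⟩ : C.K₁) = k⁻¹ * z * k :=
    Subtype.ext (by simp [z, conjKer, hk', mul_assoc])
  show φ (Additive.ofMul (conjKer (hHG := hHG) hker k' w)) =
    φ (Additive.ofMul ⟨(C.e _ : SL(2, ℤ)), _⟩)
  refine Eq.trans ?_ (congrArg (fun v => φ (Additive.ofMul v))
    (a₁ := u⁻¹ * conjKer (hHG := hHG) hker k' w * u) (Subtype.ext (by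
      show _ = (C.e ⟨_, hσ' x⟩ : SL(2, ℤ))
      rw [hz, map_mul, map_mul, map_inv]
      simp [u, w, conjKer, Corr.conj, mul_assoc])))
  show _ = φ (Additive.ofMul (u⁻¹ * conjKer (hHG := hHG) hker k' w * u))
  rw [ofMul_mul, ofMul_mul, ofMul_inv, map_add, map_add, map_neg]
  abel

end Kernel

end Fermat.Agent.LevelLowering
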