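import Mathlib.Algebra.Module.Torsion.Free
import Mathlib.GroupTheory.QuotientGroup.Basic
import Mathlib.LinearAlgebra.Dual.Lemmas
import Fermat.Agent.LevelLowering.FreeCorr

/-!
# Restriction and corestriction to the kernel of a character

For the kernel `H` of `d : G → Δ`, the kernel of restriction and the cokernels of restriction
to `Δ`-invariants and of corestriction are killed by `T - deg T`. This is the input of freeness
over `O[Δ]` after localising at a residual system which is not Eisenstein.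
-/

noncomputable section

namespace Fermat.Agent.LevelLowering

open scoped MatrixGroups
open Fermat.Agent.Grp Fermat.Agent.Ihara

variable {G H : Subgroup SL(2, ℤ)} {Δ : Type*} [CommGroup Δ] {d : G →* Δ}
  (hHG : H ≤ G) (hker : ∀ g : G, (g : SL(2, ℤ)) ∈ H ↔ d g = 1)
  (hd : Function.Surjective d)
variable {A : Type*} [AddCommGroup A] [H.FiniteIndex]

/-- A section of the character. -/
def sec (δ : Δ) : G := (hd δ).choose

include hd in
theorem d_sec (δ : Δ) : d (sec hd δ) = δ := (hd δ).choose_spec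

omit [H.FiniteIndex] in
include hker in
theorem sec_bijective :
    Function.Bijective fun δ : Δ => ((sec hd δ : G) : G ⧸ H.subgroupOf G) := by
  constructor
  · intro a b hab
    rw [QuotientGroup.eq, Subgroup.mem_subgroupOf, hker, map_mul, map_inv, d_sec hd, d_sec hd,
      inv_mul_eq_one] at hab
    exact hab
  · intro x
    refine ⟨d x.out, ?_⟩
    conv_rhs => rw [← QuotientGroup.out_eq' x]
    rw [QuotientGroup.eq, Subgroup.mem_subgroupOf, hker, map_mul, map_inv, d_sec hd,
      inv_mul_cancel]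

omit [H.FiniteIndex] in
include hker hd in
theorem index_eq_card : (H.subgroupOf G).index = Nat.card Δ :=
  (Nat.card_congr (Equiv.ofBijective _ (sec_bijective hker hd))).symm

omit [H.FiniteIndex] in
include hker in
/-- A character of `G` killing the kernel only depends on `d`. -/
theorem apply_eq_of_res_eq_zero {ψ : Additive G →+ A} (h : resHom hHG ψ = 0) {g g' : G}
    (hg : d g = d g') : ψ (Additive.ofMul g) = ψ (Additive.ofMul g') := by
  have h1 : ψ (Additive.ofMul (g⁻¹ * g')) = 0 :=
    DFunLike.congr_fun h (Additive.ofMul (⟨((g⁻¹ * g' : G) : SL(2, ℤ)), (hker _).mpr (by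
      rw [map_mul, map_inv, hg, inv_mul_cancel])⟩ : H))
  rw [ofMul_mul, ofMul_inv, map_add, map_neg] at h1
  exact (neg_add_eq_zero.mp h1)

omit [H.FiniteIndex] in
include hker in
/-- Conjugation fixes restricted characters. -/
theorem conjChar_res (g : G) (ψ : Additive G →+ A) :
    conjChar hHG hker g (resHom hHG ψ) = resHom hHG ψ := by
  refine Hecke.addChar_ext fun h => ?_
  show ψ (Additive.ofMul (Subgroup.inclusion hHG (conjKer (hHG := hHG) hker g h))) = _
  rw [show Subgroup.inclusion hHG (conjKer (hHG := hHG) hker g h) =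
    g⁻¹ * Subgroup.inclusion hHG h * g from Subtype.ext rfl, ofMul_mul, ofMul_mul, ofMul_inv,
    map_add, map_add, map_neg]
  show _ = ψ (Additive.ofMul (Subgroup.inclusion hHG h))
  abel

/-- The action of `Δ` on characters of the kernel. -/
def actChar (δ : Δ) (φ : Additive H →+ A) : Additive H →+ A := conjChar hHG hker (sec hd δ) φ

omit [H.FiniteIndex] in
include hker hd in
theorem actChar_mul (a b : Δ) (φ : Additive H →+ A) :
    actChar hHG hker hd a (actChar hHG hker hd b φ) = actChar hHG hker hd (a * b) φ := by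
  rw [actChar, actChar, actChar, conjChar_mul]
  exact conjChar_congr hHG hker (by rw [map_mul, d_sec hd, d_sec hd, d_sec hd]) φ

omit [H.FiniteIndex] in
include hker hd in
theorem actChar_one (φ : Additive H →+ A) : actChar hHG hker hd 1 φ = φ := by
  rw [actChar, conjChar_congr hHG hker (show d (sec hd 1) = d 1 by rw [d_sec hd, map_one]) φ]
  refine Hecke.addChar_ext fun h => congrArg φ (congrArg Additive.ofMul (Subtype.ext ?_))
  simp [conjKer]

/-- The action of `Δ` on `Hom_cl` of the kernel. -/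
def actCl (R : Type*) [Semiring R] (A : Type*) [AddCommGroup A] [Module R A] :
    Δ →* Module.End R (clHoms R H A) where
  toFun δ :=
    { toFun := fun φ => ⟨actChar hHG hker hd δ φ.1, fun h hh => φ.2 _ (by
        show |tr (((sec hd δ)⁻¹ * Subgroup.inclusion hHG h * sec hd δ : G) : SL(2, ℤ))| ≤ 2
        have := tr_conj ((sec hd δ : G) : SL(2, ℤ))⁻¹ (h : SL(2, ℤ))
        rw [inv_inv] at this
        simp only [Subgroup.coe_mul, InvMemClass.coe_inv, Subgroup.coe_inclusion]
        rw [this]; exact hh)⟩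
      map_add' := fun _ _ => rfl
      map_smul' := fun _ _ => rfl }
  map_one' := LinearMap.ext fun φ => Subtype.ext (actChar_one hHG hker hd φ.1)
  map_mul' a b := LinearMap.ext fun φ => Subtype.ext (actChar_mul hHG hker hd a b φ.1).symm

omit [H.FiniteIndex] in
/-- Restriction on `Hom_cl`. -/
def resCl (R : Type*) [Semiring R] (A : Type*) [AddCommGroup A] [Module R A] :
    clHoms R G A →ₗ[R] clHoms R H A where
  toFun ψ := ⟨resHom hHG ψ.1, isClHom_resHom hHG ψ.2⟩
  map_add' _ _ := rfl
  map_smul' _ _ := rfl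

/-- Corestriction on `Hom_cl`. -/
def coresCl (R : Type*) [Semiring R] (A : Type*) [AddCommGroup A] [Module R A] :
    clHoms R H A →ₗ[R] clHoms R G A where
  toFun φ := ⟨coresHom hHG φ.1, isClHom_coresHom hHG φ.2⟩
  map_add' φ φ' := Subtype.ext (coresHom_add hHG φ.1 φ'.1)
  map_smul' c φ := Subtype.ext (coresHom_smul hHG c φ.1)

omit [H.FiniteIndex] in
@[simp] theorem coe_resCl {R : Type*} [Semiring R] [Module R A] (ψ : clHoms R G A) :
    (resCl hHG R A ψ : Additive H →+ A) = resHom hHG ψ.1 := rfl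

@[simp] theorem coe_coresCl {R : Type*} [Semiring R] [Module R A] (φ : clHoms R H A) :
    (coresCl hHG R A φ : Additive G →+ A) = coresHom hHG φ.1 := rfl

include hker in
/-- Restriction of a corestriction is the norm. -/
theorem res_cores [Fintype Δ] (φ : Additive H →+ A) :
    resHom hHG (coresHom hHG φ) = ∑ δ, actChar hHG hker hd δ φ := by
  refine Hecke.addChar_ext fun h => ?_
  show coresHom hHG φ (Additive.ofMul (Subgroup.inclusion hHG h)) = _
  rw [coresHom_apply_reps hHG φ (sec hd) (sec_bijective hker hd) _ id fun δ => by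
    rw [id, hker, map_mul, map_inv, map_mul, d_inclusion hHG hker, one_mul, inv_mul_cancel]]
  rw [AddMonoidHom.finsetSum_apply]
  refine Finset.sum_congr rfl fun δ _ => congrArg φ (congrArg Additive.ofMul (Subtype.ext ?_))
  simp [conjKer, mul_assoc]

include hHG hker hd in
/-- Restriction is injective on characters with torsion free values. -/
theorem resHom_injective [Finite Δ] [IsAddTorsionFree A] :
    Function.Injective (resHom (A := A) hHG) := by
  intro ψ ψ' h
  have h0 : resHom hHG (ψ - ψ') = 0 := by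
    rw [resHom, AddMonoidHom.sub_comp]
    exact sub_eq_zero.mpr h
  have h1 : (H.subgroupOf G).index • (ψ - ψ') = 0 := by
    rw [← coresHom_res hHG, h0]
    have h00 := coresHom_add hHG (0 : Additive H →+ A) 0
    rw [add_zero, left_eq_add] at h00
    exact h00
  refine sub_eq_zero.mp (Hecke.addChar_ext fun g => ?_)
  have h2 := DFunLike.congr_fun h1 (Additive.ofMul g)
  rw [AddMonoidHom.nsmul_apply, AddMonoidHom.zero_apply] at h2
  exact (smul_eq_zero.mp h2).resolve_left (by rw [index_eq_card hker hd]; exact Nat.card_pos.ne')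

variable {C : Corr G} (hC : C.Compat d) (hneg : (-1 : SL(2, ℤ)) ∈ H)

include hker hC in
/-- The operator commutes with the action. -/
theorem restrict_op_actChar (δ : Δ) (φ : Additive H →+ A) :
    (C.restrict hker hC hneg).op (actChar hHG hker hd δ φ) =
      actChar hHG hker hd δ ((C.restrict hker hC hneg).op φ) :=
  restrict_op_conjChar hHG hker hC hneg _ φ

include hker hd hC in
/-- The operator commutes with corestriction (torsion free values). -/
theorem op_coresHom [Fintype Δ] [IsAddTorsionFree A] (φ : Additive H →+ A) :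
    C.op (coresHom hHG φ) = coresHom hHG ((C.restrict hker hC hneg).op φ) := by
  refine resHom_injective hHG hker hd ?_
  rw [← restrict_op_res hHG hker hC hneg, res_cores hHG hker hd, res_cores hHG hker hd]
  have : ∀ (s : Finset Δ), (C.restrict hker hC hneg).op (∑ δ ∈ s, actChar hHG hker hd δ φ) =
      ∑ δ ∈ s, actChar hHG hker hd δ ((C.restrict hker hC hneg).op φ) := fun s => by
    classical
    induction s using Finset.induction_on with
    | empty =>
      have := (C.restrict hker hC hneg).op_add (0 : Additive H →+ A) 0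
      rw [add_zero, left_eq_add] at this
      simpa using this
    | insert a s ha ih =>
      rw [Finset.sum_insert ha, Finset.sum_insert ha, Corr.op_add, ih,
        restrict_op_actChar hHG hker hd hC hneg]
  exact this Finset.univ

omit [H.FiniteIndex] in
include hker hC in
/-- **Kernel of restriction.** -/
theorem op_of_res_eq_zero {ψ : Additive G →+ A} (h : resHom hHG ψ = 0) :
    C.op ψ = C.deg • ψ := by
  have := C.fin₁
  have hψ : ψ.comp (MonoidHom.toAdditive C.conj) = resHom C.le₁ ψ :=
    Hecke.addChar_ext fun k => apply_eq_of_res_eq_zero hHG hker h (hC.d_conj k)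
  rw [Corr.op, hψ, coresHom_res]
  rfl

include hker hd hC in
/-- **Invariant characters of the kernel extend after applying `T - deg T`.** -/
theorem exists_res_eq_of_invariant (hneg : (-1 : SL(2, ℤ)) ∈ H)
    (htr : ∀ g : G, |tr (g : SL(2, ℤ))| ≤ 2 → d g = 1) {φ : Additive H →+ A} (hcl : IsClHom H φ)
    (hinv : ∀ δ, actChar hHG hker hd δ φ = φ) :
    ∃ F : Additive G →+ A, IsClHom G F ∧
      resHom hHG F = (C.restrict hker hC hneg).op φ - C.deg • φ := by
  classical
  have := C.fin₁
  have := (C.K₁.subgroupOf G).fintypeQuotientOfFiniteIndex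
  obtain ⟨t, ht⟩ := exists_kernel_reps hHG hker hC
  let s : Δ → G := fun δ => if δ = 1 then 1 else sec hd δ
  have hs : ∀ δ, d (s δ) = δ := fun δ => by
    rcases eq_or_ne δ 1 with rfl | h
    · simp [s]
    · simp [s, h, d_sec hd]
  have hmem : ∀ g : G, ((g * (s (d g))⁻¹ : G) : SL(2, ℤ)) ∈ H := fun g => by
    rw [hker, map_mul, map_inv, hs, mul_inv_cancel]
  let Φ : G → A := fun g => φ (Additive.ofMul ⟨_, hmem g⟩)
  have hcmem : ∀ a b : Δ, ((s a * s b * (s (a * b))⁻¹ : G) : SL(2, ℤ)) ∈ H := fun a b => by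
    rw [hker, map_mul, map_inv, map_mul, hs, hs, hs, mul_inv_cancel]
  let c : Δ → Δ → A := fun a b => φ (Additive.ofMul ⟨_, hcmem a b⟩)
  have hconj : ∀ (g : G) (h : H), φ (Additive.ofMul (conjKer (hHG := hHG) hker g h)) =
      φ (Additive.ofMul h) := fun g h => by
    have e := DFunLike.congr_fun (hinv (d g)) (Additive.ofMul h)
    rw [actChar, conjChar_congr hHG hker (d_sec hd (d g)) φ] at e
    exact e
  have hΦ : ∀ g g' : G, Φ (g * g') = Φ g + Φ g' + c (d g) (d g') := fun g g' => by
    have e : (⟨_, hmem (g * g')⟩ : H) = (⟨_, hmem g⟩ : H) *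
        conjKer (hHG := hHG) hker (s (d g))⁻¹ ⟨_, hmem g'⟩ * ⟨_, hcmem (d g) (d g')⟩ :=
      Subtype.ext (by simp [conjKer, mul_assoc])
    show φ (Additive.ofMul (⟨_, hmem (g * g')⟩ : H)) = _
    rw [e, ofMul_mul, ofMul_mul, map_add, map_add, hconj]
  let z : G → (G ⧸ C.K₁.subgroupOf G) → C.K₁ := fun g x =>
    ⟨((Subgroup.inclusion hHG (t (g • x)))⁻¹ * (g * Subgroup.inclusion hHG (t x)) : G).1,
      Subgroup.mem_subgroupOf.mp
        (Hecke.cocycle_mem (fun y => Subgroup.inclusion hHG (t y)) ht g x)⟩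
  have hdz : ∀ g x, d (C.conj (z g x)) = d g := fun g x => by
    rw [hC.d_conj, show Subgroup.inclusion C.le₁ (z g x) =
      (Subgroup.inclusion hHG (t (g • x)))⁻¹ * (g * Subgroup.inclusion hHG (t x)) from
        Subtype.ext rfl,
      map_mul, map_inv, map_mul, d_inclusion hHG hker, d_inclusion hHG hker, inv_one, one_mul,
      mul_one]
  have hz : ∀ g g' x, z (g * g') x = z g (g' • x) * z g' x := fun g g' x =>
    Subtype.ext (by simp [z, mul_smul, mul_assoc])
  let F₀ : G → A := fun g => (∑ x, Φ (C.conj (z g x))) - C.deg • Φ g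
  have hcard : Fintype.card (G ⧸ C.K₁.subgroupOf G) = C.deg := by
    rw [Corr.deg, Subgroup.index, Nat.card_eq_fintype_card]
  have hF : ∀ g g', F₀ (g * g') = F₀ g + F₀ g' := fun g g' => by
    simp only [F₀, hz, map_mul, hΦ, hdz, Finset.sum_add_distrib, Finset.sum_const,
      Finset.card_univ, hcard, smul_add]
    rw [show ∑ x, Φ (C.conj (z g (g' • x))) = ∑ x, Φ (C.conj (z g x)) from
      Equiv.sum_comp (MulAction.toPerm g') (fun x => Φ (C.conj (z g x)))]
    abel
  let F : Additive G →+ A := AddMonoidHom.mk' (fun a => F₀ (Additive.toMul a)) fun a b => hF _ _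
  have hres : resHom hHG F = (C.restrict hker hC hneg).op φ - C.deg • φ := by
    refine Hecke.addChar_ext fun h => ?_
    have hbij : Function.Bijective fun x =>
        ((Subgroup.inclusion hHG (t x) : G) : G ⧸ C.K₁.subgroupOf G) := by
      simp only [ht]; exact Function.bijective_id
    have hs1 : ∀ g : G, d g = 1 → s (d g) = 1 := fun g hg => by simp [s, hg]
    rw [AddMonoidHom.sub_apply, AddMonoidHom.nsmul_apply,
      restrict_op_apply hHG hker hC hneg φ t hbij h (fun x => Subgroup.inclusion hHG h • x)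
        (fun x => (z (Subgroup.inclusion hHG h) x).2)]
    show F₀ (Subgroup.inclusion hHG h) = _
    have e1 : Φ (Subgroup.inclusion hHG h) = φ (Additive.ofMul h) :=
      congrArg φ (congrArg Additive.ofMul (Subtype.ext (by
        simp [hs1 _ (d_inclusion hHG hker h)])))
    simp only [F₀, e1]
    refine congrArg (· - C.deg • φ (Additive.ofMul h)) (Finset.sum_congr rfl fun x _ => ?_)
    refine congrArg φ (congrArg Additive.ofMul (Subtype.ext ?_))
    show ((C.conj (z (Subgroup.inclusion hHG h) x) *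
      (s (d (C.conj (z (Subgroup.inclusion hHG h) x))))⁻¹ : G) : SL(2, ℤ)) = _
    rw [hs1 _ ((hdz _ x).trans (d_inclusion hHG hker h)), inv_one, mul_one]
    rfl
  refine ⟨F, fun γ hγ => ?_, hres⟩
  have hγH : (γ : SL(2, ℤ)) ∈ H := (hker _).mpr (htr γ hγ)
  have e := DFunLike.congr_fun hres (Additive.ofMul (⟨_, hγH⟩ : H))
  refine e.trans ?_
  rw [AddMonoidHom.sub_apply, AddMonoidHom.nsmul_apply,
    (C.restrict hker hC hneg).isClHom_op hcl ⟨_, hγH⟩ hγ, hcl ⟨_, hγH⟩ hγ, smul_zero, sub_zero]

section Field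

variable {k : Type*} [Field k] [G.FiniteIndex]

include hker hC hneg in
/-- **The cokernel of corestriction** is killed by `T - deg T`. -/
theorem exists_cores_eq (hbal : C.Balanced) (ψ : clHoms k G k) :
    ∃ φ : clHoms k H k, coresCl hHG k k φ = C.opCl k k ψ - C.deg • ψ := by
  have hnegG : (-1 : SL(2, ℤ)) ∈ G := hHG hneg
  have := C.fin₁
  have := C.fin₂
  obtain ⟨e⟩ := nonempty_clHoms_equiv_pi G hnegG k k
  have : FiniteDimensional k (clHoms k G k) := Module.Finite.equiv e.symm
  suffices h : C.opCl k k ψ - C.deg • ψ ∈ LinearMap.range (coresCl hHG k k) from h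
  by_contra hy
  obtain ⟨f, hf, hrange⟩ := Submodule.exists_le_ker_of_notMem hy
  obtain ⟨x, rfl⟩ := (LinearMap.injective_iff_surjective_of_finrank_eq_finrank
    (by rw [Subspace.dual_finrank_eq])).mp (clPairing_nondegenerate (k := k) hnegG) f
  have hx0 : resCl hHG k k x = 0 := by
    refine clPairing_left_nondeg hneg _ fun φ => ?_
    rw [show resCl hHG k k x = (⟨_, (resCl hHG k k x).2⟩ : clHoms k H k) from rfl]
    exact (clPairing_res_cores hneg hHG x φ (resCl hHG k k x).2 (coresCl hHG k k φ).2).trans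
      (LinearMap.mem_ker.mp (hrange ⟨φ, rfl⟩))
  have hx : resHom hHG (x : Additive G →+ k) = 0 := congrArg Subtype.val hx0
  refine hf ?_
  rw [map_sub, map_nsmul, sub_eq_zero]
  have hcj : ∀ χ : clHoms k G k,
      ((χ : Additive G →+ k).comp (MonoidHom.toAdditive C.conj)) ∈ clHoms k C.K₁ k := fun χ γ hγ =>
    χ.2 (C.conj γ) (by show |tr (C.e γ : SL(2, ℤ))| ≤ 2; rwa [C.tr_e])
  have h1 : clPairing hnegG x (C.opCl k k ψ) =
      clPairing C.neg₁ ⟨resHom C.le₁ x.1, isClHom_resHom C.le₁ x.2⟩ ⟨_, hcj ψ⟩ :=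
    (clPairing_res_cores C.neg₁ C.le₁ x ⟨_, hcj ψ⟩ (isClHom_resHom C.le₁ x.2)
      (C.opCl k k ψ).2).symm
  have h2 : (⟨resHom C.le₁ x.1, isClHom_resHom C.le₁ x.2⟩ : clHoms k C.K₁ k) = ⟨_, hcj x⟩ :=
    Subtype.ext (Hecke.addChar_ext fun γ =>
      (apply_eq_of_res_eq_zero hHG hker hx (hC.d_conj γ)).symm)
  have h3 : clPairing C.neg₁ ⟨_, hcj x⟩ ⟨_, hcj ψ⟩ = clPairing C.neg₂
      (⟨resHom C.le₂ x.1, isClHom_resHom C.le₂ x.2⟩ : clHoms k C.K₂ k)
      ⟨resHom C.le₂ ψ.1, isClHom_resHom C.le₂ ψ.2⟩ :=
    clPairing_comp_mulEquiv C.neg₁ C.neg₂ C.e C.tr_e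
      (fun γ htr => isPos_iff_of_intertwine C.det_pos (C.intertwine γ) htr)
      _ _ _ _ (fun _ => rfl) (fun _ => rfl)
  have hc : coresHom C.le₂ (resHom C.le₂ ψ.1) ∈ clHoms k G k :=
    isClHom_coresHom C.le₂ (isClHom_resHom C.le₂ ψ.2)
  have h4 := clPairing_res_cores C.neg₂ C.le₂ x
    (⟨resHom C.le₂ ψ.1, isClHom_resHom C.le₂ ψ.2⟩ : clHoms k C.K₂ k)
    (isClHom_resHom C.le₂ x.2) hc
  have h5 : (⟨_, hc⟩ : clHoms k G k) = C.deg • ψ := Subtype.ext (by
    show coresHom C.le₂ (resHom C.le₂ ψ.1) = C.deg • ψ.1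
    rw [coresHom_res, hbal])
  refine h1.trans (((DFunLike.congr_fun (congrArg (clPairing C.neg₁) h2) ⟨_, hcj ψ⟩).trans h3).trans
    (h4.trans ?_))
  refine Eq.trans (congrArg (clPairing (hHG hneg) x) h5) ?_
  exact map_nsmul _ _ _

end Field

end Fermat.Agent.LevelLowering
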