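import Mathlib.Data.ZMod.Units
import Mathlib.GroupTheory.PGroup
import Fermat.Agent.Ihara.DegenMaps
import Fermat.Agent.LevelLowering.FreeCompose
import Fermat.Agent.LevelLowering.FreeFacts

/-!
# The group `Γ_Ψ`

The kernel `Γ_Ψ` of `Γ₀(N) → Δ, γ ↦ Ψ(d mod N)`, the correspondences `diag(1,ℓ)` on `Γ₀(N)`,
their compatibility with the character, their degrees, and multiplicativity of the restricted
operators.
-/

noncomputable section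

namespace Fermat.Agent.LevelLowering

open scoped MatrixGroups
open CongruenceSubgroup Fermat.Agent.Grp Fermat.Agent.Ihara Fermat.Agent.Hecke

variable {N : ℕ} {Δ : Type*} [CommGroup Δ] (Ψ : (ZMod N)ˣ →* Δ)

/-- `γ ↦ Ψ (d mod N)`. -/
def dChar : Gamma0 N →* Δ := Ψ.comp (Gamma0Map N).toHomUnits

theorem dChar_apply {γ : Gamma0 N} (u : (ZMod N)ˣ) (h : ((γ.1.1 1 1 : ℤ) : ZMod N) = u) :
    dChar Ψ γ = Ψ u := congrArg Ψ (Units.ext h)

theorem dChar_eq_one {γ : Gamma0 N} (h : ((γ.1.1 1 1 : ℤ) : ZMod N) = 1) : dChar Ψ γ = 1 := by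
  rw [dChar_apply Ψ 1 h, map_one]

theorem dChar_congr {γ γ' : Gamma0 N}
    (h : ((γ.1.1 1 1 : ℤ) : ZMod N) = ((γ'.1.1 1 1 : ℤ) : ZMod N)) : dChar Ψ γ = dChar Ψ γ' :=
  congrArg Ψ (Units.ext h)

/-- Every unit is the lower right entry of an element with upper right entry divisible by `ℓ`. -/
theorem exists_upper_entry [NeZero N] {ℓ : ℕ} [NeZero ℓ] (u : (ZMod N)ˣ) :
    ∃ γ : Gamma0 N, γ ∈ upperSub N ℓ ∧ ((γ.1.1 1 1 : ℤ) : ZMod N) = u := by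
  obtain ⟨v, hv⟩ := ZMod.unitsMap_surjective (dvd_mul_right N ℓ) u
  have hv' : IsCoprime (((v : ZMod (N * ℓ)).val : ℕ) : ℤ) ((N * ℓ : ℕ) : ℤ) :=
    Nat.isCoprime_iff_coprime.mpr (ZMod.val_coe_unit_coprime v)
  obtain ⟨s, t, hst⟩ := hv'
  refine ⟨mkGamma0 N s (-((ℓ : ℤ) * t)) N (((v : ZMod (N * ℓ)).val : ℕ) : ℤ)
    (by push_cast at hst; linear_combination hst) (dvd_refl _), mem_upperSub.mpr ?_, ?_⟩
  · exact (dvd_mul_right _ _).neg_right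
  · show ((((v : ZMod (N * ℓ)).val : ℕ) : ℤ) : ZMod N) = u
    rw [← hv, ZMod.unitsMap_val, Int.cast_natCast, ZMod.cast_eq_val]

theorem dChar_surjective [NeZero N] (hΨ : Function.Surjective Ψ) :
    Function.Surjective (dChar Ψ) := by
  intro δ
  obtain ⟨u, rfl⟩ := hΨ δ
  obtain ⟨γ, -, hγ⟩ := exists_upper_entry (ℓ := 1) u
  exact ⟨γ, dChar_apply Ψ u hγ⟩

/-- The kernel of `dChar Ψ` as a subgroup of `SL(2,ℤ)`. -/
def GammaPsi : Subgroup SL(2, ℤ) := (dChar Ψ).ker.map (Gamma0 N).subtype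

theorem GammaPsi_le : GammaPsi Ψ ≤ Gamma0 N := Subgroup.map_subtype_le _

theorem mem_GammaPsi (g : Gamma0 N) : (g : SL(2, ℤ)) ∈ GammaPsi Ψ ↔ dChar Ψ g = 1 :=
  Subgroup.mem_map_iff_mem (Gamma0 N).subtype_injective

instance instFiniteIndex_GammaPsi [NeZero N] [Finite Δ] : (GammaPsi Ψ).FiniteIndex := by
  constructor
  rw [GammaPsi, Subgroup.index_map_subtype, Subgroup.index_ker]
  exact Nat.mul_ne_zero Nat.card_pos.ne' Subgroup.FiniteIndex.index_ne_zero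

section Upper

variable (N) [NeZero N] (ℓ : ℕ) [NeZero ℓ]

/-- The double coset of `diag(1,ℓ)`. -/
def upperCorr : Corr (Gamma0 N) where
  K₁ := upperGrp N ℓ
  K₂ := Gamma0 (N * ℓ)
  le₁ := upperGrp_le N ℓ
  le₂ := Gamma0_le_mul N ℓ
  neg₁ := mem_upperGrp.mpr ⟨neg_one_mem_Gamma0 N, by simp⟩
  neg₂ := neg_one_mem_Gamma0 _
  fin₁ := inferInstance
  fin₂ := inferInstance
  e :=
    { toFun := alphaUp N ℓ
      invFun := fun γ => ⟨(betaHom N ℓ γ).1, betaHom_mem_upperGrp γ⟩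
      left_inv := fun u => by
        refine Subtype.ext (imat_inj (X := !![(ℓ : ℤ), 0; 0, 1]) (by simpa using NeZero.ne ℓ) ?_)
        show imat (betaHom N ℓ (alphaUp N ℓ u)).1 * _ = _
        rw [← betaHom_spec]
        show _ * (alphaUp N ℓ u).1.1 = u.1.1 * _
        obtain ⟨-, c, hc⟩ := mem_upperGrp.mp u.2
        rw [alphaUp_val, hc, Int.mul_ediv_cancel_left _
            (by exact_mod_cast NeZero.ne ℓ : (ℓ : ℤ) ≠ 0),
          Matrix.eta_fin_two u.1.1, hc]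
        simp [mul_comm]
      right_inv := fun γ => by
        obtain ⟨c, hc⟩ := Hecke.Gamma0_dvd γ
        have hℓ : (ℓ : ℤ) ≠ 0 := by exact_mod_cast NeZero.ne ℓ
        have e : γ.1 1 0 = (ℓ : ℤ) * ((N : ℤ) * c) := by
          rw [show γ.1 1 0 = _ from hc]; push_cast; ring
        refine Subtype.ext (Subtype.ext ?_)
        show (alphaUp N ℓ ⟨(betaHom N ℓ γ).1, betaHom_mem_upperGrp γ⟩).1.1 = γ.1.1
        rw [alphaUp_val]
        show !![(betaHom N ℓ γ).1.1 0 0, (betaHom N ℓ γ).1.1 0 1 / ℓ;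
          (ℓ : ℤ) * (betaHom N ℓ γ).1.1 1 0, (betaHom N ℓ γ).1.1 1 1] = _
        rw [betaHom_val]
        ext i j
        fin_cases i <;> fin_cases j <;> simp [e, Int.mul_ediv_cancel_left _ hℓ]
      map_mul' := map_mul _ }
  mat := !![1, 0; 0, (ℓ : ℤ)]
  det_pos := by simpa using (NeZero.pos ℓ)
  intertwine γ := (alphaUp_spec γ).symm

/-- The operator is `perTransfer`. -/
theorem upperCorr_op {A : Type*} [AddCommGroup A] (φ : Additive (Gamma0 N) →+ A) :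
    (upperCorr N ℓ).op φ = perTransfer N ℓ A φ := by
  rw [← corB_degA]
  rfl

theorem upperCorr_conj_val (u : upperGrp N ℓ) :
    ((upperCorr N ℓ).conj u).1.1 = !![u.1 0 0, u.1 0 1 / ℓ; (ℓ : ℤ) * u.1 1 0, u.1 1 1] := rfl

variable {N ℓ}

theorem upperCorr_compat (hΨ : Function.Surjective Ψ) : (upperCorr N ℓ).Compat (dChar Ψ) where
  d_conj k := dChar_congr Ψ rfl
  d_surj δ := by
    obtain ⟨u, rfl⟩ := hΨ δ
    obtain ⟨γ, hγ, hu⟩ := exists_upper_entry (ℓ := ℓ) u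
    exact ⟨⟨γ.1, γ, hγ, rfl⟩, dChar_apply Ψ u hu⟩

theorem upperCorr_deg (hℓ : ℓ.Prime) (hℓN : ¬ ℓ ∣ N) : (upperCorr N ℓ).deg = ℓ + 1 := by
  rw [Corr.deg]
  show ((upperGrp N ℓ).subgroupOf (Gamma0 N)).index = _
  rw [upperGrp_subgroupOf, index_upperSub hℓ hℓN]

theorem upperCorr_balanced (hℓ : ℓ.Prime) (hℓN : ¬ ℓ ∣ N) : (upperCorr N ℓ).Balanced := by
  rw [Corr.Balanced, upperCorr_deg hℓ hℓN]
  exact index_lowerSub hℓ hℓN

theorem mem_upper_mul {m : ℕ} [NeZero m] (g : Gamma0 N) :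
    (g : SL(2, ℤ)) ∈ (upperCorr N (ℓ * m)).K₁ ↔
      ∃ h : (g : SL(2, ℤ)) ∈ (upperCorr N ℓ).K₁,
        ((upperCorr N ℓ).e ⟨g, h⟩ : SL(2, ℤ)) ∈ (upperCorr N m).K₁ := by
  have hℓ : (ℓ : ℤ) ≠ 0 := by exact_mod_cast NeZero.ne ℓ
  constructor
  · intro h
    obtain ⟨-, z, hz⟩ := mem_upperGrp.mp h
    push_cast at hz
    have h1 : (g : SL(2, ℤ)) ∈ upperGrp N ℓ :=
      mem_upperGrp.mpr ⟨g.2, ⟨(m : ℤ) * z, by rw [hz]; ring⟩⟩
    refine ⟨h1, mem_upperGrp.mpr ⟨((upperCorr N ℓ).conj ⟨g.1, h1⟩).2, ?_⟩⟩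
    show (m : ℤ) ∣ g.1.1 0 1 / ℓ
    rw [hz, show (ℓ : ℤ) * m * z = ℓ * (m * z) by ring, Int.mul_ediv_cancel_left _ hℓ]
    exact dvd_mul_right _ _
  · rintro ⟨h1, h2⟩
    obtain ⟨-, y, hy⟩ := mem_upperGrp.mp h1
    obtain ⟨-, z, hz⟩ := mem_upperGrp.mp h2
    have hz' : g.1.1 0 1 / (ℓ : ℤ) = (m : ℤ) * z := hz
    rw [hy, Int.mul_ediv_cancel_left _ hℓ] at hz'
    exact mem_upperGrp.mpr ⟨g.2, ⟨z, by rw [hy, hz']; push_cast; ring⟩⟩

theorem conj_upper_mul {m : ℕ} [NeZero m] (k : (upperCorr N (ℓ * m)).K₁)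
    (h : (k : SL(2, ℤ)) ∈ (upperCorr N ℓ).K₁)
    (h' : ((upperCorr N ℓ).e ⟨k, h⟩ : SL(2, ℤ)) ∈ (upperCorr N m).K₁) :
    (upperCorr N (ℓ * m)).conj k = (upperCorr N m).conj ⟨_, h'⟩ := by
  refine Subtype.ext (Subtype.ext ?_)
  show !![k.1.1 0 0, k.1.1 0 1 / ((ℓ * m : ℕ) : ℤ); ((ℓ * m : ℕ) : ℤ) * k.1.1 1 0, k.1.1 1 1] =
    !![k.1.1 0 0, k.1.1 0 1 / (ℓ : ℤ) / (m : ℤ); (m : ℤ) * ((ℓ : ℤ) * k.1.1 1 0), k.1.1 1 1]
  ext i j
  fin_cases i <;> fin_cases j <;>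
    simp [Int.ediv_ediv_of_nonneg (Int.natCast_nonneg ℓ), mul_assoc, mul_left_comm]

/-- Cosets of `diag(1,m)` are met by the image of `diag(1,ℓ)` inside the kernel. -/
theorem exists_kernel_middle {m : ℕ} [NeZero m] (hm : m.Prime) (hmℓ : ¬ m ∣ ℓ) (g : Gamma0 N) :
    ∃ s : (upperCorr N ℓ).K₁, dChar Ψ (Subgroup.inclusion (upperCorr N ℓ).le₁ s) = 1 ∧
      ((((upperCorr N ℓ).conj s)⁻¹ * g : Gamma0 N) : SL(2, ℤ)) ∈ (upperCorr N m).K₁ := by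
  have main : ∀ r : Gamma0 (N * ℓ), ((r.1.1 1 1 : ℤ) : ZMod N) = 1 →
      (m : ℤ) ∣ (r⁻¹).1.1 0 0 * g.1.1 0 1 + (r⁻¹).1.1 0 1 * g.1.1 1 1 →
      ∃ s : (upperCorr N ℓ).K₁, dChar Ψ (Subgroup.inclusion (upperCorr N ℓ).le₁ s) = 1 ∧
        ((((upperCorr N ℓ).conj s)⁻¹ * g : Gamma0 N) : SL(2, ℤ)) ∈ (upperCorr N m).K₁ := by
    intro r hr hdiv
    refine ⟨(upperCorr N ℓ).e.symm r, dChar_eq_one Ψ (by
      show (((betaHom N ℓ r).1.1 1 1 : ℤ) : ZMod N) = 1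
      rw [betaHom_val]; exact hr), ?_⟩
    have e : (((upperCorr N ℓ).conj ((upperCorr N ℓ).e.symm r) : Gamma0 N) : SL(2, ℤ)) = r.1 :=
      congrArg Subtype.val ((upperCorr N ℓ).e.apply_symm_apply r)
    refine mem_upperGrp.mpr ⟨SetLike.coe_mem _, ?_⟩
    rw [Subgroup.coe_mul, Subgroup.coe_inv, e]
    show (m : ℤ) ∣ ((r.1⁻¹).1 * g.1.1) 0 1
    rw [Matrix.mul_apply, Fin.sum_univ_two]
    exact hdiv
  by_cases hg : (m : ℤ) ∣ g.1.1 1 1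
  · have hmN : ¬ m ∣ N * ℓ := fun h => (hm.dvd_mul.mp h).elim
      (fun h' => not_dvd_of_dvd hm h' g hg) hmℓ
    refine main (upperRepInf hm hmN) ?_ ?_
    · show (((m : ℤ) * (bezout hm hmN).1 : ℤ) : ZMod N) = 1
      have := congrArg (Int.cast : ℤ → ZMod N) (bezout_spec hm hmN)
      push_cast at this ⊢
      simpa using this
    · rw [upperRepInf_inv_val]
      exact dvd_add ((dvd_mul_right _ _).mul_right _) (hg.mul_left _)
  · obtain ⟨j, hj⟩ := exists_upperRep_eq hm hg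
    rw [mem_upperSub_iff_eq, upperRep_inv_val] at hj
    refine main (upperRep (N * ℓ) j) (by rw [upperRep_val]; simp) ?_
    rw [upperRep_inv_val]
    exact hj

variable [Finite Δ] (hΨ : Function.Surjective Ψ) (hneg : (-1 : SL(2, ℤ)) ∈ GammaPsi Ψ)

include hΨ in
/-- **Composition on the kernel.** -/
theorem kernel_op_op {m : ℕ} [NeZero m] (hm : m.Prime) (hmℓ : ¬ m ∣ ℓ) {A : Type*}
    [AddCommGroup A] (χ : Additive (GammaPsi Ψ) →+ A) :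
    ((upperCorr N ℓ).restrict (mem_GammaPsi Ψ) (upperCorr_compat Ψ hΨ) hneg).op
      (((upperCorr N m).restrict (mem_GammaPsi Ψ) (upperCorr_compat Ψ hΨ) hneg).op χ) =
    ((upperCorr N (ℓ * m)).restrict (mem_GammaPsi Ψ) (upperCorr_compat Ψ hΨ) hneg).op χ := by
  refine Corr.op_op (fun g => ?_) (fun k h h' => ?_) (fun g => ?_) χ
  · constructor
    · rintro ⟨h1, h2⟩
      obtain ⟨h, h'⟩ := (mem_upper_mul (Subgroup.inclusion (GammaPsi_le Ψ) g)).mp h1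
      refine ⟨⟨h, h2⟩, h', ?_⟩
      exact (((upperCorr N ℓ).restrict (mem_GammaPsi Ψ) (upperCorr_compat Ψ hΨ) hneg).e
        ⟨g.1, h, h2⟩).2.2
    · rintro ⟨h, h'⟩
      exact ⟨(mem_upper_mul (Subgroup.inclusion (GammaPsi_le Ψ) g)).mpr ⟨h.1, h'.1⟩, g.2⟩
  · have := conj_upper_mul (N := N) (ℓ := ℓ) (m := m) ⟨k.1, k.2.1⟩ h.1 h'.1
    exact Subtype.ext (congrArg (fun x : Gamma0 N => (x : SL(2, ℤ))) this)
  · obtain ⟨s, hs, hmem⟩ :=
      exists_kernel_middle Ψ hm hmℓ (Subgroup.inclusion (GammaPsi_le Ψ) g)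
    refine ⟨⟨s.1, s.2, (mem_GammaPsi Ψ (Subgroup.inclusion (upperCorr N ℓ).le₁ s)).mpr hs⟩,
      hmem, SetLike.coe_mem _⟩

end Upper

end Fermat.Agent.LevelLowering
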