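import Fermat.Agent.LevelLowering.Eval

/-!
# The chart of the Steinberg lifting ring at scalar primes

For each of `m` scalar primes six coordinates: `M = [[A + h, B], [C, -(A + h)]]` (trace-free part of
Frobenius, `h = (r-1)/2`) and `N = [[α, β], [γ, -α]]` (monodromy).  The chart is the locus
`(M - h) e = 0`, `N e = 0` near the line `e = (1, t)`.
-/

namespace Fermat.Agent.LevelLowering

open IsLocalRing

variable {𝒪 : Type} [CommRing 𝒪] {T : Type} [CommRing T] [Algebra 𝒪 T] {m g : ℕ}

/-- Index of coordinate `c` at the `i`-th prime. -/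
def zIdx (g : ℕ) {m a : ℕ} (i : Fin m) (c : Fin a) : Fin (m * a + g) :=
  finSumFinEquiv (Sum.inl (finProdFinEquiv (i, c)))

/-- Index of a free coordinate. -/
def xIdx (m a : ℕ) {g : ℕ} (j : Fin g) : Fin (m * a + g) :=
  finSumFinEquiv (Sum.inr j)

/-- Tuples from per-prime and free coordinates. -/
def pack {α : Type} {m a g : ℕ} (p : Fin m → Fin a → α) (x : Fin g → α) : Fin (m * a + g) → α :=
  fun k => Sum.elim (fun q => p (finProdFinEquiv.symm q).1 (finProdFinEquiv.symm q).2) x
    (finSumFinEquiv.symm k)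

@[simp]
lemma pack_zIdx {α : Type} {m a g : ℕ} (p : Fin m → Fin a → α) (x : Fin g → α) (i : Fin m)
    (c : Fin a) : pack p x (zIdx g i c) = p i c := by
  simp only [pack, zIdx, Equiv.symm_apply_apply, Sum.elim_inl]

@[simp]
lemma pack_xIdx {α : Type} {m a g : ℕ} (p : Fin m → Fin a → α) (x : Fin g → α) (j : Fin g) :
    pack p x (xIdx m a j) = x j := by simp [pack, xIdx]

lemma idx_cases {m a g : ℕ} (k : Fin (m * a + g)) :
    (∃ i c, k = zIdx g (m := m) (a := a) i c) ∨ ∃ j, k = xIdx m a j := by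
  rcases h : finSumFinEquiv.symm k with q | j
  · exact Or.inl ⟨(finProdFinEquiv.symm q).1, (finProdFinEquiv.symm q).2, by
      rw [zIdx, Prod.mk.eta, Equiv.apply_symm_apply, ← h, Equiv.apply_symm_apply]⟩
  · exact Or.inr ⟨j, by rw [xIdx, ← h, Equiv.apply_symm_apply]⟩

lemma forall_pack_mem {m a g : ℕ} {I : Ideal T} {p : Fin m → Fin a → T} {x : Fin g → T}
    (hp : ∀ i c, p i c ∈ I) (hx : ∀ j, x j ∈ I) (k : Fin (m * a + g)) : pack p x k ∈ I := by
  rcases idx_cases k with ⟨i, c, rfl⟩ | ⟨j, rfl⟩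
  · simpa using hp i c
  · simpa using hx j

/-- The chart: coordinates from `(t, b, n)`. -/
def chart (h : T) (t b n : T) : Fin 6 → T :=
  ![-(b * t), b, 2 * h * t - b * t ^ 2, -(n * t), n, -(n * t ^ 2)]

/-- A point lies on the chart with parameter `t`. -/
def OnChart (h t : T) (p : Fin 6 → T) : Prop := p = chart h t (p 1) (p 4)

lemma chart_mem {I : Ideal T} {h t b n : T} (hh : h ∈ I) (hb : b ∈ I) (hn : n ∈ I) (c : Fin 6) :
    chart h t b n c ∈ I := by
  fin_cases c <;> simp only [chart, Fin.zero_eta, Fin.mk_one, Fin.reduceFinMk, Matrix.cons_val]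
  · exact neg_mem (Ideal.mul_mem_right _ _ hb)
  · exact hb
  · exact sub_mem (Ideal.mul_mem_right _ _ (Ideal.mul_mem_left _ _ hh)) (Ideal.mul_mem_right _ _ hb)
  · exact neg_mem (Ideal.mul_mem_right _ _ hn)
  · exact hn
  · exact neg_mem (Ideal.mul_mem_right _ _ hn)

/-- Conjugation by `[[1, c], [0, 1]]` in coordinates. -/
def translate (h c : T) (p : Fin 6 → T) : Fin 6 → T :=
  ![p 0 + c * p 2, p 1 - 2 * c * (p 0 + h) - c ^ 2 * p 2, p 2,
    p 3 + c * p 5, p 4 - 2 * c * p 3 - c ^ 2 * p 5, p 5]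

lemma translate_translate (h c : T) (p : Fin 6 → T) :
    translate h c (translate h (-c) p) = p := by
  funext k
  fin_cases k <;>
    simp only [translate, Fin.zero_eta, Fin.mk_one, Fin.reduceFinMk, Matrix.cons_val] <;> ring

lemma translate_mem {I : Ideal T} {h c : T} {p : Fin 6 → T} (hh : h ∈ I) (hp : ∀ k, p k ∈ I)
    (k : Fin 6) : translate h c p k ∈ I := by
  fin_cases k <;> simp only [translate, Fin.zero_eta, Fin.mk_one, Fin.reduceFinMk, Matrix.cons_val]
  · exact add_mem (hp 0) (Ideal.mul_mem_left _ _ (hp 2))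
  · exact sub_mem (sub_mem (hp 1) (Ideal.mul_mem_left _ _ (add_mem (hp 0) hh)))
      (Ideal.mul_mem_left _ _ (hp 2))
  · exact hp 2
  · exact add_mem (hp 3) (Ideal.mul_mem_left _ _ (hp 5))
  · exact sub_mem (sub_mem (hp 4) (Ideal.mul_mem_left _ _ (hp 3))) (Ideal.mul_mem_left _ _ (hp 5))
  · exact hp 5

lemma map_translate {T' : Type} [CommRing T'] (ψ : T →+* T') (h c : T) (p : Fin 6 → T) (k : Fin 6) :
    ψ (translate h c p k) = translate (ψ h) (ψ c) (fun j => ψ (p j)) k := by
  fin_cases k <;> simp [translate, map_ofNat]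

/-- Translating a chart point gives a chart point. -/
lemma onChart_translate {h c t u b n : T} (hu : u * (1 + c * t) = 1) :
    OnChart h (t * u) (translate h c (chart h t b n)) := by
  funext k
  fin_cases k <;>
    simp only [translate, chart, Fin.zero_eta, Fin.mk_one, Fin.reduceFinMk, Matrix.cons_val]
  · linear_combination
      (b * t - 2 * c * h * t + b * c * t ^ 2) * hu
  · linear_combination
      (b * t ^ 2 * (u * (1 + c * t) + 1) - 2 * h * t * (1 + c * t * u)) * hu
  · linear_combination (n * t + n * c * t ^ 2) * hu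
  · linear_combination (n * t ^ 2 * (u * (1 + c * t) + 1)) * hu

end Fermat.Agent.LevelLowering
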