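import Mathlib.RingTheory.Filtration
import Fermat.Agent.LevelLowering.StChart

/-!
# Points on lines and their translates in the chart

A point with a common eigenline at a scalar prime becomes, after a translation of the coordinates,
a point of the chart of the Steinberg component; evaluation respects the weighted filtration.
-/

namespace Fermat.Agent.LevelLowering

open IsLocalRing

section Weighted

variable (𝒪 : Type) [CommRing 𝒪] [IsLocalRing 𝒪] {N : ℕ} (w : Fin N → ℕ)

lemma wFil_pow (k : ℕ) : wFil 𝒪 w 1 ^ k ≤ wFil 𝒪 w k := by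
  induction k with
  | zero => exact fun f _ d => by simp
  | succ k ih =>
    rw [pow_succ]
    exact (Ideal.mul_mono ih le_rfl).trans (wFil_mul 𝒪 w k 1)

lemma X_mem_wFil {i : Fin N} (hi : w i = 1) :
    (MvPowerSeries.X i : MvPowerSeries (Fin N) 𝒪) ∈ wFil 𝒪 w 1 := fun d => by
  classical
  rw [MvPowerSeries.coeff_X]
  split_ifs with h
  · subst h
    simp [Finsupp.weight_single, hi]
  · exact zero_mem _

lemma algebraMap_mem_wFil {c : 𝒪} (hc : c ∈ maximalIdeal 𝒪) :
    algebraMap 𝒪 (MvPowerSeries (Fin N) 𝒪) c ∈ wFil 𝒪 w 1 := fun d => by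
  classical
  rw [← MvPowerSeries.c_eq_algebraMap, MvPowerSeries.coeff_C]
  split_ifs with h
  · subst h
    simpa using hc
  · exact zero_mem _

variable {𝒪} {T : Type} [CommRing T] [Algebra 𝒪 T]

/-- A polynomial in the filtration takes small values at small arguments. -/
lemma aeval_mem_of_coe_mem_wFil {I : Ideal T} (hI : ∀ c ∈ maximalIdeal 𝒪, algebraMap 𝒪 T c ∈ I)
    {v : Fin N → T} (hv : ∀ i, v i ∈ I ^ w i) (G : MvPolynomial (Fin N) 𝒪) {k : ℕ}
    (hG : (G : MvPowerSeries (Fin N) 𝒪) ∈ wFil 𝒪 w k) : MvPolynomial.aeval v G ∈ I ^ k := by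
  rw [MvPolynomial.aeval_def, MvPolynomial.eval₂_eq']
  refine sum_mem fun d _ => ?_
  have h1 : algebraMap 𝒪 T (MvPolynomial.coeff d G) ∈ I ^ (k - Finsupp.weight w d) := by
    have hc := hG d
    rw [MvPolynomial.coeff_coe] at hc
    have := Ideal.mem_map_of_mem (algebraMap 𝒪 T) hc
    rw [Ideal.map_pow] at this
    exact Ideal.pow_right_mono (Ideal.map_le_iff_le_comap.mpr hI) _ this
  have h2 : ∏ i, v i ^ d i ∈ I ^ Finsupp.weight w d := by
    rw [Finsupp.weight_eq_sum, ← Finset.prod_pow_eq_pow_sum]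
    refine Ideal.prod_mem_prod fun i _ => ?_
    rw [smul_eq_mul, mul_comm, pow_mul]
    exact Ideal.pow_mem_pow (hv i) _
  have := Ideal.mul_mem_mul h1 h2
  rw [← pow_add] at this
  exact Ideal.pow_le_pow_right (by omega) this

end Weighted

variable {m g : ℕ}

lemma map_chart {R R' : Type} [CommRing R] [CommRing R'] (ψ : R →+* R') (h t b n : R) (k : Fin 6) :
    ψ (chart h t b n k) = chart (ψ h) (ψ t) (ψ b) (ψ n) k := by
  fin_cases k <;> simp [chart, map_ofNat]

variable {𝒪 : Type} [CommRing 𝒪] [IsDomain 𝒪] [IsDiscreteValuationRing 𝒪]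
  [IsAdicComplete (maximalIdeal 𝒪) 𝒪] (h : Fin m → 𝒪) (hh : ∀ i, h i ∈ maximalIdeal 𝒪)

/-- The ring of the lifting coordinates. -/
abbrev CoordRing (𝒪 : Type) [CommRing 𝒪] (m g : ℕ) : Type := MvPowerSeries (Fin (m * 6 + g)) 𝒪

/-- The ring of the chart. -/
abbrev ChartRing (𝒪 : Type) [CommRing 𝒪] (m g : ℕ) : Type := MvPowerSeries (Fin (m * 3 + g)) 𝒪

omit [IsAdicComplete (maximalIdeal 𝒪) 𝒪] in
lemma algebraMap_mem_maximalIdeal_series {N : ℕ} {c : 𝒪}
    (hc : c ∈ maximalIdeal 𝒪) :
    algebraMap 𝒪 (MvPowerSeries (Fin N) 𝒪) c ∈ maximalIdeal _ := by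
  rw [← MvPowerSeries.c_eq_algebraMap, mem_maximalIdeal, mem_nonunits_iff,
    MvPowerSeries.isUnit_iff_constantCoeff, MvPowerSeries.constantCoeff_C]
  exact hc

omit [IsAdicComplete (maximalIdeal 𝒪) 𝒪] in
lemma X_mem_maximalIdeal_series {N : ℕ} (i : Fin N) :
    (MvPowerSeries.X i : MvPowerSeries (Fin N) 𝒪) ∈ maximalIdeal _ := by
  simp [MvPowerSeries.isUnit_iff_constantCoeff]

variable {T : Type} [CommRing T] [Algebra 𝒪 T] [IsLocalRing T] [IsNoetherianRing T]

/-- The point `(A', B, C, α, β, γ)` has a common line `e`. -/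
def OnLine {R : Type} [CommRing R] (h : R) (e : Fin 2 → R) (p : Fin 6 → R) : Prop :=
  p 0 * e 0 + p 1 * e 1 = 0 ∧ p 2 * e 0 - (p 0 + 2 * h) * e 1 = 0 ∧
    p 3 * e 0 + p 4 * e 1 = 0 ∧ p 5 * e 0 - p 3 * e 1 = 0

lemma OnLine.translate {R : Type} [CommRing R] {h c : R} {e : Fin 2 → R} {p : Fin 6 → R}
    (hp : OnLine h e p) : OnLine h ![e 0 + c * e 1, e 1] (translate h c p) := by
  obtain ⟨h1, h2, h3, h4⟩ := hp
  simp only [OnLine, LevelLowering.translate, Matrix.cons_val, Matrix.cons_val_zero,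
    Matrix.cons_val_one]
  refine ⟨?_, ?_, ?_, ?_⟩
  · linear_combination h1 + c * h2
  · linear_combination h2
  · linear_combination h3 + c * h4
  · linear_combination h4

lemma OnLine.onChart {R : Type} [CommRing R] {h : R} {e : Fin 2 → R} {p : Fin 6 → R}
    (hp : OnLine h e p) (u : R) (hu : u * e 0 = 1) : OnChart h (u * e 1) p := by
  obtain ⟨h1, h2, h3, h4⟩ := hp
  funext k
  fin_cases k <;> simp only [chart, Fin.zero_eta, Fin.mk_one, Fin.reduceFinMk, Matrix.cons_val]
  · linear_combination u * h1 - p 0 * hu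
  · linear_combination u * h2 + u ^ 2 * e 1 * h1 - (p 2 + u * e 1 * p 0) * hu
  · linear_combination u * h3 - p 3 * hu
  · linear_combination u * h4 + u ^ 2 * e 1 * h3 - (p 5 + u * e 1 * p 3) * hu

variable (g) in
/-- Conjugation by translations, as an endomorphism of the coordinate ring. -/
noncomputable def translateMap (c : Fin m → 𝒪) : CoordRing 𝒪 m g →ₐ[𝒪] CoordRing 𝒪 m g :=
  evalSeries (pack (fun i => translate (algebraMap 𝒪 _ (h i)) (algebraMap 𝒪 _ (c i))
      fun a => MvPowerSeries.X (zIdx g i a)) fun j => MvPowerSeries.X (xIdx m 6 j))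
    (forall_pack_mem (fun i => translate_mem (algebraMap_mem_maximalIdeal_series (hh i))
      fun _ => X_mem_maximalIdeal_series _) fun _ => X_mem_maximalIdeal_series _)

lemma translateMap_z (c : Fin m → 𝒪) (i : Fin m) (a : Fin 6) :
    translateMap g h hh c (MvPowerSeries.X (zIdx g i a)) =
      translate (algebraMap 𝒪 _ (h i)) (algebraMap 𝒪 _ (c i))
        (fun a => MvPowerSeries.X (zIdx g i a)) a := by
  rw [translateMap, evalSeries_X, pack_zIdx]

lemma translateMap_x (c : Fin m → 𝒪) (j : Fin g) :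
    translateMap g h hh c (MvPowerSeries.X (xIdx m 6 j)) = MvPowerSeries.X (xIdx m 6 j) := by
  rw [translateMap, evalSeries_X, pack_xIdx]

omit [IsLocalRing T] [IsNoetherianRing T] in
lemma comp_translateMap_z (ψ : CoordRing 𝒪 m g →ₐ[𝒪] T) (c : Fin m → 𝒪) (i : Fin m) (a : Fin 6) :
    ψ (translateMap g h hh c (MvPowerSeries.X (zIdx g i a))) =
      translate (algebraMap 𝒪 T (h i)) (algebraMap 𝒪 T (c i))
        (fun a => ψ (MvPowerSeries.X (zIdx g i a))) a := by
  rw [translateMap_z, show ψ (translate _ _ _ a) = ψ.toRingHom (translate _ _ _ a) from rfl,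
    map_translate]
  simp

lemma translateMap_comp (c : Fin m → 𝒪) :
    (translateMap g h hh c).comp (translateMap g h hh (-c)) = AlgHom.id 𝒪 _ := by
  refine (algHom_ext_series (fun k => ?_) fun k => ?_).symm
  · exact X_mem_maximalIdeal_series k
  · rcases idx_cases k with ⟨i, a, rfl⟩ | ⟨j, rfl⟩
    · rw [AlgHom.id_apply, AlgHom.comp_apply, comp_translateMap_z]
      simp only [translateMap_z, Pi.neg_apply, map_neg]
      have := congrFun (translate_translate (algebraMap 𝒪 (CoordRing 𝒪 m g) (h i))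
        (-algebraMap 𝒪 _ (c i)) fun a => MvPowerSeries.X (zIdx g i a)) a
      rw [neg_neg] at this
      exact this.symm
    · rw [AlgHom.id_apply, AlgHom.comp_apply, translateMap_x, translateMap_x]

end Fermat.Agent.LevelLowering
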