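import Mathlib.LinearAlgebra.Matrix.Charpoly.Coeff
import Mathlib.LinearAlgebra.Matrix.NonsingularInverse
import Mathlib.RingTheory.Filtration
import Mathlib.RingTheory.Henselian
import Fermat.Agent.Attach.TwoDim
import Fermat.Agent.TW.Tame

/-!
# Inertia at a Taylor–Wiles prime

A two-dimensional representation over a complete local ring, residually unramified at `q` with
distinct residual Frobenius eigenvalues, `q ≡ 1 (mod p)`, with determinant `1` on inertia at `q`:
in a Frobenius eigenbasis inertia acts by `diag (u ^ k, u ^ -k)` with `u ^ (p ^ v) = 1`,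
where `p ^ v` is the `p`-part of `q - 1`.
-/

noncomputable section

namespace Fermat.Agent.LevelLowering

open IsLocalRing Polynomial

local notation "Qbar" => AlgebraicClosure ℚ
local notation "GQ" => (AlgebraicClosure ℚ ≃ₐ[ℚ] AlgebraicClosure ℚ)

variable {T : Type} [CommRing T] [IsLocalRing T]

/-- Entries of a power of a matrix which is nearly diagonal and nearly `1`. -/
lemma pow_entries {u : Matrix (Fin 2) (Fin 2) T} {j : ℕ} (h0 : u 0 0 - 1 ∈ maximalIdeal T)
    (h1 : u 1 1 - 1 ∈ maximalIdeal T) (hb : u 0 1 ∈ maximalIdeal T ^ j)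
    (hc : u 1 0 ∈ maximalIdeal T ^ j) (hj : 1 ≤ j) (i : ℕ) :
    ((u ^ i) 0 0 - 1 ∈ maximalIdeal T ∧ (u ^ i) 1 1 - 1 ∈ maximalIdeal T) ∧
      (u ^ i) 0 1 - (i : T) * u 0 1 ∈ maximalIdeal T ^ (j + 1) ∧
      (u ^ i) 1 0 - (i : T) * u 1 0 ∈ maximalIdeal T ^ (j + 1) := by
  induction i with
  | zero => simp
  | succ i ih =>
    obtain ⟨⟨ha, hd⟩, hb', hc'⟩ := ih
    have hle : maximalIdeal T ^ j ≤ maximalIdeal T :=
        (Ideal.pow_le_pow_right hj).trans (pow_one _).le
    have hbj : (u ^ i) 0 1 ∈ maximalIdeal T ^ j := by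
      have := add_mem (Ideal.pow_le_pow_right j.le_succ hb') (Ideal.mul_mem_left _ (i : T) hb)
      simpa using this
    have hcj : (u ^ i) 1 0 ∈ maximalIdeal T ^ j := by
      have := add_mem (Ideal.pow_le_pow_right j.le_succ hc') (Ideal.mul_mem_left _ (i : T) hc)
      simpa using this
    have mul1 : ∀ {x y : T}, x ∈ maximalIdeal T → y ∈ maximalIdeal T ^ j →
        x * y ∈ maximalIdeal T ^ (j + 1) := fun hx hy => by
      rw [pow_succ']; exact Ideal.mul_mem_mul hx hy
    simp only [pow_succ, Matrix.mul_apply, Fin.sum_univ_two]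
    refine ⟨⟨?_, ?_⟩, ?_, ?_⟩
    · rw [show (u ^ i) 0 0 * u 0 0 + (u ^ i) 0 1 * u 1 0 - 1 = ((u ^ i) 0 0 - 1) * u 0 0 +
        ((u 0 0 - 1) + (u ^ i) 0 1 * u 1 0) by ring]
      exact add_mem (Ideal.mul_mem_right _ _ ha) (add_mem h0 (Ideal.mul_mem_left _ _ (hle hc)))
    · rw [show (u ^ i) 1 0 * u 0 1 + (u ^ i) 1 1 * u 1 1 - 1 = ((u ^ i) 1 1 - 1) * u 1 1 +
        ((u 1 1 - 1) + (u ^ i) 1 0 * u 0 1) by ring]
      exact add_mem (Ideal.mul_mem_right _ _ hd) (add_mem h1 (Ideal.mul_mem_left _ _ (hle hb)))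
    · rw [show (u ^ i) 0 0 * u 0 1 + (u ^ i) 0 1 * u 1 1 - ((i + 1 : ℕ) : T) * u 0 1 =
        ((u ^ i) 0 0 - 1) * u 0 1 + (u 1 1 - 1) * (u ^ i) 0 1 +
          ((u ^ i) 0 1 - (i : T) * u 0 1) by push_cast; ring]
      exact add_mem (add_mem (mul1 ha hb) (mul1 h1 hbj)) hb'
    · rw [show (u ^ i) 1 0 * u 0 0 + (u ^ i) 1 1 * u 1 0 - ((i + 1 : ℕ) : T) * u 1 0 =
        ((u ^ i) 1 1 - 1) * u 1 0 + (u 0 0 - 1) * (u ^ i) 1 0 +
          ((u ^ i) 1 0 - (i : T) * u 1 0) by push_cast; ring]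
      exact add_mem (add_mem (mul1 hd hc) (mul1 h0 hcj)) hc'

/-- Powers of a matrix congruent to one approach one `p`-adically. -/
lemma pow_prime_pow_sub_one_mem {p : ℕ} (hpT : (p : T) ∈ maximalIdeal T)
    {g : Matrix (Fin 2) (Fin 2) T} (hg : g.map (residue T) = 1) (k : ℕ) (i j : Fin 2) :
    (g ^ p ^ k - 1) i j ∈ maximalIdeal T ^ (k + 1) := by
  induction k generalizing i j with
  | zero =>
    simp only [pow_zero, zero_add, pow_one]
    rw [← residue_eq_zero_iff]
    show ((residue T).mapMatrix (g - 1)) i j = 0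
    rw [map_sub, map_one]
    exact congrFun (congrFun (sub_eq_zero.mpr hg) i) j
  | succ k ih =>
    rw [pow_succ p k, pow_mul]
    set G := g ^ p ^ k
    have hG : G.map (residue T) = 1 := by
      show (residue T).mapMatrix (g ^ p ^ k) = 1
      rw [map_pow, show (residue T).mapMatrix g = 1 from hg, one_pow]
    have hS : ∀ a b, (∑ i ∈ Finset.range p, G ^ i) a b ∈ maximalIdeal T := by
      intro a b
      rw [← residue_eq_zero_iff]
      show ((residue T).mapMatrix (∑ i ∈ Finset.range p, G ^ i)) a b = 0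
      rw [map_sum]
      simp only [map_pow, show (residue T).mapMatrix G = 1 from hG, one_pow, Finset.sum_const,
        Finset.card_range, nsmul_one]
      have h0 : ((p : ℕ) : ResidueField T) = 0 := by
        rw [← map_natCast (residue T), residue_eq_zero_iff]; exact hpT
      rw [← Matrix.diagonal_natCast, h0, Matrix.diagonal_zero, Matrix.zero_apply]
    rw [← geom_sum_mul, Matrix.mul_apply, pow_succ']
    exact sum_mem fun l _ => Ideal.mul_mem_mul (hS i l) (ih l j)

/-- Roots of a fixed power of `1` are separated by a power of the maximal ideal. -/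
lemma exists_separating_pow [IsNoetherianRing T] {m : ℕ} (hfin : {x : T | x ^ m = 1}.Finite) :
    ∃ n, ∀ x ∈ {x : T | x ^ m = 1}, ∀ y ∈ {x : T | x ^ m = 1},
      x - y ∈ maximalIdeal T ^ n → x = y := by
  have hs : ∀ z : T × T, ∃ n, z.1 - z.2 ∈ maximalIdeal T ^ n → z.1 = z.2 := fun z => by
    by_contra h
    push Not at h
    refine (h 0).2 (sub_eq_zero.mp ?_)
    rw [← Ideal.mem_bot, ← Ideal.iInf_pow_eq_bot_of_isLocalRing (maximalIdeal T)
      (maximalIdeal.isMaximal T).ne_top, Submodule.mem_iInf]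
    exact fun n => (h n).1
  classical
  choose N hN using hs
  refine ⟨(hfin.toFinset ×ˢ hfin.toFinset).sup N, fun x hx y hy hxy => ?_⟩
  refine hN (x, y) (Ideal.pow_le_pow_right (Finset.le_sup ?_) hxy)
  simp at hx hy ⊢
  exact ⟨hx, hy⟩

/-- A matrix `≡ 1` with `D x ≡ x ^ q D` to all orders, `D` diagonal with distinct residual
entries and `q ≡ 1`, is diagonal. -/
lemma offDiag_eq_zero [IsNoetherianRing T] {q : ℕ} (hqT : (q : T) - 1 ∈ maximalIdeal T) {a b : T}
    (hab' : IsUnit (a - b)) {x : Matrix (Fin 2) (Fin 2) T}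
    (hx : ∀ i j, x i j - (1 : Matrix (Fin 2) (Fin 2) T) i j ∈ maximalIdeal T)
    (hrel : ∀ n, (Matrix.diagonal ![a, b] * x).map (Ideal.Quotient.mk (maximalIdeal T ^ n)) =
      (x ^ q * Matrix.diagonal ![a, b]).map (Ideal.Quotient.mk (maximalIdeal T ^ n))) :
    x 0 1 = 0 ∧ x 1 0 = 0 := by
  have h0 : x 0 0 - 1 ∈ maximalIdeal T := by simpa using hx 0 0
  have h1 : x 1 1 - 1 ∈ maximalIdeal T := by simpa using hx 1 1
  have key : ∀ j, x 0 1 ∈ maximalIdeal T ^ (j + 1) ∧ x 1 0 ∈ maximalIdeal T ^ (j + 1) := by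
    intro j
    induction j with
    | zero => exact ⟨by simpa using hx 0 1, by simpa using hx 1 0⟩
    | succ j ih =>
      obtain ⟨-, hb, hc⟩ := pow_entries h0 h1 ih.1 ih.2 (Nat.le_add_left 1 j) q
      have hr := hrel (j + 1 + 1)
      have r01 := Ideal.Quotient.eq.mp (congrFun (congrFun hr 0) 1)
      have r10 := Ideal.Quotient.eq.mp (congrFun (congrFun hr 1) 0)
      simp [Matrix.diagonal_mul, Matrix.mul_diagonal] at r01 r10
      constructor
      · have hx : (a - b) * x 0 1 ∈ maximalIdeal T ^ (j + 1 + 1) := by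
          rw [show (a - b) * x 0 1 = (a * x 0 1 - (x ^ q) 0 1 * b) +
            (((x ^ q) 0 1 - (q : T) * x 0 1) * b + ((q : T) - 1) * x 0 1 * b) by ring]
          refine add_mem r01 (add_mem (Ideal.mul_mem_right _ _ hb) (Ideal.mul_mem_right _ _ ?_))
          rw [pow_succ']; exact Ideal.mul_mem_mul hqT ih.1
        obtain ⟨z, hz⟩ := hab'.exists_left_inv
        have := Ideal.mul_mem_left _ z hx
        rwa [← mul_assoc, hz, one_mul] at this
      · have hx : (a - b) * x 1 0 ∈ maximalIdeal T ^ (j + 1 + 1) := by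
          rw [show (a - b) * x 1 0 = -((b * x 1 0 - (x ^ q) 1 0 * a) +
            (((x ^ q) 1 0 - (q : T) * x 1 0) * a + ((q : T) - 1) * x 1 0 * a)) by ring]
          refine neg_mem (add_mem r10 (add_mem (Ideal.mul_mem_right _ _ hc)
            (Ideal.mul_mem_right _ _ ?_)))
          rw [pow_succ']; exact Ideal.mul_mem_mul hqT ih.2
        obtain ⟨z, hz⟩ := hab'.exists_left_inv
        have := Ideal.mul_mem_left _ z hx
        rwa [← mul_assoc, hz, one_mul] at this
  have hz : ∀ x : T, (∀ j, x ∈ maximalIdeal T ^ (j + 1)) → x = 0 := fun x hx => by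
    rw [← Ideal.mem_bot, ← Ideal.iInf_pow_eq_bot_of_isLocalRing (maximalIdeal T)
      (maximalIdeal.isMaximal T).ne_top, Submodule.mem_iInf]
    exact fun j => Ideal.pow_le_pow_right j.le_succ (hx j)
  exact ⟨hz _ fun j => (key j).1, hz _ fun j => (key j).2⟩

/-- A unit `x ≡ 1` with `x ^ q = x` is killed by the `p`-part of `q - 1`. -/
lemma pow_eq_one_of_pow_eq_self {p q v : ℕ} (hp : p.Prime) (hpT : (p : T) ∈ maximalIdeal T)
    (hq : 1 ≤ q) (hv : p ^ v ∣ q - 1) (hv' : ¬ p ^ (v + 1) ∣ q - 1) {x : T} (hu : IsUnit x)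
    (hx1 : x - 1 ∈ maximalIdeal T) (hz : x ^ q = x) : x ^ p ^ v = 1 := by
  obtain ⟨m, hm⟩ := hv
  have h1 : x ^ (q - 1) = 1 := by
    refine hu.mul_left_cancel ?_
    rw [← pow_succ', Nat.sub_add_cancel hq, hz, mul_one]
  rw [hm, pow_mul] at h1
  have hmu : IsUnit ((m : T)) := by
    refine residue_ne_zero_iff_isUnit _ |>.mp ?_
    rw [map_natCast]
    have : Fact p.Prime := ⟨hp⟩
    have : CharP (ResidueField T) p := (CharP.charP_iff_prime_eq_zero hp).mpr (by
      rw [← map_natCast (residue T), residue_eq_zero_iff]; exact hpT)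
    rw [Ne, CharP.cast_eq_zero_iff (ResidueField T) p]
    exact fun ⟨c, hc⟩ => hv' ⟨c, by rw [hm, hc, pow_succ, mul_assoc]⟩
  have hy : x ^ p ^ v - 1 ∈ maximalIdeal T := by
    have := sub_dvd_pow_sub_pow x 1 (p ^ v)
    rw [one_pow] at this
    exact Ideal.mem_of_dvd _ this hx1
  have hsum : IsUnit (∑ i ∈ Finset.range m, (x ^ p ^ v) ^ i) := by
    rw [← residue_ne_zero_iff_isUnit, map_sum]
    have : residue T (x ^ p ^ v) = 1 := by
      rwa [← sub_eq_zero, ← map_one (residue T), ← map_sub, residue_eq_zero_iff]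
    simp only [map_pow] at this ⊢
    simp only [this, one_pow, Finset.sum_const,
      Finset.card_range, nsmul_one]
    rw [← map_natCast (residue T)]
    exact (residue_ne_zero_iff_isUnit _).mpr hmu
  have h0 := geom_sum_mul (x ^ p ^ v) m
  rw [h1, sub_self] at h0
  exact sub_eq_zero.mp (hsum.mul_right_eq_zero.mp h0)

variable [IsNoetherianRing T] [IsAdicComplete (maximalIdeal T) T]

omit [IsNoetherianRing T] in
/-- Diagonalisation of a matrix with distinct residual eigenvalues. -/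
lemma exists_diagonalization (F : Matrix (Fin 2) (Fin 2) T) {α β : ResidueField T} (hab : α ≠ β)
    (hF : (F.map (residue T)).charpoly = (X - C α) * (X - C β)) :
    ∃ (P : (Matrix (Fin 2) (Fin 2) T)ˣ) (a b : T), residue T a = α ∧ residue T b = β ∧
      (P⁻¹ : (Matrix (Fin 2) (Fin 2) T)ˣ).1 * F * P.1 = Matrix.diagonal ![a, b] := by
  classical
  have : HenselianRing T (maximalIdeal T) := IsAdicComplete.henselianRing _ _
  obtain ⟨a₀, ha₀⟩ := residue_surjective α
  have hev : ∀ x, residue T ((F.charpoly).eval x) = ((X - C α) * (X - C β)).eval (residue T x) := by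
    intro x
    rw [← hF, Matrix.charpoly_map, eval_map, ← eval₂_at_apply]
  obtain ⟨a, haroot, haa⟩ := HenselianRing.is_henselian (I := maximalIdeal T) F.charpoly
    F.charpoly_monic a₀ (by rw [← residue_eq_zero_iff, hev, ha₀]; simp) (by
      refine IsUnit.map (Ideal.Quotient.mk (maximalIdeal T)) ?_
      rw [← residue_ne_zero_iff_isUnit, ← eval₂_at_apply, ← eval_map, ← derivative_map,
        ← Matrix.charpoly_map, hF, ha₀]
      simp [sub_ne_zero.mpr hab])
  have haα : residue T a = α := by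
    rw [← ha₀]; exact Ideal.Quotient.eq.mpr haa
  set b : T := F.trace - a with hbdef
  have htr : residue T F.trace = α + β := by
    have := congrArg (fun P : (ResidueField T)[X] => P.coeff 1) hF
    simp [Matrix.charpoly_fin_two, mul_sub, sub_mul, Polynomial.coeff_X_pow, Polynomial.coeff_C]
      at this
    rw [Matrix.trace_fin_two, Matrix.map_apply, Matrix.map_apply] at this
    rw [Matrix.trace_fin_two, map_add]
    linear_combination -this
  have hbβ : residue T b = β := by rw [hbdef, map_sub, htr, haα, add_sub_cancel_left]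
  have hdet : a * b = F.det := by
    have h := haroot
    rw [IsRoot, Matrix.charpoly_fin_two] at h
    simp only [eval_add, eval_sub, eval_pow, eval_X, eval_mul, eval_C] at h
    rw [hbdef]
    linear_combination -h
  have hCH : ∀ x y : T, x + y = F.trace → x * y = F.det →
      F * (F - Matrix.scalar (Fin 2) y) =
        Matrix.scalar (Fin 2) x * (F - Matrix.scalar (Fin 2) y) := by
    intro x y hs hp
    ext i j
    rw [Matrix.trace_fin_two] at hs
    rw [Matrix.det_fin_two] at hp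
    fin_cases i <;> fin_cases j <;>
      simp [Matrix.mul_apply, Fin.sum_univ_two, Matrix.diagonal_apply]
    · linear_combination (-F 0 0) * hs + hp
    · linear_combination (-F 0 1) * hs
    · linear_combination (-F 1 0) * hs
    · linear_combination (-F 1 1) * hs + hp
  have hcol : ∀ x : T, (∀ i j, residue T ((F - Matrix.scalar (Fin 2) x) i j) = 0) → False := by
    intro x h
    have hFx : F.map (residue T) = Matrix.scalar (Fin 2) (residue T x) := by
      ext i j
      have := h i j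
      rw [Matrix.sub_apply, map_sub, sub_eq_zero] at this
      rw [Matrix.map_apply, this]
      by_cases hij : i = j <;> simp [hij]
    rw [hFx] at hF
    have h1 := congrArg (Polynomial.eval α) hF
    have h2 := congrArg (Polynomial.eval β) hF
    simp [Matrix.scalar_apply, Matrix.charpoly_diagonal, sub_eq_zero] at h1 h2
    exact hab (h1.trans h2.symm)
  obtain ⟨i₁, j₁, hv⟩ : ∃ i j, residue T ((F - Matrix.scalar (Fin 2) b) i j) ≠ 0 := by
    by_contra h; push Not at h; exact hcol b h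
  obtain ⟨i₂, j₂, hw⟩ : ∃ i j, residue T ((F - Matrix.scalar (Fin 2) a) i j) ≠ 0 := by
    by_contra h; push Not at h; exact hcol a h
  let v : Fin 2 → T := fun i => (F - Matrix.scalar (Fin 2) b) i j₁
  let w : Fin 2 → T := fun i => (F - Matrix.scalar (Fin 2) a) i j₂
  have hFv : ∀ i, F i 0 * v 0 + F i 1 * v 1 = a * v i := fun i => by
    have := congrFun (congrFun (hCH a b (by rw [hbdef]; ring) hdet) i) j₁
    rw [Matrix.mul_apply, Fin.sum_univ_two, Matrix.scalar_apply, Matrix.scalar_apply,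
      Matrix.diagonal_mul] at this
    exact this
  have hFw : ∀ i, F i 0 * w 0 + F i 1 * w 1 = b * w i := fun i => by
    have := congrFun (congrFun (hCH b a (by rw [hbdef]; ring) (by rw [mul_comm]; exact hdet)) i) j₂
    rw [Matrix.mul_apply, Fin.sum_univ_two, Matrix.scalar_apply, Matrix.scalar_apply,
      Matrix.diagonal_mul] at this
    exact this
  let P : Matrix (Fin 2) (Fin 2) T := !![v 0, w 0; v 1, w 1]
  have hFP : F * P = P * Matrix.diagonal ![a, b] := by
    ext i j
    fin_cases i <;> fin_cases j <;>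
      simp [P, Matrix.mul_apply, Fin.sum_univ_two, hFv, hFw, mul_comm]
  have hPdet : IsUnit P.det := by
    rw [← residue_ne_zero_iff_isUnit]
    intro h0
    rw [Matrix.det_fin_two] at h0
    simp [P] at h0
    -- proportional eigenvectors
    have e1 := fun i => congrArg (residue T) (hFv i)
    have e2 := fun i => congrArg (residue T) (hFw i)
    simp only [map_add, map_mul, haα, hbβ] at e1 e2
    have c01 : residue T (v 0) * residue T (w 1) = residue T (v 1) * residue T (w 0) := by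
      linear_combination h0
    have p0 := e1 0
    have p1 := e1 1
    have q0 := e2 0
    have q1 := e2 1
    have hne : α - β ≠ 0 := sub_ne_zero.mpr hab
    have k00 : residue T (v 0) * residue T (w 0) = 0 := (mul_eq_zero.mp
      (show (α - β) * (residue T (v 0) * residue T (w 0)) = 0 by
        linear_combination (-residue T (w 0)) * p0 + residue T (v 0) * q0 -
          residue T (F 0 1) * c01)).resolve_left hne
    have k11 : residue T (v 1) * residue T (w 1) = 0 := (mul_eq_zero.mp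
      (show (α - β) * (residue T (v 1) * residue T (w 1)) = 0 by
        linear_combination (-residue T (w 1)) * p1 + residue T (v 1) * q1 +
          residue T (F 1 0) * c01)).resolve_left hne
    have k01 : residue T (v 0) * residue T (w 1) = 0 := mul_self_eq_zero.mp (by
      linear_combination (residue T (v 0) * residue T (w 1)) * c01 +
        (residue T (v 1) * residue T (w 1)) * k00)
    have key : ∀ i k, residue T (v i) * residue T (w k) = 0 := by
      intro i k
      fin_cases i <;> fin_cases k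
      · exact k00
      · exact k01
      · exact c01 ▸ k01
      · exact k11
    rcases mul_eq_zero.mp (key i₁ i₂) with h | h
    · exact hv h
    · exact hw h
  refine ⟨((Matrix.isUnit_iff_isUnit_det P).mpr hPdet).unit, a, b, haα, hbβ, ?_⟩
  rw [mul_assoc, IsUnit.unit_spec, hFP, ← mul_assoc]
  show (((Matrix.isUnit_iff_isUnit_det P).mpr hPdet).unit⁻¹ : (Matrix (Fin 2) (Fin 2) T)ˣ).1 *
    ((Matrix.isUnit_iff_isUnit_det P).mpr hPdet).unit.1 * _ = _
  rw [Units.inv_mul, one_mul]

omit [IsNoetherianRing T] [IsAdicComplete (maximalIdeal T) T] in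
/-- On each finite level inertia is generated by one element and satisfies the tame relation. -/
lemma exists_inertia_relation {p q : ℕ} (hp : p.Prime) (hq : q.Prime)
    (hpq : p ≠ q) (hpT : (p : T) ∈ maximalIdeal T) (M : GQ →* Matrix (Fin 2) (Fin 2) T)
    (hlev : ∀ n, ∃ L : IntermediateField ℚ Qbar, FiniteDimensional ℚ L ∧
      ∀ σ : GQ, (∀ x ∈ L, σ x = x) → (M σ).map (Ideal.Quotient.mk (maximalIdeal T ^ n)) = 1)
    {A : ValuationSubring Qbar} (hA : A.LiesOverPrime q)
    (hI1 : ∀ σ ∈ A.inertiaSubgroupIn ℚ, (M σ).map (residue T) = 1) :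
    (∀ Φ, A.IsFrobeniusAt Φ q → ∀ n, ∀ σ ∈ A.inertiaSubgroupIn ℚ,
      (M Φ * M σ).map (Ideal.Quotient.mk (maximalIdeal T ^ n)) =
        (M σ ^ q * M Φ).map (Ideal.Quotient.mk (maximalIdeal T ^ n))) ∧
    ∀ n, ∃ t ∈ A.inertiaSubgroupIn ℚ, ∀ σ ∈ A.inertiaSubgroupIn ℚ, ∃ k : ℕ,
      (M σ).map (Ideal.Quotient.mk (maximalIdeal T ^ n)) =
        (M t ^ k).map (Ideal.Quotient.mk (maximalIdeal T ^ n)) := by
  let π : ∀ n, GQ →* (Matrix (Fin 2) (Fin 2) (T ⧸ maximalIdeal T ^ n))ˣ := fun n =>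
    (((Ideal.Quotient.mk (maximalIdeal T ^ n)).mapMatrix.toMonoidHom).comp M).toHomUnits
  have hπ : ∀ n g, (π n g).1 = (M g).map (Ideal.Quotient.mk (maximalIdeal T ^ n)) := fun _ _ => rfl
  have hpg : ∀ n, ∀ σ ∈ A.inertiaSubgroupIn ℚ, ∃ k : ℕ, π n σ ^ p ^ k = 1 := by
    intro n σ hσ
    refine ⟨n, Units.ext ?_⟩
    rw [← map_pow, hπ, map_pow, Units.val_one]
    have key := pow_prime_pow_sub_one_mem hpT (hI1 σ hσ)
    ext i j
    have := Ideal.pow_le_pow_right (n.le_succ) (key n i j)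
    rw [Matrix.map_apply, Ideal.Quotient.eq.mpr this]
    by_cases hij : i = j <;> simp [hij, Matrix.one_apply]
  constructor
  · intro Φ hΦ n σ hσ
    obtain ⟨L, hL, hLn⟩ := hlev n
    have h := (TW.exists_inertia_generator_frobenius hq hp hpq hA (π n) L
      (fun g hg => Units.ext (hLn g hg)) (hpg n)).1 Φ hΦ σ hσ
    rw [map_mul, map_mul, map_inv, mul_inv_eq_iff_eq_mul] at h
    have h' := congrArg Units.val h
    rw [← map_mul, ← map_pow, ← map_mul, hπ, hπ, map_mul, map_mul, map_pow] at h'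
    exact h'
  · intro n
    obtain ⟨L, hL, hLn⟩ := hlev n
    obtain ⟨t, ht, hgen⟩ := (TW.exists_inertia_generator_frobenius hq hp hpq hA (π n) L
      (fun g hg => Units.ext (hLn g hg)) (hpg n)).2
    refine ⟨t, ht, fun σ hσ => ?_⟩
    obtain ⟨c, hc⟩ := hpg n t ht
    have hf : IsOfFinOrder (π n t) :=
      isOfFinOrder_iff_pow_eq_one.mpr ⟨p ^ c, pow_pos hp.pos c, hc⟩
    obtain ⟨k, hk⟩ := hf.mem_powers_iff_mem_zpowers.mpr (hgen σ hσ)
    refine ⟨k, ?_⟩
    have h := congrArg Units.val (show π n σ = π n t ^ k from hk.symm)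
    rw [← map_pow, hπ, hπ, map_pow] at h
    exact h

variable {p q v : ℕ}

/-- **Inertia at a Taylor–Wiles prime.** -/
theorem exists_twInertia (hp : p.Prime) (hq : q.Prime) (hpq : p ≠ q)
    (hpT : (p : T) ∈ maximalIdeal T) (hq1 : p ∣ q - 1) (hv : p ^ v ∣ q - 1)
    (hv' : ¬ p ^ (v + 1) ∣ q - 1)
    (hfin : {x : T | x ^ p ^ v = 1}.Finite)
    (M : GQ →* Matrix (Fin 2) (Fin 2) T)
    (hM : ∀ n, ∃ L : IntermediateField ℚ Qbar, FiniteDimensional ℚ L ∧
      ∀ σ : GQ, (∀ x ∈ L, σ x = x) → Attach.NearOne (maximalIdeal T ^ n) (M σ))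
    {A : ValuationSubring Qbar} (hA : A.LiesOverPrime q) {Φ : GQ} (hΦ : A.IsFrobeniusAt Φ q)
    (hres : ∀ σ ∈ A.inertiaSubgroupIn ℚ, (M σ).map (residue T) = 1)
    (hdet : ∀ σ ∈ A.inertiaSubgroupIn ℚ, (M σ).det = 1)
    {α β : ResidueField T} (hab : α ≠ β)
    (hF : ((M Φ).map (residue T)).charpoly = (X - C α) * (X - C β)) :
    ∃ (P : (Matrix (Fin 2) (Fin 2) T)ˣ) (u w : T), u ^ p ^ v = 1 ∧ u * w = 1 ∧
      u - 1 ∈ maximalIdeal T ∧
      (∃ t ∈ A.inertiaSubgroupIn ℚ,
        (P⁻¹ : (Matrix (Fin 2) (Fin 2) T)ˣ).1 * M t * P.1 = Matrix.diagonal ![u, w]) ∧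
      (∃ a b : T, residue T a = α ∧ residue T b = β ∧
        (P⁻¹ : (Matrix (Fin 2) (Fin 2) T)ˣ).1 * M Φ * P.1 = Matrix.diagonal ![a, b]) ∧
      ∀ σ ∈ A.inertiaSubgroupIn ℚ, ∃ k : ℕ,
        (P⁻¹ : (Matrix (Fin 2) (Fin 2) T)ˣ).1 * M σ * P.1 = Matrix.diagonal ![u ^ k, w ^ k] := by
  classical
  obtain ⟨P, a, b, haα, hbβ, hPF⟩ := exists_diagonalization (M Φ) hab hF
  let M' : GQ →* Matrix (Fin 2) (Fin 2) T :=
    { toFun := fun g => (P⁻¹ : (Matrix (Fin 2) (Fin 2) T)ˣ).1 * M g * P.1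
      map_one' := by rw [map_one, mul_one, Units.inv_mul]
      map_mul' := fun g h => by
        rw [map_mul]
        simp only [mul_assoc]
        rw [← mul_assoc P.1, Units.mul_inv, one_mul] }
  have hdM : ∀ σ ∈ A.inertiaSubgroupIn ℚ, (M' σ).det = 1 := fun σ hσ => by
    show (_ * _ * _ : Matrix (Fin 2) (Fin 2) T).det = 1
    rw [Matrix.det_mul, Matrix.det_mul, hdet σ hσ, mul_one, ← Matrix.det_mul, Units.inv_mul,
      Matrix.det_one]
  have hI1 : ∀ σ ∈ A.inertiaSubgroupIn ℚ, (M' σ).map (residue T) = 1 := fun σ hσ => by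
    have hr : ((residue T).mapMatrix : Matrix (Fin 2) (Fin 2) T →+*
        Matrix (Fin 2) (Fin 2) (ResidueField T)) (M σ) = 1 := hres σ hσ
    show ((residue T).mapMatrix : Matrix (Fin 2) (Fin 2) T →+*
        Matrix (Fin 2) (Fin 2) (ResidueField T))
        ((P⁻¹ : (Matrix (Fin 2) (Fin 2) T)ˣ).1 * M σ * P.1) = 1
    rw [map_mul, map_mul, hr, mul_one, ← map_mul, Units.inv_mul, map_one]
  have hI : ∀ σ ∈ A.inertiaSubgroupIn ℚ, ∀ i j,
      M' σ i j - (1 : Matrix (Fin 2) (Fin 2) T) i j ∈ maximalIdeal T := by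
    intro σ hσ i j
    rw [← residue_eq_zero_iff, map_sub, sub_eq_zero]
    have h2 := congrFun (congrFun (hI1 σ hσ) i) j
    rw [Matrix.map_apply] at h2
    rw [h2]
    by_cases hij : i = j <;> simp [hij, Matrix.one_apply]
  -- the relation with Frobenius on each finite level, and the generator
  obtain ⟨hrel, hgen⟩ := exists_inertia_relation hp hq hpq hpT M' (fun n => by
    obtain ⟨L, hL, h⟩ := hM n
    refine ⟨L, hL, fun σ hσ => ?_⟩
    let QM : Matrix (Fin 2) (Fin 2) T →+* Matrix (Fin 2) (Fin 2) (T ⧸ maximalIdeal T ^ n) :=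
      (Ideal.Quotient.mk (maximalIdeal T ^ n)).mapMatrix
    show QM ((P⁻¹ : (Matrix (Fin 2) (Fin 2) T)ˣ).1 * M σ * P.1) = 1
    have h1 : QM (M σ) = 1 := by
      ext i j
      rw [RingHom.mapMatrix_apply, Matrix.map_apply, Ideal.Quotient.eq.mpr (h σ hσ i j)]
      by_cases hij : i = j <;> simp [hij, Matrix.one_apply]
    rw [map_mul, map_mul, h1, mul_one, ← map_mul, Units.inv_mul, map_one]) hA hI1
  have hqT : (q : T) - 1 ∈ maximalIdeal T := by
    obtain ⟨c, hc⟩ := hq1
    rw [← Nat.cast_one, ← Nat.cast_sub hq.one_le, hc, Nat.cast_mul]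
    exact Ideal.mul_mem_right _ _ hpT
  have hab' : IsUnit (a - b) := by
    rw [← residue_ne_zero_iff_isUnit, map_sub, haα, hbβ]
    exact sub_ne_zero.mpr hab
  have hoff : ∀ σ ∈ A.inertiaSubgroupIn ℚ, M' σ 0 1 = 0 ∧ M' σ 1 0 = 0 := fun σ hσ => by
    refine offDiag_eq_zero hqT hab' (hI σ hσ) fun n => ?_
    have hr := hrel Φ hΦ n σ hσ
    rwa [show M' Φ = Matrix.diagonal ![a, b] from hPF] at hr
  have hdiag : ∀ σ ∈ A.inertiaSubgroupIn ℚ,
      M' σ = Matrix.diagonal ![M' σ 0 0, M' σ 1 1] ∧ M' σ 0 0 * M' σ 1 1 = 1 := by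
    intro σ hσ
    obtain ⟨e01, e10⟩ := hoff σ hσ
    refine ⟨?_, ?_⟩
    · ext i j
      fin_cases i <;> fin_cases j <;> simp [e01, e10]
    · have := hdM σ hσ
      rw [Matrix.det_fin_two, e01, zero_mul, sub_zero] at this
      exact this
  have hqpow : ∀ σ ∈ A.inertiaSubgroupIn ℚ, M' σ 0 0 ^ p ^ v = 1 := by
    intro σ hσ
    set x := M' σ 0 0 with hx
    have hu : IsUnit x := IsUnit.of_mul_eq_one _ (hdiag σ hσ).2
    have hz : x ^ q = x := by
      refine sub_eq_zero.mp ?_
      rw [← Ideal.mem_bot, ← Ideal.iInf_pow_eq_bot_of_isLocalRing (maximalIdeal T)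
        (maximalIdeal.isMaximal T).ne_top, Submodule.mem_iInf]
      intro n
      have hr := hrel Φ hΦ n σ hσ
      have e : M' Φ = Matrix.diagonal ![a, b] := hPF
      rw [e, (hdiag σ hσ).1, Matrix.diagonal_pow, Matrix.diagonal_mul_diagonal,
        Matrix.diagonal_mul_diagonal] at hr
      have r00 := Ideal.Quotient.eq.mp (congrFun (congrFun hr 0) 0)
      simp [← hx] at r00
      have ha : IsUnit a := by
        have : (M' Φ).det = a * b := by rw [e, Matrix.det_diagonal, Fin.prod_univ_two]; rfl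
        refine isUnit_of_mul_isUnit_left (x := a) (y := b) ?_
        rw [← this]
        exact (Group.isUnit Φ).map (Matrix.detMonoidHom.comp M')
      obtain ⟨z, hz⟩ := ha.exists_left_inv
      have := Ideal.mul_mem_left _ (-z) r00
      convert this using 1
      linear_combination (x ^ q - x) * hz.symm
    exact pow_eq_one_of_pow_eq_self hp hpT hq.one_le hv hv' hu (by simpa [hx] using hI σ hσ 0 0)
      hz
  -- a level separating the roots of unity
  obtain ⟨n, hn⟩ := exists_separating_pow hfin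
  obtain ⟨t, ht, hgen⟩ := hgen n
  obtain ⟨htd, htw⟩ := hdiag t ht
  refine ⟨P, M' t 0 0, M' t 1 1, hqpow t ht, htw, by simpa using hI t ht 0 0, ⟨t, ht, htd⟩,
    ⟨a, b, haα, hbβ, hPF⟩, fun σ hσ => ?_⟩
  obtain ⟨k, hk⟩ := hgen σ hσ
  refine ⟨k, ?_⟩
  obtain ⟨hσd, hσw⟩ := hdiag σ hσ
  have h00 : M' σ 0 0 = M' t 0 0 ^ k := by
    refine hn _ (hqpow σ hσ) _ (by
      show (M' t 0 0 ^ k) ^ p ^ v = 1
      rw [← pow_mul, mul_comm, pow_mul, hqpow t ht, one_pow]) (Ideal.Quotient.eq.mp ?_)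
    have h := hk
    rw [htd, Matrix.diagonal_pow] at h
    have := congrFun (congrFun h 0) 0
    simpa using this
  show M' σ = _
  rw [hσd, h00]
  congr 1
  have h11 : M' σ 1 1 = M' t 1 1 ^ k := by
    have hu : IsUnit (M' t 0 0 ^ k) := (IsUnit.of_mul_eq_one _ htw).pow k
    refine hu.mul_left_cancel ?_
    rw [← mul_pow, htw, one_pow]
    rw [h00] at hσw
    exact hσw
  rw [h11]

end Fermat.Agent.LevelLowering

end
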