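import Mathlib.Algebra.Polynomial.Module.AEval
import Mathlib.LinearAlgebra.Matrix.Charpoly.LinearMap
import Mathlib.LinearAlgebra.Matrix.Notation
import Mathlib.RingTheory.Finiteness.Basic
import Mathlib.RingTheory.Ideal.Quotient.Basic

/-!
# The monodromy exactness lemma

`V = P ⊕ P` with a nilpotent operator given by a matrix `N` over `A`.  If `ker N ≤ im N`, the
entries of `N` lie in a prime `𝔭`, and the line cut out by `N` is defined at `𝔭`, then `𝔭` is
outside the support of `P`.  This is the algebraic core of level lowering.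
-/

namespace Fermat.Agent.LevelLowering

open Polynomial

variable {A : Type*} [CommRing A] {P : Type*} [AddCommGroup P] [Module A P]

/-- If `c ∉ 𝔭` and `c • P ⊆ 𝔭 • P` for a finite module `P`, then `P` vanishes at `𝔭`. -/
lemma exists_smul_eq_zero_of_smul_mem [Module.Finite A P] {𝔭 : Ideal A} [𝔭.IsPrime] {c : A}
    (hc : c ∉ 𝔭) (h : ∀ x : P, c • x ∈ 𝔭 • (⊤ : Submodule A P)) :
    ∃ t ∉ 𝔭, ∀ x : P, t • x = 0 := by
  obtain ⟨f, hmonic, -, hcoeff, haeval⟩ :=
    LinearMap.exists_monic_and_natDegree_eq_and_coeff_mem_pow_and_aeval_eq_zero A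
      (algebraMap A (Module.End A P) c) 𝔭 (by rintro _ ⟨x, rfl⟩; simpa using h x)
  refine ⟨f.eval c, fun hmem => hc ?_, fun x => ?_⟩
  · have hq : (f.eval c - c ^ f.natDegree) ∈ 𝔭 := by
      rw [f.eval_eq_sum_range, Finset.sum_range_succ, hmonic.coeff_natDegree, one_mul,
        add_sub_cancel_right]
      refine sum_mem fun i hi => Ideal.mul_mem_right _ _ ?_
      rw [Finset.mem_range] at hi
      exact Ideal.pow_le_self (by omega) (hcoeff i)
    exact Ideal.IsPrime.mem_of_pow_mem ‹_› f.natDegree (by simpa using 𝔭.sub_mem hmem hq)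
  · have := LinearMap.congr_fun haeval x
    rwa [Polynomial.aeval_algebraMap_apply_eq_algebraMap_eval, Module.algebraMap_end_apply] at this

/-- The operator on `P ⊕ P` of a `2 × 2` matrix. -/
def matAct (N : Matrix (Fin 2) (Fin 2) A) : (Fin 2 → P) →ₗ[A] (Fin 2 → P) where
  toFun v i := N i 0 • v 0 + N i 1 • v 1
  map_add' v w := by ext i; simp only [Pi.add_apply, smul_add]; abel
  map_smul' c v := by
    ext i
    simp only [Pi.smul_apply, RingHom.id_apply, smul_add, smul_comm c]

@[simp]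
lemma matAct_apply (N : Matrix (Fin 2) (Fin 2) A) (v : Fin 2 → P) (i : Fin 2) :
    matAct N v i = N i 0 • v 0 + N i 1 • v 1 := rfl

/-- Core form: `N` kills `u`, and `s • N` is `n` times a matrix with image on the line of `u`. -/
lemma exists_smul_eq_zero_of_exact_of_line [Module.Finite A P] {𝔭 : Ideal A} [𝔭.IsPrime]
    (N : Matrix (Fin 2) (Fin 2) A) {s n : A} (u w : Fin 2 → A) {i₀ : Fin 2}
    (hs : s ∉ 𝔭) (hn : n ∈ 𝔭) (hu : u i₀ ∉ 𝔭)
    (hNu : ∀ i, N i 0 * u 0 + N i 1 * u 1 = 0)
    (hN : ∀ i j, s * N i j = n * (u i * w j))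
    (hexact : ∀ v : Fin 2 → P, matAct N v = 0 → ∃ y, matAct N y = v) :
    ∃ t ∉ 𝔭, ∀ x : P, t • x = 0 := by
  refine exists_smul_eq_zero_of_smul_mem (c := s * u i₀) ?_ fun x => ?_
  · exact fun hm => ((Ideal.IsPrime.mem_or_mem ‹_› hm).elim hs hu)
  · obtain ⟨y, hy⟩ := hexact (fun i => u i • x) <| by
      ext i
      simp [smul_smul, ← add_smul, hNu i]
    have h1 := congrArg (s • ·) (congrFun hy i₀)
    simp only [matAct_apply, smul_add, smul_smul, hN] at h1
    rw [← h1]
    exact add_mem (Submodule.smul_mem_smul (Ideal.mul_mem_right _ _ hn) trivial)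
      (Submodule.smul_mem_smul (Ideal.mul_mem_right _ _ hn) trivial)

/-- **Monodromy exactness lemma.**  If the entries of `N` lie in `𝔭`, a vector `u` which is nonzero
mod `𝔭` is killed by `N`, the functional orthogonal to `u` kills the image of `N`, and
`ker N ≤ im N` on `P ⊕ P`, then `P` vanishes at `𝔭`. -/
theorem exists_smul_eq_zero_of_exact [Module.Finite A P] {𝔭 : Ideal A} [𝔭.IsPrime]
    (N : Matrix (Fin 2) (Fin 2) A) (u : Fin 2 → A)
    (hu : u 0 ∉ 𝔭 ∨ u 1 ∉ 𝔭) (hmem : ∀ i j, N i j ∈ 𝔭)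
    (hNu : ∀ i, N i 0 * u 0 + N i 1 * u 1 = 0)
    (huN : ∀ j, u 0 * N 1 j - u 1 * N 0 j = 0)
    (hexact : ∀ v : Fin 2 → P, matAct N v = 0 → ∃ y, matAct N y = v) :
    ∃ t ∉ 𝔭, ∀ x : P, t • x = 0 := by
  have e0 := hNu 0
  have e1 := hNu 1
  have f0 := huN 0
  have f1 := huN 1
  rcases hu with hu | hu
  · refine exists_smul_eq_zero_of_exact_of_line N (s := u 0 * u 0) (n := N 0 1) u
      (fun j => if j = 0 then -u 1 else u 0)
      (fun hm => hu ((Ideal.IsPrime.mem_or_mem ‹_› hm).elim id id)) (hmem 0 1) hu hNu ?_ hexact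
    intro i j
    fin_cases i <;> fin_cases j <;>
      simp only [Fin.zero_eta, Fin.mk_one, Fin.isValue, if_true, if_false, one_ne_zero]
    · linear_combination u 0 * e0
    · ring
    · linear_combination u 0 * f0 + u 1 * e0
    · linear_combination u 0 * f1
  · refine exists_smul_eq_zero_of_exact_of_line N (s := u 1 * u 1) (n := -N 1 0) u
      (fun j => if j = 0 then -u 1 else u 0)
      (fun hm => hu ((Ideal.IsPrime.mem_or_mem ‹_› hm).elim id id))
      (neg_mem (hmem 1 0)) hu hNu ?_ hexact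
    intro i j
    fin_cases i <;> fin_cases j <;>
      simp only [Fin.zero_eta, Fin.mk_one, Fin.isValue, if_true, if_false, one_ne_zero]
    · linear_combination -u 1 * f0
    · linear_combination -u 1 * f1 + u 0 * e1
    · ring
    · linear_combination u 1 * e1

end Fermat.Agent.LevelLowering
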