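import Mathlib.Data.Fin.VecNotation
import Mathlib.LinearAlgebra.Matrix.Charpoly.Basic
import Fermat.Agent.LevelLowering.Monodromy

/-!
# Odd two-dimensional structure of modules with a quadratic Galois action

`R` a commutative ring with `η = 1/2`, `τ : G →* End_R H` with `τ g + χ g • τ g⁻¹ = t g • 1`,
`c` an involution with `χ c = -1`.  If some `cross` coefficient is a unit (which follows from an
irreducible residual representation with the same trace), then `H ≅ P × P` with `G` acting by an
explicit matrix `frameMatrix` depending only on `t`.  This is the elementary form of the theorem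
of Boston, Lenstra and Ribet, and at the same time constructs the representation over `R`.
-/

namespace Fermat.Agent.LevelLowering

variable {R : Type*} [CommRing R] {G : Type*} [Group G]

section Coefficients

variable (η : R) (t : G → R) (c : G)

/-- The upper diagonal entry. -/
def diagP (g : G) : R := η * (t g + t (g * c))

/-- The lower diagonal entry. -/
def diagM (g : G) : R := η * (t g - t (g * c))

/-- The product of an upper and a lower off-diagonal entry. -/
def crossP (g h : G) : R := η * (diagP η t c (g * h) - diagP η t c (g * c * h))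

/-- The product of a lower and an upper off-diagonal entry. -/
def crossM (g h : G) : R := η * (diagM η t c (g * h) + diagM η t c (g * c * h))

/-- The matrix of `g` in the frame given by `g₀` and `h₀`. -/
noncomputable def frameMatrix (g₀ h₀ g : G) : Matrix (Fin 2) (Fin 2) R :=
  !![diagP η t c g, Ring.inverse (crossP η t c g₀ h₀) * crossP η t c g h₀;
     crossP η t c g₀ g, diagM η t c g]

variable {k : Type*} [CommRing k] (π : R →+* k)

theorem map_crossP (g h : G) :
    π (crossP η t c g h) = crossP (π η) (π ∘ t) c g h := by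
  simp [crossP, diagP]

theorem map_crossM (g h : G) :
    π (crossM η t c g h) = crossM (π η) (π ∘ t) c g h := by
  simp [crossM, diagM]

theorem map_frameMatrix {g₀ h₀ : G} (hu : IsUnit (crossP η t c g₀ h₀)) (g : G) :
    (frameMatrix η t c g₀ h₀ g).map π = frameMatrix (π η) (π ∘ t) c g₀ h₀ g := by
  have hinv : π (Ring.inverse (crossP η t c g₀ h₀)) =
      Ring.inverse (crossP (π η) (π ∘ t) c g₀ h₀) := by
    obtain ⟨w, hw⟩ := hu
    have hw' : crossP (π η) (π ∘ t) c g₀ h₀ = (Units.map π.toMonoidHom w : kˣ) := by
      rw [← map_crossP, ← hw]; rfl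
    rw [← hw, hw', Ring.inverse_unit, Ring.inverse_unit]
    rfl
  ext i j
  fin_cases i <;> fin_cases j <;>
    simp [frameMatrix, hinv, map_crossP, diagP, diagM]

theorem frameMatrix_trace (hη : 2 * η = 1) (g₀ h₀ g : G) :
    (frameMatrix η t c g₀ h₀ g).trace = t g := by
  simp [frameMatrix, Matrix.trace_fin_two, diagP, diagM]
  linear_combination t g * hη

end Coefficients

variable {H : Type*} [AddCommGroup H] [Module R H]

/-- The hypotheses on the action. -/
structure OddQuad (η : R) (τ : G →* Module.End R H) (χ : G →* R) (t : G → R) (c : G) : Prop where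
  two : 2 * η = 1
  c_mul_c : c * c = 1
  char_c : χ c = -1
  quad : ∀ g, τ g + χ g • τ g⁻¹ = t g • 1

namespace OddQuad

variable {η : R} {τ : G →* Module.End R H} {χ : G →* R} {t : G → R} {c : G}

section Defs

variable (η τ c)

/-- The projection to the `+1` part of `τ c`. -/
def projP : Module.End R H := η • (1 + τ c)

/-- The projection to the `-1` part of `τ c`. -/
def projM : Module.End R H := η • (1 - τ c)

end Defs

variable (hq : OddQuad η τ χ t c)
include hq

/-- The involution squares to the identity in the representation. -/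
theorem tau_c_mul_self : τ c * τ c = 1 := by rw [← map_mul, hq.c_mul_c, map_one]

theorem projP_add_projM : projP η τ c + projM η τ c = 1 := by
  rw [projP, projM, ← smul_add, add_add_sub_cancel, ← two_smul R (1 : Module.End R H), smul_smul,
    mul_comm, hq.two, one_smul]

theorem mul_projP : τ c * projP η τ c = projP η τ c := by
  rw [projP, mul_smul_comm, mul_add, mul_one, hq.tau_c_mul_self, add_comm]

theorem mul_projM : τ c * projM η τ c = -projM η τ c := by
  rw [projM, mul_smul_comm, mul_sub, mul_one, hq.tau_c_mul_self, ← smul_neg, neg_sub]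

theorem projP_mul : projP η τ c * τ c = projP η τ c := by
  rw [projP, smul_mul_assoc, add_mul, one_mul, hq.tau_c_mul_self, add_comm]

theorem projM_mul : projM η τ c * τ c = -projM η τ c := by
  rw [projM, smul_mul_assoc, sub_mul, one_mul, hq.tau_c_mul_self, ← smul_neg, neg_sub]

theorem projP_idem : projP η τ c * projP η τ c = projP η τ c := by
  conv_lhs => arg 1; rw [projP]
  rw [smul_mul_assoc, add_mul, one_mul, hq.mul_projP, ← two_smul R (projP η τ c), smul_smul,
    mul_comm, hq.two, one_smul]

theorem projM_idem : projM η τ c * projM η τ c = projM η τ c := by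
  conv_lhs => arg 1; rw [projM]
  rw [smul_mul_assoc, sub_mul, one_mul, hq.mul_projM, sub_neg_eq_add,
    ← two_smul R (projM η τ c), smul_smul, mul_comm, hq.two, one_smul]

theorem projP_mul_projM : projP η τ c * projM η τ c = 0 := by
  conv_lhs => arg 1; rw [projP]
  rw [smul_mul_assoc, add_mul, one_mul, hq.mul_projM, add_neg_cancel, smul_zero]

theorem projM_mul_projP : projM η τ c * projP η τ c = 0 := by
  conv_lhs => arg 1; rw [projM]
  rw [smul_mul_assoc, sub_mul, one_mul, hq.mul_projP, sub_self, smul_zero]

/-- Diagonal blocks are scalar. -/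
theorem corner (e : Module.End R H) (ε : R) (hε : τ c * e = ε • e) (he : e * τ c = ε • e)
    (he2 : e * e = e) (hε2 : ε * ε = 1) (g : G) :
    e * τ g * e = (η * (t g + ε * t (g * c))) • e := by
  have h1 := congrArg (fun x => e * x * e) (hq.quad g)
  have h2 := congrArg (fun x => e * x * e) (hq.quad (g * c))
  simp only [map_mul, mul_inv_rev, inv_eq_of_mul_eq_one_right hq.c_mul_c, hq.char_c, mul_add,
    add_mul, mul_smul_comm, smul_mul_assoc, mul_one, he2] at h1 h2
  have e1 : e * (τ g * τ c) * e = ε • (e * τ g * e) := by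
    rw [← mul_assoc e (τ g), mul_assoc _ (τ c) e, hε, mul_smul_comm]
  have e2 : e * (τ c * τ g⁻¹) * e = ε • (e * τ g⁻¹ * e) := by
    rw [← mul_assoc e, he, smul_mul_assoc, smul_mul_assoc]
  rw [e1, e2, smul_smul] at h2
  have key : (2 : R) • (e * τ g * e) = (t g + ε * t (g * c)) • e := by
    calc (2 : R) • (e * τ g * e)
        = ((1 : R) • (e * τ g * e) + χ g • (e * τ g⁻¹ * e))
          + ε • (ε • (e * τ g * e) + (χ g * -1 * ε) • (e * τ g⁻¹ * e)) := by
          have h3 : ε * (χ g * -1 * ε) = -χ g := by linear_combination (-χ g) * hε2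
          rw [smul_add, smul_smul, smul_smul, hε2, h3, neg_smul, one_smul, two_smul]
          abel
      _ = (t g + ε * t (g * c)) • e := by
          rw [one_smul, h1, h2, smul_smul, ← add_smul]
  have h4 := congrArg (η • ·) key
  simp only [smul_smul] at h4
  rwa [mul_comm η 2, hq.two, one_smul] at h4

theorem projP_mul_mul_projP (g : G) :
    projP η τ c * τ g * projP η τ c = diagP η t c g • projP η τ c := by
  rw [hq.corner _ 1 (by rw [one_smul, hq.mul_projP]) (by rw [one_smul, hq.projP_mul])
    hq.projP_idem (one_mul 1) g, diagP, one_mul]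

theorem projM_mul_mul_projM (g : G) :
    projM η τ c * τ g * projM η τ c = diagM η t c g • projM η τ c := by
  rw [hq.corner _ (-1) (by rw [neg_one_smul, hq.mul_projM])
    (by rw [neg_one_smul, hq.projM_mul]) hq.projM_idem (by ring) g, diagM, neg_one_mul,
    sub_eq_add_neg]

theorem crossP_eq (g h : G) :
    (projP η τ c * τ g * projM η τ c) * (projM η τ c * τ h * projP η τ c) =
      crossP η t c g h • projP η τ c := by
  have hm : τ g * projM η τ c * τ h = η • (τ (g * h) - τ (g * c * h)) := by
    simp only [projM, mul_smul_comm, smul_mul_assoc, mul_sub, sub_mul, mul_one, map_mul]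
  calc (projP η τ c * τ g * projM η τ c) * (projM η τ c * τ h * projP η τ c)
      = projP η τ c * (τ g * projM η τ c * τ h) * projP η τ c := by
        conv_rhs => rw [← hq.projM_idem]
        simp only [mul_assoc]
    _ = crossP η t c g h • projP η τ c := by
        rw [hm, mul_smul_comm, smul_mul_assoc, mul_sub, sub_mul, hq.projP_mul_mul_projP,
          hq.projP_mul_mul_projP, ← sub_smul, smul_smul, crossP]

theorem crossM_eq (h g : G) :
    (projM η τ c * τ h * projP η τ c) * (projP η τ c * τ g * projM η τ c) =
      crossM η t c h g • projM η τ c := by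
  have hm : τ h * projP η τ c * τ g = η • (τ (h * g) + τ (h * c * g)) := by
    simp only [projP, mul_smul_comm, smul_mul_assoc, mul_add, add_mul, mul_one, map_mul]
  calc (projM η τ c * τ h * projP η τ c) * (projP η τ c * τ g * projM η τ c)
      = projM η τ c * (τ h * projP η τ c * τ g) * projM η τ c := by
        conv_rhs => rw [← hq.projP_idem]
        simp only [mul_assoc]
    _ = crossM η t c h g • projM η τ c := by
        rw [hm, mul_smul_comm, smul_mul_assoc, mul_add, add_mul, hq.projM_mul_mul_projM,
          hq.projM_mul_mul_projM, ← add_smul, smul_smul, crossM]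

/-- **Structure theorem.**  `H ≅ P ⊕ P` and `G` acts through `frameMatrix`. -/
theorem exists_linearEquiv {g₀ h₀ : G} (hu : IsUnit (crossP η t c g₀ h₀))
    (hv : IsUnit (crossM η t c h₀ g₀)) :
    ∃ φ : H ≃ₗ[R] (Fin 2 → LinearMap.range (projP η τ c)),
      ∀ (g : G) (v : H), φ (τ g v) = matAct (frameMatrix η t c g₀ h₀ g) (φ v) := by
  set e := projP η τ c with he
  set f := projM η τ c with hf
  set B := e * τ g₀ * f with hB
  set C := f * τ h₀ * e with hC
  set u := crossP η t c g₀ h₀ with hu'
  set w := Ring.inverse u with hw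
  have hwu : w * u = 1 := Ring.inverse_mul_cancel _ hu
  have hBC : B * C = u • e := hq.crossP_eq g₀ h₀
  have hee : e * e = e := hq.projP_idem
  have hff : f * f = f := hq.projM_idem
  have hef : e * f = 0 := hq.projP_mul_projM
  have hfe : f * e = 0 := hq.projM_mul_projP
  have heB : e * B = B := by rw [hB, ← mul_assoc, ← mul_assoc, hee]
  have hBf : B * f = B := by rw [hB, mul_assoc, hff]
  have hBe : B * e = 0 := by rw [hB, mul_assoc, hfe, mul_zero]
  have hfC : f * C = C := by rw [hC, ← mul_assoc, ← mul_assoc, hff]
  have heC : e * C = 0 := by rw [hC, ← mul_assoc, ← mul_assoc, hef, zero_mul, zero_mul]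
  have hCB : C * B = u • f := by
    have h1 : C * B = crossM η t c h₀ g₀ • f := hq.crossM_eq h₀ g₀
    have h2 : C * B * (C * B) = u • (C * B) := by
      rw [mul_assoc C, ← mul_assoc B, hBC, smul_mul_assoc, heB, mul_smul_comm]
    rw [h1, smul_mul_assoc, mul_smul_comm, hff, smul_smul, smul_smul] at h2
    obtain ⟨z, hz⟩ := hv.exists_left_inv
    have h3 := congrArg (z • ·) h2
    simp only [smul_smul] at h3
    rw [← mul_assoc, hz, one_mul, mul_left_comm, hz, mul_one] at h3
    rw [h1, h3]
  have hwCB : (w • C) * B = f := by rw [smul_mul_assoc, hCB, smul_smul, hwu, one_smul]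
  have app : ∀ {a b d : Module.End R H}, a * b = d → ∀ v, a (b v) = d v :=
    fun h v => LinearMap.congr_fun h v
  let fwd : H →ₗ[R] (Fin 2 → LinearMap.range e) :=
    LinearMap.pi ![e.rangeRestrict,
      B.codRestrict (LinearMap.range e) fun v => ⟨B v, app heB v⟩]
  let bwd : (Fin 2 → LinearMap.range e) →ₗ[R] H :=
    (LinearMap.range e).subtype ∘ₗ LinearMap.proj 0 +
      (w • C) ∘ₗ (LinearMap.range e).subtype ∘ₗ LinearMap.proj 1
  have hfix : ∀ a : LinearMap.range e, e a = a := by
    rintro ⟨_, x, rfl⟩
    exact app hee x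
  have h1 : fwd ∘ₗ bwd = LinearMap.id := by
    refine LinearMap.ext fun a => funext fun i => Subtype.ext ?_
    fin_cases i
    · show e ((a 0 : H) + w • C (a 1 : H)) = (a 0 : H)
      rw [map_add, map_smul, hfix, app heC, LinearMap.zero_apply, smul_zero, add_zero]
    · show B ((a 0 : H) + w • C (a 1 : H)) = (a 1 : H)
      rw [map_add, map_smul, ← hfix (a 0), app hBe, LinearMap.zero_apply, zero_add, app hBC,
        LinearMap.smul_apply, hfix, smul_smul, hwu, one_smul]
  have h2 : bwd ∘ₗ fwd = LinearMap.id := by
    refine LinearMap.ext fun v => ?_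
    show e v + w • C (B v) = v
    rw [app hCB, LinearMap.smul_apply, smul_smul, hwu, one_smul, ← LinearMap.add_apply,
      hq.projP_add_projM, Module.End.one_apply]
  refine ⟨LinearEquiv.ofLinearMap fwd bwd h1 h2, fun g v => ?_⟩
  have hef1 : e + f = 1 := hq.projP_add_projM
  have hetf : e * τ g * f = (w * crossP η t c g h₀) • B := by
    have hX : (e * τ g * f) * C = crossP η t c g h₀ • e := hq.crossP_eq g h₀
    calc e * τ g * f = (e * τ g * f) * ((w • C) * B) := by rw [hwCB, mul_assoc _ f f, hff]
      _ = w • (((e * τ g * f) * C) * B) := by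
        simp only [smul_mul_assoc, mul_smul_comm, mul_assoc]
      _ = _ := by rw [hX, smul_mul_assoc, heB, smul_smul]
  have hBte : B * τ g * e = crossP η t c g₀ g • e := by
    calc B * τ g * e = B * (f * τ g * e) := by
          conv_lhs => rw [← hBf]
          simp only [mul_assoc]
      _ = _ := hq.crossP_eq g₀ g
  have hBtf : B * τ g * f = diagM η t c g • B := by
    calc B * τ g * f = B * (f * τ g * f) := by
          conv_lhs => rw [← hBf]
          simp only [mul_assoc]
      _ = _ := by rw [hq.projM_mul_mul_projM, mul_smul_comm, hBf]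
  have k0 : e * τ g = diagP η t c g • e + (w * crossP η t c g h₀) • B := by
    calc e * τ g = e * τ g * (e + f) := by rw [hef1, mul_one]
      _ = _ := by rw [mul_add, hq.projP_mul_mul_projP, hetf]
  have k1 : B * τ g = crossP η t c g₀ g • e + diagM η t c g • B := by
    calc B * τ g = B * τ g * (e + f) := by rw [hef1, mul_one]
      _ = _ := by rw [mul_add, hBte, hBtf]
  funext i
  refine Subtype.ext ?_
  fin_cases i
  · show e (τ g v) = _
    rw [app k0]
    simp [fwd, frameMatrix, ← hu', ← hw]
  · show B (τ g v) = _
    rw [app k1]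
    simp [fwd, frameMatrix]

end OddQuad

section Residual

variable {k : Type*} [Field k] {V : Type*} [AddCommGroup V] [Module k V]
  {η : k} {ρ : G →* Module.End k V} {χ : G →* k} {t : G → k} {c : G}

/-- An irreducible odd representation has non-zero cross coefficients. -/
theorem exists_cross_ne_zero (hq : OddQuad η ρ χ t c) (hc1 : ρ c ≠ 1) (hc2 : ρ c ≠ -1)
    (hirr : ∀ W : Submodule k V, (∀ g, ∀ x ∈ W, ρ g x ∈ W) → W = ⊥ ∨ W = ⊤) :
    ∃ g₀ h₀, crossP η t c g₀ h₀ ≠ 0 ∧ crossM η t c h₀ g₀ ≠ 0 := by
  classical
  set e := OddQuad.projP η ρ c with he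
  set f := OddQuad.projM η ρ c with hf
  have hη : η ≠ 0 := fun h => by simpa [h] using hq.two
  have he0 : e ≠ 0 := fun h => hc2 (eq_neg_of_add_eq_zero_right
      ((smul_eq_zero.mp h).resolve_left hη))
  have hf0 : f ≠ 0 := fun h => hc1 (sub_eq_zero.mp ((smul_eq_zero.mp h).resolve_left hη)).symm
  -- some `g` moves a given non-zero vector out of the kernel of a non-zero projection
  have move : ∀ (a : Module.End k V), a ≠ 0 → ∀ x : V, x ≠ 0 → ∃ g, a (ρ g x) ≠ 0 := by
    intro a ha x hx
    by_contra hcon
    push Not at hcon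
    let W : Submodule k V := Submodule.span k (Set.range fun g => ρ g x)
    have hinv : ∀ g, ∀ y ∈ W, ρ g y ∈ W := by
      intro g y hy
      induction hy using Submodule.span_induction with
      | mem z hz =>
        obtain ⟨h, rfl⟩ := hz
        exact Submodule.subset_span ⟨g * h, by simp [map_mul, Module.End.mul_apply]⟩
      | zero => simp
      | add p q _ _ hp hq' => rw [map_add]; exact W.add_mem hp hq'
      | smul r p _ hp => rw [map_smul]; exact W.smul_mem _ hp
    have hle : W ≤ LinearMap.ker a := Submodule.span_le.mpr fun z ⟨g, hg⟩ => hg ▸ hcon g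
    rcases hirr W hinv with h | h
    · exact hx ((Submodule.mem_bot k).mp (h ▸ Submodule.subset_span ⟨1, by simp⟩))
    · exact ha (LinearMap.ext fun z => LinearMap.mem_ker.mp (hle (h ▸ Submodule.mem_top)))
  obtain ⟨x, hx⟩ : ∃ x, e x ≠ 0 := by
    by_contra h; push Not at h; exact he0 (LinearMap.ext h)
  obtain ⟨h₀, hh₀⟩ := move f hf0 (e x) hx
  obtain ⟨g₀, hg₀⟩ := move e he0 (f (ρ h₀ (e x))) hh₀
  have hBC : crossP η t c g₀ h₀ ≠ 0 := fun h => by
    have h1 := LinearMap.congr_fun (hq.crossP_eq g₀ h₀) x
    simp only [h, zero_smul, Module.End.mul_apply, LinearMap.zero_apply] at h1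
    rw [← he, ← hf, ← Module.End.mul_apply f f, hf, hq.projM_idem] at h1
    exact hg₀ h1
  refine ⟨g₀, h₀, hBC, fun h => hBC ?_⟩
  set B := e * ρ g₀ * f with hB
  set C := f * ρ h₀ * e with hC
  have h1 : C * B = 0 := by rw [hC, hB, hq.crossM_eq, h, zero_smul]
  have h2 : B * C * (B * C) = 0 := by
    rw [mul_assoc B, ← mul_assoc C, h1, zero_mul, mul_zero]
  rw [hB, hC, hq.crossP_eq, smul_mul_assoc, mul_smul_comm, hq.projP_idem, smul_smul,
    smul_eq_zero] at h2
  exact mul_self_eq_zero.mp (h2.resolve_right he0)

end Residual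

end Fermat.Agent.LevelLowering
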