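import Mathlib.RingTheory.LocalRing.MaximalIdeal.Basic
import Fermat.Prelude.Thm_Algebra_finite_maximalSpectrum_and_bijective_localization_of_module_finite

/-!
# The idempotent of a maximal ideal

In a finite algebra over a complete local ring every maximal ideal (or the unit ideal) `𝔫` has a
unique idempotent `e` congruent to `1` modulo `𝔫` such that the elements outside `𝔫` are invertible
on the part cut out by `e`. It replaces localisation at `𝔫`.
-/

namespace Fermat.Agent.LevelLowering

/-- The properties that determine the idempotent attached to `𝔫`. -/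
structure IsIdemAt {A : Type*} [CommRing A] (𝔫 : Ideal A) (e : A) : Prop where
  idem : e * e = e
  one_sub_mem : 1 - e ∈ 𝔫
  exists_inv : ∀ a ∉ 𝔫, ∃ b, a * b * e = e
  eq_zero_of_top : 𝔫 = ⊤ → e = 0

theorem IsIdemAt.unique {A : Type*} [CommRing A] {𝔫 : Ideal A} {e e' : A} (h : IsIdemAt 𝔫 e)
    (h' : IsIdemAt 𝔫 e') : e = e' := by
  have key : ∀ {e e' : A}, IsIdemAt 𝔫 e → IsIdemAt 𝔫 e' → e = e' * e := by
    intro e e' h h'
    by_cases hn : e' ∈ 𝔫
    · have htop : (1 : A) ∈ 𝔫 := by simpa using add_mem h'.one_sub_mem hn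
      simp [h.eq_zero_of_top (𝔫.eq_top_iff_one.mpr htop)]
    · obtain ⟨b, hb⟩ := h.exists_inv e' hn
      calc e = e' * b * e := hb.symm
        _ = e' * e' * b * e := by rw [h'.idem]
        _ = e' * (e' * b * e) := by ring
        _ = e' * e := by rw [hb]
  rw [key h h', mul_comm, ← key h' h]

variable {O : Type} [CommRing O] [IsLocalRing O] [IsNoetherianRing O]
  [IsAdicComplete (IsLocalRing.maximalIdeal O) O]

/-- Existence of the idempotent. -/
theorem exists_isIdemAt (A : Type) [CommRing A] [Algebra O A] [Module.Finite O A] (𝔫 : Ideal A)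
    (h : 𝔫.IsMaximal ∨ 𝔫 = ⊤) : ∃ e, IsIdemAt 𝔫 e := by
  rcases h with h | h
  · obtain ⟨-, hbij, -, -⟩ :=
      Algebra.finite_maximalSpectrum_and_bijective_localization_of_module_finite (𝒪 := O) A
    classical
    let I₀ : MaximalSpectrum A := ⟨𝔫, h⟩
    obtain ⟨e, he⟩ := hbij.2 (Pi.single I₀ 1)
    have hproj : ∀ J, algebraMap A (Localization.AtPrime J.asIdeal) e =
        (Pi.single I₀ 1 : (J : MaximalSpectrum A) → Localization.AtPrime J.asIdeal) J :=
      fun J => congrFun he J
    have h0 : algebraMap A (Localization.AtPrime I₀.asIdeal) e = 1 := by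
      rw [hproj, Pi.single_eq_same]
    refine ⟨e, hbij.1 (funext fun J => ?_), ?_, fun a ha => ?_, fun ht => absurd ht h.ne_top⟩
    · show algebraMap A (Localization.AtPrime J.asIdeal) (e * e) = algebraMap A _ e
      rw [map_mul, hproj]
      rcases eq_or_ne J I₀ with rfl | hJ
      · simp
      · rw [Pi.single_eq_of_ne hJ, mul_zero]
    · by_contra hmem
      have hu := IsLocalization.map_units (Localization.AtPrime I₀.asIdeal)
        (⟨1 - e, hmem⟩ : I₀.asIdeal.primeCompl)
      rw [map_sub, map_one, h0, sub_self] at hu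
      exact not_isUnit_zero hu
    · obtain ⟨u, hu⟩ := IsLocalization.map_units (Localization.AtPrime I₀.asIdeal)
        (⟨a, ha⟩ : I₀.asIdeal.primeCompl)
      obtain ⟨b, hb⟩ := hbij.2 (Pi.single I₀ ↑u⁻¹)
      refine ⟨b, hbij.1 (funext fun J => ?_)⟩
      show algebraMap A (Localization.AtPrime J.asIdeal) (a * b * e) = algebraMap A _ e
      rw [map_mul, map_mul, hproj, show algebraMap A (Localization.AtPrime J.asIdeal) b =
        (Pi.single I₀ (↑u⁻¹ : Localization.AtPrime I₀.asIdeal) :
          (J : MaximalSpectrum A) → Localization.AtPrime J.asIdeal) J from congrFun hb J]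
      rcases eq_or_ne J I₀ with rfl | hJ
      · rw [Pi.single_eq_same, Pi.single_eq_same, mul_one,
        ← show (u : Localization.AtPrime I₀.asIdeal) =
          algebraMap A _ a from hu, Units.mul_inv]
      · rw [Pi.single_eq_of_ne (M := fun J : MaximalSpectrum A => Localization.AtPrime J.asIdeal)
        hJ,
          Pi.single_eq_of_ne (M := fun J : MaximalSpectrum A => Localization.AtPrime J.asIdeal) hJ,
          mul_zero]
  · exact ⟨0, mul_zero 0, by simp [h], fun a ha => absurd (h ▸ Submodule.mem_top) ha, fun _ => rfl⟩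

end Fermat.Agent.LevelLowering
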