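import Mathlib.RingTheory.Adjoin.Basic
import Mathlib.RingTheory.Ideal.Maps
import Mathlib.RingTheory.LocalRing.MaximalIdeal.Basic
import Fermat.Agent.LevelLowering.FreeIdem

/-!
# Residual systems

The ideal of a system of residual values on generators of an algebra is maximal or the unit
ideal; shifted generators with unit residual value are invertible on its idempotent part.
-/

namespace Fermat.Agent.LevelLowering

open IsLocalRing

variable {O : Type*} [CommRing O] [IsLocalRing O] {A : Type*} [CommRing A] [Algebra O A]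
  {ι : Type*} (g : ι → A) (c : ι → O)

/-- The ideal of the residual values `c` on the generators `g`. -/
def genIdeal : Ideal A :=
  (maximalIdeal O).map (algebraMap O A) ⊔
    Ideal.span (Set.range fun i => g i - algebraMap O A (c i))

theorem sub_mem_genIdeal (i : ι) : g i - algebraMap O A (c i) ∈ genIdeal g c :=
  le_sup_right (a := (maximalIdeal O).map (algebraMap O A)) (Ideal.subset_span ⟨i, rfl⟩)

theorem algebraMap_mem_genIdeal {r : O} (hr : r ∈ maximalIdeal O) :
    algebraMap O A r ∈ genIdeal g c :=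
  le_sup_left (b := Ideal.span (Set.range fun i => g i - algebraMap O A (c i)))
    (Ideal.mem_map_of_mem (algebraMap O A) hr)

theorem exists_scalar_sub_mem (hg : Algebra.adjoin O (Set.range g) = ⊤) (x : A) :
    ∃ r : O, x - algebraMap O A r ∈ genIdeal g c := by
  have hx : x ∈ Algebra.adjoin O (Set.range g) := hg ▸ Algebra.mem_top
  induction hx using Algebra.adjoin_induction with
  | mem x hx =>
    obtain ⟨i, rfl⟩ := hx
    exact ⟨c i, sub_mem_genIdeal g c i⟩
  | algebraMap r => exact ⟨r, by rw [sub_self]; exact zero_mem _⟩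
  | add x y _ _ ihx ihy =>
    obtain ⟨r, hr⟩ := ihx
    obtain ⟨s, hs⟩ := ihy
    refine ⟨r + s, ?_⟩
    rw [map_add, add_sub_add_comm]
    exact add_mem hr hs
  | mul x y _ _ ihx ihy =>
    obtain ⟨r, hr⟩ := ihx
    obtain ⟨s, hs⟩ := ihy
    refine ⟨r * s, ?_⟩
    have h2 := add_mem (Ideal.mul_mem_right y _ hr) (Ideal.mul_mem_left _ (algebraMap O A r) hs)
    convert h2 using 1
    rw [map_mul]
    ring

theorem genIdeal_isMaximal_or_top (hg : Algebra.adjoin O (Set.range g) = ⊤) :
    (genIdeal g c).IsMaximal ∨ genIdeal g c = ⊤ := by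
  by_cases h : genIdeal g c = ⊤
  · exact Or.inr h
  refine Or.inl (Ideal.isMaximal_iff.mpr ⟨fun h1 => h ((Ideal.eq_top_iff_one _).mpr h1),
    fun J x hJ hx hxJ => ?_⟩)
  obtain ⟨r, hr⟩ := exists_scalar_sub_mem g c hg x
  have hrm : r ∉ maximalIdeal O := fun hm => hx (by
    have := add_mem hr (algebraMap_mem_genIdeal g c hm)
    rwa [sub_add_cancel] at this)
  obtain ⟨u, rfl⟩ := notMem_maximalIdeal.mp hrm
  have hJu : algebraMap O A (u : O) ∈ J := by
    have := J.sub_mem hxJ (hJ hr)
    rwa [sub_sub_cancel] at this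
  have := J.mul_mem_left (algebraMap O A (↑u⁻¹ : O)) hJu
  rwa [← map_mul, Units.inv_mul, map_one] at this

/-- A shifted generator with unit residual value is inverted by the idempotent. -/
theorem exists_inv_shift {e : A} (hI : IsIdemAt (genIdeal g c) e) (i : ι) (d : O)
    (hd : IsUnit (c i - d)) : ∃ b, (g i - algebraMap O A d) * b * e = e := by
  by_cases htop : genIdeal g c = ⊤
  · exact ⟨0, by rw [hI.eq_zero_of_top htop, mul_zero]⟩
  refine hI.exists_inv _ fun hmem => ?_
  have h1 := sub_mem hmem (sub_mem_genIdeal g c i)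
  rw [sub_sub_sub_cancel_left, ← map_sub] at h1
  exact htop (Ideal.eq_top_of_isUnit_mem _ h1 (hd.map _))

/-- A family generates the algebra that it spans, seen inside that algebra. -/
theorem adjoin_range_mk_eq_top {R B : Type*} [CommSemiring R] [Semiring B] [Algebra R B]
    {ι : Type*} (f : ι → B) :
    Algebra.adjoin R (Set.range fun i =>
      (⟨f i, Algebra.subset_adjoin ⟨i, rfl⟩⟩ : Algebra.adjoin R (Set.range f))) = ⊤ := by
  have h : (Set.range fun i =>
      (⟨f i, Algebra.subset_adjoin ⟨i, rfl⟩⟩ : Algebra.adjoin R (Set.range f))) =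
        ((↑) : Algebra.adjoin R (Set.range f) → B) ⁻¹' Set.range f :=
    Set.ext fun x => ⟨fun ⟨i, hi⟩ => ⟨i, congrArg Subtype.val hi⟩,
      fun ⟨i, hi⟩ => ⟨i, Subtype.ext hi⟩⟩
  rw [h]
  exact Algebra.adjoin_adjoin_coe_preimage

/-- An element inverted on an idempotent part is surjective there. -/
theorem exists_preimage_of_inv {R B : Type*} [CommRing R] [CommRing B] {M : Type*}
    [AddCommGroup M] [Module R M] (f : B →+* Module.End R M) {t b e : B} (hb : t * b * e = e)
    (he : e * e = e) (x : M) (hx : f e x = x) : ∃ y, f e y = y ∧ f t y = x := by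
  refine ⟨f (b * e) x, ?_, ?_⟩
  · rw [← Module.End.mul_apply, ← map_mul, show e * (b * e) = b * (e * e) by ring, he]
  · rw [← Module.End.mul_apply, ← map_mul, ← mul_assoc, hb, hx]

end Fermat.Agent.LevelLowering
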