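import Mathlib.RingTheory.Henselian
import Mathlib.Tactic.LinearCombination
import Fermat.Agent.LevelLowering.FreeSys

/-!
# Idempotent parts and simple roots

On the part of the idempotent of a maximal ideal a simple residual root of a quadratic
polynomial lifts uniquely; also comparison of residual ideals in algebras with matching
generators.
-/

namespace Fermat.Agent.LevelLowering

open IsLocalRing Polynomial

variable {A : Type*} [CommRing A] {𝔫 : Ideal A} {e : A}

/-- An idempotent congruent to `1` fixes the idempotent of `𝔫`. -/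
theorem IsIdemAt.mul_eq_self (h : IsIdemAt 𝔫 e) {z : A} (hz : z * z * e = z * e)
    (hz1 : 1 - z ∈ 𝔫) : z * e = e := by
  by_cases hzn : z ∈ 𝔫
  · have htop : 𝔫 = ⊤ := by
      rw [Ideal.eq_top_iff_one]
      simpa using add_mem hz1 hzn
    rw [h.eq_zero_of_top htop, mul_zero]
  · obtain ⟨b, hb⟩ := h.exists_inv z hzn
    calc z * e = z * (z * b * e) := by rw [hb]
      _ = b * (z * z * e) := by ring
      _ = b * (z * e) := by rw [hz]
      _ = e := by rw [← mul_assoc, mul_comm b z, hb]

/-- An idempotent in `𝔫` kills the idempotent of `𝔫`. -/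
theorem IsIdemAt.mul_eq_zero (h : IsIdemAt 𝔫 e) {z : A} (hz : z * z * e = z * e)
    (hz1 : z ∈ 𝔫) : z * e = 0 := by
  have h1 := h.mul_eq_self (z := 1 - z)
    (by linear_combination hz) (by simpa using hz1)
  linear_combination -h1

/-- The idempotent at a maximal ideal lies in every other maximal ideal. -/
theorem IsIdemAt.mem_of_ne (h : IsIdemAt 𝔫 e) {J : Ideal A} [J.IsMaximal] (hJ : J ≠ 𝔫)
    (hn : 𝔫 ≠ ⊤) : e ∈ J := by
  obtain ⟨a, haJ, han⟩ : ∃ a, a ∈ J ∧ a ∉ 𝔫 := SetLike.not_le_iff_exists.mp fun hle =>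
    hJ (Ideal.IsMaximal.eq_of_le inferInstance hn hle)
  obtain ⟨b, hb⟩ := h.exists_inv a han
  rw [← hb]
  exact J.mul_mem_right _ (J.mul_mem_right _ haJ)

/-- Characters trivial on the idempotent of a residual system have that system. -/
theorem residue_eq_of_sub_mem {O : Type} [CommRing O] [IsLocalRing O] {A : Type} [CommRing A]
    [Algebra O A] {R : Type} [CommRing R] [IsLocalRing R] [Algebra O R]
    [IsLocalHom (algebraMap O R)] (ev : A →ₐ[O] R) (hint : Algebra.IsIntegral O A) {n : Ideal A}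
    {e x : A} (hI : IsIdemAt n e) (he : ev e = 1) {c : O} (hx : x - algebraMap O A c ∈ n) :
    residue R (ev x) = ResidueField.map (algebraMap O R) (residue O c) := by
  set P := (maximalIdeal R).comap (ev : A →+* R)
  have hover : P.comap (algebraMap O A) = maximalIdeal O := by
    rw [Ideal.comap_comap, show ((ev : A →+* R).comp (algebraMap O A)) = algebraMap O R from
      RingHom.ext ev.commutes]
    exact ((IsLocalRing.local_hom_TFAE (algebraMap O R)).out 0 4 rfl rfl).mp inferInstance
  have : P.IsPrime := Ideal.comap_isPrime _ _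
  have : P.IsMaximal := Ideal.isMaximal_of_isIntegral_of_isMaximal_comap (R := O) P
    (hover ▸ maximalIdeal.isMaximal O)
  have hne : e ∉ P := fun hm => (mem_maximalIdeal _).mp (Ideal.mem_comap.mp hm) (by
    show IsUnit (ev e)
    rw [he]; exact isUnit_one)
  have hPn : P = n := by
    by_contra hne'
    refine hne (hI.mem_of_ne hne' fun htop => hne ?_)
    rw [hI.eq_zero_of_top htop]
    exact zero_mem _
  have hmem : x - algebraMap O A c ∈ P := hPn ▸ hx
  rw [Ideal.mem_comap, RingHom.coe_coe, map_sub, ev.commutes, ← residue_eq_zero_iff, map_sub,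
    sub_eq_zero] at hmem
  rw [hmem, ResidueField.map_residue]

section Complete

variable {O : Type} [CommRing O] [IsLocalRing O] [IsNoetherianRing O]
  [IsAdicComplete (maximalIdeal O) O] {A : Type} [CommRing A] [Algebra O A] [Module.Finite O A]
  {𝔫 : Ideal A} {e : A}

include O in
/-- A simple residual root of `X² - T X + Q` lifts on the idempotent part. -/
theorem IsIdemAt.exists_root (h : IsIdemAt 𝔫 e) (hn : 𝔫.IsMaximal ∨ 𝔫 = ⊤) (T Q r : A)
    (h0 : r * r - T * r + Q ∈ 𝔫) (h1 : 2 * r - T ∉ 𝔫 ∨ 𝔫 = ⊤) :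
    ∃ s, (s * s - T * s + Q) * e = 0 ∧ s - r ∈ 𝔫 := by
  rcases hn with hn | hn
  swap
  · exact ⟨r, by rw [h.eq_zero_of_top hn, mul_zero], by simp [hn]⟩
  replace h1 := h1.resolve_right hn.ne_top
  obtain ⟨-, hbij, -, hcomp⟩ :=
    Algebra.finite_maximalSpectrum_and_bijective_localization_of_module_finite (𝒪 := O) A
  classical
  let I₀ : MaximalSpectrum A := ⟨𝔫, hn⟩
  have := hcomp I₀
  let L := Localization.AtPrime I₀.asIdeal
  let φ : A →+* L := algebraMap A L
  have hmem : ∀ x, φ x ∈ maximalIdeal L ↔ x ∈ 𝔫 := fun x =>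
    IsLocalization.AtPrime.to_map_mem_maximal_iff L I₀.asIdeal x
  let f : L[X] := X ^ 2 - (C (φ T) * X - C (φ Q))
  have hf : f.Monic := monic_X_pow_sub (degree_sub_le _ _ |>.trans (max_le
    (degree_C_mul_X_le _) (degree_C_le.trans zero_le_one)) |>.trans_lt (by norm_num))
  have he0 : f.eval (φ r) = φ (r * r - T * r + Q) := by
    simp [f, pow_two]; ring
  have he1 : f.derivative.eval (φ r) = φ (2 * r - T) := by
    simp [f, two_mul]
    rw [eval_sub, eval_mul, eval_add, eval_one, eval_X, eval_C]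
    ring
  obtain ⟨s', hs', hs''⟩ := HenselianRing.is_henselian (I := maximalIdeal L) f hf (φ r)
    (by rw [he0, hmem]; exact h0)
    (by
      rw [he1]
      refine (IsUnit.map (Ideal.Quotient.mk (maximalIdeal L)) ?_)
      exact notMem_maximalIdeal.mp fun hm => h1 ((hmem _).mp hm))
  obtain ⟨s, hs⟩ := hbij.2 (Pi.single I₀ s')
  have hs0 : φ s = s' := (congrFun hs I₀).trans (Pi.single_eq_same _ _)
  refine ⟨s, hbij.1 (funext fun J => ?_), (hmem _).mp (by rw [map_sub, hs0]; exact hs'')⟩
  show algebraMap A (Localization.AtPrime J.asIdeal) ((s * s - T * s + Q) * e) =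
    algebraMap A (Localization.AtPrime J.asIdeal) 0
  rw [map_zero, map_mul]
  rcases eq_or_ne J I₀ with rfl | hJ
  · have : φ (s * s - T * s + Q) = 0 := by
      rw [map_add, map_sub, map_mul, map_mul, hs0, ← hs'.eq_zero]
      simp [f, pow_two]; ring
    rw [show algebraMap A (Localization.AtPrime I₀.asIdeal) (s * s - T * s + Q) = 0 from this,
      zero_mul]
  · have hJ' : J.asIdeal ≠ 𝔫 := fun h' => hJ (MaximalSpectrum.ext h')
    have := J.isMaximal
    have heJ := (IsLocalization.AtPrime.to_map_mem_maximal_iff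
      (Localization.AtPrime J.asIdeal) J.asIdeal e).mpr (h.mem_of_ne hJ' hn.ne_top)
    have hu : IsUnit (1 - algebraMap A (Localization.AtPrime J.asIdeal) e) :=
      IsLocalRing.isUnit_one_sub_self_of_mem_nonunits _ heJ
    have h0' : algebraMap A (Localization.AtPrime J.asIdeal) e *
        (1 - algebraMap A (Localization.AtPrime J.asIdeal) e) = 0 := by
      rw [mul_sub, mul_one, ← map_mul, h.idem, sub_self]
    rw [hu.mul_left_eq_zero.mp h0', mul_zero]

end Complete

/-- Every element of a generated algebra has a partner, and elements of the residual ideal have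
partners in the ideal. -/
theorem exists_partner {O A B : Type*} [CommRing O] [IsLocalRing O] [CommRing A] [Algebra O A]
    [CommRing B] [Algebra O B] {ι : Type*} (g : ι → A) (hg : Algebra.adjoin O (Set.range g) = ⊤)
    (c : ι → O) (𝔟 : Ideal B) (hm : ∀ r ∈ maximalIdeal O, algebraMap O B r ∈ 𝔟)
    (R : A → B → Prop) (hmap : ∀ r, R (algebraMap O A r) (algebraMap O B r))
    (hadd : ∀ x y x' y', R x x' → R y y' → R (x + y) (x' + y'))
    (hmul : ∀ x y x' y', R x x' → R y y' → R (x * y) (x' * y'))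
    (hgen : ∀ i, ∃ b, R (g i) b ∧ b - algebraMap O B (c i) ∈ 𝔟) :
    (∀ a, ∃ b, R a b) ∧ ∀ a ∈ genIdeal g c, ∃ b ∈ 𝔟, R a b := by
  have hall : ∀ a, ∃ b, R a b := by
    intro a
    have ha : a ∈ Algebra.adjoin O (Set.range g) := hg ▸ Algebra.mem_top
    induction ha using Algebra.adjoin_induction with
    | mem x hx =>
      obtain ⟨i, rfl⟩ := hx
      exact (hgen i).imp fun b hb => hb.1
    | algebraMap r => exact ⟨_, hmap r⟩
    | add x y _ _ hx hy =>
      exact ⟨_, hadd _ _ _ _ hx.choose_spec hy.choose_spec⟩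
    | mul x y _ _ hx hy =>
      exact ⟨_, hmul _ _ _ _ hx.choose_spec hy.choose_spec⟩
  let P : Ideal A :=
    { carrier := {a | ∃ b ∈ 𝔟, R a b}
      zero_mem' := ⟨0, zero_mem _, by simpa using hmap 0⟩
      add_mem' := fun ⟨b, hb, hb'⟩ ⟨d, hd, hd'⟩ => ⟨b + d, add_mem hb hd, hadd _ _ _ _ hb' hd'⟩
      smul_mem' := fun x a ⟨b, hb, hb'⟩ =>
        ⟨(hall x).choose * b, Ideal.mul_mem_left _ _ hb,
          hmul _ _ _ _ (hall x).choose_spec hb'⟩ }
  have hle : genIdeal g c ≤ P := by
    refine sup_le (Ideal.map_le_iff_le_comap.mpr fun r hr => ⟨_, hm r hr, hmap r⟩)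
      (Ideal.span_le.mpr ?_)
    rintro _ ⟨i, rfl⟩
    obtain ⟨b, hb, hb'⟩ := hgen i
    exact ⟨_, hb', by simpa [sub_eq_add_neg] using hadd _ _ _ _ hb (hmap (-c i))⟩
  exact ⟨hall, fun a ha => hle ha⟩

end Fermat.Agent.LevelLowering
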