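import Fermat.Agent.LevelLowering.FreeLevel
import Fermat.Agent.LevelLowering.FreeRoot

/-!
# The Hecke algebra at the bottom level

The subalgebra of endomorphisms of `Hom_cl(Γ₀(N), O)` generated by the operators at a set of
primes, the idempotent of a residual system in it, and the projection from the joint algebra of
`Γ_Ψ` and `Γ₀(N)`, which carries the joint idempotent to this one.
-/

noncomputable section

namespace Fermat.Agent.LevelLowering

open scoped MatrixGroups IsMulCommutative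
open CongruenceSubgroup IsLocalRing Fermat.Agent.Grp Fermat.Agent.Ihara

variable (O : Type) [CommRing O] (N : ℕ) [NeZero N] (𝓟 : Set Nat.Primes)

/-- A hom matching generators and residual values carries idempotent to idempotent. -/
theorem IsIdemAt.map_gen {O A B : Type*} [CommRing O] [IsLocalRing O] [CommRing A] [Algebra O A]
    [CommRing B] [Algebra O B] {ι κ : Type*} {g : ι → A} {c : ι → O} {h : κ → B} {d : κ → O}
    (hg : Algebra.adjoin O (Set.range g) = ⊤) (hh : Algebra.adjoin O (Set.range h) = ⊤)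
    (f : A →ₐ[O] B) (hfg : ∀ i, f (g i) - algebraMap O B (c i) ∈ genIdeal h d)
    (hgh : ∀ j, ∃ i, f (g i) = h j ∧ c i - d j ∈ maximalIdeal O) {e : A}
    (he : IsIdemAt (genIdeal g c) e) : IsIdemAt (genIdeal h d) (f e) := by
  obtain ⟨-, hfwd⟩ := exists_partner g hg c (genIdeal h d)
    (fun r hr => algebraMap_mem_genIdeal h d hr) (fun a b => f a = b) (fun r => f.commutes r)
    (fun x y x' y' h1 h2 => by rw [map_add, h1, h2])
    (fun x y x' y' h1 h2 => by rw [map_mul, h1, h2]) (fun i => ⟨_, rfl, hfg i⟩)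
  obtain ⟨hsurj, hbwd⟩ := exists_partner h hh d (genIdeal g c)
    (fun r hr => algebraMap_mem_genIdeal g c hr) (fun b a => f a = b) (fun r => f.commutes r)
    (fun x y x' y' h1 h2 => by rw [map_add, h1, h2])
    (fun x y x' y' h1 h2 => by rw [map_mul, h1, h2]) (fun j => by
      obtain ⟨i, hi, hcd⟩ := hgh j
      refine ⟨g i, hi, ?_⟩
      have := add_mem (sub_mem_genIdeal g c i) (algebraMap_mem_genIdeal g c hcd)
      rwa [map_sub, sub_add_sub_cancel] at this)
  have hmap : ∀ x ∈ genIdeal g c, f x ∈ genIdeal h d := fun x hx => by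
    obtain ⟨b, hb, rfl⟩ := hfwd x hx
    exact hb
  refine ⟨by rw [← map_mul, he.idem], ?_, fun a ha => ?_, fun htop => ?_⟩
  · rw [← map_one f, ← map_sub]
    exact hmap _ he.one_sub_mem
  · obtain ⟨x, rfl⟩ := hsurj a
    obtain ⟨b, hb⟩ := he.exists_inv x fun hx => ha (hmap x hx)
    exact ⟨f b, by rw [← map_mul, ← map_mul, hb]⟩
  · obtain ⟨z, hz, hz'⟩ := hbwd 1 (htop ▸ Submodule.mem_top)
    by_cases hn : genIdeal g c = ⊤
    · rw [he.eq_zero_of_top hn, map_zero]
    · obtain ⟨b, hb⟩ := he.exists_inv (1 - z) fun h1 => hn ((Ideal.eq_top_iff_one _).mpr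
        (by simpa using add_mem h1 hz))
      rw [← hb, map_mul, map_mul, map_sub, map_one, hz', sub_self, zero_mul, zero_mul]

/-- Endomorphisms of the lattice at level `N`. -/
abbrev baseEnd : Type := Module.End O (clHoms O (Gamma0 N) O)

instance instRingBaseEnd : Ring (baseEnd O N) := inferInstance

/- Named copies of the inherited instances keep the terms mentioning `baseAlg` small. -/
instance instSemiringBaseEnd : Semiring (baseEnd O N) := inferInstance

instance instAlgebraBaseEnd : Algebra O (baseEnd O N) := inferInstance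

/-- The operators of the primes in `𝓟`. -/
def baseGen (i : 𝓟) : baseEnd O N :=
  haveI : NeZero (i.1 : ℕ) := ⟨i.1.2.ne_zero⟩
  baseOp O N i.1

/-- The Hecke algebra at level `N`. -/
abbrev baseAlg : Subalgebra O (baseEnd O N) :=
  Algebra.adjoin O (Set.range (baseGen O N 𝓟))

instance instIsMulCommutative_baseAlg : IsMulCommutative (baseAlg O N 𝓟) := by
  refine Algebra.isMulCommutative_adjoin O ?_
  rintro _ ⟨x, rfl⟩ _ ⟨y, rfl⟩
  exact baseOp_comm O (1 : (ZMod N)ˣ →* PUnit.{1}) x.1 y.1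

instance instCommRing_baseAlg : CommRing (baseAlg O N 𝓟) := inferInstance

/-- The generators as elements of the algebra. -/
def baseElt (i : 𝓟) : baseAlg O N 𝓟 := ⟨baseGen O N 𝓟 i, Algebra.subset_adjoin ⟨i, rfl⟩⟩

theorem adjoin_baseElt : Algebra.adjoin O (Set.range (baseElt O N 𝓟)) = ⊤ :=
  adjoin_range_mk_eq_top (baseGen O N 𝓟)

variable [IsLocalRing O] (a : Nat.Primes → ResidueField O)

/-- The ideal of the residual system `a`. -/
def baseIdeal : Ideal (baseAlg O N 𝓟) :=
  genIdeal (baseElt O N 𝓟) fun i => liftSys O a i.1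

variable [IsNoetherianRing O] [IsAdicComplete (maximalIdeal O) O]

omit [IsLocalRing O] [IsAdicComplete (maximalIdeal O) O] in
/-- The algebra at `Γ₀(N)` is finite over the coefficients. -/
theorem finite_baseAlg : Module.Finite O (baseAlg O N 𝓟) := by
  obtain ⟨h3, h4⟩ := free_clHoms (K := Gamma0 N) (neg_one_mem_Gamma0 N) O
  have : IsNoetherian O (baseEnd O N) :=
    isNoetherian_of_isNoetherianRing_of_finite O _
  exact Module.Finite.of_fg (IsNoetherian.noetherian (baseAlg O N 𝓟).toSubmodule)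

/-- The idempotent of the residual system. -/
def baseIdem : baseAlg O N 𝓟 :=
  haveI := finite_baseAlg O N 𝓟
  (exists_isIdemAt (O := O) _ _
    (genIdeal_isMaximal_or_top (baseElt O N 𝓟) (fun i => liftSys O a i.1)
      (adjoin_baseElt O N 𝓟))).choose

theorem isIdemAt_baseIdem : IsIdemAt (baseIdeal O N 𝓟 a) (baseIdem O N 𝓟 a) :=
  haveI := finite_baseAlg O N 𝓟
  (exists_isIdemAt (O := O) _ _
    (genIdeal_isMaximal_or_top (baseElt O N 𝓟) (fun i => liftSys O a i.1)
      (adjoin_baseElt O N 𝓟))).choose_spec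

attribute [irreducible] baseIdem

section Level

variable {N} {Δ : Type} [CommGroup Δ] [Fintype Δ] (Ψ : (ZMod N)ˣ →* Δ)
  (hΨ : Function.Surjective Ψ) (hneg : (-1 : SL(2, ℤ)) ∈ GammaPsi Ψ)

omit [IsLocalRing O] [IsNoetherianRing O] [IsAdicComplete (maximalIdeal O) O] in
theorem snd_mem_baseAlg {x : levelEnd O Ψ} (hx : x ∈ levelAlg O Ψ hΨ hneg 𝓟) :
    x.2 ∈ baseAlg O N 𝓟 := by
  have := Algebra.adjoin_le (S := (baseAlg O N 𝓟).comap (AlgHom.snd O _ _))
    (s := Set.range (levelGen O Ψ hΨ hneg 𝓟)) ?_ hx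
  · exact this
  rintro _ ⟨(i | δ), rfl⟩
  · exact Algebra.subset_adjoin ⟨i, rfl⟩
  · exact one_mem (baseAlg O N 𝓟)

/-- Projection of the joint algebra to level `N`. -/
def levelToBase : levelAlg O Ψ hΨ hneg 𝓟 →ₐ[O] baseAlg O N 𝓟 :=
  AlgHom.codRestrict ((AlgHom.snd O _ _).comp (levelAlg O Ψ hΨ hneg 𝓟).val) _
    fun x => snd_mem_baseAlg O 𝓟 Ψ hΨ hneg x.2

/-- The joint idempotent projects to the idempotent at level `N`. -/
theorem levelIdem_snd :
    (levelIdem O Ψ hΨ hneg 𝓟 a).1.2 = (baseIdem O N 𝓟 a).1 := by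
  have h := IsIdemAt.map_gen (adjoin_levelElt O Ψ hΨ hneg 𝓟) (adjoin_baseElt O N 𝓟)
    (h := baseElt O N 𝓟) (d := fun i => liftSys O a i.1) (levelToBase O 𝓟 Ψ hΨ hneg)
    (c := genVal O Δ 𝓟 a) ?_ ?_ (isIdemAt_levelIdem O Ψ hΨ hneg 𝓟 a)
  · exact congrArg Subtype.val (h.unique (isIdemAt_baseIdem O N 𝓟 a))
  · rintro (i | δ)
    · exact sub_mem_genIdeal (baseElt O N 𝓟) (fun i => liftSys O a i.1) i
    · convert zero_mem (genIdeal (baseElt O N 𝓟) fun i => liftSys O a i.1)
      rw [sub_eq_zero]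
      exact (map_one (algebraMap O (baseAlg O N 𝓟))).symm
  · exact fun j => ⟨.inl j, rfl, by simp [genVal]⟩

end Level

end Fermat.Agent.LevelLowering
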