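import Fermat.Agent.LevelLowering.JacobianStructure

/-!
# Points and coordinates of `J₀(N)[pⁿ]`

A model of the torsion of `J₀(N)` identifies `J₀(N)[pⁿ]` with `(ℤ/pⁿ)^{rk}` compatibly with Galois
and with the Hecke operators.
-/

noncomputable section

namespace Fermat.Agent.LevelLowering

open Attach ModularCurve

local notation "GQ" => (AlgebraicClosure ℚ ≃ₐ[ℚ] AlgebraicClosure ℚ)

variable {N : ℕ} [NeZero N] {p : ℕ} [hp : Fact p.Prime] (M : TorsionModel N p)

theorem neZero_pow (p : ℕ) [hp : Fact p.Prime] (n : ℕ) : NeZero (p ^ n) :=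
  ⟨pow_ne_zero _ hp.out.ne_zero⟩

/-- The point with the given coordinates. -/
def coordPt (n : ℕ) : (Fin M.rk → ZMod (p ^ n)) →+ JZero N where
  toFun w := M.pt n fun i => ((w i).val : ℤ)
  map_zero' := by simp [← Pi.zero_def]
  map_add' v w := by
    have := neZero_pow p n
    rw [← map_add, M.pt_eq_iff]
    funext i
    simp [TorsionModel.redVec]

theorem coordPt_redVec (n : ℕ) (v : Fin M.rk → ℤ) : coordPt M n (M.redVec n v) = M.pt n v := by
  have := neZero_pow p n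
  show M.pt n _ = _
  rw [M.pt_eq_iff]
  funext i
  simp [TorsionModel.redVec]

theorem redVec_surjective (n : ℕ) (w : Fin M.rk → ZMod (p ^ n)) :
    ∃ v, M.redVec n v = w := by
  have := neZero_pow p n
  exact ⟨fun i => ((w i).val : ℤ), funext fun i => by simp [TorsionModel.redVec]⟩

theorem coordPt_injective (n : ℕ) : Function.Injective (coordPt M n) := by
  intro v w h
  obtain ⟨v, rfl⟩ := redVec_surjective M n v
  obtain ⟨w, rfl⟩ := redVec_surjective M n w
  rwa [coordPt_redVec, coordPt_redVec, M.pt_eq_iff] at h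

theorem mem_range_coordPt (n : ℕ) (x : JZero N) : x ∈ (coordPt M n).range ↔ p ^ n • x = 0 := by
  refine ⟨?_, fun h => ?_⟩
  · rintro ⟨w, rfl⟩
    exact M.pt_torsion n _
  · obtain ⟨v, rfl⟩ := M.exists_pt_eq n x h
    exact ⟨_, coordPt_redVec M n v⟩

theorem smul_coordPt (n : ℕ) (g : GQ) (w : Fin M.rk → ZMod (p ^ n)) :
    g • coordPt M n w = coordPt M n (galAct M n g w) := by
  obtain ⟨v, rfl⟩ := redVec_surjective M n w
  rw [coordPt_redVec, M.galMat_spec, ← coordPt_redVec, M.redVec_mulVec]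
  rfl

theorem heckeOperatorBar_coordPt {S : Finset ℕ}
    (hNS : ∀ q, q.Prime → q ∣ N → q ∈ (↑S : Set ℕ)) (n : ℕ) {ℓ : ℕ} (hℓ : ℓ.Prime)
    (hℓN : ¬ ℓ ∣ N) (hℓS : ℓ ∉ (↑S : Set ℕ)) (w : Fin M.rk → ZMod (p ^ n)) :
    heckeOperatorBar N ⟨ℓ, hℓ⟩ (coordPt M n w) =
      coordPt M n (heckeAct M hNS n (CuspForm.heckeAlgebra.T hℓ hℓN hℓS) w) := by
  obtain ⟨v, rfl⟩ := redVec_surjective M n w
  rw [coordPt_redVec, M.pt_hecke ⟨ℓ, hℓ⟩ hℓN, ← coordPt_redVec, M.redVec_mulVec]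
  rfl

end Fermat.Agent.LevelLowering
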