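import Mathlib.LinearAlgebra.FiniteDimensional.Defs
import Mathlib.LinearAlgebra.Matrix.NonsingularInverse
import Mathlib.LinearAlgebra.Matrix.ToLin
import Mathlib.RingTheory.LocalRing.ResidueField.Basic
import Mathlib.RingTheory.Nakayama

/-!
# Exactness of a square-zero operator lifts from the residue field

A square-zero endomorphism of a finite free module over a local ring with `ker = im` modulo the
maximal ideal has `ker = im`.
-/

namespace Fermat.Agent.LevelLowering

open IsLocalRing

variable {S : Type*} [CommRing S] [IsLocalRing S]

/-- Vectors with independent residues are independent. -/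
lemma linearIndependent_of_residue {ι κ : Type*} [Finite ι] [Finite κ] (v : κ → ι → S)
    (hv : LinearIndependent (ResidueField S) fun j i => residue S (v j i)) :
    LinearIndependent S v := by
  classical
  cases nonempty_fintype ι
  cases nonempty_fintype κ
  obtain ⟨g, hg⟩ := LinearMap.exists_leftInverse_of_injective
    (Fintype.linearCombination (ResidueField S) fun j i => residue S (v j i))
    (LinearMap.ker_eq_bot.mpr (linearIndependent_iff_injective_fintypeLinearCombination.mp hv))
  choose B hB using fun (j : κ) (i : ι) =>
    residue_surjective (R := S) (LinearMap.toMatrix' g j i)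
  let W : Matrix ι κ S := Matrix.of fun i j => v j i
  let Bm : Matrix κ ι S := Matrix.of B
  have hWk : W.map (residue S) =
      LinearMap.toMatrix' (Fintype.linearCombination (ResidueField S) fun j i =>
        residue S (v j i)) := by
    ext i j
    rw [LinearMap.toMatrix'_apply, Fintype.linearCombination_apply, Finset.sum_apply,
      Finset.sum_eq_single j (fun c _ hc => by simp [hc]) (fun h => absurd (Finset.mem_univ j) h)]
    simp [W]
  have hBk : Bm.map (residue S) = LinearMap.toMatrix' g := by ext j i; simp [Bm, hB]
  have hdet : IsUnit (Bm * W).det := by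
    refine isUnit_of_map_unit (residue S) _ ?_
    rw [RingHom.map_det, RingHom.mapMatrix_apply, Matrix.map_mul, hBk, hWk,
      ← LinearMap.toMatrix'_comp, hg, LinearMap.toMatrix'_id, Matrix.det_one]
    exact isUnit_one
  rw [Fintype.linearIndependent_iff]
  intro a ha
  have hW : W.mulVec a = 0 := by
    ext i
    have := congrFun ha i
    simpa [W, Matrix.mulVec, dotProduct, Finset.sum_apply, mul_comm] using this
  have h0 : (Bm * W).mulVec a = 0 := by rw [← Matrix.mulVec_mulVec, hW, Matrix.mulVec_zero]
  exact congrFun (Matrix.mulVec_injective_of_isUnit ((Matrix.isUnit_iff_isUnit_det _).mpr hdet)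
    (h0.trans (Matrix.mulVec_zero _).symm))

/-- **Exactness lifts from the residue field.** -/
theorem exact_of_exact_residue {ι : Type*} [Finite ι] (N : (ι → S) →ₗ[S] (ι → S))
    (hN : ∀ v, N (N v) = 0)
    (h : ∀ v, (∀ i, N v i ∈ maximalIdeal S) → ∃ y, ∀ i, (v - N y) i ∈ maximalIdeal S) :
    ∀ v, N v = 0 → ∃ y, N y = v := by
  classical
  cases nonempty_fintype ι
  set res : (ι → S) → (ι → ResidueField S) := fun v i => residue S (v i)
  obtain ⟨b, hb, hspan, hli⟩ := exists_linearIndependent (ResidueField S) (Set.range (res ∘ N))
  have : Finite b := hli.finite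
  choose e he using fun j : b => hb j.2
  have hindep : LinearIndependent S fun j : b => N (e j) :=
    linearIndependent_of_residue _ (by
      have heq : (fun (j : b) i => residue S (N (e j) i)) = Subtype.val := funext fun j => he j
      rw [heq]; exact hli)
  cases nonempty_fintype b
  -- the image of `N` and the `e j` span modulo the maximal ideal
  set T : Submodule S (ι → S) := LinearMap.range N ⊔ Submodule.span S (Set.range e)
  have hT : ∀ v : ι → S, v ∈ T ⊔ maximalIdeal S • (⊤ : Submodule S (ι → S)) := by
    intro v
    have hmem : res (N v) ∈ Submodule.span (ResidueField S) b :=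
      hspan ▸ Submodule.subset_span ⟨v, rfl⟩
    rw [← Subtype.range_coe (s := b), Submodule.mem_span_range_iff_exists_fun] at hmem
    obtain ⟨c, hc⟩ := hmem
    choose a ha using fun j => residue_surjective (R := S) (c j)
    obtain ⟨y, hy⟩ := h (v - ∑ j, a j • e j) fun i => by
      rw [← residue_eq_zero_iff]
      have h1 := congrFun hc i
      simp only [Finset.sum_apply, Pi.smul_apply, smul_eq_mul] at h1
      simp only [map_sub, map_sum, map_smul, Pi.sub_apply, Finset.sum_apply, Pi.smul_apply,
        smul_eq_mul, map_mul, ha]
      rw [sub_eq_zero]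
      refine h1.symm.trans (Finset.sum_congr rfl fun j _ => ?_)
      rw [← congrFun (he j) i]
      rfl
    have hw : v - ∑ j, a j • e j - N y ∈ maximalIdeal S • (⊤ : Submodule S (ι → S)) := by
      rw [pi_eq_sum_univ' (v - ∑ j, a j • e j - N y)]
      exact Submodule.sum_mem _ fun i _ => Submodule.smul_mem_smul (hy i) trivial
    have hsum : N y + ∑ j, a j • e j ∈ T :=
      add_mem (Submodule.mem_sup_left ⟨y, rfl⟩) (Submodule.mem_sup_right
        (Submodule.sum_mem _ fun j _ => Submodule.smul_mem _ _ (Submodule.subset_span ⟨j, rfl⟩)))
    have := add_mem (Submodule.mem_sup_left hsum)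
      (Submodule.mem_sup_right hw : _ ∈ T ⊔ maximalIdeal S • (⊤ : Submodule S (ι → S)))
    convert this using 1
    abel
  have htop : (⊤ : Submodule S (ι → S)) ≤ T :=
    Submodule.le_of_le_smul_of_le_jacobson_bot Module.Finite.fg_top
      (maximalIdeal_le_jacobson _) fun v _ => hT v
  intro v hv
  obtain ⟨p, ⟨y, rfl⟩, q, hq, rfl⟩ := Submodule.mem_sup.mp (htop (x := v) trivial)
  obtain ⟨a, rfl⟩ := (Submodule.mem_span_range_iff_exists_fun _).mp hq
  have ha : ∀ j, a j = 0 := by
    apply Fintype.linearIndependent_iff.mp hindep
    simpa [map_sum, hN] using hv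
  exact ⟨y, by simp [ha]⟩

end Fermat.Agent.LevelLowering
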