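import Mathlib.RingTheory.Ideal.GoingUp
import Mathlib.RingTheory.KrullDimension.NonZeroDivisors
import Mathlib.RingTheory.KrullDimension.PID
import Mathlib.RingTheory.KrullDimension.Regular
import Fermat.Agent.Patching.PowerSeriesRegular

/-!
# Krull dimension lemmas for patching

Integral extensions preserve the dimension, a non-zero ideal of a domain lowers it, and
`dim O⟦X₁, …, X_n⟧ = n + 1` for a discrete valuation ring `O`.
-/

namespace Fermat.Agent.LevelLowering

open Fermat.Agent.Patching

/-- An injective integral extension does not lower the Krull dimension. -/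
lemma ringKrullDim_le_of_integral_injective {S A : Type*} [CommRing S] [CommRing A]
    [Algebra S A] [Algebra.IsIntegral S A] (hinj : Function.Injective (algebraMap S A)) :
    ringKrullDim S ≤ ringKrullDim A := by
  refine iSup_le fun s => ?_
  have key : ∃ t : LTSeries (PrimeSpectrum A), t.length = s.length ∧
      t.last.asIdeal.comap (algebraMap S A) = s.last.asIdeal := by
    induction s using RelSeries.inductionOn' with
    | singleton p =>
      obtain ⟨Q, -, hQ, hQ'⟩ := Ideal.exists_ideal_over_prime_of_isIntegral p.asIdeal (⊥ : Ideal A)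
        (by rw [← RingHom.ker_eq_comap_bot, (RingHom.injective_iff_ker_eq_bot _).mp hinj]
            exact bot_le)
      exact ⟨RelSeries.singleton _ ⟨Q, hQ⟩, rfl, by simpa using hQ'⟩
    | snoc s p hlt ih =>
      obtain ⟨t, hlen, hlast⟩ := ih
      have hlt' : s.last.asIdeal < p.asIdeal := hlt
      obtain ⟨Q, hQ1, hQ, hQ'⟩ := Ideal.exists_ideal_over_prime_of_isIntegral p.asIdeal
        t.last.asIdeal (hlast.le.trans hlt'.le)
      have hstrict : t.last < (⟨Q, hQ⟩ : PrimeSpectrum A) := by
        refine lt_of_le_of_ne (show t.last.asIdeal ≤ Q from hQ1) fun he => hlt'.ne ?_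
        rw [← hlast, ← hQ', show t.last.asIdeal = Q from congrArg PrimeSpectrum.asIdeal he]
      refine ⟨t.snoc ⟨Q, hQ⟩ hstrict, ?_, by simp [hQ']⟩
      simp [hlen]
  obtain ⟨t, hlen, -⟩ := key
  rw [← hlen]
  exact le_iSup (fun u : LTSeries (PrimeSpectrum A) => ((u.length : ℕ∞) : WithBot ℕ∞)) t

/-- An integral extension does not raise the Krull dimension. -/
lemma ringKrullDim_le_of_integral {S A : Type*} [CommRing S] [CommRing A] [Algebra S A]
    [Algebra.IsIntegral S A] : ringKrullDim A ≤ ringKrullDim S :=
  Order.krullDim_le_of_strictMono (PrimeSpectrum.comap (algebraMap S A)) fun p q h =>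
    Ideal.IsIntegral.comap_lt_comap (I := p.asIdeal) (J := q.asIdeal) h

/-- In a domain, a nonzero ideal cuts down the dimension. -/
lemma ringKrullDim_quotient_succ_le_of_ne_bot {R : Type*} [CommRing R] [IsDomain R] {I : Ideal R}
    (hI : I ≠ ⊥) : ringKrullDim (R ⧸ I) + 1 ≤ ringKrullDim R := by
  obtain ⟨x, hx, hx0⟩ := Submodule.exists_mem_ne_zero_of_ne_bot hI
  refine le_trans (add_le_add_left ?_ 1)
    (ringKrullDim_quotient_succ_le_of_nonZeroDivisor (mem_nonZeroDivisors_of_ne_zero hx0))
  exact ringKrullDim_le_of_surjective (Ideal.Quotient.factor (Ideal.span_le.mpr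
    (by simpa using hx)))
    (Ideal.Quotient.factor_surjective _)

/-- `dim O⟦X₁, …, X_n⟧ = n + 1` for a DVR `O`. -/
lemma ringKrullDim_powerSeries (O : Type) [CommRing O] [IsDomain O] [IsDiscreteValuationRing O] :
    ∀ n : ℕ, ringKrullDim (MvPowerSeries (Fin n) O) = ((n + 1 : ℕ) : WithBot ℕ∞)
  | 0 => by
    rw [ringKrullDim_eq_of_ringEquiv (MvPowerSeries.isEmptyEquiv (Fin 0) O).toRingEquiv,
      IsPrincipalIdealRing.ringKrullDim_eq_one O (IsDiscreteValuationRing.not_isField O)]
    rfl
  | n + 1 => by
    have hx : (MvPowerSeries.X 0 : MvPowerSeries (Fin (n + 1)) O) ≠ 0 := fun h => by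
      classical
      simpa using congrArg (MvPowerSeries.coeff (Finsupp.single 0 1)) h
    have hmem : (MvPowerSeries.X 0 : MvPowerSeries (Fin (n + 1)) O) ∈
        IsLocalRing.maximalIdeal _ := by
      simp [MvPowerSeries.isUnit_iff_constantCoeff]
    rw [← ringKrullDim_quotient_span_singleton_succ_eq_ringKrullDim
      (IsSMulRegular.of_ne_zero hx) hmem,
      ringKrullDim_eq_of_ringEquiv ((Ideal.quotEquivOfEq (ker_dropFirst (O := O) n).symm).trans
        (RingHom.quotientKerEquivOfSurjective (dropFirst_surjective n))),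
      ringKrullDim_powerSeries O n]
    push_cast
    rfl

end Fermat.Agent.LevelLowering
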