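import Mathlib.Data.Finsupp.Weight
import Mathlib.Order.Filter.Ultrafilter.Basic
import Mathlib.RingTheory.AdicCompletion.Basic
import Mathlib.RingTheory.DiscreteValuationRing.Basic
import Mathlib.RingTheory.Ideal.Quotient.Index
import Mathlib.RingTheory.LocalRing.ResidueField.Basic
import Mathlib.RingTheory.MvPowerSeries.Basic

/-!
# Ultrafilter limits for patching

Patching by pigeonhole replaced by a non-principal ultrafilter on `ℕ`: a sequence with values in a
finite set has a unique limit, and a compatible system modulo the truncation ideals glues in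
`O⟦X₁, …, X_D⟧`.
-/

namespace Fermat.Agent.LevelLowering

open Filter

/-- The ultrafilter used for patching. -/
noncomputable def patchUltra : Ultrafilter ℕ := Filter.hyperfilter ℕ

lemma eventually_patchUltra_of_atTop {P : ℕ → Prop} (h : ∀ᶠ n in atTop, P n) :
    ∀ᶠ n in (patchUltra : Filter ℕ), P n := by
  rw [← Nat.cofinite_eq_atTop] at h
  exact h.filter_mono hyperfilter_le_cofinite

lemma exists_eventually_eq {α : Type*} [Finite α] (f : ℕ → α) :
    ∃ a, ∀ᶠ n in (patchUltra : Filter ℕ), f n = a := by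
  obtain ⟨a, ha⟩ := (patchUltra.map f).eq_pure_of_finite
  refine ⟨a, ?_⟩
  have : {a} ∈ patchUltra.map f := by rw [ha]; exact Ultrafilter.mem_pure.mpr rfl
  exact this

/-- The eventual value of a sequence in a finite set. -/
noncomputable def uval {α : Type*} [Finite α] (f : ℕ → α) : α :=
  (exists_eventually_eq f).choose

lemma uval_spec {α : Type*} [Finite α] (f : ℕ → α) :
    ∀ᶠ n in (patchUltra : Filter ℕ), f n = uval f :=
  (exists_eventually_eq f).choose_spec

variable (𝒪 : Type) [CommRing 𝒪] [IsLocalRing 𝒪] (D : ℕ)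

/-- Truncation ideal: coefficients of degree `< k` are divisible by `𝔪 ^ k`. -/
def trunc (k : ℕ) : Ideal (MvPowerSeries (Fin D) 𝒪) where
  carrier := {f | ∀ d : Fin D →₀ ℕ, d.degree < k →
    MvPowerSeries.coeff d f ∈ IsLocalRing.maximalIdeal 𝒪 ^ k}
  add_mem' hf hg d hd := by rw [map_add]; exact add_mem (hf d hd) (hg d hd)
  zero_mem' d _ := by simp
  smul_mem' g f hf d hd := by
    classical
    rw [smul_eq_mul, MvPowerSeries.coeff_mul]
    refine sum_mem fun x hx => Ideal.mul_mem_left _ _ (hf x.2 ?_)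
    rw [Finset.mem_antidiagonal] at hx
    rw [← hx, map_add] at hd
    omega

lemma mem_trunc {k : ℕ} {f : MvPowerSeries (Fin D) 𝒪} :
    f ∈ trunc 𝒪 D k ↔ ∀ d : Fin D →₀ ℕ, d.degree < k →
      MvPowerSeries.coeff d f ∈ IsLocalRing.maximalIdeal 𝒪 ^ k := Iff.rfl

lemma trunc_antitone {k l : ℕ} (h : k ≤ l) : trunc 𝒪 D l ≤ trunc 𝒪 D k :=
  fun _ hf d hd => Ideal.pow_le_pow_right h (hf d (lt_of_lt_of_le hd h))

instance trunc_quotient_finite [IsNoetherianRing 𝒪] [Finite (IsLocalRing.ResidueField 𝒪)] (k : ℕ) :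
    Finite (MvPowerSeries (Fin D) 𝒪 ⧸ trunc 𝒪 D k) := by
  have : Finite (𝒪 ⧸ IsLocalRing.maximalIdeal 𝒪) := ‹Finite (IsLocalRing.ResidueField 𝒪)›
  have : Finite (𝒪 ⧸ IsLocalRing.maximalIdeal 𝒪 ^ k) :=
    Ideal.finite_quotient_pow (IsNoetherian.noetherian _) k
  have hfin : {d : Fin D →₀ ℕ | d.degree < k}.Finite :=
    (Finsupp.finite_of_degree_le k).subset fun d (hd : d.degree < k) => le_of_lt hd
  have : Finite {d : Fin D →₀ ℕ // d.degree < k} := hfin.to_subtype
  refine Finite.of_injective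
    (fun q : MvPowerSeries (Fin D) 𝒪 ⧸ trunc 𝒪 D k => fun d : {d : Fin D →₀ ℕ // d.degree < k} =>
      Ideal.Quotient.mk (IsLocalRing.maximalIdeal 𝒪 ^ k)
        (MvPowerSeries.coeff d.1 (Quotient.out q))) fun q q' h => ?_
  rw [← Ideal.Quotient.mk_out q, ← Ideal.Quotient.mk_out q', Ideal.Quotient.eq, mem_trunc]
  intro d hd
  rw [map_sub, ← Ideal.Quotient.eq]
  exact congrFun h ⟨d, hd⟩

lemma eq_zero_of_mem_trunc [IsHausdorff (IsLocalRing.maximalIdeal 𝒪) 𝒪]
    {f : MvPowerSeries (Fin D) 𝒪} (h : ∀ k, f ∈ trunc 𝒪 D k) : f = 0 := by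
  ext d
  refine IsHausdorff.haus' (I := IsLocalRing.maximalIdeal 𝒪) _ fun n => ?_
  rw [SModEq.zero, smul_eq_mul, Ideal.mul_top]
  exact Ideal.pow_le_pow_right (le_max_left n (d.degree + 1))
    (h (max n (d.degree + 1)) d (Nat.succ_le_iff.mp (le_max_right _ _)))

/-- A compatible sequence of truncations comes from a power series. -/
lemma exists_glue [IsPrecomplete (IsLocalRing.maximalIdeal 𝒪) 𝒪]
    (s : ℕ → MvPowerSeries (Fin D) 𝒪)
    (hs : ∀ {k l}, k ≤ l → s k - s l ∈ trunc 𝒪 D k) :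
    ∃ f, ∀ k, f - s k ∈ trunc 𝒪 D k := by
  have hL : ∀ d : Fin D →₀ ℕ, ∃ L : 𝒪, ∀ k, MvPowerSeries.coeff d (s (k + d.degree + 1)) - L ∈
      IsLocalRing.maximalIdeal 𝒪 ^ k := by
    intro d
    obtain ⟨L, hL⟩ := IsPrecomplete.prec' (I := IsLocalRing.maximalIdeal 𝒪)
      (fun k => MvPowerSeries.coeff d (s (k + d.degree + 1))) fun {m n} hmn => by
        rw [SModEq.sub_mem, smul_eq_mul, Ideal.mul_top, ← map_sub]
        exact Ideal.pow_le_pow_right (by omega) (hs (show m + d.degree + 1 ≤ n + d.degree + 1 by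
          omega) d (by omega))
    exact ⟨L, fun k => by simpa [SModEq.sub_mem] using hL k⟩
  choose L hL using hL
  refine ⟨fun d => L d, fun k d hd => ?_⟩
  rw [map_sub]
  change L d - MvPowerSeries.coeff d (s k) ∈ _
  have h2 := hs (show k ≤ k + d.degree + 1 by omega) d hd
  rw [map_sub] at h2
  have h3 := neg_mem (add_mem (hL d k) h2)
  simpa using h3

end Fermat.Agent.LevelLowering
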