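import Mathlib.RingTheory.Artinian.Module
import Fermat.Agent.LevelLowering.Dimension
import Fermat.Agent.LevelLowering.Ultralimit

/-!
# Patched systems as matrix representations and their limit

A patched system is a sequence of modules, free of rank `d` over `O⟦X₁, …, X_D⟧ / J_n`, with a
commuting action of a fixed complete local ring `R`, compatible with one representation `A₀` of `R`
modulo the augmentation.  The limit is a representation of `R` in `Matrix d d O⟦X₁, …, X_D⟧` whose
image contains the scalars.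
-/

namespace Fermat.Agent.LevelLowering

open Filter IsLocalRing

local notation "PS" => MvPowerSeries

/-- A sequence of compatible actions on free modules over `O⟦X⟧ / J_n`. -/
structure PatchBase (𝒪 : Type) [CommRing 𝒪] [IsLocalRing 𝒪] (D d : ℕ) (R : Type) [CommRing R]
    (A₀ : R →+* Matrix (Fin d) (Fin d) 𝒪) : Type where
  /-- The ideals of the power series ring, eventually inside every truncation ideal. -/
  J : ℕ → Ideal (PS (Fin D) 𝒪)
  J_aug : ∀ n, ∀ s ∈ J n, MvPowerSeries.constantCoeff s = 0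
  J_trunc : ∀ k, ∀ᶠ n in atTop, J n ≤ trunc 𝒪 D k
  /-- The actions of `R` at each index. -/
  act : ∀ n, R →+* Matrix (Fin d) (Fin d) (PS (Fin D) 𝒪 ⧸ J n)
  act_aug : ∀ n f,
    (act n f).map (Ideal.Quotient.lift (J n) MvPowerSeries.constantCoeff (J_aug n)) = A₀ f

namespace PatchBase

variable {𝒪 : Type} [CommRing 𝒪] [IsDomain 𝒪] [IsDiscreteValuationRing 𝒪]
  [IsAdicComplete (maximalIdeal 𝒪) 𝒪] [Finite (ResidueField 𝒪)]
  {D d : ℕ} {R : Type} [CommRing R] {A₀ : R →+* Matrix (Fin d) (Fin d) 𝒪}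
  (L : PatchBase 𝒪 D d R A₀)

open Classical in
/-- The action at level `n`, truncated at `k`. -/
noncomputable def actk (k n : ℕ) (f : R) :
    Matrix (Fin d) (Fin d) (PS (Fin D) 𝒪 ⧸ trunc 𝒪 D k) :=
  if h : L.J n ≤ trunc 𝒪 D k then (L.act n f).map (Ideal.Quotient.factor h) else 0

/-- The limit action, truncated at `k`. -/
noncomputable def limk (k : ℕ) (f : R) : Matrix (Fin d) (Fin d) (PS (Fin D) 𝒪 ⧸ trunc 𝒪 D k) :=
  uval fun n => L.actk k n f

omit [IsAdicComplete (maximalIdeal 𝒪) 𝒪] in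
lemma eventually_limk (k : ℕ) (f : R) :
    ∀ᶠ n in (patchUltra : Filter ℕ), ∃ h : L.J n ≤ trunc 𝒪 D k,
      L.limk k f = (L.act n f).map (Ideal.Quotient.factor h) := by
  filter_upwards [uval_spec fun n => L.actk k n f,
    eventually_patchUltra_of_atTop (L.J_trunc k)] with n hn h
  exact ⟨h, by rw [limk, ← hn, actk, dif_pos h]⟩

/-- The limit action as a ring homomorphism at level `k`. -/
noncomputable def limkHom (k : ℕ) :
    R →+* Matrix (Fin d) (Fin d) (PS (Fin D) 𝒪 ⧸ trunc 𝒪 D k) where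
  toFun := L.limk k
  map_one' := by
    obtain ⟨n, h, hn⟩ := (L.eventually_limk k 1).exists
    rw [hn, map_one, Matrix.map_one _ (map_zero _) (map_one _)]
  map_zero' := by
    obtain ⟨n, h, hn⟩ := (L.eventually_limk k 0).exists
    rw [hn, map_zero, Matrix.map_zero _ (map_zero _)]
  map_mul' f g := by
    obtain ⟨n, ⟨h, h1⟩, ⟨_, h2⟩, _, h3⟩ :=
      ((L.eventually_limk k (f * g)).and ((L.eventually_limk k f).and
        (L.eventually_limk k g))).exists
    rw [h1, h2, h3, map_mul, Matrix.map_mul]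
  map_add' f g := by
    obtain ⟨n, ⟨h, h1⟩, ⟨_, h2⟩, _, h3⟩ :=
      ((L.eventually_limk k (f + g)).and ((L.eventually_limk k f).and
        (L.eventually_limk k g))).exists
    rw [h1, h2, h3, map_add, Matrix.map_add _ (map_add _)]

omit [IsAdicComplete (maximalIdeal 𝒪) 𝒪] in
lemma limk_compat {k l : ℕ} (hkl : k ≤ l) (f : R) :
    (L.limk l f).map (Ideal.Quotient.factor (trunc_antitone 𝒪 D hkl)) = L.limk k f := by
  obtain ⟨n, ⟨hl, h1⟩, hk, h2⟩ := ((L.eventually_limk l f).and (L.eventually_limk k f)).exists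
  rw [h1, h2, Matrix.map_map]
  congr 1
  ext x
  obtain ⟨y, rfl⟩ := Ideal.Quotient.mk_surjective x
  rfl

lemma exists_limit_entry (f : R) (i j : Fin d) :
    ∃ s : PS (Fin D) 𝒪, ∀ k, Ideal.Quotient.mk (trunc 𝒪 D k) s = L.limk k f i j := by
  obtain ⟨s, hs⟩ := exists_glue 𝒪 D (fun k => Quotient.out (L.limk k f i j)) fun {k l} hkl => by
    rw [← Ideal.Quotient.eq, Ideal.Quotient.mk_out]
    have := congrFun (congrFun (L.limk_compat hkl f) i) j
    rw [Matrix.map_apply] at this
    rw [← this]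
    conv_lhs => rw [← Ideal.Quotient.mk_out (L.limk l f i j)]
    rfl
  exact ⟨s, fun k => (Ideal.Quotient.eq.mpr (hs k)).trans (Ideal.Quotient.mk_out _)⟩

/-- The limit action, entrywise. -/
noncomputable def limitFun (f : R) : Matrix (Fin d) (Fin d) (PS (Fin D) 𝒪) :=
  Matrix.of fun i j => (L.exists_limit_entry f i j).choose

lemma map_limitFun (k : ℕ) (f : R) :
    (L.limitFun f).map (Ideal.Quotient.mk (trunc 𝒪 D k)) = L.limk k f := by
  ext i j
  exact (L.exists_limit_entry f i j).choose_spec k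

omit [IsAdicComplete (maximalIdeal 𝒪) 𝒪] [Finite (ResidueField 𝒪)] in
lemma matrix_ext {M M' : Matrix (Fin d) (Fin d) (PS (Fin D) 𝒪)}
    (h : ∀ k, M.map (Ideal.Quotient.mk (trunc 𝒪 D k)) =
      M'.map (Ideal.Quotient.mk (trunc 𝒪 D k))) : M = M' := by
  ext i j : 1
  rw [← sub_eq_zero]
  exact eq_zero_of_mem_trunc 𝒪 D fun k => Ideal.Quotient.eq.mp (congrFun (congrFun (h k) i) j)

/-- **The patched action.** -/
noncomputable def limit : R →+* Matrix (Fin d) (Fin d) (PS (Fin D) 𝒪) where
  toFun := L.limitFun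
  map_one' := matrix_ext fun k => by
    rw [map_limitFun, Matrix.map_one _ (map_zero _) (map_one _)]
    exact map_one (L.limkHom k)
  map_zero' := matrix_ext fun k => by
    rw [map_limitFun, Matrix.map_zero _ (map_zero _)]
    exact map_zero (L.limkHom k)
  map_mul' f g := matrix_ext fun k => by
    rw [map_limitFun, Matrix.map_mul, map_limitFun, map_limitFun]
    exact map_mul (L.limkHom k) f g
  map_add' f g := matrix_ext fun k => by
    rw [map_limitFun, Matrix.map_add _ (map_add _), map_limitFun, map_limitFun]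
    exact map_add (L.limkHom k) f g

/-- The limit has augmentation `A₀`. -/
lemma limit_aug (f : R) : (L.limit f).map MvPowerSeries.constantCoeff = A₀ f := by
  ext i j
  rw [← sub_eq_zero]
  refine IsHausdorff.haus' (I := maximalIdeal 𝒪) _ fun k => ?_
  rw [SModEq.zero, smul_eq_mul, Ideal.mul_top]
  obtain ⟨n, h, hn⟩ := (L.eventually_limk (k + 1) f).exists
  obtain ⟨s, hs⟩ := Ideal.Quotient.mk_surjective (L.act n f i j)
  have hA : MvPowerSeries.constantCoeff s = A₀ f i j := by
    rw [← L.act_aug n f, Matrix.map_apply, ← hs, Ideal.Quotient.lift_mk]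
  have hρ : L.limitFun f i j - s ∈ trunc 𝒪 D (k + 1) := by
    rw [← Ideal.Quotient.eq]
    have := congrFun (congrFun ((L.map_limitFun (k + 1) f).trans hn) i) j
    rw [Matrix.map_apply, Matrix.map_apply, ← hs] at this
    exact this
  have := Ideal.pow_le_pow_right (I := maximalIdeal 𝒪) (Nat.le_succ k)
    (hρ 0 (by simp))
  rw [MvPowerSeries.coeff_zero_eq_constantCoeff_apply, map_sub, hA] at this
  exact this

variable [IsLocalRing R] [IsNoetherianRing R] [IsAdicComplete (maximalIdeal R) R]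
  [Finite (ResidueField R)]

omit [IsDomain 𝒪] [IsDiscreteValuationRing 𝒪] [IsAdicComplete (maximalIdeal 𝒪) 𝒪]
  [Finite (ResidueField 𝒪)] [IsAdicComplete (maximalIdeal R) R]
  [Finite (ResidueField R)] [IsNoetherianRing R] in
/-- A map to a finite ring kills a power of the maximal ideal. -/
lemma exists_pow_le_ker {B : Type*} [Ring B] [Finite B] (g : R →+* B) :
    ∃ j, maximalIdeal R ^ j ≤ RingHom.ker g := by
  by_cases htop : RingHom.ker g = ⊤
  · exact ⟨0, htop ▸ le_top⟩
  have : Finite (R ⧸ RingHom.ker g) :=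
    Finite.of_injective _ (RingHom.kerLift_injective g)
  have : Nontrivial (R ⧸ RingHom.ker g) := Ideal.Quotient.nontrivial_iff.mpr htop
  have : IsLocalRing (R ⧸ RingHom.ker g) :=
    .of_surjective' (Ideal.Quotient.mk (RingHom.ker g)) Ideal.Quotient.mk_surjective
  obtain ⟨j, hj⟩ := IsArtinianRing.isNilpotent_jacobson_bot (R := R ⧸ RingHom.ker g)
  refine ⟨j, ?_⟩
  rw [← Ideal.mk_ker (I := RingHom.ker g), RingHom.ker_eq_comap_bot, ← Ideal.map_le_iff_le_comap,
    Ideal.map_pow, ← Submodule.zero_eq_bot, ← hj, IsLocalRing.jacobson_eq_maximalIdeal _ bot_ne_top]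
  exact Ideal.pow_right_mono (((local_hom_TFAE (Ideal.Quotient.mk (RingHom.ker g))).out 0 2).mp
    (IsLocalHom.of_surjective _ Ideal.Quotient.mk_surjective)) j

/-- Limits of sequences: some `y` has, at every truncation, the action of `f n` for many `n`, and
is congruent to `f n` modulo any power of the maximal ideal for many `n`. -/
theorem exists_limit_of_seq (f : ℕ → R) :
    ∃ y : R, (∀ j, ∀ᶠ n in (patchUltra : Filter ℕ), f n - y ∈ maximalIdeal R ^ j) ∧
      ∀ k, ∀ᶠ n in (patchUltra : Filter ℕ), ∃ h : L.J n ≤ trunc 𝒪 D k,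
        (L.limit y).map (Ideal.Quotient.mk (trunc 𝒪 D k)) =
          (L.act n (f n)).map (Ideal.Quotient.factor h) := by
  have hfin : ∀ j, Finite (R ⧸ maximalIdeal R ^ j) := fun j => by
    have : Finite (R ⧸ maximalIdeal R) := ‹Finite (ResidueField R)›
    exact Ideal.finite_quotient_pow (IsNoetherian.noetherian _) j
  let c : ℕ → R := fun j =>
    Quotient.out (uval fun n => Ideal.Quotient.mk (maximalIdeal R ^ j) (f n))
  have hc : ∀ j, ∀ᶠ n in (patchUltra : Filter ℕ), f n - c j ∈ maximalIdeal R ^ j := fun j => by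
    filter_upwards [uval_spec fun n => Ideal.Quotient.mk (maximalIdeal R ^ j) (f n)] with n hn
    rw [← Ideal.Quotient.eq, Ideal.Quotient.mk_out, hn]
  obtain ⟨y, hy⟩ := IsPrecomplete.prec' (I := maximalIdeal R) c fun {a b} hab => by
    rw [SModEq.sub_mem, smul_eq_mul, Ideal.mul_top]
    obtain ⟨n, h1, h2⟩ := ((hc a).and (hc b)).exists
    simpa using sub_mem (Ideal.pow_le_pow_right hab h2) h1
  have hclose : ∀ j, ∀ᶠ n in (patchUltra : Filter ℕ), f n - y ∈ maximalIdeal R ^ j := fun j => by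
    filter_upwards [hc j] with n hn
    have := hy j
    rw [SModEq.sub_mem, smul_eq_mul, Ideal.mul_top] at this
    simpa using add_mem hn this
  refine ⟨y, hclose, fun k => ?_⟩
  obtain ⟨j, hj⟩ := exists_pow_le_ker (L.limkHom k)
  obtain ⟨gens, hgens⟩ := IsNoetherian.noetherian (maximalIdeal R ^ j)
  have hev : ∀ᶠ n in (patchUltra : Filter ℕ), ∀ g ∈ gens, ∃ h : L.J n ≤ trunc 𝒪 D k,
      L.limk k g = (L.act n g).map (Ideal.Quotient.factor h) :=
    (Finset.eventually_all gens).mpr fun g _ => L.eventually_limk k g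
  filter_upwards [hev, hclose j, L.eventually_limk k y] with n hn1 hz hn3
  obtain ⟨h, hn3⟩ := hn3
  refine ⟨h, ?_⟩
  show (L.limitFun y).map _ = _
  rw [map_limitFun, hn3]
  let θ : R →+* Matrix (Fin d) (Fin d) (PS (Fin D) 𝒪 ⧸ trunc 𝒪 D k) :=
    (RingHom.mapMatrix (Ideal.Quotient.factor h)).comp (L.act n)
  have hθ : maximalIdeal R ^ j ≤ RingHom.ker θ := by
    rw [← hgens, Submodule.span_le]
    intro g hg
    obtain ⟨_, hg'⟩ := hn1 g hg
    have h0 : L.limk k g = 0 := RingHom.mem_ker.mp (hj (hgens ▸ Submodule.subset_span hg))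
    exact RingHom.mem_ker.mpr (hg'.symm.trans h0)
  have := RingHom.mem_ker.mp (hθ hz)
  rw [map_sub, sub_eq_zero] at this
  exact this.symm

end PatchBase

end Fermat.Agent.LevelLowering
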