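import Mathlib.LinearAlgebra.Matrix.Charpoly.Basic
import Mathlib.LinearAlgebra.Matrix.Charpoly.Coeff
import Fermat.Agent.LevelLowering.ExactLift
import Fermat.Agent.LevelLowering.Monodromy
import Fermat.Agent.LevelLowering.PatchedMatrix

/-!
# Patched monodromy: no minimal level with exact monodromy at a scalar prime

If a patched system over `R` has residual monodromy `ker N = im N` at the augmentation, it cannot
be that every quotient of `R` of dimension at least `D + 1` has in its support a prime `𝔭 ∋ ϖ` at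
which `N` vanishes and the line of `N` is defined.
-/

namespace Fermat.Agent.LevelLowering

open IsLocalRing Polynomial

section Limit

variable {S R : Type*} [CommRing S] [CommRing R] {d : Type*} [Fintype d] [DecidableEq d]
  (ρ : R →+* Matrix d d S)

/-- A representation with all scalars in its image and injective makes the dimension bound tight. -/
lemma dim_le_quotient_ker [Nonempty d]
    (hscalar : ∀ s : S, ∃ y, ρ y = Matrix.scalar d s) :
    ringKrullDim S ≤ ringKrullDim (R ⧸ RingHom.ker ρ) := by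
  choose σ hσ using hscalar
  have hinj' := RingHom.kerLift_injective ρ
  let ι : S →+* R ⧸ RingHom.ker ρ :=
    { toFun := fun s => Ideal.Quotient.mk _ (σ s)
      map_one' := hinj' (by simp [RingHom.kerLift_mk, hσ])
      map_zero' := hinj' (by simp [RingHom.kerLift_mk, hσ])
      map_mul' := fun a b => hinj' (by simp [RingHom.kerLift_mk, hσ, map_mul])
      map_add' := fun a b => hinj' (by simp [RingHom.kerLift_mk, hσ, map_add]) }
  algebraize [ι]
  have hι : ∀ s, RingHom.kerLift ρ (algebraMap S (R ⧸ RingHom.ker ρ) s) = Matrix.scalar d s :=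
    fun s => by rw [RingHom.algebraMap_toAlgebra]; exact (RingHom.kerLift_mk ρ (σ s)).trans (hσ s)
  have hinj : Function.Injective (algebraMap S (R ⧸ RingHom.ker ρ)) := fun a b hab => by
    have := congrArg (RingHom.kerLift ρ) hab
    rw [hι, hι] at this
    exact Matrix.scalar_inj.mp this
  have : Algebra.IsIntegral S (R ⧸ RingHom.ker ρ) := ⟨fun x => by
    obtain ⟨y, rfl⟩ := Ideal.Quotient.mk_surjective x
    refine ⟨(ρ y).charpoly, Matrix.charpoly_monic _, hinj' ?_⟩
    rw [map_zero, Polynomial.hom_eval₂, RingHom.kerLift_mk,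
      show (RingHom.kerLift ρ).comp (algebraMap S (R ⧸ RingHom.ker ρ)) =
        algebraMap S (Matrix d d S) from RingHom.ext fun s => by
          rw [RingHom.comp_apply, hι]; rfl]
    exact (ρ y).aeval_self_charpoly⟩
  exact ringKrullDim_le_of_integral_injective hinj

/-- If `ρ t ≡ 0` modulo `c`, then a power of `t` is `c` times something, modulo `ker ρ`. -/
lemma exists_pow_sub_mem_ker (hscalar : ∀ s : S, ∃ y, ρ y = Matrix.scalar d s)
    {c : S} {c' : R} (hc : ρ c' = Matrix.scalar d c) {t : R}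
    (ht : ∀ i j, c ∣ ρ t i j) :
    ∃ g, t ^ Fintype.card d - c' * g ∈ RingHom.ker ρ := by
  choose σ hσ using hscalar
  cases subsingleton_or_nontrivial S
  · exact ⟨0, RingHom.mem_ker.mpr (Subsingleton.elim _ _)⟩
  set p := (ρ t).charpoly
  have hq : ∀ i < Fintype.card d, c ∣ p.coeff i := fun i hi => by
    rw [← Ideal.mem_span_singleton, ← Ideal.Quotient.eq_zero_iff_mem]
    have h0 : (ρ t).map (Ideal.Quotient.mk (Ideal.span {c})) = 0 := by
      ext a b
      rw [Matrix.map_apply, Matrix.zero_apply, Ideal.Quotient.eq_zero_iff_mem,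
        Ideal.mem_span_singleton]
      exact ht a b
    have := congrArg (fun q => Polynomial.coeff q i)
      (Matrix.charpoly_map (ρ t) (Ideal.Quotient.mk (Ideal.span {c})))
    simp only [h0, Polynomial.coeff_map] at this
    rw [← this, Matrix.charpoly_zero, Polynomial.coeff_X_pow, if_neg hi.ne]
  choose e he using hq
  refine ⟨-∑ i : Fin (Fintype.card d), σ (e i i.2) * t ^ (i : ℕ), RingHom.mem_ker.mpr ?_⟩
  have hCH := (ρ t).aeval_self_charpoly
  rw [Polynomial.aeval_eq_sum_range, Matrix.charpoly_natDegree_eq_dim,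
    Finset.sum_range_succ] at hCH
  have hlead : p.coeff (Fintype.card d) = 1 := by
    have := (Matrix.charpoly_monic (ρ t)).coeff_natDegree
    rwa [Matrix.charpoly_natDegree_eq_dim] at this
  rw [hlead, one_smul] at hCH
  rw [map_sub, map_pow, mul_neg, map_neg, sub_neg_eq_add, map_mul, map_sum, Finset.mul_sum,
    ← hCH, add_comm, Finset.sum_range fun i => p.coeff i • ρ t ^ i]
  congr 1
  refine Finset.sum_congr rfl fun i _ => ?_
  rw [map_mul, map_pow, hσ, hc, he i i.2, ← mul_assoc, ← map_mul, Matrix.scalar_apply,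
    ← Matrix.smul_eq_diagonal_mul]

/-- If `j` is integral with kernel in a prime `𝔭 ∋ x` and `j x * g = j (t ^ m)`, then `t ∈ 𝔭`. -/
lemma mem_of_mul_eq_pow {R Q : Type*} [CommRing R] [CommRing Q] (j : R →+* Q) (hj : j.IsIntegral)
    {K 𝔭 : Ideal R} [h𝔭 : 𝔭.IsPrime] (hker : RingHom.ker j ≤ K) (hK : K ≤ 𝔭) {x t : R}
    (hx : x ∈ 𝔭) {g : Q} {m : ℕ} (h : j x * g = j (t ^ m)) : t ∈ 𝔭 := by
  obtain ⟨P, hP, hPg⟩ := hj g
  have h0 : (P.scaleRoots x).eval₂ j (j (t ^ m)) = 0 := by
    rw [← h]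
    exact Polynomial.scaleRoots_eval₂_eq_zero j hPg
  rw [Polynomial.eval₂_at_apply, ← RingHom.mem_ker] at h0
  have := Ideal.Quotient.eq_zero_iff_mem.mpr (hK (hker h0))
  rw [← Polynomial.eval₂_at_apply, ← Polynomial.eval_map, Polynomial.map_scaleRoots,
    Ideal.Quotient.eq_zero_iff_mem.mpr hx, Polynomial.scaleRoots_zero, (hP.map _).leadingCoeff,
    one_smul, Polynomial.eval_pow, Polynomial.eval_X, map_pow, ← pow_mul] at this
  · exact Ideal.Quotient.eq_zero_iff_mem.mp (pow_eq_zero_iff'.mp this).1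
  · rw [hP.leadingCoeff, map_one]
    exact one_ne_zero

end Limit

/-- If the scalars lie in the image of `ρ` and `ι` makes the source finite modulo an ideal in the
kernel of `ρ`, then `S ^ d` is finite over a ring acting through `ρ ∘ ι`. -/
lemma finite_of_scalars {A R R' S : Type*} [CommRing A] [CommRing R] [CommRing R'] [CommRing S]
    {d : ℕ} [Module A (Fin d → S)] (ρ : R' →+* Matrix (Fin d) (Fin d) S) (ι : R →+* R')
    (φ : R →+* A) {J : Ideal R'} (hJ : J ≤ RingHom.ker ρ)
    (hfin : ((Ideal.Quotient.mk J).comp ι).Finite)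
    (hscalar : ∀ s : S, ∃ y, ρ y = Matrix.scalar (Fin d) s)
    (hφ : ∀ r v, φ r • v = (ρ (ι r)).mulVec v) : Module.Finite A (Fin d → S) := by
  classical
  let : Algebra R (R' ⧸ J) := ((Ideal.Quotient.mk J).comp ι).toAlgebra
  have : Module.Finite R (R' ⧸ J) := hfin
  obtain ⟨G, hG⟩ := Module.Finite.fg_top (R := R) (M := R' ⧸ J)
  let gen : (R' ⧸ J) × Fin d → Fin d → S := fun z =>
    (ρ (Quotient.out z.1)).mulVec (Pi.single z.2 1)
  refine ⟨⟨(G ×ˢ Finset.univ).image gen, ?_⟩⟩
  rw [eq_top_iff]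
  intro v _
  rw [pi_eq_sum_univ' v]
  refine Submodule.sum_mem _ fun i _ => ?_
  obtain ⟨f, hf⟩ := hscalar (v i)
  have hf' : v i • (Pi.single i (1 : S) : Fin d → S) = (ρ f).mulVec (Pi.single i 1) := by
    rw [hf, Matrix.scalar_apply, Matrix.diagonal_mulVec_single, mul_one, ← Pi.single_smul,
      smul_eq_mul, mul_one]
  rw [hf']
  suffices h : ∀ y : R' ⧸ J, ∀ f' : R', Ideal.Quotient.mk _ f' = y →
      (ρ f').mulVec (Pi.single i 1) ∈
        Submodule.span A (((G ×ˢ Finset.univ).image gen : Finset (Fin d → S)) : Set _) from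
    h _ f rfl
  have hcongr : ∀ f₁ f₂ : R', Ideal.Quotient.mk J f₁ = Ideal.Quotient.mk _ f₂ → ρ f₁ = ρ f₂ :=
    fun f₁ f₂ h => by
      have := RingHom.mem_ker.mp (hJ (Ideal.Quotient.eq.mp h))
      rwa [map_sub, sub_eq_zero] at this
  intro y
  induction (show y ∈ Submodule.span R (G : Set (R' ⧸ J)) from hG ▸ Submodule.mem_top) using
    Submodule.span_induction with
  | mem z hz =>
    intro f' hf'
    refine Submodule.subset_span (Finset.mem_coe.mpr (Finset.mem_image.mpr
      ⟨(z, i), Finset.mk_mem_product hz (Finset.mem_univ i), ?_⟩))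
    simp only [gen]
    rw [hcongr f' (Quotient.out z) (by rw [hf', Ideal.Quotient.mk_out])]
  | zero =>
    intro f' hf'
    rw [hcongr f' 0 (by rw [hf', map_zero]), map_zero, Matrix.zero_mulVec]
    exact Submodule.zero_mem _
  | add z₁ z₂ _ _ h₁ h₂ =>
    intro f' hf'
    rw [hcongr f' (Quotient.out z₁ + Quotient.out z₂) (by
      rw [hf', map_add, Ideal.Quotient.mk_out, Ideal.Quotient.mk_out]), map_add, Matrix.add_mulVec]
    exact Submodule.add_mem _ (h₁ _ (Ideal.Quotient.mk_out _)) (h₂ _ (Ideal.Quotient.mk_out _))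
  | smul r z _ hz =>
    intro f' hf'
    rw [hcongr f' (ι r * Quotient.out z) (by
      rw [hf', map_mul, Ideal.Quotient.mk_out]; rfl), map_mul, ← Matrix.mulVec_mulVec, ← hφ]
    exact Submodule.smul_mem _ _ (hz _ (Ideal.Quotient.mk_out z))

/-- Exactness of a square-zero `2 × 2` matrix acting on `S ^ d` follows from that over the residue
field, where `B` is its block matrix. -/
lemma matAct_exact_of_residue {A S k : Type*} [CommRing A] [CommRing S] [IsLocalRing S]
    [CommRing k] {d : ℕ} [Module A (Fin d → S)] {N : Matrix (Fin 2) (Fin 2) A} (hN : N * N = 0)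
    (B : Matrix (Fin 2 × Fin d) (Fin 2 × Fin d) S)
    (hB : ∀ (v : Fin 2 → Fin d → S) p, B.mulVec (fun q => v q.1 q.2) p = matAct N v p.1 p.2)
    (e : S →+* k) (he_surj : Function.Surjective e) (he : ∀ x, x ∈ maximalIdeal S ↔ e x = 0)
    (hexact : ∀ w, (B.map e).mulVec w = 0 → ∃ y, (B.map e).mulVec y = w) :
    ∀ v : Fin 2 → Fin d → S, matAct N v = 0 → ∃ y, matAct N y = v := by
  have hsq : ∀ v : Fin 2 → Fin d → S, matAct N (matAct N v) = 0 := fun v => by
    have hNN : ∀ i j, N i 0 * N 0 j + N i 1 * N 1 j = 0 := fun i j => by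
      have := congrFun (congrFun hN i) j
      simpa [Matrix.mul_apply, Fin.sum_univ_two] using this
    funext i
    simp only [matAct_apply, smul_add, smul_smul, Pi.zero_apply]
    rw [add_add_add_comm, ← add_smul, ← add_smul, hNN, hNN, zero_smul, zero_smul, add_zero]
  have hres : ∀ z : Fin 2 × Fin d → S, (fun p => e (B.mulVec z p)) = (B.map e).mulVec (e ∘ z) :=
    fun z => funext fun p => RingHom.map_mulVec e B z p
  intro v hv
  obtain ⟨y, hy⟩ := exact_of_exact_residue B.mulVecLin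
    (fun w => by
      funext p
      rw [Matrix.mulVecLin_apply, Matrix.mulVecLin_apply]
      have h1 : B.mulVec w = fun q : Fin 2 × Fin d => matAct N (fun a b => w (a, b)) q.1 q.2 :=
        funext fun q => hB (fun a b => w (a, b)) q
      rw [h1, hB, hsq]
      rfl)
    (fun w hw => by
      obtain ⟨y, hy⟩ := hexact (e ∘ w) (by
        rw [← hres]
        funext p
        exact (he _).mp (hw p))
      choose z hz using fun q => he_surj (y q)
      refine ⟨z, fun p => (he _).mpr ?_⟩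
      have h1 := congrFun (hres z) p
      rw [show e ∘ z = y from funext hz, hy] at h1
      rw [Matrix.mulVecLin_apply, Pi.sub_apply, map_sub, h1, Function.comp_apply, sub_self])
    (fun q => v q.1 q.2) (by
      funext p
      rw [Matrix.mulVecLin_apply, hB, hv]
      rfl)
  refine ⟨fun a b => y (a, b), funext fun a => funext fun b => ?_⟩
  have := congrFun hy (a, b)
  rw [Matrix.mulVecLin_apply] at this
  rw [← hB (fun a b => y (a, b)) (a, b)]
  exact this

variable {𝒪 : Type} [CommRing 𝒪] [IsDomain 𝒪] [IsDiscreteValuationRing 𝒪]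
  [IsAdicComplete (maximalIdeal 𝒪) 𝒪] [Finite (ResidueField 𝒪)]

/-- The residual block matrix of the monodromy. -/
noncomputable def resBlock {R : Type} [CommRing R] {d : ℕ} (A₀ : R →+* Matrix (Fin d) (Fin d) 𝒪)
    (N : Matrix (Fin 2) (Fin 2) R) (w : Fin 2 × Fin d → ResidueField 𝒪) :
    Fin 2 × Fin d → ResidueField 𝒪 :=
  fun p => ∑ q : Fin 2 × Fin d, residue 𝒪 (A₀ (N p.1 q.1) p.2 q.2) * w q

variable {D d : ℕ} {R R' : Type} [CommRing R] [Algebra 𝒪 R] [CommRing R']

omit [IsAdicComplete (maximalIdeal 𝒪) 𝒪] [Finite (ResidueField 𝒪)] in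
/-- **No exact monodromy at a scalar prime** (level lowering, patched case), for a representation
`ρ` of an auxiliary ring `R'` containing all scalars and finite over `R`.  Any quotient of `R` of
dimension at least `D + 1` must see a prime over `ϖ` with vanishing monodromy and a defined
line. -/
theorem false_of_scalar_rep (ρ : R' →+* Matrix (Fin d) (Fin d) (MvPowerSeries (Fin D) 𝒪))
    (hscalar : ∀ s, ∃ y, ρ y = Matrix.scalar (Fin d) s) (ι : R →+* R')
    (hfin : ((Ideal.Quotient.mk (RingHom.ker ρ)).comp ι).Finite)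
    (A₀ : R →+* Matrix (Fin d) (Fin d) 𝒪)
    (haug : ∀ f, (ρ (ι f)).map MvPowerSeries.constantCoeff = A₀ f)
    (hd : 0 < d)
    {ϖ : 𝒪} (hϖ : Irreducible ϖ)
    (hC : ρ (ι (algebraMap 𝒪 R ϖ)) = Matrix.scalar (Fin d) (MvPowerSeries.C ϖ))
    (N : Matrix (Fin 2) (Fin 2) R) (hN2 : N * N = 0) (u : Fin 2 → R)
    (hcover : ∀ K : Ideal R, ((D + 1 : ℕ) : WithBot ℕ∞) ≤ ringKrullDim (R ⧸ K) →
      ∃ 𝔭 : Ideal R, 𝔭.IsPrime ∧ K ≤ 𝔭 ∧ algebraMap 𝒪 R ϖ ∈ 𝔭 ∧ (∀ i j, N i j ∈ 𝔭) ∧
        (u 0 ∉ 𝔭 ∨ u 1 ∉ 𝔭))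
    (hNu : ∀ i, N i 0 * u 0 + N i 1 * u 1 ∈ Ideal.span {algebraMap 𝒪 R ϖ})
    (huN : ∀ j, u 0 * N 1 j - u 1 * N 0 j ∈ Ideal.span {algebraMap 𝒪 R ϖ})
    (hexact : ∀ w, resBlock A₀ N w = 0 → ∃ y, resBlock A₀ N y = w) : False := by
  classical
  have : Nonempty (Fin d) := ⟨⟨0, hd⟩⟩
  let Q := R' ⧸ RingHom.ker ρ
  let j : R →+* Q := (Ideal.Quotient.mk (RingHom.ker ρ)).comp ι
  let κ : R →+* Matrix (Fin d) (Fin d) (MvPowerSeries (Fin D) 𝒪) := ρ.comp ι
  have hjker : RingHom.ker j = RingHom.ker κ := Ideal.ext fun x => by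
    rw [RingHom.mem_ker, RingHom.mem_ker, RingHom.comp_apply, Ideal.Quotient.eq_zero_iff_mem,
      RingHom.mem_ker]
    rfl
  -- the support contains a suitable prime
  obtain ⟨𝔭, h𝔭, hker, hϖp, hmem, hu⟩ := hcover (RingHom.ker κ) (by
    let j' : R ⧸ RingHom.ker κ →+* Q :=
      Ideal.Quotient.lift _ j fun x hx => RingHom.mem_ker.mp (hjker ▸ hx)
    have hj' : j'.IsIntegral :=
      RingHom.IsIntegral.tower_top (Ideal.Quotient.mk _) j' hfin.to_isIntegral
    algebraize [j']
    have h1 : ringKrullDim (MvPowerSeries (Fin D) 𝒪) ≤ ringKrullDim (R ⧸ RingHom.ker κ) :=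
      (dim_le_quotient_ker ρ hscalar).trans ringKrullDim_le_of_integral
    rwa [ringKrullDim_powerSeries] at h1)
  -- the element `ϖ` acts as the scalar `ϖ`
  set c : MvPowerSeries (Fin D) 𝒪 := MvPowerSeries.C ϖ
  have hc : ρ (ι (algebraMap 𝒪 R ϖ)) = Matrix.scalar (Fin d) c := hC
  -- reduction modulo `ϖ`
  let K : Ideal (MvPowerSeries (Fin D) 𝒪) := Ideal.span {c}
  have hKle : K ≤ maximalIdeal _ := by
    rw [Ideal.span_le, Set.singleton_subset_iff]
    simp [c, MvPowerSeries.isUnit_iff_constantCoeff, hϖ.not_isUnit]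
  have : Nontrivial (MvPowerSeries (Fin D) 𝒪 ⧸ K) :=
    Ideal.Quotient.nontrivial_iff.mpr fun h => (maximalIdeal.isMaximal _).ne_top
      (top_le_iff.mp (h ▸ hKle))
  have : IsLocalRing (MvPowerSeries (Fin D) 𝒪 ⧸ K) :=
    .of_surjective' (Ideal.Quotient.mk K) Ideal.Quotient.mk_surjective
  let S' := MvPowerSeries (Fin D) 𝒪 ⧸ K
  let ρ'' : R' →+* Matrix (Fin d) (Fin d) S' := (RingHom.mapMatrix (Ideal.Quotient.mk K)).comp ρ
  let ρ' : R →+* Matrix (Fin d) (Fin d) S' := ρ''.comp ι
  let e : S' →+* ResidueField 𝒪 := Ideal.Quotient.lift K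
    ((residue 𝒪).comp MvPowerSeries.constantCoeff) fun x hx => by
      obtain ⟨y, rfl⟩ := Ideal.mem_span_singleton.mp hx
      simp [c, (residue_eq_zero_iff ϖ).mpr ((mem_maximalIdeal _).mpr hϖ.not_isUnit)]
  have he_surj : Function.Surjective e := fun z => by
    obtain ⟨a, rfl⟩ := residue_surjective (R := 𝒪) z
    exact ⟨Ideal.Quotient.mk K (MvPowerSeries.C a), (Ideal.Quotient.lift_mk _ _ _).trans (by simp)⟩
  have he : ∀ x, x ∈ maximalIdeal S' ↔ e x = 0 := fun x => by
    rw [← IsLocalRing.eq_maximalIdeal (RingHom.ker_isMaximal_of_surjective e he_surj),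
      RingHom.mem_ker]
  have heA : ∀ f i j, e (ρ' f i j) = residue 𝒪 (A₀ f i j) := fun f i j => by
    show e (Ideal.Quotient.mk K (ρ (ι f) i j)) = _
    rw [← haug f]
    rfl
  have hρ'ϖ : ρ' (algebraMap 𝒪 R ϖ) = 0 := by
    ext a b
    show Ideal.Quotient.mk K (ρ (ι (algebraMap 𝒪 R ϖ)) a b) = 0
    rw [hc, Ideal.Quotient.eq_zero_iff_mem]
    by_cases hab : a = b
    · subst hab
      simp [K]
    · simp [hab]
  -- the module `P = S'^d` over `R` and over `R / ϖ`
  let g : R →+* Module.End S' (Fin d → S') :=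
    (Matrix.toLinAlgEquiv' (R := S') (n := Fin d)).toRingEquiv.toRingHom.comp ρ'
  have hg : ∀ f v a, g f v a = ∑ b, ρ' f a b * v b := fun f v a => rfl
  let I : Ideal R := Ideal.span {algebraMap 𝒪 R ϖ}
  have hI : I ≤ RingHom.ker g := by
    rw [Ideal.span_le, Set.singleton_subset_iff]
    show g (algebraMap 𝒪 R ϖ) = 0
    simp [g, hρ'ϖ]
  let g₀ : R ⧸ I →+* Module.End S' (Fin d → S') := Ideal.Quotient.lift I g hI
  let : Module (R ⧸ I) (Fin d → S') := Module.compHom _ g₀
  have hsmul : ∀ (f : R) (v : Fin d → S'), Ideal.Quotient.mk I f • v = g f v := fun _ _ => rfl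
  have : Module.Finite (R ⧸ I) (Fin d → S') :=
    finite_of_scalars ρ'' ι (Ideal.Quotient.mk I)
      (fun x hx => by
        rw [RingHom.mem_ker] at hx ⊢
        simp [ρ'', hx])
      hfin (fun x => by
        obtain ⟨a, rfl⟩ := Ideal.Quotient.mk_surjective x
        obtain ⟨f, hf⟩ := hscalar a
        refine ⟨f, ?_⟩
        show (ρ f).map (Ideal.Quotient.mk K) = _
        rw [hf, Matrix.scalar_apply, Matrix.scalar_apply, Matrix.diagonal_map (map_zero _)])
      fun f v => funext fun a => by rw [hsmul, hg]; rfl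
  -- exactness over `S'`
  let N' : Matrix (Fin 2) (Fin 2) (R ⧸ I) := N.map (Ideal.Quotient.mk I)
  have hN' : N' * N' = 0 := by
    show N.map (Ideal.Quotient.mk I) * N.map (Ideal.Quotient.mk I) = 0
    rw [← Matrix.map_mul, hN2, Matrix.map_zero _ (map_zero _)]
  have hexact' : ∀ v : Fin 2 → Fin d → S', matAct N' v = 0 → ∃ y, matAct N' y = v :=
    matAct_exact_of_residue hN' (Matrix.of fun p q => ρ' (N p.1 q.1) p.2 q.2)
      (fun v p => by
        simp only [Matrix.mulVec, dotProduct, Fintype.sum_prod_type, Fin.sum_univ_two,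
          Matrix.of_apply, matAct_apply, Pi.add_apply, N', Matrix.map_apply, hsmul, hg])
      e he_surj he fun w hw => by
        have hres : ∀ z, ((Matrix.of fun p q => ρ' (N p.1 q.1) p.2 q.2 :
            Matrix (Fin 2 × Fin d) (Fin 2 × Fin d) S').map e).mulVec z = resBlock A₀ N z :=
          fun z => funext fun p => by simp [resBlock, Matrix.mulVec, dotProduct, heA]
        obtain ⟨y, hy⟩ := hexact w ((hres w).symm.trans hw)
        exact ⟨y, (hres y).trans hy⟩
  -- apply the lemma at `𝔭`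
  have hIp : I ≤ 𝔭 := by rw [Ideal.span_le, Set.singleton_subset_iff]; exact hϖp
  have hmap : ∀ f, Ideal.Quotient.mk I f ∈ 𝔭.map (Ideal.Quotient.mk I) ↔ f ∈ 𝔭 := fun f => by
    rw [Ideal.mem_map_iff_of_surjective _ Ideal.Quotient.mk_surjective]
    refine ⟨fun ⟨x, hx, h⟩ => ?_, fun h => ⟨f, h, rfl⟩⟩
    simpa using sub_mem hx (hIp (Ideal.Quotient.eq.mp h))
  have : (𝔭.map (Ideal.Quotient.mk I)).IsPrime :=
    Ideal.map_isPrime_of_surjective Ideal.Quotient.mk_surjective (by rwa [Ideal.mk_ker])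
  obtain ⟨t₀, ht₀, ht⟩ := exists_smul_eq_zero_of_exact (P := Fin d → S') N'
    (fun i => Ideal.Quotient.mk I (u i)) (hu.imp (fun h => (hmap _).not.mpr h) fun h =>
      (hmap _).not.mpr h)
    (fun i j => (hmap _).mpr (hmem i j))
    (fun i => by simpa [N', ← map_mul, ← map_add] using Ideal.Quotient.eq_zero_iff_mem.mpr (hNu i))
    (fun j => by simpa [N', ← map_mul, ← map_sub] using Ideal.Quotient.eq_zero_iff_mem.mpr (huN j))
    hexact'
  obtain ⟨t, rfl⟩ := Ideal.Quotient.mk_surjective t₀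
  obtain ⟨gg, hgg⟩ := exists_pow_sub_mem_ker ρ hscalar hc (t := ι t) fun i j => by
    have := congrFun (ht (Pi.single j 1)) i
    rw [hsmul, hg, Finset.sum_eq_single j (fun x _ hx => by simp [hx]) (fun h =>
      absurd (Finset.mem_univ j) h),
      Pi.single_eq_same, mul_one, Pi.zero_apply] at this
    exact Ideal.mem_span_singleton.mp (Ideal.Quotient.eq_zero_iff_mem.mp this)
  have htp : t ∈ 𝔭 := mem_of_mul_eq_pow j hfin.to_isIntegral hjker.le hker hϖp
    (g := Ideal.Quotient.mk _ gg) (t := t) (m := Fintype.card (Fin d)) (by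
      simp only [j, RingHom.comp_apply, map_pow, ← map_mul]
      rw [← map_pow]
      exact (Ideal.Quotient.eq.mpr hgg).symm)
  exact ht₀ ((hmap t).mpr htp)

end Fermat.Agent.LevelLowering
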