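import Mathlib.LinearAlgebra.Matrix.Charpoly.Coeff
import Fermat.Agent.Gal.RepTwo
import Fermat.Agent.LevelLowering.Structure

/-!
# Consequences of the odd structure theorem

When the module is faithful the explicit matrices form a representation with trace `t` and
determinant `χ`; over a residue field they are the residual representation, and two modules with
the same trace function are related by equivariant maps.
-/

namespace Fermat.Agent.LevelLowering

variable {R : Type*} [CommRing R] {G : Type*} [Group G]

section Faithful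

variable {P : Type*} [AddCommGroup P] [Module R P]

theorem matAct_mul (M M' : Matrix (Fin 2) (Fin 2) R) (v : Fin 2 → P) :
    matAct M (matAct M' v) = matAct (M * M') v := by
  funext i
  simp [Matrix.mul_apply, add_smul, smul_add, smul_smul]
  abel

theorem matAct_one (v : Fin 2 → P) : matAct (1 : Matrix (Fin 2) (Fin 2) R) v = v := by
  funext i
  fin_cases i <;> simp

theorem matAct_scalar (a : R) (v : Fin 2 → P) :
    matAct (a • (1 : Matrix (Fin 2) (Fin 2) R)) v = a • v := by
  funext i
  fin_cases i <;> simp

theorem eq_of_matAct (hP : ∀ r : R, (∀ x : P, r • x = 0) → r = 0)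
    {M M' : Matrix (Fin 2) (Fin 2) R} (h : ∀ v : Fin 2 → P, matAct M v = matAct M' v) : M = M' := by
  ext i j
  refine sub_eq_zero.mp (hP _ fun x => ?_)
  have := congrFun (h (Pi.single j x)) i
  fin_cases j <;> simp at this <;> simpa [sub_smul, sub_eq_zero] using this

end Faithful

variable {H : Type*} [AddCommGroup H] [Module R H]
  {η : R} {τ : G →* Module.End R H} {χ : G →* R} {t : G → R} {c g₀ h₀ : G}

namespace OddQuad

/-- The equivalence in the structure theorem. -/
noncomputable def frameEquiv (hq : OddQuad η τ χ t c) (hu : IsUnit (crossP η t c g₀ h₀))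
    (hv : IsUnit (crossM η t c h₀ g₀)) :
    H ≃ₗ[R] (Fin 2 → LinearMap.range (projP η τ c)) :=
  (hq.exists_linearEquiv hu hv).choose

variable (hq : OddQuad η τ χ t c) (hu : IsUnit (crossP η t c g₀ h₀))
  (hv : IsUnit (crossM η t c h₀ g₀))
include hq hu hv

theorem frameEquiv_smul (g : G) (v : H) :
    hq.frameEquiv hu hv (τ g v) = matAct (frameMatrix η t c g₀ h₀ g) (hq.frameEquiv hu hv v) :=
  (hq.exists_linearEquiv hu hv).choose_spec g v

theorem faithful_range (hH : ∀ r : R, (∀ v : H, r • v = 0) → r = 0) (r : R)
    (h : ∀ x : LinearMap.range (projP η τ c), r • x = 0) : r = 0 := by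
  refine hH r fun v => (hq.frameEquiv hu hv).injective ?_
  rw [map_smul, map_zero]
  funext i
  exact h _

variable (hH : ∀ r : R, (∀ v : H, r • v = 0) → r = 0)
include hH

theorem eq_frameMatrix {g : G} {M : Matrix (Fin 2) (Fin 2) R}
    (h : ∀ v, hq.frameEquiv hu hv (τ g v) = matAct M (hq.frameEquiv hu hv v)) :
    frameMatrix η t c g₀ h₀ g = M := by
  refine eq_of_matAct (hq.faithful_range hu hv hH) fun w => ?_
  obtain ⟨v, rfl⟩ := (hq.frameEquiv hu hv).surjective w
  rw [← hq.frameEquiv_smul hu hv, h]

/-- The representation over `R`. -/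
noncomputable def frameRep : G →* Matrix (Fin 2) (Fin 2) R where
  toFun := frameMatrix η t c g₀ h₀
  map_one' := hq.eq_frameMatrix hu hv hH fun v => by rw [map_one, Module.End.one_apply, matAct_one]
  map_mul' g h := hq.eq_frameMatrix hu hv hH fun v => by
    rw [map_mul, Module.End.mul_apply, hq.frameEquiv_smul, hq.frameEquiv_smul, matAct_mul]

theorem frameRep_apply (g : G) : hq.frameRep hu hv hH g = frameMatrix η t c g₀ h₀ g := rfl

/-- The frame matrices have determinant `χ`. -/
theorem frameMatrix_det [Nontrivial R] (g : G) : (frameMatrix η t c g₀ h₀ g).det = χ g := by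
  set M := hq.frameRep hu hv hH
  have hquad : M g + χ g • M g⁻¹ = t g • 1 := by
    refine eq_of_matAct (hq.faithful_range hu hv hH) fun w => ?_
    obtain ⟨v, rfl⟩ := (hq.frameEquiv hu hv).surjective w
    have h : matAct (M g) (hq.frameEquiv hu hv v) + χ g • matAct (M g⁻¹) (hq.frameEquiv hu hv v) =
        t g • hq.frameEquiv hu hv v := by
      rw [frameRep_apply, frameRep_apply, ← hq.frameEquiv_smul, ← hq.frameEquiv_smul]
      simpa using congrArg (hq.frameEquiv hu hv) (LinearMap.congr_fun (hq.quad g) v)
    rw [matAct_scalar, ← h]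
    funext i
    simp [add_smul, smul_add, smul_smul]
    abel
  have hinv : M g * M g⁻¹ = 1 := by rw [← map_mul, mul_inv_cancel, map_one]
  have h1 := congrArg (M g * ·) hquad
  simp only [mul_add, mul_smul_comm, hinv, mul_one] at h1
  have hCH := Matrix.aeval_self_charpoly (M g)
  rw [Matrix.charpoly_fin_two, show (M g).trace = t g from frameMatrix_trace η t c hq.two g₀ h₀ g]
    at hCH
  simp only [map_add, map_sub, map_mul, Polynomial.aeval_X, Polynomial.aeval_C,
    Algebra.algebraMap_eq_smul_one, smul_mul_assoc, one_mul, sq] at hCH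
  have h2 : (χ g - (M g).det) • (1 : Matrix (Fin 2) (Fin 2) R) = 0 := by
    rw [sub_smul, ← sub_eq_zero.mpr h1]
    linear_combination (norm := abel) -hCH
  exact (sub_eq_zero.mp (by simpa [M, frameRep_apply] using congrFun (congrFun h2 0) 0)).symm

theorem frameMatrix_charpoly [Nontrivial R] (g : G) :
    (frameMatrix η t c g₀ h₀ g).charpoly =
      Polynomial.X ^ 2 - Polynomial.C (t g) * Polynomial.X + Polynomial.C (χ g) := by
  rw [Matrix.charpoly_fin_two, frameMatrix_trace η t c hq.two, hq.frameMatrix_det hu hv hH]

/-- An element acts as the scalar `a` iff its matrix is scalar. -/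
theorem frameMatrix_eq_scalar_iff (g : G) (a : R) :
    frameMatrix η t c g₀ h₀ g = a • 1 ↔ τ g = a • 1 := by
  constructor
  · intro h
    refine LinearMap.ext fun v => (hq.frameEquiv hu hv).injective ?_
    rw [hq.frameEquiv_smul, h, matAct_scalar, LinearMap.smul_apply, Module.End.one_apply, map_smul]
  · intro h
    refine hq.eq_frameMatrix hu hv hH fun v => ?_
    rw [matAct_scalar, h, LinearMap.smul_apply, Module.End.one_apply, map_smul]

theorem frameMatrix_eq_one_iff (g : G) : frameMatrix η t c g₀ h₀ g = 1 ↔ τ g = 1 := by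
  simpa using hq.frameMatrix_eq_scalar_iff hu hv hH g 1

end OddQuad

section Residual

variable {k : Type*} [CommRing k] [Nontrivial k] {V : Type*} [AddCommGroup V] [Module k V]
  [Module.Free k V] [Module.Finite k V]

/-- Cayley–Hamilton form of the quadratic relation for a representation of rank two. -/
theorem quad_of_finrank_two (hV : Module.finrank k V = 2) (ρ : G →* Module.End k V) (g : G) :
    ρ g + LinearMap.det (ρ g) • ρ g⁻¹ = LinearMap.trace k V (ρ g) • 1 := by
  have h := congrArg (ρ g⁻¹ * ·) (Gal.cayleyHamilton_two hV (ρ g))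
  have hinv : ρ g⁻¹ * ρ g = 1 := by rw [← map_mul, inv_mul_cancel, map_one]
  simp only [mul_sub, mul_smul_comm, mul_one, ← mul_assoc, hinv, one_mul]
    at h
  linear_combination (norm := abel) h

end Residual

end Fermat.Agent.LevelLowering
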