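import Fermat.Agent.Attach.Point
import Fermat.Agent.Attach.PowTrace
import Fermat.Agent.Gal.Compare
import Fermat.Agent.LevelLowering.StructureProps
import Fermat.Agent.LevelLowering.Ultralimit

/-!
# Gluing representations along the points of a complete local ring

`T` is a complete Noetherian local ring with finite residue field, `ψ j : T → O j` finitely many
local maps which are jointly injective, and `ρ j` representations over `O j` whose characteristic
polynomials at Frobenius elements come from elements `τ ℓ` of `T`.  If the residual system belongs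
to an odd absolutely irreducible `ρbar`, there is a representation over `T` inducing all of them.
-/

noncomputable section

namespace Fermat.Agent.LevelLowering

open IsLocalRing Filter Polynomial
open scoped TensorProduct

local notation "Qbar" => AlgebraicClosure ℚ
local notation "GQ" => (AlgebraicClosure ℚ ≃ₐ[ℚ] AlgebraicClosure ℚ)

variable {T : Type} [CommRing T] [IsLocalRing T] [IsNoetherianRing T]
  [IsAdicComplete (maximalIdeal T) T] [Finite (ResidueField T)]

/-- A sequence in a complete local ring with finite residue field has an ultralimit. -/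
lemma exists_adic_ultralimit (x : ℕ → T) :
    ∃ y, ∀ j, ∀ᶠ n in (patchUltra : Filter ℕ), x n - y ∈ maximalIdeal T ^ j := by
  have hfin : ∀ j, Finite (T ⧸ maximalIdeal T ^ j) := fun j => by
    have : Finite (T ⧸ maximalIdeal T) := ‹Finite (ResidueField T)›
    exact Ideal.finite_quotient_pow (IsNoetherian.noetherian _) j
  let c : ℕ → T := fun j => Quotient.out (uval fun n => Ideal.Quotient.mk (maximalIdeal T ^ j)
      (x n))
  have hc : ∀ j, ∀ᶠ n in (patchUltra : Filter ℕ), x n - c j ∈ maximalIdeal T ^ j := fun j => by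
    filter_upwards [uval_spec fun n => Ideal.Quotient.mk (maximalIdeal T ^ j) (x n)] with n hn
    rw [← Ideal.Quotient.eq, Ideal.Quotient.mk_out, hn]
  obtain ⟨y, hy⟩ := IsPrecomplete.prec' (I := maximalIdeal T) c fun {a b} hab => by
    rw [SModEq.sub_mem, smul_eq_mul, Ideal.mul_top]
    obtain ⟨n, h1, h2⟩ := ((hc a).and (hc b)).exists
    simpa using sub_mem (Ideal.pow_le_pow_right hab h2) h1
  refine ⟨y, fun j => (hc j).mono fun n hn => ?_⟩
  have := hy j
  rw [SModEq.sub_mem, smul_eq_mul, Ideal.mul_top] at this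
  simpa using add_mem hn this

lemma eq_zero_of_forall_mem_pow {A : Type} [CommRing A] [IsLocalRing A] [IsNoetherianRing A]
    (x : A) (h : ∀ n, x ∈ maximalIdeal A ^ n) : x = 0 := by
  rw [← Ideal.mem_bot, ← Ideal.iInf_pow_eq_bot_of_isLocalRing (maximalIdeal A)
    (maximalIdeal.isMaximal A).ne_top, Submodule.mem_iInf]
  exact h

/-- Polynomials with coefficients in rings with the same kernels become the same integral
polynomial together. -/
lemma map_eq_iff_of_ker {B K R : Type*} [Ring B] [CommRing K] [CommRing R] (f : Polynomial B)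
    (lam : B →+* K) (ψ : B →+* R) (h : ∀ b, lam b = 0 ↔ ψ b = 0) (g : Polynomial ℤ) :
    f.map lam = g.map (Int.castRingHom K) ↔ f.map ψ = g.map (Int.castRingHom R) := by
  simp only [Polynomial.ext_iff, Polynomial.coeff_map, eq_intCast]
  refine forall_congr' fun n => ?_
  have := h (f.coeff n - (g.coeff n : B))
  rwa [map_sub, map_sub, map_intCast, map_intCast, sub_eq_zero, sub_eq_zero] at this

/-- Characters with the same kernel make a polynomial unipotent together. -/
lemma map_eq_sq_iff_of_ker {B K R : Type*} [Ring B] [CommRing K] [CommRing R] (f : Polynomial B)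
    (lam : B →+* K) (ψ : B →+* R) (h : ∀ b, lam b = 0 ↔ ψ b = 0) :
    f.map lam = (X - 1) ^ 2 ↔ f.map ψ = (X - 1) ^ 2 := by
  have h1 := map_eq_iff_of_ker f lam ψ h ((X - 1) ^ 2)
  rwa [Polynomial.map_pow, Polynomial.map_sub, Polynomial.map_X, Polynomial.map_one,
    Polynomial.map_pow, Polynomial.map_sub, Polynomial.map_X, Polynomial.map_one] at h1

/-- The frame matrix at `σ` is the one at `1` if the trace function does not see `σ`. -/
lemma frameMatrix_congr {G R : Type*} [Group G] [CommRing R] (η : R) (f : G → R) (c g₀ h₀ : G)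
    {σ : G} (e1 : ∀ g, f (σ * g) = f g) (e2 : ∀ g g', f (g * σ * g') = f (g * g')) :
    frameMatrix η f c g₀ h₀ σ = frameMatrix η f c g₀ h₀ 1 := by
  have e3 : ∀ g, f (g * σ) = f g := fun g => by simpa using e2 g 1
  have e0 : f σ = f 1 := by simpa using e1 1
  have dP : diagP η f c σ = diagP η f c 1 := by simp [diagP, e0, e1 c]
  have dM : diagM η f c σ = diagM η f c 1 := by simp [diagM, e0, e1 c]
  have cl : crossP η f c σ h₀ = crossP η f c 1 h₀ := by
    simp only [crossP, diagP, mul_assoc, one_mul, e1]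
  have cr : crossP η f c g₀ σ = crossP η f c g₀ 1 := by
    simp only [crossP, diagP, mul_one, e2, e3]
  ext a b
  fin_cases a <;> fin_cases b <;> simp [frameMatrix, dP, dM, cl, cr]

omit [IsNoetherianRing T] [IsAdicComplete (maximalIdeal T) T] [Finite (ResidueField T)] in
/-- A trace basis stays one after a change of coefficients. -/
lemma hasTraceBasis_baseChangeAlong {A : Type} [CommRing A] [IsLocalRing A] {r : GaloisRepAdic T}
    (φ : T →+* A) [IsLocalHom φ] (h : Gal.HasTraceBasis r.ρ) :
    Gal.HasTraceBasis (r.baseChangeAlong φ inferInstance).ρ := by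
  obtain ⟨g4, hg4⟩ := h
  refine ⟨g4, ?_⟩
  have h5 := hg4.map φ
  rw [RingHom.map_det] at h5
  convert h5 using 2
  ext a b
  let : Algebra T A := φ.toAlgebra
  simp only [RingHom.mapMatrix_apply, Matrix.map_apply, Matrix.of_apply, ← map_mul]
  exact LinearMap.trace_baseChange (r.ρ (g4 a * g4 b)) A

variable {ι : Type} [Fintype ι] {O : ι → Type} [∀ j, CommRing (O j)] [∀ j, IsLocalRing (O j)]
  [∀ j, IsNoetherianRing (O j)] (ψ : ∀ j, T →+* O j) [∀ j, IsLocalHom (ψ j)]

omit [IsNoetherianRing T] [IsAdicComplete (maximalIdeal T) T] [Finite (ResidueField T)]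
  [Fintype ι] [∀ (j : ι), IsNoetherianRing (O j)] in
lemma map_mem_pow (j : ι) {x : T} {k : ℕ} (hx : x ∈ maximalIdeal T ^ k) :
    ψ j x ∈ maximalIdeal (O j) ^ k := by
  have h1 := Ideal.mem_map_of_mem (ψ j) hx
  rw [Ideal.map_pow] at h1
  exact Ideal.pow_right_mono (Ideal.map_le_iff_le_comap.mpr fun a ha =>
    Ideal.mem_comap.mpr (map_nonunit (ψ j) a ha)) k h1

omit [Fintype ι] in
/-- Values approximated in `T` come from `T`. -/
lemma exists_preimage_of_approx (y : ∀ j, O j)
    (h : ∀ n, ∃ x, ∀ j, y j - ψ j x ∈ maximalIdeal (O j) ^ n) : ∃ x, ∀ j, ψ j x = y j := by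
  choose x hx using h
  obtain ⟨z, hz⟩ := exists_adic_ultralimit x
  refine ⟨z, fun j => (sub_eq_zero.mp (eq_zero_of_forall_mem_pow _ fun N => ?_)).symm⟩
  obtain ⟨n, hn, hN⟩ := ((hz N).and (eventually_patchUltra_of_atTop (eventually_ge_atTop N))).exists
  have h1 := Ideal.pow_le_pow_right hN (hx n j)
  have h2 := map_mem_pow ψ j hn
  rw [map_sub] at h2
  simpa using add_mem h1 h2

variable (hinj : ∀ x, (∀ j, ψ j x = 0) → x = 0)
include hinj

omit [Fintype ι] in
/-- Chevalley's lemma for the points. -/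
lemma exists_pow_of_forall_mem (k : ℕ) :
    ∃ n, ∀ x, (∀ j, ψ j x ∈ maximalIdeal (O j) ^ n) → x ∈ maximalIdeal T ^ k := by
  by_contra hcon
  push Not at hcon
  choose x hx hxk using hcon
  obtain ⟨y, hy⟩ := exists_adic_ultralimit x
  have hy0 : y = 0 := hinj y fun j => eq_zero_of_forall_mem_pow _ fun N => by
    obtain ⟨n, hn, hN⟩ :=
      ((hy N).and (eventually_patchUltra_of_atTop (eventually_ge_atTop N))).exists
    have h2 := map_mem_pow ψ j hn
    rw [map_sub] at h2
    simpa using sub_mem (Ideal.pow_le_pow_right hN (hx n j)) h2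
  obtain ⟨n, hn⟩ := (hy k).exists
  rw [hy0, sub_zero] at hn
  exact hxk n hn

omit hinj

/-- Trace of a power of an invertible endomorphism of a free module of rank two. -/
lemma trace_pow_end {A V : Type} [CommRing A] [Nontrivial A] [AddCommGroup V] [Module A V]
    [Module.Free A V] [Module.Finite A V] (hV : Module.finrank A V = 2) (f : Module.End A V)
    (hf : IsUnit (LinearMap.det f)) (a : ℕ) :
    LinearMap.trace A V (f ^ a) = Attach.powTrace (LinearMap.trace A V f) (LinearMap.det f) a := by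
  have hdet : (LinearMap.toMatrixAlgEquiv (Gal.basisTwo hV) f).det = LinearMap.det f :=
    LinearMap.det_toMatrix _ _
  have := Attach.trace_pow_eq_powTrace (LinearMap.toMatrixAlgEquiv (Gal.basisTwo hV) f)
    (hdet.symm ▸ hf) a
  rw [← map_pow, hdet] at this
  rw [LinearMap.trace_eq_matrix_trace A (Gal.basisTwo hV) (f ^ a),
    LinearMap.trace_eq_matrix_trace A (Gal.basisTwo hV) f]
  exact this

lemma trace_det_of_charpoly {A V : Type} [CommRing A] [Nontrivial A] [AddCommGroup V] [Module A V]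
    [Module.Free A V] [Module.Finite A V] (hV : Module.finrank A V = 2) {f : Module.End A V}
    {t e : A} (h : f.charpoly = X ^ 2 - C t * X + C e) :
    LinearMap.trace A V f = t ∧ LinearMap.det f = e := by
  rw [Gal.charpoly_fin_two' hV] at h
  have h1 := congrArg (fun P : A[X] => P.coeff 1) h
  have h0 := congrArg (fun P : A[X] => P.coeff 0) h
  simp [Polynomial.coeff_X_pow, Polynomial.coeff_C] at h1 h0
  exact ⟨h1, h0⟩

/-- `ρ` is congruent at `g` and `g'` if they agree on a level. -/
lemma sub_mem_of_agree {A : Type} [CommRing A] [IsLocalRing A] (r : GaloisRepAdic A) {n : ℕ}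
    {L : IntermediateField ℚ Qbar}
    (h : ∀ σ : GQ, (∀ x ∈ L, σ x = x) → ∀ v,
      r.ρ σ v - v ∈ maximalIdeal A ^ n • (⊤ : Submodule A r.V))
    {g g' : GQ} (hgg : ∀ x ∈ L, g x = g' x) (v : r.V) :
    r.ρ g v - r.ρ g' v ∈ maximalIdeal A ^ n • (⊤ : Submodule A r.V) := by
  have h1 := h (g'⁻¹ * g) (fun x hx => by
    show g'⁻¹ (g x) = x
    rw [hgg x hx]
    exact g'.symm_apply_apply x) v
  have e : r.ρ g v - r.ρ g' v = r.ρ g' (r.ρ (g'⁻¹ * g) v - v) := by
    rw [map_sub, ← Module.End.mul_apply, ← map_mul, mul_inv_cancel_left]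
  rw [e]
  exact Submodule.smul_top_le_comap_smul_top _ (r.ρ g') h1

/-- Absolutely irreducible representations are irreducible. -/
lemma isIrreducible_of_absolutely {k : Type} [Field k] (ρ : ResidualGaloisRep k)
    (h : ρ.IsAbsolutelyIrreducible) (W : Submodule k ρ.V)
    (hW : ∀ g, ∀ x ∈ W, ρ.ρ g x ∈ W) : W = ⊥ ∨ W = ⊤ := by
  by_contra hcon
  push Not at hcon
  obtain ⟨f, hf0, hfW⟩ := Submodule.exists_dual_map_eq_bot_of_lt_top
      (p := W) (lt_top_iff_ne_top.mpr hcon.2)
    inferInstance
  rcases h (W.baseChange (AlgebraicClosure k)) (fun g y hy => by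
    have hle : (W.baseChange (AlgebraicClosure k)).map ((ρ.ρ g).baseChange (AlgebraicClosure k)) ≤
        W.baseChange (AlgebraicClosure k) := by
      rw [Submodule.baseChange_eq_span, Submodule.map_span, Submodule.span_le]
      rintro _ ⟨_, ⟨x, hx, rfl⟩, rfl⟩
      exact Submodule.subset_span ⟨ρ.ρ g x, hW g x hx, by simp⟩
    exact hle ⟨y, hy, rfl⟩) with h0 | h1
  · refine hcon.1 ((Submodule.eq_bot_iff W).mpr fun x hx => ?_)
    have hx' := Submodule.tmul_mem_baseChange_of_mem (A := AlgebraicClosure k) 1 hx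
    rw [h0, Submodule.mem_bot] at hx'
    by_contra hx0
    obtain ⟨φ, hφ⟩ := Module.Projective.exists_dual_ne_zero k hx0
    have := congrArg (LinearMap.baseChange (AlgebraicClosure k) φ) hx'
    rw [LinearMap.baseChange_tmul, map_zero] at this
    refine hφ ?_
    have h2 := congrArg (TensorProduct.rid k (AlgebraicClosure k)) this
    simpa using h2
  · refine hf0 (LinearMap.ext fun x => ?_)
    have hle : W.baseChange (AlgebraicClosure k) ≤
        LinearMap.ker (LinearMap.baseChange (AlgebraicClosure k) f) := by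
      rw [Submodule.baseChange_eq_span, Submodule.span_le]
      rintro _ ⟨y, hy, rfl⟩
      have : f y = 0 := (Submodule.mem_bot k).mp (hfW ▸ ⟨y, hy, rfl⟩)
      simp [this]
    have hx' : LinearMap.baseChange (AlgebraicClosure k) f (1 ⊗ₜ x) = 0 :=
      hle (h1 ▸ Submodule.mem_top)
    rw [LinearMap.baseChange_tmul] at hx'
    have h2 := congrArg (TensorProduct.rid k (AlgebraicClosure k)) hx'
    simpa using h2

variable (ρ : ∀ j, GaloisRepAdic (O j)) (S : Finset ℕ) (τ : ℕ → T)
  (hfrob : ∀ j, ∀ ℓ : ℕ, ℓ.Prime → ℓ ∉ S → ∀ A : ValuationSubring Qbar, A.LiesOverPrime ℓ →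
    ∀ σ : GQ, A.IsFrobeniusAt σ ℓ →
      LinearMap.charpoly ((ρ j).ρ σ) = X ^ 2 - C (ψ j (τ ℓ)) * X + C (ℓ : O j))
  (ρbar : ResidualGaloisRep (ResidueField T))
  (hbar : ∀ ℓ : ℕ, ℓ.Prime → ℓ ∉ S → ∀ A : ValuationSubring Qbar, A.LiesOverPrime ℓ →
    ∀ σ : GQ, A.IsFrobeniusAt σ ℓ →
      LinearMap.charpoly (ρbar.ρ σ) = X ^ 2 - C (residue T (τ ℓ)) * X + C (ℓ : ResidueField T))

include hfrob hbar

omit [IsNoetherianRing T] [IsAdicComplete (maximalIdeal T) T] [Finite (ResidueField T)]
  [∀ (j : ι), IsNoetherianRing (O j)] [∀ (j : ι), IsLocalHom (ψ j)] in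
/-- Traces and determinants are approximated by elements of `T`. -/
lemma exists_trace_det_approx (g : GQ) (n : ℕ) :
    ∃ x e : T, (∀ j, (ρ j).trace g - ψ j x ∈ maximalIdeal (O j) ^ n ∧
        LinearMap.det ((ρ j).ρ g) - ψ j e ∈ maximalIdeal (O j) ^ n) ∧
      residue T x = LinearMap.trace _ _ (ρbar.ρ g) ∧ residue T e = LinearMap.det (ρbar.ρ g) := by
  choose L hL hLn using fun j => (ρ j).isAdicContinuous n
  obtain ⟨L₀, hL₀, h₀⟩ := ρbar.factorsThroughFiniteLevel
  have : FiniteDimensional ℚ (⨆ j, L j : IntermediateField ℚ Qbar) :=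
    IntermediateField.finiteDimensional_iSup_of_finite
  obtain ⟨ℓ, hℓ, hℓS, A, hA, σ, hσ, a, b, ha, -⟩ :=
    Gal.exists_frobenius_generates (L₀ ⊔ ⨆ j, L j) g S
  refine ⟨Attach.powTrace (τ ℓ) (ℓ : T) a, (ℓ : T) ^ a, fun j => ?_, ?_⟩
  · obtain ⟨ht, hd⟩ := trace_det_of_charpoly (ρ j).finrank_eq (hfrob j ℓ hℓ hℓS A hA σ hσ)
    have hu : IsUnit (LinearMap.det ((ρ j).ρ σ)) :=
      (Group.isUnit σ).map (LinearMap.det.comp (ρ j).ρ)
    have hc := Gal.trace_det_congr (Gal.basisTwo (ρ j).finrank_eq)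
      (f := (ρ j).ρ g) (f' := (ρ j).ρ (σ ^ a))
      (fun v => sub_mem_of_agree (ρ j) (hLn j)
        (fun x hx => ha x (le_sup_right (a := L₀) (le_iSup L j hx))) v)
    constructor
    · have h1 := hc.1
      rwa [map_pow, trace_pow_end (ρ j).finrank_eq _ hu, ht, hd,
        ← map_natCast (ψ j), ← Attach.map_powTrace] at h1
    · have h1 := hc.2
      rwa [map_pow, map_pow, hd, ← map_natCast (ψ j), ← map_pow] at h1
  · obtain ⟨ht, hd⟩ := trace_det_of_charpoly ρbar.finrank_eq (hbar ℓ hℓ hℓS A hA σ hσ)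
    have hg : ρbar.ρ g = ρbar.ρ σ ^ a := by
      rw [← map_pow]
      have h1 := h₀ ((σ ^ a)⁻¹ * g) fun x hx => by
        show (σ ^ a)⁻¹ (g x) = x
        rw [ha x (le_sup_left (b := ⨆ j, L j) hx)]
        exact (σ ^ a).symm_apply_apply x
      rw [← mul_one (ρbar.ρ (σ ^ a)), ← h1, ← map_mul, mul_inv_cancel_left]
    have hu : IsUnit (LinearMap.det (ρbar.ρ σ)) := (Group.isUnit σ).map (LinearMap.det.comp ρbar.ρ)
    rw [hg, trace_pow_end ρbar.finrank_eq _ hu, map_pow LinearMap.det, ht, hd, Attach.map_powTrace,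
      map_pow, map_natCast]
    exact ⟨rfl, rfl⟩

include hinj

/-- The traces and determinants of the points come from `T`. -/
lemma exists_trace_det (g : GQ) :
    ∃ x e : T, (∀ j, ψ j x = (ρ j).trace g ∧ ψ j e = LinearMap.det ((ρ j).ρ g)) ∧
      residue T x = LinearMap.trace _ _ (ρbar.ρ g) ∧ residue T e = LinearMap.det (ρbar.ρ g) := by
  choose x e hxe hx he using exists_trace_det_approx ψ ρ S τ hfrob ρbar hbar g
  obtain ⟨x', hx'⟩ := exists_preimage_of_approx ψ (fun j => (ρ j).trace g)
    fun n => ⟨x n, fun j => (hxe n j).1⟩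
  obtain ⟨e', he'⟩ := exists_preimage_of_approx ψ (fun j => LinearMap.det ((ρ j).ρ g))
    fun n => ⟨e n, fun j => (hxe n j).2⟩
  refine ⟨x', e', fun j => ⟨hx' j, he' j⟩, ?_⟩
  obtain ⟨n, hn⟩ := exists_pow_of_forall_mem ψ hinj 1
  rw [← hx n, ← he n]
  constructor
  · rw [← sub_eq_zero, ← map_sub, residue_eq_zero_iff, ← pow_one (maximalIdeal T)]
    exact hn _ fun j => by rw [map_sub, hx' j]; exact (hxe n j).1
  · rw [← sub_eq_zero, ← map_sub, residue_eq_zero_iff, ← pow_one (maximalIdeal T)]
    exact hn _ fun j => by rw [map_sub, he' j]; exact (hxe n j).2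

omit hfrob hbar in
/-- The frame matrices are continuous. -/
lemma exists_level_frameMatrix {t : GQ → T} (ht : ∀ g j, ψ j (t g) = (ρ j).trace g) (η : T)
    (c : GQ) {g₀ h₀ : GQ} (hu : IsUnit (crossP η t c g₀ h₀)) (k : ℕ) :
    ∃ L : IntermediateField ℚ Qbar, FiniteDimensional ℚ L ∧ ∀ σ : GQ, (∀ x ∈ L, σ x = x) →
      ∀ a b, frameMatrix η t c g₀ h₀ σ a b - frameMatrix η t c g₀ h₀ 1 a b ∈
        maximalIdeal T ^ k := by
  obtain ⟨n, hn⟩ := exists_pow_of_forall_mem ψ hinj k
  choose L hL hLn using fun j => (ρ j).isAdicContinuous n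
  refine ⟨⨆ j, L j, IntermediateField.finiteDimensional_iSup_of_finite, fun σ hσ a b => ?_⟩
  set π := Ideal.Quotient.mk (maximalIdeal T ^ k)
  have hσ' : ∀ j v, (ρ j).ρ σ v - v ∈ maximalIdeal (O j) ^ n • (⊤ : Submodule (O j) (ρ j).V) :=
    fun j => hLn j σ fun x hx => hσ x (le_iSup L j hx)
  have hl : ∀ g, π (t (σ * g)) = π (t g) := fun g => by
    refine Ideal.Quotient.eq.mpr (hn _ fun j => ?_)
    rw [map_sub, ht, ht]
    refine (Gal.trace_det_congr (Gal.basisTwo (ρ j).finrank_eq) fun v => ?_).1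
    rw [map_mul, Module.End.mul_apply]
    exact hσ' j _
  have hr : ∀ g g', π (t (g * σ * g')) = π (t (g * g')) := fun g g' => by
    refine Ideal.Quotient.eq.mpr (hn _ fun j => ?_)
    rw [map_sub, ht, ht]
    refine (Gal.trace_det_congr (Gal.basisTwo (ρ j).finrank_eq) fun v => ?_).1
    rw [map_mul, map_mul, map_mul, Module.End.mul_apply, Module.End.mul_apply,
      Module.End.mul_apply, ← map_sub]
    exact Submodule.smul_top_le_comap_smul_top _ ((ρ j).ρ g) (hσ' j _)
  have h1 : (frameMatrix η t c g₀ h₀ σ).map π = (frameMatrix η t c g₀ h₀ 1).map π := by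
    rw [map_frameMatrix η t c π hu, map_frameMatrix η t c π hu]
    exact frameMatrix_congr _ (π ∘ t) c g₀ h₀ hl hr
  exact Ideal.Quotient.eq.mp (congrFun (congrFun h1 a) b)

/-- **The glued representation.** -/
theorem exists_galoisRep_of_points (h2 : IsUnit (2 : T))
    (hirr : ρbar.IsAbsolutelyIrreducible)
    (hodd : ∃ c : GQ, c * c = 1 ∧ LinearMap.det (ρbar.ρ c) = -1)
    (hdom : ∀ j, IsDomain (O j)) :
    ∃ r : GaloisRepAdic T,
      (∀ ℓ : ℕ, ℓ.Prime → ℓ ∉ S → ∀ A : ValuationSubring Qbar, A.LiesOverPrime ℓ →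
        ∀ σ : GQ, A.IsFrobeniusAt σ ℓ →
          LinearMap.charpoly (r.ρ σ) = X ^ 2 - C (τ ℓ) * X + C (ℓ : T)) ∧
      r.residual.IsEquiv ρbar ∧
      (∀ σ : GQ, (∀ j, (ρ j).ρ σ = 1) → r.ρ σ = 1) ∧
      ∀ j, (r.baseChangeAlong (ψ j) inferInstance).IsEquiv (ρ j) := by
  classical
  choose t e hte ht he using exists_trace_det ψ hinj ρ S τ hfrob ρbar hbar
  have hext : ∀ a b : T, (∀ j, ψ j a = ψ j b) → a = b := fun a b h =>
    sub_eq_zero.mp (hinj _ fun j => by rw [map_sub, h j, sub_self])
  let χ : GQ →* T :=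
    { toFun := e
      map_one' := hext _ _ fun j => by rw [(hte 1 j).2, map_one, map_one, map_one]
      map_mul' := fun g h => hext _ _ fun j => by
        rw [map_mul, (hte g j).2, (hte h j).2, (hte (g * h) j).2, map_mul, map_mul] }
  obtain ⟨η, hη⟩ := h2.exists_left_inv
  obtain ⟨c, hcc, hdetc⟩ := hodd
  let : ∀ j, Module T (ρ j).V := fun j => Module.compHom _ (ψ j)
  have hsmul : ∀ j (a : T) (v : (ρ j).V), a • v = ψ j a • v := fun _ _ _ => rfl
  let H := ∀ j, (ρ j).V
  let R : GQ →* Module.End T H :=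
    { toFun := fun g =>
        { toFun := fun v j => (ρ j).ρ g (v j)
          map_add' := fun u v => funext fun j => map_add ((ρ j).ρ g) (u j) (v j)
          map_smul' := fun a v => funext fun j => by
            show (ρ j).ρ g (ψ j a • v j) = ψ j a • (ρ j).ρ g (v j)
            rw [map_smul] }
      map_one' := LinearMap.ext fun v => funext fun j => by
        show (ρ j).ρ 1 (v j) = v j
        rw [map_one, Module.End.one_apply]
      map_mul' := fun g h => LinearMap.ext fun v => funext fun j => by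
        show (ρ j).ρ (g * h) (v j) = (ρ j).ρ g ((ρ j).ρ h (v j))
        rw [map_mul, Module.End.mul_apply] }
  have hbarCH := fun g => quad_of_finrank_two (G := GQ) ρbar.finrank_eq ρbar.ρ g
  have hresη : 2 * residue T η = 1 := by
    rw [mul_comm, ← map_ofNat (residue T), ← map_mul, hη, map_one]
  have h2k : (2 : ResidueField T) ≠ 0 := fun h => by simp [h] at hresη
  have hq : OddQuad η R χ t c :=
    { two := by rw [mul_comm]; exact hη
      c_mul_c := hcc
      char_c := hext _ _ fun j => by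
        have := hdom j
        have h1 : ψ j (χ c) * ψ j (χ c) = 1 := by rw [← map_mul, ← map_mul, hcc, map_one, map_one]
        rcases mul_self_eq_one_iff.mp h1 with h | h
        · exfalso
          have h3 : χ c - 1 ∈ maximalIdeal T := by
            by_contra hu
            have := (notMem_maximalIdeal.mp hu).map (ψ j)
            rw [map_sub, h, map_one, sub_self] at this
            exact not_isUnit_zero this
          rw [← residue_eq_zero_iff, map_sub, map_one, sub_eq_zero] at h3
          have h4 : residue T (χ c) = -1 := (he c).trans hdetc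
          rw [h4] at h3
          exact h2k (by linear_combination -h3)
        · rw [h, map_neg, map_one]
      quad := fun g => LinearMap.ext fun v => funext fun j => by
        show (ρ j).ρ g (v j) + ψ j (e g) • (ρ j).ρ g⁻¹ (v j) = ψ j (t g) • v j
        rw [(hte g j).1, (hte g j).2]
        exact LinearMap.congr_fun (quad_of_finrank_two (ρ j).finrank_eq (ρ j).ρ g) (v j) }
  have hqbar : OddQuad (residue T η) ρbar.ρ ((residue T).toMonoidHom.comp χ) (residue T ∘ t) c :=
    { two := hresη
      c_mul_c := hcc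
      char_c := by
        show residue T (e c) = -1
        rw [he, hdetc]
      quad := fun g => by
        show ρbar.ρ g + residue T (e g) • ρbar.ρ g⁻¹ = residue T (t g) • 1
        rw [he, ht]
        exact hbarCH g }
  have : Nontrivial ρbar.V := Module.nontrivial_of_finrank_eq_succ ρbar.finrank_eq
  have hirr' : ∀ W : Submodule (ResidueField T) ρbar.V, (∀ g, ∀ x ∈ W, ρbar.ρ g x ∈ W) →
      W = ⊥ ∨ W = ⊤ := isIrreducible_of_absolutely ρbar hirr
  obtain ⟨g₀, h₀, hcP, hcM⟩ := exists_cross_ne_zero hqbar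
    (fun h => h2k (by
      have : LinearMap.det (ρbar.ρ c) = 1 := by rw [h, map_one]
      rw [hdetc] at this
      linear_combination -this))
    (fun h => h2k (by
      have : LinearMap.det (ρbar.ρ c) = 1 := by
        rw [h, ← neg_one_smul (ResidueField T) (1 : Module.End _ _), LinearMap.det_smul,
          ρbar.finrank_eq, map_one]
        ring
      rw [hdetc] at this
      linear_combination -this)) hirr'
  rw [← map_crossP (π := residue T), residue_ne_zero_iff_isUnit] at hcP
  rw [← map_crossM (π := residue T), residue_ne_zero_iff_isUnit] at hcM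
  have hH : ∀ a : T, (∀ v : H, a • v = 0) → a = 0 := fun a h => hinj a fun j => by
    let b := Gal.basisTwo (ρ j).finrank_eq
    have h1 := congrFun (h (Pi.single j (b 0))) j
    change ψ j a • (Pi.single j (b 0) : H) j = 0 at h1
    rw [Pi.single_eq_same] at h1
    simpa using congrArg (fun v => b.repr v 0) h1
  let M := hq.frameRep hcP hcM hH
  have hMapp : ∀ g, M g = frameMatrix η t c g₀ h₀ g := fun g => rfl
  have hcont : ∀ k, ∃ L : IntermediateField ℚ Qbar, FiniteDimensional ℚ L ∧
      ∀ σ : GQ, (∀ x ∈ L, σ x = x) → Attach.NearOne (maximalIdeal T ^ k) (M σ) := fun k => by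
    obtain ⟨L, hL, hLM⟩ := exists_level_frameMatrix ψ hinj ρ (fun g j => (hte g j).1) η c hcP k
    exact ⟨L, hL, fun σ hσ a b => by rw [hMapp, ← map_one M, hMapp]; exact hLM σ hσ a b⟩
  let r := Attach.adicOfMatrix M hcont
  have hrchar : ∀ g, LinearMap.charpoly (r.ρ g) = X ^ 2 - C (t g) * X + C (χ g) := fun g => by
    rw [Attach.adicOfMatrix_charpoly, hMapp, hq.frameMatrix_charpoly hcP hcM hH]
  have hrtd : ∀ g, LinearMap.trace T r.V (r.ρ g) = t g ∧ LinearMap.det (r.ρ g) = χ g := fun g =>
    trace_det_of_charpoly r.finrank_eq (hrchar g)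
  have hresid : ∀ g, LinearMap.trace _ _ (r.residual.ρ g) = LinearMap.trace _ _ (ρbar.ρ g) := by
    intro g
    rw [show LinearMap.trace _ _ (r.residual.ρ g) = residue T (LinearMap.trace T r.V (r.ρ g)) from
      LinearMap.trace_baseChange _ _, (hrtd g).1, ht]
  have hrirr : r.residual.IsEquiv ρbar := by
    obtain ⟨e', he'⟩ := Gal.exists_conj_of_trace_eq ρbar.finrank_eq r.residual.finrank_eq
      ρbar.ρ r.residual.ρ (Gal.hasTraceBasis_of_isAbsolutelyIrreducible ρbar hirr)
      (fun g => (hresid g).symm)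
    exact ⟨ResidualGaloisRep.Equiv.symm ⟨e', he'⟩⟩
  refine ⟨r, fun ℓ hℓ hℓS A hA σ hσ => ?_, hrirr, fun σ hσ => ?_, fun j => ?_⟩
  · have htd := fun j => trace_det_of_charpoly (ρ j).finrank_eq (hfrob j ℓ hℓ hℓS A hA σ hσ)
    have e1 : t σ = τ ℓ := hext _ _ fun j => (hte σ j).1.trans (htd j).1
    have e2 : χ σ = (ℓ : T) := hext _ _ fun j => by
      rw [map_natCast]; exact (hte σ j).2.trans (htd j).2
    rw [hrchar, e1, e2]
  · have : M σ = 1 := by
      rw [hMapp, hq.frameMatrix_eq_one_iff hcP hcM hH]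
      refine LinearMap.ext fun v => funext fun j => ?_
      show (ρ j).ρ σ (v j) = v j
      rw [hσ j, Module.End.one_apply]
    show Matrix.toLinAlgEquiv' (M σ) = 1
    rw [this, map_one]
  · have htr : ∀ g, (r.baseChangeAlong (ψ j) inferInstance).trace g = (ρ j).trace g := fun g => by
      let : Algebra T (O j) := (ψ j).toAlgebra
      refine (LinearMap.trace_baseChange (r.ρ g) (O j)).trans ?_
      rw [(hrtd g).1]
      exact (hte g j).1
    have hb : Gal.HasTraceBasis (r.baseChangeAlong (ψ j) inferInstance).ρ :=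
      hasTraceBasis_baseChangeAlong (ψ j) (Gal.hasTraceBasis_of_trace_map (residue T) r.ρ ρbar.ρ
        (fun g => ((hrtd g).1.symm ▸ (ht g)).symm)
        (Gal.hasTraceBasis_of_isAbsolutelyIrreducible ρbar hirr))
    obtain ⟨e', he'⟩ := Gal.exists_conj_of_trace_eq (r.baseChangeAlong (ψ j)
        inferInstance).finrank_eq
      (ρ j).finrank_eq _ (ρ j).ρ hb htr
    exact ⟨⟨e', he'⟩⟩

end Fermat.Agent.LevelLowering

end
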