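import Fermat.Agent.LevelLowering.GaloisDiamond
import Fermat.Agent.LevelLowering.TWInertia

/-!
# The Galois diamonds act as the variables

At a Taylor–Wiles prime the inertia of a deformation is given by a character with values in roots
of unity.  When the eigensystems at a character of the diamonds are unipotent at the primes where
it is trivial and are not at a prime supporting it with order `p`, the algebra acts in coordinates
in which this character is one plus the variable: for a family of levels at once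
(`exists_twDiamond_family`), in particular for one (`exists_twDiamond_act`).
-/

noncomputable section

namespace Fermat.Agent.LevelLowering

open IsLocalRing Polynomial

section Joint

variable {K V : Type} [Field K] [IsAlgClosed K] [AddCommGroup V] [Module K V]

/-- Commuting operators have a common eigenvector in a nonzero stable subspace. -/
lemma exists_joint_eigen_mem [FiniteDimensional K V] {ι : Type} (f : ι → Module.End K V)
    (hc : ∀ i j, Commute (f i) (f j)) : ∀ (n : ℕ) (W : Submodule K V), Module.finrank K W ≤ n →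
    W ≠ ⊥ → (∀ i, ∀ w ∈ W, f i w ∈ W) → ∃ v ∈ W, v ≠ 0 ∧ ∀ i, ∃ c : K, f i v = c • v := by
  intro n
  induction n with
  | zero =>
    intro W hn hW _
    exact absurd (Submodule.finrank_eq_zero.mp (Nat.le_zero.mp hn)) hW
  | succ n ih =>
    intro W hn hW hst
    by_cases hall : ∀ i, ∃ c : K, ∀ w ∈ W, f i w = c • w
    · obtain ⟨v, hv, hv0⟩ := Submodule.exists_mem_ne_zero_of_ne_bot hW
      exact ⟨v, hv, hv0, fun i => (hall i).imp fun c hc => hc v hv⟩
    · obtain ⟨i, hi⟩ := not_forall.mp hall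
      have : Nontrivial W := Submodule.nontrivial_iff_ne_bot.mpr hW
      have hc_eq : ∀ a b, f a * f b = f b * f a := fun a b => (hc a b).eq
      obtain ⟨c, hc⟩ := Module.End.exists_eigenvalue ((f i).restrict (hst i))
      obtain ⟨x, hx, hx0⟩ := hc.exists_hasEigenvector
      let W' : Submodule K V := W ⊓ LinearMap.ker (f i - c • 1)
      have hlt : Module.finrank K W' < Module.finrank K W := by
        refine Submodule.finrank_lt_finrank_of_lt (lt_of_le_of_ne inf_le_left fun h => hi ⟨c, ?_⟩)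
        intro w hw
        have := (h.ge hw).2
        simpa [sub_eq_zero] using this
      have hx' : (x : V) ∈ W' := by
        refine ⟨x.2, ?_⟩
        have := congrArg Subtype.val (Module.End.mem_eigenspace_iff.mp hx)
        simpa [sub_eq_zero] using this
      obtain ⟨v, hv, hv0, hev⟩ := ih W' (by omega)
        (fun h => hx0 (Subtype.ext ((Submodule.mem_bot K).mp (h ▸ hx'))))
        fun j w hw => ⟨hst j w hw.1, by
          have h1 : f i w = c • w := by simpa [sub_eq_zero] using hw.2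
          have h2 : f i (f j w) = f j (f i w) := LinearMap.congr_fun (hc_eq i j) w
          simp [h2, h1]⟩
      exact ⟨v, hv.1, hv0, hev⟩

/-- A joint eigencharacter extends to a character of the operators. -/
theorem exists_eigenChar_extend {A : Type} [CommRing A] {d : ℕ}
    (f : A →+* Matrix (Fin d) (Fin d) K) {S : Type} (z : S → A) (lam : S → K) {w : Fin d → K}
    (hw : w ≠ 0) (h : ∀ s, (f (z s)).mulVec w = lam s • w) :
    ∃ e : A →+* K, (∃ v : Fin d → K, v ≠ 0 ∧ ∀ x, (f x).mulVec v = e x • v) ∧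
      ∀ s, e (z s) = lam s := by
  classical
  let F' : A → Module.End K (Fin d → K) := fun x => Matrix.toLinAlgEquiv' (f x)
  have hc : ∀ x y, Commute (F' x) (F' y) := fun x y =>
    ((Commute.all x y).map f).map (Matrix.toLinAlgEquiv' (R := K) (n := Fin d))
  let W : Submodule K (Fin d → K) :=
    { carrier := {v | ∀ s, (f (z s)).mulVec v = lam s • v}
      add_mem' := fun {u v} hu hv s => by rw [Matrix.mulVec_add, hu s, hv s, smul_add]
      zero_mem' := fun s => by rw [Matrix.mulVec_zero, smul_zero]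
      smul_mem' := fun c {u} hu s => by rw [Matrix.mulVec_smul, hu s, smul_comm] }
  have hst : ∀ x, ∀ v ∈ W, F' x v ∈ W := fun x v hv s => by
    show (f (z s)).mulVec ((f x).mulVec v) = lam s • (f x).mulVec v
    rw [Matrix.mulVec_mulVec, ← map_mul, mul_comm, map_mul, ← Matrix.mulVec_mulVec, hv s,
      Matrix.mulVec_smul]
  obtain ⟨v, hv, hv0, hev⟩ := exists_joint_eigen_mem F' hc _ W le_rfl
    ((Submodule.ne_bot_iff W).mpr ⟨w, h, hw⟩) hst
  choose c hcv using hev
  have hc' : ∀ x, (f x).mulVec v = c x • v := hcv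
  have huniq : ∀ {a b : K}, a • v = b • v → a = b := fun h => smul_left_injective K hv0 h
  refine ⟨{ toFun := c
            map_one' := huniq (by rw [← hc', map_one, Matrix.one_mulVec, one_smul])
            map_mul' := fun x y => huniq (by
              rw [← hc', map_mul, ← Matrix.mulVec_mulVec, hc', Matrix.mulVec_smul, hc', smul_smul,
                mul_comm (c y)])
            map_zero' := huniq (by rw [← hc', map_zero, Matrix.zero_mulVec, zero_smul])
            map_add' := fun x y => huniq (by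
              rw [← hc', map_add, Matrix.add_mulVec, hc', hc', add_smul]) },
    ⟨v, hv0, hc'⟩, fun s => huniq ((hc' (z s)).symm.trans (hv s))⟩

/-- A root of the characteristic polynomial extends to a character with an eigenvector. -/
lemma exists_char_of_isRoot {T : Type} [CommRing T] {d : ℕ} (Φ : T →+* Matrix (Fin d) (Fin d) K)
    (x : T) {e : K} (he : (Φ x).charpoly.IsRoot e) :
    ∃ lam : T →+* K, lam x = e ∧
      ∃ w : Fin d → K, w ≠ 0 ∧ ∀ t, (Φ t).mulVec w = lam t • w := by
  classical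
  obtain ⟨v₀, hv₀, hker⟩ := Matrix.exists_mulVec_eq_zero_iff.mpr
    (show (Matrix.scalar (Fin d) e - Φ x).det = 0 by
      rw [← Matrix.eval_charpoly]; exact he)
  obtain ⟨lam, hw, hlam⟩ := exists_eigenChar_extend Φ (fun _ : Unit => x) (fun _ => e) hv₀
    fun _ => by
      rw [Matrix.sub_mulVec, sub_eq_zero] at hker
      simp [← hker, Matrix.scalar_apply]
  exact ⟨lam, hlam (), hw⟩

end Joint

local notation "Qbar" => AlgebraicClosure ℚ
local notation "GQ" => (AlgebraicClosure ℚ ≃ₐ[ℚ] AlgebraicClosure ℚ)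

variable {O : Type} [CommRing O] [IsDomain O] [IsDiscreteValuationRing O]
  [IsAdicComplete (maximalIdeal O) O] [Finite (ResidueField O)]
  {p r : ℕ} [hp : Fact p.Prime] {lv : Fin r → ℕ}
  {K : Type} [Field K] [IsAlgClosed K] [CharZero K] [Algebra O K]

local notation "Sd" => MvPowerSeries (Fin r) O ⧸ diamondIdeal (𝒪 := O) p lv

/-- A ring with finitely many jointly injective points in domains has only finitely many `n`th
roots of unity. -/
lemma finite_roots_of_points {T ι : Type} [CommRing T] [Finite ι] {F : ι → Type}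
    [∀ a, CommRing (F a)] [∀ a, IsDomain (F a)] (ψ : ∀ a, T →+* F a)
    (hinj : ∀ x, (∀ a, ψ a x = 0) → x = 0) {n : ℕ} (hn : 0 < n) : {x : T | x ^ n = 1}.Finite := by
  classical
  let g : T → ∀ a, F a := fun x a => ψ a x
  have hg : Function.Injective g := fun x y h =>
    sub_eq_zero.mp (hinj _ fun a => by rw [map_sub, sub_eq_zero]; exact congrFun h a)
  refine Set.Finite.of_finite_image ?_ hg.injOn
  refine (Set.Finite.pi fun a => (Polynomial.nthRootsFinset n (1 : F a)).finite_toSet).subset ?_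
  rintro _ ⟨x, hx, rfl⟩ a -
  rw [Finset.mem_coe, Polynomial.mem_nthRootsFinset hn]
  show ψ a x ^ n = 1
  rw [← map_pow, hx, map_one]

local notation "augS" =>
  Ideal.Quotient.lift (diamondIdeal (𝒪 := O) p lv) MvPowerSeries.constantCoeff
    (diamondIdeal_aug p lv)

/-- **The Galois diamonds on a family of levels.** -/
theorem exists_twDiamond_family (hinj : Function.Injective (algebraMap O K))
    (hpO : (p : O) ∈ maximalIdeal O) {T : Type} [CommRing T] [IsLocalRing T] [IsNoetherianRing T]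
    [IsAdicComplete (maximalIdeal T) T] [Algebra O T]
    [IsLocalHom (algebraMap O T)] {J : Type} (d : J → ℕ)
    (act : ∀ j, T →+* Matrix (Fin (d j)) (Fin (d j)) Sd)
    (hC : ∀ j c, act j (algebraMap O T c) = Matrix.scalar (Fin (d j)) (algebraMap O Sd c))
    (q : Fin r → ℕ) (hq : ∀ i, (q i).Prime) (hpq : ∀ i, p ≠ q i) (hlv : ∀ i, 1 ≤ lv i)
    (hv : ∀ i, p ^ lv i ∣ q i - 1) (hv' : ∀ i, ¬ p ^ (lv i + 1) ∣ q i - 1)
    (hroots : ∀ i, {x : T | x ^ p ^ lv i = 1}.Finite)
    (M : GQ →* Matrix (Fin 2) (Fin 2) T)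
    (hM : ∀ n, ∃ L : IntermediateField ℚ Qbar, FiniteDimensional ℚ L ∧
      ∀ σ : GQ, (∀ x ∈ L, σ x = x) → Attach.NearOne (maximalIdeal T ^ n) (M σ))
    (A : Fin r → ValuationSubring Qbar) (hA : ∀ i, (A i).LiesOverPrime (q i))
    (Φ : Fin r → GQ) (hΦ : ∀ i, (A i).IsFrobeniusAt (Φ i) (q i))
    (hres : ∀ i, ∀ σ ∈ (A i).inertiaSubgroupIn ℚ, (M σ).map (residue T) = 1)
    (hdet : ∀ i, ∀ σ ∈ (A i).inertiaSubgroupIn ℚ, (M σ).det = 1)
    (α β : Fin r → ResidueField T) (hab : ∀ i, α i ≠ β i)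
    (hF : ∀ i, ((M (Φ i)).map (residue T)).charpoly = (X - C (α i)) * (X - C (β i)))
    (hunip : ∀ j i, ∀ φ : Sd →ₐ[O] K, φ (diaX O p lv i) = 0 → ∀ lam : T →+* K,
      (∃ w : Fin (d j) → K, w ≠ 0 ∧ ∀ t, ((act j t).map φ).mulVec w = lam t • w) →
      ∀ σ ∈ (A i).inertiaSubgroupIn ℚ, (M σ).charpoly.map lam = (X - 1) ^ 2)
    (hnon : ∀ j i, ∀ φ : Sd →ₐ[O] K, (∀ i', i' ≠ i → φ (diaX O p lv i') = 0) →
      IsPrimitiveRoot (1 + φ (diaX O p lv i)) p → ∀ lam : T →+* K,
      (∃ w : Fin (d j) → K, w ≠ 0 ∧ ∀ t, ((act j t).map φ).mulVec w = lam t • w) →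
      ∃ σ ∈ (A i).inertiaSubgroupIn ℚ, (M σ).charpoly.map lam ≠ (X - 1) ^ 2) :
    ∃ (δ : Fin r → T) (act' : ∀ j, T →+* Matrix (Fin (d j)) (Fin (d j)) Sd)
      (τ : ∀ j k, Matrix (Fin (d k)) (Fin (d j)) Sd → Matrix (Fin (d k)) (Fin (d j)) Sd),
      (∀ i, δ i ∈ maximalIdeal T) ∧
      (∀ j c, act' j (algebraMap O T c) = Matrix.scalar (Fin (d j)) (algebraMap O Sd c)) ∧
      (∀ j i, act' j (δ i) = Matrix.scalar (Fin (d j)) (diaX O p lv i)) ∧
      (∀ j x, act' j x = 0 ↔ act j x = 0) ∧
      (∀ j x, (act' j x).map augS = (act j x).map augS) ∧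
      (∀ j x, τ j j (act j x) = act' j x) ∧
      (∀ j k F G, τ j k (F + G) = τ j k F + τ j k G) ∧
      (∀ j k F, τ j k F = 0 ↔ F = 0) ∧
      (∀ j k F, (τ j k F).map augS = F.map augS) ∧
      (∀ j k l F G, (∀ x, G * act k x = act l x * G) → τ j l (G * F) = τ k l G * τ j k F) ∧
      (∀ j k F, (∀ x, F * act j x = act k x * F) →
        ∀ x, τ j k F * act' j x = act' k x * τ j k F) ∧
      ∀ (i : Fin r) (F : Type) [CommRing F] [IsDomain F] (lam : T →+* F),
        (∀ σ ∈ (A i).inertiaSubgroupIn ℚ, (M σ).charpoly.map lam = (X - 1) ^ 2) →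
        lam (δ i) = 0 := by
  classical
  have hpT : (p : T) ∈ maximalIdeal T := by
    rw [← map_natCast (algebraMap O T)]; exact map_nonunit _ _ hpO
  have hex := fun i => exists_twInertia hp.out (hq i) (hpq i) hpT
    ((dvd_pow_self p (Nat.one_le_iff_ne_zero.mp (hlv i))).trans (hv i)) (hv i) (hv' i) (hroots i)
    M hM (hA i) (hΦ i) (hres i) (hdet i) (hab i) (hF i)
  choose P u w hu huw humem htame _hfrobdiag hgen using hex
  let δ : Fin r → T := fun i => u i - 1
  have hone_add : ∀ i, 1 + δ i = u i := fun i => add_sub_cancel _ _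
  have htriv : ∀ (i : Fin r) (F : Type) [CommRing F] [IsDomain F] (lam : T →+* F),
      (∀ σ ∈ (A i).inertiaSubgroupIn ℚ, (M σ).charpoly.map lam = (X - 1) ^ 2) →
      lam (u i) = 1 := by
    intro i F _ _ lam h
    obtain ⟨t, ht, htd⟩ := htame i
    have h' := h t ht
    rw [← Matrix.charpoly_units_conj' (P i) (M t), ← Matrix.coe_units_inv, htd,
      Matrix.charpoly_diagonal, Fin.prod_univ_two] at h'
    have := congrArg (Polynomial.eval (lam (u i))) h'
    simp [Polynomial.map_mul, Polynomial.map_sub] at this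
    exact sub_eq_zero.mp (pow_eq_zero_iff two_ne_zero |>.mp this.symm)
  have hfac : ∀ j i, ∃ W : Matrix (Fin (d j)) (Fin (d j)) Sd,
      act j (δ i) = (diaX O p lv i : Sd) • W ∧ IsUnit W.det := by
    intro j i
    have heig : ∀ (φ : Sd →ₐ[O] K) (e : K), ((act j (1 + δ i)).map φ).charpoly.IsRoot e →
        ∃ lam : T →+* K, lam (u i) = e ∧
          ∃ v : Fin (d j) → K, v ≠ 0 ∧ ∀ t, ((act j t).map φ).mulVec v = lam t • v := by
      intro φ e he
      rw [hone_add] at he
      obtain ⟨lam, hlam, v, hv, hev⟩ :=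
        exists_char_of_isRoot ((φ : Sd →+* K).mapMatrix.comp (act j)) (u i) (e := e) (by exact he)
      exact ⟨lam, hlam, v, hv, hev⟩
    refine exists_diamond_factor hinj hpO (act j) i (δ i)
      (by rw [hone_add, ← map_pow, hu, map_one]) (fun φ hφ e he => ?_) ?_
    · obtain ⟨lam, rfl, hv⟩ := heig φ e he
      exact htriv i K lam (hunip j i φ hφ lam hv)
    · obtain ⟨z, hz⟩ := HasEnoughRootsOfUnity.exists_primitiveRoot K p
      obtain ⟨φ, hφ⟩ := exists_diaHom hpO (fun i' => if i' = i then z else 1) fun i' => by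
        rcases eq_or_ne i' i with rfl | hi'
        · rw [if_pos rfl, hz.pow_eq_one_iff_dvd]
          exact dvd_pow_self p (Nat.one_le_iff_ne_zero.mp (hlv i'))
        · rw [if_neg hi', one_pow]
      have hprim : IsPrimitiveRoot (1 + φ (diaX O p lv i)) p := by
        rw [hφ, if_pos rfl, add_sub_cancel]; exact hz
      have hothers : ∀ i', i' ≠ i → φ (diaX O p lv i') = 0 := fun i' hi' => by
        rw [hφ, if_neg hi', sub_self]
      refine ⟨φ, hothers, hprim, fun e he h1 => ?_⟩
      obtain ⟨lam, hlam, hv⟩ := heig φ e he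
      obtain ⟨σ, hσ, hne⟩ := hnon j i φ hothers hprim lam hv
      obtain ⟨k, hk⟩ := hgen i σ hσ
      have hw1 : lam (w i) = 1 := by
        have := congrArg lam (huw i)
        rwa [map_mul, map_one, hlam, h1, one_mul] at this
      refine hne ?_
      rw [← Matrix.charpoly_units_conj' (P i) (M σ), ← Matrix.coe_units_inv, hk,
        Matrix.charpoly_diagonal, Fin.prod_univ_two]
      simp [Polynomial.map_mul, Polynomial.map_sub, hlam, h1, hw1, sq]
  choose W hW hWdet using hfac
  obtain ⟨act', τ, h1, h2, h3, h4, h5, h6, h7, h8, h9, h10⟩ :=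
    exists_diamond_coordinates_family hpO d act hC δ (fun i => by rw [hone_add]; exact hu i) W hW
      hWdet
  exact ⟨δ, act', τ, humem, h1, h2, h3, h4, h5, h6, h7, h8, h9, h10,
    fun i F _ _ lam h => by
      show lam (u i - 1) = 0
      rw [map_sub, map_one, htriv i F lam h, sub_self]⟩

/-- **The Galois diamonds in coordinates.** `act` is the algebra in coordinates, `M` the
deformation, and the last hypotheses concern the eigensystems at the characters of the diamonds. -/
theorem exists_twDiamond_act (hinj : Function.Injective (algebraMap O K))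
    (hp𝒪 : (p : O) ∈ maximalIdeal O) {T : Type} [CommRing T] [IsLocalRing T] [IsNoetherianRing T]
    [IsAdicComplete (maximalIdeal T) T] [Algebra O T]
    [IsLocalHom (algebraMap O T)] {d : ℕ} (act : T →+* Matrix (Fin d) (Fin d) Sd)
    (hC : ∀ c, act (algebraMap O T c) = Matrix.scalar (Fin d) (algebraMap O Sd c))
    (q : Fin r → ℕ) (hq : ∀ i, (q i).Prime) (hpq : ∀ i, p ≠ q i) (hlv : ∀ i, 1 ≤ lv i)
    (hv : ∀ i, p ^ lv i ∣ q i - 1) (hv' : ∀ i, ¬ p ^ (lv i + 1) ∣ q i - 1)
    (hroots : ∀ i, {x : T | x ^ p ^ lv i = 1}.Finite)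
    (M : GQ →* Matrix (Fin 2) (Fin 2) T)
    (hM : ∀ n, ∃ L : IntermediateField ℚ Qbar, FiniteDimensional ℚ L ∧
      ∀ σ : GQ, (∀ x ∈ L, σ x = x) → Attach.NearOne (maximalIdeal T ^ n) (M σ))
    (A : Fin r → ValuationSubring Qbar) (hA : ∀ i, (A i).LiesOverPrime (q i))
    (Φ : Fin r → GQ) (hΦ : ∀ i, (A i).IsFrobeniusAt (Φ i) (q i))
    (hres : ∀ i, ∀ σ ∈ (A i).inertiaSubgroupIn ℚ, (M σ).map (residue T) = 1)
    (hdet : ∀ i, ∀ σ ∈ (A i).inertiaSubgroupIn ℚ, (M σ).det = 1)
    (α β : Fin r → ResidueField T) (hab : ∀ i, α i ≠ β i)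
    (hF : ∀ i, ((M (Φ i)).map (residue T)).charpoly = (X - C (α i)) * (X - C (β i)))
    (hunip : ∀ i, ∀ φ : Sd →ₐ[O] K, φ (diaX O p lv i) = 0 → ∀ lam : T →+* K,
      (∃ w : Fin d → K, w ≠ 0 ∧ ∀ t, ((act t).map φ).mulVec w = lam t • w) →
      ∀ σ ∈ (A i).inertiaSubgroupIn ℚ, (M σ).charpoly.map lam = (X - 1) ^ 2)
    (hnon : ∀ i, ∀ φ : Sd →ₐ[O] K, (∀ j, j ≠ i → φ (diaX O p lv j) = 0) →
      IsPrimitiveRoot (1 + φ (diaX O p lv i)) p → ∀ lam : T →+* K,
      (∃ w : Fin d → K, w ≠ 0 ∧ ∀ t, ((act t).map φ).mulVec w = lam t • w) →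
      ∃ σ ∈ (A i).inertiaSubgroupIn ℚ, (M σ).charpoly.map lam ≠ (X - 1) ^ 2) :
    ∃ (δ : Fin r → T) (act' : T →+* Matrix (Fin d) (Fin d) Sd),
      (∀ i, δ i ∈ maximalIdeal T) ∧
      (∀ c, act' (algebraMap O T c) = Matrix.scalar (Fin d) (algebraMap O Sd c)) ∧
      (∀ i, act' (δ i) = Matrix.scalar (Fin d) (diaX O p lv i)) ∧
      (∀ x, act' x = 0 → act x = 0) ∧
      (∀ x, (act' x).map (Ideal.Quotient.lift _ MvPowerSeries.constantCoeff
        (diamondIdeal_aug p lv)) =
        (act x).map (Ideal.Quotient.lift _ MvPowerSeries.constantCoeff (diamondIdeal_aug p lv))) ∧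
      ∀ i j, (Pi.single j (diaX O p lv i ^ 2) : Fin d → Sd) ∈
        Submodule.span Sd {v | ∃ t ∈ maximalIdeal T, ∃ w, (act' t).mulVec w = v} := by
  classical
  obtain ⟨δ, act', -, hδ, hC', hX, hzero, haug, -⟩ := exists_twDiamond_family hinj hp𝒪
    (fun _ : Unit => d) (fun _ => act) (fun _ => hC) q hq hpq hlv hv hv' hroots M hM A hA Φ hΦ
    hres hdet α β hab hF (fun _ => hunip) fun _ => hnon
  refine ⟨δ, act' (), hδ, hC' (), hX (), fun x => (hzero () x).mp, haug (), fun i j => ?_⟩
  refine Submodule.subset_span ⟨δ i ^ 2, Ideal.pow_mem_of_mem _ (hδ i) 2 (by norm_num),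
    Pi.single j 1, ?_⟩
  rw [map_pow, hX (), ← map_pow]
  funext a
  rcases eq_or_ne a j with rfl | ha <;> simp [Matrix.scalar_apply, Matrix.mulVec_diagonal, *]

end Fermat.Agent.LevelLowering

end
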