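import Mathlib.Algebra.CharP.Basic
import Mathlib.LinearAlgebra.Matrix.ToLin
import Fermat.Prelude.Def_GaloisRep_Residual

/-!
# Two-dimensional representations containing two opposite transvections

An irreducible representation containing a nontrivial unipotent contains two opposite
transvections; over the prime field its image then contains `SL₂`; it stays irreducible on every
subgroup of index two, over every extension of the field.
-/

noncomputable section

namespace Fermat.Agent.LevelLowering

open Matrix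

variable {G : Type*} [Group G] {k : Type*} [Field k] {V : Type*} [AddCommGroup V] [Module k V]

/-- Upper unitriangular. -/
def upperU (x : k) : Matrix (Fin 2) (Fin 2) k := !![1, x; 0, 1]

/-- Lower unitriangular. -/
def lowerU (x : k) : Matrix (Fin 2) (Fin 2) k := !![1, 0; x, 1]

theorem upperU_add (x y : k) : upperU (x + y) = upperU x * upperU y := by
  ext i j
  fin_cases i <;> fin_cases j <;> simp [upperU, Matrix.mul_apply, Fin.sum_univ_two, add_comm]

theorem lowerU_add (x y : k) : lowerU (x + y) = lowerU x * lowerU y := by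
  ext i j
  fin_cases i <;> fin_cases j <;> simp [lowerU, Matrix.mul_apply, Fin.sum_univ_two]

theorem upperU_zero : upperU (0 : k) = 1 := by
  ext i j; fin_cases i <;> fin_cases j <;> simp [upperU]

theorem lowerU_zero : lowerU (0 : k) = 1 := by
  ext i j; fin_cases i <;> fin_cases j <;> simp [lowerU]

/-- The image contains two opposite transvections. -/
def HasOppositeTransvections (ρ : G →* Module.End k V) : Prop :=
  ∃ (b : Module.Basis (Fin 2) k V) (g h : G) (x y : k), x ≠ 0 ∧ y ≠ 0 ∧
    LinearMap.toMatrixAlgEquiv b (ρ g) = upperU x ∧ LinearMap.toMatrixAlgEquiv b (ρ h) = lowerU y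

/-- An irreducible plane representation with a nontrivial unipotent has opposite transvections. -/
theorem HasOppositeTransvections.of_unipotent (hV : Module.finrank k V = 2)
    (ρ : G →* Module.End k V)
    (hirr : ∀ W : Submodule k V, (∀ g, ∀ x ∈ W, ρ g x ∈ W) → W = ⊥ ∨ W = ⊤) {σ : G}
    (h1 : ρ σ ≠ 1) (h2 : ∀ v, ρ σ (ρ σ v - v) = ρ σ v - v) : HasOppositeTransvections ρ := by
  have := Module.finite_of_finrank_eq_succ hV
  obtain ⟨v, hv⟩ : ∃ v, ρ σ v - v ≠ 0 := by
    by_contra h
    push Not at h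
    exact h1 (LinearMap.ext fun v => sub_eq_zero.mp (h v))
  set e := ρ σ v - v with he
  obtain ⟨g, hg⟩ : ∃ g, ρ g e ∉ k ∙ e := by
    by_contra h
    push Not at h
    rcases hirr (k ∙ e) (fun g x hx => by
      obtain ⟨a, rfl⟩ := Submodule.mem_span_singleton.mp hx
      rw [map_smul]
      exact Submodule.smul_mem _ a (h g)) with h0 | h0
    · exact hv (by simpa using h0)
    · have := finrank_span_singleton (K := k) hv
      rw [h0, finrank_top, hV] at this
      omega
  set f := ρ g e with hf
  have hli : LinearIndependent k ![e, f] :=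
    (LinearIndependent.pair_iff' hv).mpr fun a h =>
      hg (h ▸ Submodule.smul_mem _ a (Submodule.mem_span_singleton_self e))
  let b : Module.Basis (Fin 2) k V :=
    basisOfLinearIndependentOfCardEqFinrank hli (by simp [hV])
  have hb : ⇑b = ![e, f] := coe_basisOfLinearIndependentOfCardEqFinrank hli _
  have hb0 : b 0 = e := by rw [hb]; rfl
  have hb1 : b 1 = f := by rw [hb]; rfl
  -- `(ρ σ - 1)` kills `e` and has image in the line of `e`
  have hrange : ∀ w, ρ σ w - w ∈ k ∙ e := by
    intro w
    obtain ⟨a, c, hac⟩ : ∃ a c : k, w = a • e + c • f :=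
      ⟨b.repr w 0, b.repr w 1, by
        conv_lhs => rw [← b.sum_repr w, Fin.sum_univ_two, hb0, hb1]⟩
    obtain ⟨a', c', hac'⟩ : ∃ a c : k, v = a • e + c • f :=
      ⟨b.repr v 0, b.repr v 1, by
        conv_lhs => rw [← b.sum_repr v, Fin.sum_univ_two, hb0, hb1]⟩
    have hσe : ρ σ e = e := h2 v
    have hfe : e = c' • (ρ σ f - f) := by
      conv_lhs => rw [he, hac']
      rw [map_add, map_smul, map_smul, hσe, add_sub_add_left_eq_sub, smul_sub]
    have hc' : c' ≠ 0 := fun h => hv (by rw [hfe, h, zero_smul])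
    refine Submodule.mem_span_singleton.mpr ⟨c * c'⁻¹, ?_⟩
    conv_lhs => rw [hfe]
    rw [smul_smul, inv_mul_cancel_right₀ hc', hac, map_add, map_smul, map_smul, hσe, smul_sub]
    abel
  have hσe : ρ σ e = e := h2 v
  obtain ⟨x, hx⟩ := Submodule.mem_span_singleton.mp (hrange f)
  have hx0 : x ≠ 0 := by
    rintro rfl
    rw [zero_smul] at hx
    refine h1 (b.ext fun i => ?_)
    fin_cases i
    · simpa [hb0] using hσe
    · simpa [hb1] using sub_eq_zero.mp hx.symm
  have hU : LinearMap.toMatrixAlgEquiv b (ρ σ) = upperU x := by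
    have e1 : ρ σ (b 1) = x • b 0 + b 1 := by rw [hb0, hb1, hx, sub_add_cancel]
    have e0 : ρ σ (b 0) = b 0 := by rw [hb0, hσe]
    ext i j
    rw [LinearMap.toMatrixAlgEquiv_apply]
    fin_cases j <;> fin_cases i <;> simp [e0, e1, upperU]
  -- the conjugate fixes `f`
  set τ := g * σ * g⁻¹
  have hinv : ∀ w, ρ g⁻¹ (ρ g w) = w := fun w => by
    rw [← Module.End.mul_apply, ← map_mul, inv_mul_cancel, map_one, Module.End.one_apply]
  have hinv' : ∀ w, ρ g (ρ g⁻¹ w) = w := fun w => by
    rw [← Module.End.mul_apply, ← map_mul, mul_inv_cancel, map_one, Module.End.one_apply]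
  have hτ : ∀ w, ρ τ w = ρ g (ρ σ (ρ g⁻¹ w)) := fun w => by
    simp [τ, map_mul, Module.End.mul_apply]
  have hτf : ρ τ f = f := by rw [hτ, hf, hinv, hσe]
  obtain ⟨y, hy⟩ : ∃ y : k, ρ τ e - e = y • f := by
    obtain ⟨a, ha⟩ := Submodule.mem_span_singleton.mp (hrange (ρ g⁻¹ e))
    exact ⟨a, by rw [hτ, hf, ← map_smul, ha, map_sub (ρ g), hinv']⟩
  have hy0 : y ≠ 0 := by
    rintro rfl
    rw [zero_smul, sub_eq_zero] at hy
    have h : ρ τ = 1 := b.ext fun i => by
      fin_cases i
      · simpa [hb0] using hy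
      · simpa [hb1] using hτf
    refine h1 (LinearMap.ext fun w => ?_)
    have := congrArg (fun u => ρ g⁻¹ u) (LinearMap.congr_fun h (ρ g w))
    simpa [hτ, hinv] using this
  have hL : LinearMap.toMatrixAlgEquiv b (ρ τ) = lowerU y := by
    have e0 : ρ τ (b 0) = b 0 + y • b 1 := by rw [hb0, hb1, ← hy, add_sub_cancel]
    have e1 : ρ τ (b 1) = b 1 := by rw [hb1, hτf]
    ext i j
    rw [LinearMap.toMatrixAlgEquiv_apply]
    fin_cases j <;> fin_cases i <;> simp [e0, e1, lowerU]
  exact ⟨b, σ, τ, x, y, hx0, hy0, hU, hL⟩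

/-- On a subgroup containing all squares the representation stays irreducible over extensions. -/
theorem HasOppositeTransvections.irreducible_sq {ρ : G →* Module.End k V}
    (h : HasOppositeTransvections ρ) (h2 : (2 : k) ≠ 0) {K : Type*} [Field K] [Algebra k K]
    (H : Set G) (hsq : ∀ g, g * g ∈ H) (W : Submodule K (TensorProduct k K V))
    (hW : ∀ g ∈ H, ∀ w ∈ W, (ρ g).baseChange K w ∈ W) : W = ⊥ ∨ W = ⊤ := by
  obtain ⟨b, g, g', x, y, hx, hy, hg, hg'⟩ := h
  let B := b.baseChange K
  have happ : ∀ (f : G) (M : Matrix (Fin 2) (Fin 2) k),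
      LinearMap.toMatrixAlgEquiv b (ρ f) = M → ∀ w : TensorProduct k K V,
        (ρ f).baseChange K w = ∑ i, (∑ j, algebraMap k K (M i j) * B.repr w j) • B i := by
    rintro f M rfl w
    conv_lhs => rw [← B.sum_repr w]
    rw [map_sum]
    simp only [map_smul, Finset.sum_smul]
    rw [Finset.sum_comm]
    refine Finset.sum_congr rfl fun j _ => ?_
    rw [show B j = (1 : K) ⊗ₜ[k] b j from Module.Basis.baseChange_apply _ _ _,
      LinearMap.baseChange_tmul]
    conv_lhs => rw [← b.sum_repr (ρ f (b j)), TensorProduct.tmul_sum, Finset.smul_sum]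
    refine Finset.sum_congr rfl fun i _ => ?_
    rw [show B i = (1 : K) ⊗ₜ[k] b i from Module.Basis.baseChange_apply _ _ _,
      TensorProduct.tmul_smul, LinearMap.toMatrixAlgEquiv_apply,
      ← IsScalarTower.algebraMap_smul K (b.repr (ρ f (b j)) i), smul_smul, mul_comm]
  have hU : LinearMap.toMatrixAlgEquiv b (ρ (g * g)) = upperU (x + x) := by
    rw [map_mul, map_mul, hg, ← upperU_add]
  have hL : LinearMap.toMatrixAlgEquiv b (ρ (g' * g')) = lowerU (y + y) := by
    rw [map_mul, map_mul, hg', ← lowerU_add]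
  have hx2 : algebraMap k K (x + x) ≠ 0 := by
    rw [← two_mul, Ne, map_eq_zero]; exact mul_ne_zero h2 hx
  have hy2 : algebraMap k K (y + y) ≠ 0 := by
    rw [← two_mul, Ne, map_eq_zero]; exact mul_ne_zero h2 hy
  have sU : ∀ w ∈ W, B.repr w 1 • B 0 ∈ W := fun w hw => by
    have h1 := W.smul_mem (algebraMap k K (x + x))⁻¹ (W.sub_mem (hW _ (hsq g) w hw) hw)
    rw [happ _ _ hU] at h1
    convert h1 using 1
    conv_rhs => arg 2; arg 2; rw [← B.sum_repr w]
    simp only [upperU, Fin.sum_univ_two, Matrix.of_apply, Matrix.cons_val', Matrix.cons_val_zero,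
      Matrix.cons_val_one, Matrix.cons_val_fin_one, map_one, map_zero, one_mul, zero_mul, zero_add]
    rw [add_smul, add_sub_add_right_eq_sub, add_sub_cancel_left, smul_smul, ← mul_assoc,
      inv_mul_cancel₀ hx2, one_mul]
  have sL : ∀ w ∈ W, B.repr w 0 • B 1 ∈ W := fun w hw => by
    have h1 := W.smul_mem (algebraMap k K (y + y))⁻¹ (W.sub_mem (hW _ (hsq g') w hw) hw)
    rw [happ _ _ hL] at h1
    convert h1 using 1
    conv_rhs => arg 2; arg 2; rw [← B.sum_repr w]
    simp only [lowerU, Fin.sum_univ_two, Matrix.of_apply, Matrix.cons_val', Matrix.cons_val_zero,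
      Matrix.cons_val_one, Matrix.cons_val_fin_one, map_one, map_zero, one_mul, zero_mul, add_zero]
    rw [add_smul, add_sub_add_left_eq_sub, add_sub_cancel_right, smul_smul, ← mul_assoc,
      inv_mul_cancel₀ hy2, one_mul]
  rcases eq_or_ne W ⊥ with h0 | h0
  · exact Or.inl h0
  refine Or.inr ?_
  obtain ⟨w, hw, hw0⟩ := Submodule.exists_mem_ne_zero_of_ne_bot h0
  have hB : B 0 ∈ W ∨ B 1 ∈ W := by
    by_cases h1 : B.repr w 1 = 0
    · right
      have h3 : B.repr w 0 ≠ 0 := fun h3 => hw0 (by
        rw [← B.sum_repr w, Fin.sum_univ_two, h1, h3, zero_smul, zero_smul, add_zero])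
      exact (Submodule.smul_mem_iff W h3).mp (sL w hw)
    · exact Or.inl ((Submodule.smul_mem_iff W h1).mp (sU w hw))
  have hboth : B 0 ∈ W ∧ B 1 ∈ W := by
    rcases hB with h | h
    · exact ⟨h, by simpa using sL _ h⟩
    · exact ⟨by simpa using sU _ h, h⟩
  refine eq_top_iff.mpr ((B.span_eq.ge).trans (Submodule.span_le.mpr ?_))
  rintro _ ⟨i, rfl⟩
  fin_cases i
  exacts [hboth.1, hboth.2]

/-- Opposite transvections survive extension of the field. -/
theorem HasOppositeTransvections.baseChange {ρ : G →* Module.End k V}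
    (h : HasOppositeTransvections ρ) {K : Type*} [Field K] [Algebra k K]
    (ρK : G →* Module.End K (TensorProduct k K V)) (hρK : ∀ g, ρK g = (ρ g).baseChange K) :
    HasOppositeTransvections ρK := by
  obtain ⟨b, g, g', x, y, hx, hy, hg, hg'⟩ := h
  have key : ∀ f, LinearMap.toMatrixAlgEquiv (b.baseChange K) (ρK f) =
      (LinearMap.toMatrixAlgEquiv b (ρ f)).map (algebraMap k K) := fun f => by
    ext i j
    rw [hρK, LinearMap.toMatrixAlgEquiv_apply, Matrix.map_apply, LinearMap.toMatrixAlgEquiv_apply,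
      Module.Basis.baseChange_apply, LinearMap.baseChange_tmul, Module.Basis.baseChange_repr_tmul,
      Algebra.algebraMap_eq_smul_one]
  refine ⟨b.baseChange K, g, g', algebraMap k K x, algebraMap k K y, by simpa using hx,
    by simpa using hy, ?_, ?_⟩
  · rw [key, hg]; ext i j; fin_cases i <;> fin_cases j <;> simp [upperU]
  · rw [key, hg']; ext i j; fin_cases i <;> fin_cases j <;> simp [lowerU]

section Prime

variable {p : ℕ} [Fact p.Prime] {W : Type*} [AddCommGroup W] [Module (ZMod p) W]

/-- Over the prime field the image contains `SL₂`. -/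
theorem HasOppositeTransvections.sl2_le_range {ρ : G →* Module.End (ZMod p) W}
    (h : HasOppositeTransvections ρ) (f : Module.End (ZMod p) W) (hf : LinearMap.det f = 1) :
    ∃ g, ρ g = f := by
  obtain ⟨b, g, g', x, y, hx, hy, hg, hg'⟩ := h
  let φ : G →* Matrix (Fin 2) (Fin 2) (ZMod p) :=
    (LinearMap.toMatrixAlgEquiv b).toRingEquiv.toMonoidHom.comp ρ
  have hgen : ∀ z, (∃ u, φ u = upperU z) ∧ ∃ u, φ u = lowerU z := by
    intro z
    constructor
    · refine ⟨g ^ (z * x⁻¹).val, ?_⟩
      rw [map_pow, show φ g = upperU x from hg]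
      have : ∀ n : ℕ, upperU x ^ n = upperU ((n : ZMod p) * x) := fun n => by
        induction n with
        | zero => rw [pow_zero, Nat.cast_zero, zero_mul, upperU_zero]
        | succ n ih => rw [pow_succ, ih, ← upperU_add, Nat.cast_succ, add_one_mul]
      rw [this, ZMod.natCast_zmod_val, inv_mul_cancel_right₀ hx]
    · refine ⟨g' ^ (z * y⁻¹).val, ?_⟩
      rw [map_pow, show φ g' = lowerU y from hg']
      have : ∀ n : ℕ, lowerU y ^ n = lowerU ((n : ZMod p) * y) := fun n => by
        induction n with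
        | zero => rw [pow_zero, Nat.cast_zero, zero_mul, lowerU_zero]
        | succ n ih => rw [pow_succ, ih, ← lowerU_add, Nat.cast_succ, add_one_mul]
      rw [this, ZMod.natCast_zmod_val, inv_mul_cancel_right₀ hy]
  have main : ∀ M : Matrix (Fin 2) (Fin 2) (ZMod p), M.det = 1 → M 1 0 ≠ 0 →
      ∃ u, φ u = M := by
    intro M hM hc
    obtain ⟨u1, h1⟩ := (hgen ((M 0 0 - 1) / M 1 0)).1
    obtain ⟨u2, h2⟩ := (hgen (M 1 0)).2
    obtain ⟨u3, h3⟩ := (hgen ((M 1 1 - 1) / M 1 0)).1
    refine ⟨u1 * u2 * u3, ?_⟩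
    rw [map_mul, map_mul, h1, h2, h3]
    rw [Matrix.det_fin_two] at hM
    ext i j
    fin_cases i <;> fin_cases j <;>
      simp [upperU, lowerU, Matrix.mul_apply, Fin.sum_univ_two] <;> field_simp <;>
      first | ring1 | linear_combination hM
  have all : ∀ M : Matrix (Fin 2) (Fin 2) (ZMod p), M.det = 1 → ∃ u, φ u = M := by
    intro M hM
    by_cases hc : M 1 0 = 0
    · obtain ⟨u, hu⟩ := main (lowerU 1 * M) (by rw [Matrix.det_mul, hM]; simp [lowerU]) (by
        have : M 0 0 ≠ 0 := fun h0 => by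
          rw [Matrix.det_fin_two, h0, hc] at hM
          simp at hM
        simpa [lowerU, Matrix.mul_apply, Fin.sum_univ_two, hc] using this)
      obtain ⟨u', hu'⟩ := (hgen (-1)).2
      refine ⟨u' * u, ?_⟩
      rw [map_mul, hu', hu, ← mul_assoc, ← lowerU_add, neg_add_cancel, lowerU_zero, one_mul]
    · exact main M hM hc
  obtain ⟨u, hu⟩ := all (LinearMap.toMatrixAlgEquiv b f) (by
    rw [← hf, ← LinearMap.det_toMatrix b]; rfl)
  exact ⟨u, (LinearMap.toMatrixAlgEquiv b).injective hu⟩

end Prime

section Residual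

/-- With opposite transvections a residual representation stays irreducible on subgroups of
index two, over every field. -/
theorem irreducible_indexTwo_of_transvections {k : Type} [Field k] (ρ : ResidualGaloisRep k)
    (h : HasOppositeTransvections ρ.ρ) (h2 : (2 : k) ≠ 0) (K : Type) [Field K] [Algebra k K]
    (H : Subgroup (AlgebraicClosure ℚ ≃ₐ[ℚ] AlgebraicClosure ℚ)) (hH : H.index = 2)
    (W : Submodule K (ρ.baseChange K).V) (hW : ∀ σ ∈ H, ∀ x ∈ W, (ρ.baseChange K).ρ σ x ∈ W) :
    W = ⊥ ∨ W = ⊤ :=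
  h.irreducible_sq h2 (H : Set _) (fun g => Subgroup.mul_self_mem_of_index_two hH g) W hW

/-- With opposite transvections a residual representation is absolutely irreducible. -/
theorem isAbsolutelyIrreducible_of_transvections {k : Type} [Field k] (ρ : ResidualGaloisRep k)
    (h : HasOppositeTransvections ρ.ρ) (h2 : (2 : k) ≠ 0) : ρ.IsAbsolutelyIrreducible :=
  fun W hW => h.irreducible_sq h2 Set.univ (fun _ => trivial) W fun σ _ => hW σ

end Residual

end Fermat.Agent.LevelLowering
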