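import Mathlib.FieldTheory.Perfect
import Mathlib.LinearAlgebra.Charpoly.Basic
import Mathlib.RingTheory.Localization.Integral
import Mathlib.RingTheory.Polynomial.UniqueFactorization
import Mathlib.RingTheory.Radical.Basic
import Fermat.Agent.Attach.HeckeLattice
import Fermat.Agent.EigenTwist.Descend
import Fermat.Agent.Hecke.Petersson
import Fermat.Agent.LevelLowering.FreeBase

/-!
# Semisimplicity of good Hecke operators

`T_ℓ` on `Hom_cl(Γ₀(N), K)` is killed by a separable polynomial, as the anemic Hecke algebra is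
reduced.  Through the twist this passes to the operators on characters with nebentypus: there is
no Jordan block.
-/

noncomputable section

namespace Fermat.Agent.LevelLowering

open scoped MatrixGroups Polynomial
open CongruenceSubgroup Polynomial Fermat.Agent.Grp Fermat.Agent.Ihara Fermat.Agent.EigenTwist

/-- An element killed by a polynomial in a reduced torsion-free ring is killed by a separable
one. -/
lemma exists_separable_of_aeval {A : Type*} [CommRing A] [IsReduced A] [IsAddTorsionFree A]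
    (t : A) {Q : ℤ[X]} (hQ0 : Q ≠ 0) (hQ : aeval t Q = 0) :
    ∃ P : ℤ[X], (P.map (Int.castRingHom ℚ)).Separable ∧ aeval t P = 0 := by
  classical
  set f : ℤ →+* ℚ := Int.castRingHom ℚ
  have hR0 : Q.map f ≠ 0 := (Polynomial.map_ne_zero_iff (Int.cast_injective)).mpr hQ0
  set P₀ := UniqueFactorizationMonoid.radical (Q.map f)
  have hsq : Squarefree P₀ := UniqueFactorizationMonoid.squarefree_radical
  obtain ⟨n, S, hS⟩ : ∃ n, Q.map f ∣ P₀ ^ n := by
    obtain ⟨n, hn⟩ := UniqueFactorizationMonoid.exists_dvd_radical_self_pow hR0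
    exact ⟨n, hn⟩
  obtain ⟨b, hb, hP⟩ := IsLocalization.integerNormalization_spec (nonZeroDivisors ℤ) P₀
  obtain ⟨c, hc, hS'⟩ := IsLocalization.integerNormalization_spec (nonZeroDivisors ℤ) S
  set P := IsLocalization.integerNormalization (nonZeroDivisors ℤ) P₀
  set S' := IsLocalization.integerNormalization (nonZeroDivisors ℤ) S
  simp only [algebraMap_int_eq] at hP hS'
  refine ⟨P, ?_, ?_⟩
  · rw [show P.map f = b • P₀ from hP, zsmul_eq_mul, ← map_intCast (C : ℚ →+* ℚ[X])]
    have hb0 : (b : ℚ) ≠ 0 := Int.cast_ne_zero.mpr (nonZeroDivisors.ne_zero hb)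
    exact (PerfectField.separable_iff_squarefree.mpr hsq).of_dvd
      ⟨C (b : ℚ)⁻¹, by rw [mul_comm, ← mul_assoc, ← C_mul, inv_mul_cancel₀ hb0, C_1, one_mul]⟩
  · have key : C c * P ^ n = C (b ^ n) * Q * S' := by
      refine Polynomial.map_injective f Int.cast_injective ?_
      simp only [Polynomial.map_mul, Polynomial.map_pow, Polynomial.map_C]
      rw [show P.map f = b • P₀ from hP, show S'.map f = c • S from hS', _root_.smul_pow, hS]
      simp only [zsmul_eq_mul, map_pow, eq_intCast, map_intCast, Int.cast_pow]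
      ring
    have h1 := congrArg (aeval t) key
    simp only [map_mul, hQ, mul_zero, zero_mul, map_pow, eq_intCast,
      map_intCast] at h1
    rw [← zsmul_eq_mul] at h1
    exact IsReduced.eq_zero _ ⟨n, (smul_eq_zero.mp h1).resolve_left (nonZeroDivisors.ne_zero hc)⟩

/-- A Jordan block of an operator killed by a separable polynomial is trivial. -/
lemma jordan_zero {K V : Type*} [Field K] [AddCommGroup V] [Module K V] (f : Module.End K V)
    {P : K[X]} (hP : P.Separable) (hf : aeval f P = 0) {β : K} {y w : V}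
    (hy : f y = β • y + w) (hw : f w = β • w) : w = 0 := by
  have key : ∀ R : K[X], aeval f R w = R.eval β • w ∧
      aeval f R y = R.eval β • y + R.derivative.eval β • w := by
    intro R
    induction R using Polynomial.induction_on with
    | C a => simp [Module.algebraMap_end_apply]
    | add a b ha hb =>
      simp [ha.1, ha.2, hb.1, hb.2, add_smul]
      abel
    | monomial n a ih =>
      obtain ⟨h1, h2⟩ := ih
      simp only [map_mul, map_pow, aeval_X, aeval_C, Module.End.mul_apply,
        Module.algebraMap_end_apply] at h1 h2 ⊢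
      rw [pow_succ']
      simp only [Module.End.mul_apply]
      constructor
      · rw [← map_smul f, h1, map_smul, hw]
        simp [smul_smul, pow_succ]
        congr 1
        ring
      · rw [← map_smul f, h2, map_add, map_smul, map_smul, hy, hw]
        simp [smul_add, smul_smul, pow_succ]
        match_scalars <;> ring
  by_contra hw0
  obtain ⟨h1, h2⟩ := key P
  rw [hf, LinearMap.zero_apply] at h1 h2
  have hβ : P.eval β = 0 := (smul_eq_zero.mp h1.symm).resolve_right hw0
  rw [hβ, zero_smul, zero_add] at h2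
  obtain ⟨a, b, hab⟩ := hP
  have := congrArg (Polynomial.eval β) hab
  simp [hβ, (smul_eq_zero.mp h2.symm).resolve_right hw0] at this

variable {K : Type} [Field K] [CharZero K] {N : ℕ} [NeZero N]

/-- `T_ℓ` on `Hom_cl(Γ₀(N), K)` has no Jordan block. -/
theorem baseOp_jordan_zero {ℓ : ℕ} [NeZero ℓ] (hℓ : ℓ.Prime) (hℓN : ¬ ℓ ∣ N) {β : K}
    {y w : clHoms K (Gamma0 N) K} (hy : baseOp K N ℓ y = β • y + w)
    (hw : baseOp K N ℓ w = β • w) : w = 0 := by
  classical
  have hneg := neg_one_mem_Gamma0 N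
  obtain ⟨h3, h4⟩ := free_clHoms (K := Gamma0 N) hneg ℤ
  have : IsReduced (Attach.AnemicAlg N) :=
    Hecke.Pet.isReduced_heckeAlgebra N fun q _ hq => hq
  set t : Attach.AnemicAlg N := CuspForm.heckeAlgebra.T hℓ hℓN hℓN
  set A := Attach.latticeHecke N
  have hcp : aeval t (A t).charpoly = 0 := by
    refine (injective_iff_map_eq_zero A).mp (Attach.latticeHecke_injective N) _ ?_
    show A.toIntAlgHom (aeval t _) = 0
    rw [← aeval_algHom_apply]
    exact LinearMap.aeval_self_charpoly (A t)
  obtain ⟨P, hPsep, hPt⟩ := exists_separable_of_aeval t (A t).charpoly_monic.ne_zero hcp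
  -- the inclusion of the lattice
  let L : clHoms ℤ (Gamma0 N) ℤ → clHoms K (Gamma0 N) K := fun v =>
    ⟨(Int.castAddHom K).comp v.1, v.2.comp _⟩
  have hL : ∀ v, baseOp K N ℓ (L v) = L (A t v) := fun v => by
    refine Subtype.ext ?_
    rw [coe_baseOp]
    show Hecke.perTransfer N ℓ K ((Int.castAddHom K).comp v.1) = (Int.castAddHom K).comp (A t v).1
    rw [show Hecke.perTransfer N ℓ K ((Int.castAddHom K).comp v.1) =
      (Int.castAddHom K).comp (Hecke.perTransfer N ℓ ℤ v.1) from
        Hecke.transferHom_comp (Hecke.upperConj N ℓ) (Int.castAddHom K) v.1,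
      Attach.latticeHecke_T N hℓ hℓN v]
  have hLadd : ∀ u v, L (u + v) = L u + L v := fun u v => Subtype.ext (AddMonoidHom.comp_add _ _ _)
  let L' : clHoms ℤ (Gamma0 N) ℤ →+ clHoms K (Gamma0 N) K := AddMonoidHom.mk' L hLadd
  have hpoly : ∀ (R : ℤ[X]) v, aeval (baseOp K N ℓ) R (L' v) = L' (aeval (A t) R v) := by
    intro R
    induction R using Polynomial.induction_on with
    | C a =>
      intro v
      simp [map_zsmul]
    | add a b ha hb =>
      intro v
      simp [ha v, hb v]
    | monomial n a ih =>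
      intro v
      rw [pow_succ, ← mul_assoc]
      show aeval (baseOp K N ℓ) (C a * X ^ n * X) (L' v) = L' (aeval (A t) (C a * X ^ n * X) v)
      rw [aeval_mul, aeval_mul (x := A t), Module.End.mul_apply, Module.End.mul_apply, aeval_X,
        aeval_X]
      show aeval (baseOp K N ℓ) (C a * X ^ n) (baseOp K N ℓ (L v)) = _
      rw [hL]
      exact ih (A t v)
  have hzero : aeval (baseOp K N ℓ) (P.map (Int.castRingHom K)) = 0 := by
    refine LinearMap.ext fun φ => ?_
    rw [← algebraMap_int_eq, aeval_map_algebraMap]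
    obtain ⟨γ, e, he, -, hdec⟩ := clBasis_exists (Gamma0 N) hneg
    have hφ : φ = ∑ i, φ.1 (Additive.ofMul (γ i)) • L' ⟨e i, he i⟩ := by
      refine Subtype.ext (AddMonoidHom.ext fun x => ?_)
      rw [hdec K φ.1 φ.2 x, AddSubmonoidClass.coe_finsetSum, AddMonoidHom.finsetSum_apply]
      refine Finset.sum_congr rfl fun i _ => ?_
      show _ = φ.1 (Additive.ofMul (γ i)) • ((e i x : ℤ) : K)
      rw [zsmul_eq_mul, smul_eq_mul, mul_comm]
    rw [hφ, map_sum, LinearMap.zero_apply]
    refine Finset.sum_eq_zero fun i _ => ?_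
    have hAP : aeval (A t) P = 0 := by
      show aeval (A.toIntAlgHom t) P = 0
      rw [aeval_algHom_apply, hPt, map_zero]
    rw [map_smul, hpoly, hAP, LinearMap.zero_apply, map_zero, smul_zero]
  refine jordan_zero (baseOp K N ℓ) ?_ hzero hy hw
  rw [show P.map (Int.castRingHom K) = (P.map (Int.castRingHom ℚ)).map (algebraMap ℚ K) by
    rw [Polynomial.map_map]; congr 1; exact RingHom.ext_int _ _]
  exact hPsep.map

section Twist

variable {R : Type} [Field R] [CharZero R]

omit [CharZero R] in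
/-- The twist is additive. -/
lemma twist_add {D q : ℕ} [Fact q.Prime] (ψ : MulChar (ZMod q) R) (x z : Additive (Gamma D) →+ R)
    {D' : ℕ} (hD : D * q ^ 2 ∣ D') : twist ψ (x + z) hD = twist ψ x hD + twist ψ z hD := by
  refine Hecke.addChar_ext fun γ => ?_
  simp only [twist_apply, AddMonoidHom.add_apply, val_add, mul_add, Finset.sum_add_distrib]

omit [CharZero R] in
/-- The twist is homogeneous. -/
lemma twist_smul {D q : ℕ} [Fact q.Prime] (ψ : MulChar (ZMod q) R) (c : R)
    (x : Additive (Gamma D) →+ R) {D' : ℕ} (hD : D * q ^ 2 ∣ D') :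
    twist ψ (c • x) hD = c • twist ψ x hD := by
  refine Hecke.addChar_ext fun γ => ?_
  simp only [twist_apply, AddMonoidHom.smul_apply, smul_eq_mul, val_smul_char, Finset.mul_sum]
  exact Finset.sum_congr rfl fun a _ => by ring

variable {D q : ℕ} [Fact q.Prime] (ψ : MulChar (ZMod q) R) {L0 : ℕ}
  {χ0 : ℤ → R} {x : Additive (Gamma D) →+ R}

/-- The twist intertwines the operators up to `ψ(ℓ)⁻¹`. -/
theorem opD_twist_gen (hχ0 : χ0 1 = 1)
    [NeZero D] {D' : ℕ} [NeZero D'] (hD : D * q ^ 2 ∣ D') {ℓ : ℕ} [NeZero ℓ]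
    (hℓ : ℓ.Prime) (hℓD : Nat.Coprime ℓ D) (hℓD' : Nat.Coprime ℓ D') {c : R}
    (hc : c * ψ (ℓ : ZMod q) = 1)
    (hox : IsNeb (L0 * q) (fun d => χ0 d * ψ (d : ZMod q) ^ 2) (opD hℓD x)) :
    opD hℓD' (twist ψ x hD) = c • twist ψ (opD hℓD x) hD := by
  have hℓq : ¬ (ℓ : ℤ) ∣ (q : ℤ) := fun h => by
    have h' : ℓ ∣ D' := ((Int.natCast_dvd_natCast.mp h).trans
      ((dvd_pow_self q two_ne_zero).trans (dvd_mul_left _ D))).trans hD
    exact hℓ.coprime_iff_not_dvd.mp hℓD' h'
  have hℓ0 : (ℓ : ZMod q) ≠ 0 := fun h => by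
    rw [h, MulChar.map_nonunit ψ not_isUnit_zero, mul_zero] at hc
    exact zero_ne_one hc
  have hχ : (fun d : ℤ => χ0 d * ψ (d : ZMod q) ^ 2) 1 = 1 := by simp [hχ0]
  rw [← opDLin_apply, twist, map_sum]
  simp only [map_smul, opDLin_apply]
  refine Hecke.addChar_ext fun γ => ?_
  rw [AddMonoidHom.finsetSum_apply, AddMonoidHom.smul_apply, twist_apply,
    smul_eq_mul, Finset.mul_sum]
  refine Fintype.sum_equiv (Equiv.mulLeft₀ (ℓ : ZMod q) hℓ0) _ _ fun a => ?_
  have e := opD_pull hℓ hℓD hℓD' (q := (q : ℤ)) (v := (a.val : ℤ)) val_prime_ne_zero hℓq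
    (det_trans_ne _) (det_trans_ne _) (dvd_trans_level hD _) (dvd_trans_level hD _) x
  simp only [AddMonoidHom.smul_apply, smul_eq_mul, Equiv.mulLeft₀_apply]
  rw [e, pull_apply, map_mul]
  set w := val (opD hℓD x) (trans q ((ℓ : ℤ) * a.val)) γ.1
  have hw : val (opD hℓD x) (trans q (((ℓ : ZMod q) * a).val)) γ.1 = w := by
    refine (IsNeb.val_trans_congr hox hχ hD γ.2
      (a := (((ℓ : ZMod q) * a).val : ℤ))
        (b := (ℓ : ℤ) * a.val) (dvd_val_sub (by push_cast; simp))).symm
  rw [hw]
  linear_combination (-(ψ a) * w) * hc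

end Twist

end Fermat.Agent.LevelLowering

end
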