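import Mathlib.GroupTheory.FiniteAbelian.Duality
import Mathlib.LinearAlgebra.LinearIndependent.Lemmas
import Mathlib.RingTheory.RootsOfUnity.AlgebraicallyClosed
import Fermat.Agent.LevelLowering.Semisimple

/-!
# Semisimplicity on `Hom_cl(Γ_Ψ, K)`

An eigenspace of the diamonds is twisted injectively into characters of `Γ₀(L)`, where the good
operators are semisimple.
-/

noncomputable section

namespace Fermat.Agent.LevelLowering

open scoped MatrixGroups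
open CongruenceSubgroup Fermat.Agent.Grp Fermat.Agent.Ihara Fermat.Agent.EigenTwist

variable {R : Type} [Field R] [CharZero R]

omit [CharZero R] in
lemma isNeb_add {D L : ℕ} {χ : ℤ → R} {x z : Additive (Gamma D) →+ R} (hx : IsNeb L χ x)
    (hz : IsNeb L χ z) : IsNeb L χ (x + z) := fun g hg γ δ h => by
  simp only [AddMonoidHom.add_apply, hx g hg γ δ h, hz g hg γ δ h, mul_add]

omit [CharZero R] in
lemma isNeb_smul {D L : ℕ} {χ : ℤ → R} (c : R) {x : Additive (Gamma D) →+ R} (hx : IsNeb L χ x) :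
    IsNeb L χ (c • x) := fun g hg γ δ h => by
  simp only [AddMonoidHom.smul_apply, smul_eq_mul, hx g hg γ δ h]
  ring

variable (ψ : ∀ q : ℕ, MulChar (ZMod q) R) {ℓ : ℕ} [NeZero ℓ] (hℓ : ℓ.Prime)

include hℓ in
/-- No Jordan block on characters with nebentypus. -/
theorem opD_jordan_zero : ∀ (s : Finset ℕ) (D L0 : ℕ) [NeZero D] (x z : Additive (Gamma D) →+ R)
    (hℓD : Nat.Coprime ℓ D) (α : R), (∀ q ∈ s, q.Prime) → (∀ q ∈ s, ¬ q ∣ L0) →
    L0 * ∏ q ∈ s, q ∣ D → (∀ q ∈ s, ψ q ^ 2 ≠ 1) → (∀ q ∈ s, ψ q (-1) = 1) →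
    IsNeb (L0 * ∏ q ∈ s, q) (fun d => ∏ q ∈ s, ψ q (d : ZMod q) ^ 2) x →
    IsNeb (L0 * ∏ q ∈ s, q) (fun d => ∏ q ∈ s, ψ q (d : ZMod q) ^ 2) z →
    IsClHom (Gamma D) x → IsClHom (Gamma D) z →
    opD hℓD x = α • x + z → opD hℓD z = α • z → z = 0 := by
  intro s
  induction s using Finset.induction_on with
  | empty =>
    intro D L0 _ x z hℓD α _ _ hL _ _ hx hz hxc hzc hxz hzz
    simp only [Finset.prod_empty, mul_one] at hL hx hz
    have : NeZero L0 := ⟨fun h => NeZero.ne D (Nat.eq_zero_of_zero_dvd (h ▸ hL))⟩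
    obtain ⟨y, hy, rfl⟩ := exists_descend hL hx hxc
    obtain ⟨w, hw, rfl⟩ := exists_descend hL hz hzc
    have hℓL : ¬ ℓ ∣ L0 := fun h => hℓ.coprime_iff_not_dvd.mp hℓD (h.trans hL)
    have tr : ∀ (u v : Additive (Gamma0 L0) →+ R),
        opD hℓD (resHom (gamma_le_Gamma0 hL) u) = resHom (gamma_le_Gamma0 hL) v →
        Hecke.perTransfer L0 ℓ R u = v := fun u v h => by
      refine sub_eq_zero.mp (eq_zero_of_resHom_eq_zero (gamma_le_Gamma0 hL) ?_)
      refine Hecke.addChar_ext fun γ => ?_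
      have := DFunLike.congr_fun ((resHom_perTransfer hL hℓ hℓD u).trans h) (Additive.ofMul γ)
      exact sub_eq_zero.mpr this
    have h1 : baseOp R L0 ℓ ⟨y, hy⟩ = α • ⟨y, hy⟩ + ⟨w, hw⟩ :=
      Subtype.ext ((coe_baseOp R ℓ _).trans (tr y (α • y + w) (hxz.trans rfl)))
    have h2 : baseOp R L0 ℓ ⟨w, hw⟩ = α • (⟨w, hw⟩ : clHoms R (Gamma0 L0) R) :=
      Subtype.ext ((coe_baseOp R ℓ _).trans (tr w (α • w) (hzz.trans rfl)))
    have := congrArg Subtype.val (baseOp_jordan_zero hℓ hℓL h1 h2)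
    exact (congrArg (resHom (gamma_le_Gamma0 hL)) this).trans rfl
  | insert q t hqt ih =>
    intro D L0 _ x z hℓD α hp hL0 hL hψ2 heven hx hz hxc hzc hxz hzz
    have hq : q.Prime := hp q (Finset.mem_insert_self q t)
    have : Fact q.Prime := ⟨hq⟩
    have : NeZero q := ⟨hq.ne_zero⟩
    set P := ∏ r ∈ t, r
    rw [Finset.prod_insert hqt] at hL hx hz
    let χ1 : ℤ → R := fun d => ∏ r ∈ t, ψ r (d : ZMod r) ^ 2
    have hconv : ∀ {u : Additive (Gamma D) →+ R},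
        IsNeb (L0 * (q * P)) (fun d => ∏ r ∈ insert q t, ψ r (d : ZMod r) ^ 2) u →
        IsNeb (L0 * P * q) (fun d => χ1 d * ψ q (d : ZMod q) ^ 2) u := fun hu => by
      rw [show L0 * P * q = L0 * (q * P) by ring]
      convert hu using 2 with d
      simp only [χ1, Finset.prod_insert hqt]
      ring
    have hper1 : ∀ d d' : ℤ, ((L0 * P : ℕ) : ℤ) ∣ d - d' → χ1 d = χ1 d' := by
      intro d d' h
      simp only [χ1]
      refine Finset.prod_congr rfl fun r hr => ?_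
      congr 2
      rw [← sub_eq_zero, ← Int.cast_sub, ZMod.intCast_zmod_eq_zero_iff_dvd]
      exact (Int.natCast_dvd_natCast.mpr ((Finset.dvd_prod_of_mem _ hr).trans
        (dvd_mul_left P L0))).trans h
    have hχ1 : χ1 1 = 1 := by simp [χ1]
    have hqP : ¬ q ∣ L0 * P := fun h => by
      rcases hq.dvd_mul.mp h with h1 | h1
      · exact hL0 q (Finset.mem_insert_self q t) h1
      · obtain ⟨r, hr, hqr⟩ := (hq.prime.dvd_finsetProd_iff _).mp h1
        exact hqt ((Nat.prime_dvd_prime_iff_eq hq (hp r (Finset.mem_insert_of_mem hr))).mp hqr ▸ hr)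
    set D1 := D * q ^ 2 with hD1
    have : NeZero D1 := ⟨mul_ne_zero (NeZero.ne D) (pow_ne_zero 2 hq.ne_zero)⟩
    have hqD : q ∣ D := (dvd_mul_of_dvd_right (dvd_mul_right q P) L0).trans hL
    have hℓq : ℓ ≠ q := fun h => hℓ.coprime_iff_not_dvd.mp hℓD (h ▸ hqD)
    have hℓD1 : Nat.Coprime ℓ D1 :=
      Nat.Coprime.mul_right hℓD (((Nat.coprime_primes hℓ hq).mpr hℓq).pow_right 2)
    have hu : IsUnit ((ℓ : ℕ) : ZMod q) :=
      (ZMod.isUnit_iff_coprime ℓ q).mpr ((Nat.coprime_primes hℓ hq).mpr hℓq)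
    obtain ⟨c, hc⟩ := ((hu.map (ψ q))).exists_left_inv
    have hc0 : c ≠ 0 := fun h => by rw [h, zero_mul] at hc; exact zero_ne_one hc
    have hx' := hconv hx
    have hz' := hconv hz
    have e1 := opD_twist_gen (ψ q) hχ1 (dvd_refl D1) hℓ hℓD hℓD1 hc
      (by rw [hxz]; exact isNeb_add (isNeb_smul α hx') hz')
    have e2 := opD_twist_gen (ψ q) hχ1 (dvd_refl D1) hℓ hℓD hℓD1 hc
      (by rw [hzz]; exact isNeb_smul α hz')
    rw [hxz, twist_add, twist_smul, smul_add, smul_smul] at e1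
    rw [hzz, twist_smul, smul_smul] at e2
    have hneb : ∀ {u : Additive (Gamma D) →+ R},
        IsNeb (L0 * P * q) (fun d => χ1 d * ψ q (d : ZMod q) ^ 2) u →
        IsNeb (L0 * q ^ 2 * P) χ1 (twist (ψ q) u (dvd_refl D1)) := fun hu => by
      rw [show L0 * q ^ 2 * P = L0 * P * q ^ 2 by ring]
      exact isNeb_twist (ψ q) hu hper1 _
    have hfin := ih D1 (L0 * q ^ 2) (twist (ψ q) x (dvd_refl D1)) (c • twist (ψ q) z (dvd_refl D1))
      hℓD1 (c * α) (fun r hr => hp r (Finset.mem_insert_of_mem hr))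
      (fun r hr h => by
        have hrp := hp r (Finset.mem_insert_of_mem hr)
        rcases hrp.dvd_mul.mp h with h1 | h1
        · exact hL0 r (Finset.mem_insert_of_mem hr) h1
        · exact hqt (((Nat.prime_dvd_prime_iff_eq hrp hq).mp (hrp.dvd_of_dvd_pow h1)) ▸ hr))
      (by
        obtain ⟨w, hw⟩ := hL
        exact ⟨w * q, by rw [hD1, hw]; ring⟩)
      (fun r hr => hψ2 r (Finset.mem_insert_of_mem hr))
      (fun r hr => heven r (Finset.mem_insert_of_mem hr))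
      (hneb hx') (isNeb_smul c (hneb hz'))
      (isClHom_twist (ψ q) hxc _)
      (fun γ hγ => by rw [AddMonoidHom.smul_apply, isClHom_twist (ψ q) hzc _ γ hγ, smul_zero])
      e1 (by rw [← opDLin_apply, map_smul, opDLin_apply, e2, smul_comm])
    by_contra hz0
    exact twist_ne_zero (ψ q) hz' hqP hper1 hχ1 (hψ2 q (Finset.mem_insert_self q t))
      (heven q (Finset.mem_insert_self q t)) hz0 (dvd_refl D1)
        ((smul_eq_zero.mp hfin).resolve_left hc0)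

variable {N : ℕ} [NeZero N] {Δ : Type} [CommGroup Δ] [Fintype Δ] (Ψ : (ZMod N)ˣ →* Δ)
  (hΨ : Function.Surjective Ψ) (hneg : (-1 : SL(2, ℤ)) ∈ GammaPsi Ψ)

include hℓ in
/-- No Jordan block on a diamond eigenspace. -/
theorem kerOp_jordan_zero_eigen (hℓN : ¬ ℓ ∣ N) (χ : Δ →* R) (s : Finset ℕ) (L0 : ℕ)
    (hp : ∀ q ∈ s, q.Prime) (hL0 : ∀ q ∈ s, ¬ q ∣ L0) (hN : L0 * ∏ q ∈ s, q = N)
    (hψ2 : ∀ q ∈ s, ψ q ^ 2 ≠ 1) (heven : ∀ q ∈ s, ψ q (-1) = 1)
    (hψ : ∀ g : Gamma0 N, ∏ q ∈ s, ψ q ((g.1.1 1 1 : ℤ) : ZMod q) ^ 2 = (χ (dChar Ψ g))⁻¹)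
    {α : R} {φ z : clHoms R (GammaPsi Ψ) R} (hφ : ∀ δ, diaOp R Ψ hΨ δ φ = χ δ • φ)
    (hz : ∀ δ, diaOp R Ψ hΨ δ z = χ δ • z) (h1 : kerOp R Ψ hΨ hneg ℓ φ = α • φ + z)
    (h2 : kerOp R Ψ hΨ hneg ℓ z = α • z) : z = 0 := by
  have hℓN' : Nat.Coprime ℓ N := hℓ.coprime_iff_not_dvd.mpr hℓN
  set χ' : ℤ → R := fun d => ∏ q ∈ s, ψ q (d : ZMod q) ^ 2
  have hneb : ∀ u : clHoms R (GammaPsi Ψ) R, (∀ δ, diaOp R Ψ hΨ δ u = χ δ • u) →
      IsNeb N χ' (resHom (gamma_le_GammaPsi Ψ) u.1) := fun u hu => by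
    refine isNeb_resHom Ψ u.1 χ' fun g => ?_
    show _ = (∏ q ∈ s, ψ q ((g.1.1 1 1 : ℤ) : ZMod q) ^ 2) • u.1
    rw [hψ g, ← map_inv χ, ← map_inv (dChar Ψ)]
    refine Eq.trans ?_ (congrArg Subtype.val (hu (dChar Ψ g⁻¹)))
    exact conjChar_congr (GammaPsi_le Ψ) (mem_GammaPsi Ψ)
      (d_sec (dChar_surjective Ψ hΨ) _).symm u.1
  have hr : ∀ u : clHoms R (GammaPsi Ψ) R,
      resHom (gamma_le_GammaPsi Ψ) (kerOp R Ψ hΨ hneg ℓ u).1 =
        opD hℓN' (resHom (gamma_le_GammaPsi Ψ) u.1) := fun u =>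
    resHom_restrict_op Ψ hΨ hneg hℓ hℓN' u.1
  have e1 := hr φ
  have e2 := hr z
  rw [h1] at e1
  rw [h2] at e2
  have := opD_jordan_zero ψ hℓ s N L0 _ _ hℓN' α hp hL0 hN.dvd hψ2 heven
    (hN.symm ▸ hneb φ hφ) (hN.symm ▸ hneb z hz) (isClHom_resHom _ φ.2) (isClHom_resHom _ z.2)
    e1.symm e2.symm
  exact Subtype.ext (eq_zero_of_resHom_eq_zero (gamma_le_GammaPsi Ψ) this)

/-- Reduction to the eigenspaces of the diamonds. -/
theorem kerOp_jordan_zero [IsAlgClosed R]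
    (hχ : ∀ (χ : Δ →* R) (φ z : clHoms R (GammaPsi Ψ) R) (α : R),
      (∀ δ, diaOp R Ψ hΨ δ φ = χ δ • φ) → (∀ δ, diaOp R Ψ hΨ δ z = χ δ • z) →
      kerOp R Ψ hΨ hneg ℓ φ = α • φ + z → kerOp R Ψ hΨ hneg ℓ z = α • z → z = 0)
    {α : R} {φ z : clHoms R (GammaPsi Ψ) R} (h1 : kerOp R Ψ hΨ hneg ℓ φ = α • φ + z)
    (h2 : kerOp R Ψ hΨ hneg ℓ z = α • z) : z = 0 := by
  classical
  let e : (Δ →* R) → Module.End R (clHoms R (GammaPsi Ψ) R) := fun χ =>
    ∑ g, χ g⁻¹ • diaOp R Ψ hΨ g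
  have heig : ∀ (χ : Δ →* R) u δ, diaOp R Ψ hΨ δ (e χ u) = χ δ • e χ u := by
    intro χ u δ
    simp only [e, LinearMap.sum_apply, LinearMap.smul_apply, map_sum, map_smul, Finset.smul_sum,
      smul_smul, ← Module.End.mul_apply, ← map_mul]
    refine Fintype.sum_equiv (Equiv.mulLeft δ) _ _ fun g => ?_
    simp only [Equiv.coe_mulLeft, map_mul, mul_inv_rev]
    rw [mul_left_comm, ← map_mul χ δ, mul_inv_cancel, map_one, mul_one]
  have hcomm : ∀ (χ : Δ →* R) u, kerOp R Ψ hΨ hneg ℓ (e χ u) = e χ (kerOp R Ψ hΨ hneg ℓ u) := by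
    intro χ u
    simp only [e, LinearMap.sum_apply, LinearMap.smul_apply, map_sum, map_smul]
    refine Finset.sum_congr rfl fun g _ => ?_
    rw [← Module.End.mul_apply, ← diaOp_kerOp, Module.End.mul_apply]
  have hzero : ∀ χ : Δ →* R, e χ z = 0 := fun χ =>
    hχ χ (e χ φ) (e χ z) α (heig χ φ) (heig χ z) (by rw [hcomm, h1, map_add, map_smul])
      (by rw [hcomm, h2, map_smul])
  have hli : LinearIndependent R fun g : Δ => fun χ : Δ →* R => χ g := by
    let ev : Δ → ((Δ →* R) →* R) := fun g =>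
      { toFun := fun χ => χ g, map_one' := rfl, map_mul' := fun _ _ => rfl }
    refine (linearIndependent_monoidHom (Δ →* R) R).comp ev fun a b hab => ?_
    by_contra hne
    obtain ⟨φ', hφ'⟩ := CommGroup.exists_apply_ne_one_of_hasEnoughRootsOfUnity Δ R
      (show a / b ≠ 1 from fun he => hne (div_eq_one.mp he))
    refine hφ' (Units.ext ?_)
    have e' := DFunLike.congr_fun hab ((Units.coeHom R).comp φ')
    change ((φ' a : Rˣ) : R) = ((φ' b : Rˣ) : R) at e'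
    rw [map_div, Units.val_one]
    simp [Units.ext e']
  refine Subtype.ext (AddMonoidHom.ext fun t => ?_)
  have := Fintype.linearIndependent_iff.mp hli (fun g => (diaOp R Ψ hΨ g⁻¹ z).1 t) (by
    funext χ
    rw [Finset.sum_apply, Pi.zero_apply]
    have h := DFunLike.congr_fun (congrArg Subtype.val (hzero χ)) t
    simp only [e, LinearMap.sum_apply, LinearMap.smul_apply, AddSubmonoidClass.coe_finsetSum,
      AddMonoidHom.finsetSum_apply] at h
    refine Eq.trans ?_ h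
    refine Fintype.sum_equiv (Equiv.inv Δ) _ _ fun g => ?_
    simp [mul_comm]) 1
  simpa using this

end Fermat.Agent.LevelLowering

end
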