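import Mathlib.Algebra.Group.Pi.Units
import Mathlib.Data.ZMod.QuotientRing
import Mathlib.Data.ZMod.Units
import Mathlib.GroupTheory.PGroup
import Mathlib.RingTheory.Coprime.Lemmas

/-!
# The character of an intermediate level

For primes `q ∣ N` with surjections `π_q : (ℤ/q)ˣ → D_q`, the combined character
`u ↦ (π_q (u mod q))_q` of `(ℤ/N)ˣ` is surjective. Its kernel defines the Taylor–Wiles levels.
-/

noncomputable section

namespace Fermat.Agent.LevelLowering

variable {N : ℕ} {Q : Finset Nat.Primes} (hN : ∀ q ∈ Q, (q : ℕ) ∣ N) {D : Q → Type*}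
  [∀ q, CommGroup (D q)] (π : ∀ q : Q, (ZMod ((q.1 : Nat.Primes) : ℕ))ˣ →* D q)

/-- `u ↦ (π_q (u mod q))_q`. -/
def piPsi : (ZMod N)ˣ →* (∀ q, D q) :=
  MonoidHom.pi fun q => (π q).comp (ZMod.unitsMap (hN q.1 q.2))

theorem piPsi_apply (u : (ZMod N)ˣ) (q : Q) :
    piPsi hN π u q = π q (ZMod.unitsMap (hN q.1 q.2) u) := rfl

/-- The product of surjective characters at distinct primes is surjective. -/
theorem piPsi_surjective [NeZero N] (hπ : ∀ q, Function.Surjective (π q)) :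
    Function.Surjective (piPsi hN π) := fun x => by
  choose u hu using fun q => hπ q (x q)
  have hcop : Pairwise (Nat.Coprime.onFun (fun q : Q => ((q.1 : Nat.Primes) : ℕ))) :=
    fun a b hab => (Nat.coprime_primes a.1.2 b.1.2).mpr fun h => hab (Subtype.ext (Subtype.ext h))
  let E := ZMod.prodEquivPi (fun q : Q => ((q.1 : Nat.Primes) : ℕ)) hcop
  obtain ⟨w, hw⟩ : ∃ w : (ZMod (∏ q : Q, ((q.1 : Nat.Primes) : ℕ)))ˣ,
      ∀ q, E (w : ZMod _) q = (u q : ZMod _) := by
    refine ⟨⟨E.symm fun q => (u q : ZMod _), E.symm fun q => (↑(u q)⁻¹ : ZMod _), ?_, ?_⟩,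
      fun q => ?_⟩
    · rw [← map_mul, ← map_one E.symm]; congr 1; funext q; exact (u q).mul_inv
    · rw [← map_mul, ← map_one E.symm]; congr 1; funext q; exact (u q).inv_mul
    · exact congrFun (E.apply_symm_apply _) q
  have hdvd : (∏ q : Q, ((q.1 : Nat.Primes) : ℕ)) ∣ N :=
    Fintype.prod_dvd_of_isRelPrime (fun a b hab => Nat.coprime_iff_isRelPrime.mp (hcop hab))
      fun q => hN q.1 q.2
  obtain ⟨z, hz⟩ := ZMod.unitsMap_surjective hdvd w
  refine ⟨z, funext fun q => ?_⟩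
  rw [piPsi_apply, ← hu q]
  congr 1
  refine Units.ext ?_
  have h1 := hw q
  rw [← h1, ZMod.prodEquivPi_apply, ← hz]
  exact RingHom.congr_fun (Subsingleton.elim (ZMod.castHom (hN q.1 q.2) _)
    ((ZMod.castHom (Finset.dvd_prod_of_mem _ (Finset.mem_univ q)) _).comp (ZMod.castHom hdvd _)))
      (z : ZMod N)

end Fermat.Agent.LevelLowering
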