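import Fermat.Agent.LevelLowering.Eval
import Fermat.Agent.LevelLowering.PatchedMatrix

/-!
# Modules given by matrices and the ideals of diamond relations

A map from a power series ring to matrices is determined by the constants and the variables
(`matrixHom_ext`); `MatMod A` is `S^d` as a module through `A`; the ideal `diamondIdeal` of the
relations `(1 + X_i) ^ p ^ v i = 1` lies deep in the truncation filtration when all `v i` are
large.
-/

noncomputable section

namespace Fermat.Agent.LevelLowering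

open IsLocalRing Filter

local notation "PS" => MvPowerSeries

/-- Two maps to matrices over a Noetherian local ring that agree on constants and variables agree,
if the variables go to matrices with entries in the maximal ideal. -/
lemma matrixHom_ext {𝒪 : Type} [CommRing 𝒪] {r d : ℕ} {T : Type} [CommRing T] [IsLocalRing T]
    [IsNoetherianRing T] (f g : PS (Fin r) 𝒪 →+* Matrix (Fin d) (Fin d) T)
    (hC : ∀ c, f (MvPowerSeries.C c) = g (MvPowerSeries.C c))
    (hX : ∀ i, f (MvPowerSeries.X i) = g (MvPowerSeries.X i))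
    (hmem : ∀ i a b, f (MvPowerSeries.X i) a b ∈ maximalIdeal T) : f = g := by
  classical
  set 𝔛 : Ideal (PS (Fin r) 𝒪) :=
    Ideal.span (Set.range fun i : Fin r => (MvPowerSeries.X i : PS (Fin r) 𝒪))
  have key : ∀ h : PS (Fin r) 𝒪 →+* Matrix (Fin d) (Fin d) T,
      (∀ i a b, h (MvPowerSeries.X i) a b ∈ maximalIdeal T) →
      ∀ k, ∀ s ∈ 𝔛 ^ k, ∀ a b, h s a b ∈ maximalIdeal T ^ k := by
    intro h hh
    have h1 : ∀ s ∈ 𝔛, ∀ a b, h s a b ∈ maximalIdeal T := fun s hs => by
      refine Submodule.span_induction (p := fun s _ => ∀ a b, h s a b ∈ maximalIdeal T)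
        ?_ ?_ ?_ ?_ hs
      · rintro _ ⟨i, rfl⟩ a b; exact hh i a b
      · intro a b; simp
      · intro x z _ _ hx hz a b; rw [map_add, Matrix.add_apply]; exact add_mem (hx a b) (hz a b)
      · intro c x _ hx a b
        rw [smul_eq_mul, map_mul, Matrix.mul_apply]
        exact sum_mem fun j _ => Ideal.mul_mem_left _ _ (hx j b)
    intro k
    induction k with
    | zero => intro s _ a b; simp
    | succ k ih =>
      intro s hs
      rw [pow_succ] at hs
      refine Submodule.mul_induction_on hs (fun x hx z hz a b => ?_) fun x z hx hz a b => ?_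
      · rw [map_mul, Matrix.mul_apply, pow_succ]
        exact sum_mem fun j _ => Ideal.mul_mem_mul (ih x hx a j) (h1 z hz j b)
      · rw [map_add, Matrix.add_apply]; exact add_mem (hx a b) (hz a b)
  refine RingHom.ext fun s => Matrix.ext fun a b => sub_eq_zero.mp ?_
  have : f s a b - g s a b ∈ ⨅ k : ℕ, maximalIdeal T ^ k := Submodule.mem_iInf _ |>.mpr fun k => by
    have hsub := sub_truncTotal_mem s k
    set p := MvPowerSeries.truncTotal k s
    have hp : f (p : PS (Fin r) 𝒪) = g (p : PS (Fin r) 𝒪) := by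
      induction p using MvPolynomial.induction_on with
      | C c => rw [MvPolynomial.coe_C, hC]
      | add u v hu hv => rw [MvPolynomial.coe_add, map_add, map_add, hu, hv]
      | mul_X u i hu => rw [MvPolynomial.coe_mul, MvPolynomial.coe_X, map_mul, map_mul, hu, hX]
    have h2 := sub_mem (key f hmem k _ hsub a b) (key g (fun i => hX i ▸ hmem i) k _ hsub a b)
    simpa [hp] using h2
  rwa [Ideal.iInf_pow_eq_bot_of_isLocalRing _ (maximalIdeal.isMaximal T).ne_top,
    Submodule.mem_bot] at this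

variable {𝒪 : Type} [CommRing 𝒪] [IsDomain 𝒪] [IsDiscreteValuationRing 𝒪]
  [IsAdicComplete (maximalIdeal 𝒪) 𝒪] [Finite (ResidueField 𝒪)]

omit [IsAdicComplete (maximalIdeal 𝒪) 𝒪] in
lemma finite_residueField_series (r : ℕ) : Finite (ResidueField (PS (Fin r) 𝒪)) := by
  let q : 𝒪 →+* ResidueField (PS (Fin r) 𝒪) := (residue _).comp MvPowerSeries.C
  have : Finite (𝒪 ⧸ maximalIdeal 𝒪) := ‹Finite (ResidueField 𝒪)›
  refine Finite.of_surjective (Ideal.Quotient.lift (maximalIdeal 𝒪) q fun c hc => ?_) fun z => ?_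
  · show residue _ (MvPowerSeries.C c) = 0
    rw [residue_eq_zero_iff, mem_maximalIdeal, mem_nonunits_iff,
      MvPowerSeries.isUnit_iff_constantCoeff, MvPowerSeries.constantCoeff_C]
    exact (mem_maximalIdeal c).mp hc
  · obtain ⟨f, rfl⟩ := residue_surjective z
    refine ⟨Ideal.Quotient.mk _ (MvPowerSeries.constantCoeff f), ?_⟩
    rw [Ideal.Quotient.lift_mk]
    show residue _ (MvPowerSeries.C _) = _
    rw [← sub_eq_zero, ← map_sub, residue_eq_zero_iff, mem_maximalIdeal, mem_nonunits_iff,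
      MvPowerSeries.isUnit_iff_constantCoeff]
    simp

variable {r d : ℕ} {R₀ : Type} [CommRing R₀] [Algebra 𝒪 R₀]

/-- The module `O^d` over `R₀` through `A₀`. -/
abbrev matModule {S : Type} [CommRing S] {R : Type} [CommRing R]
    (A : R →+* Matrix (Fin d) (Fin d) S) : Module R (Fin d → S) :=
  Module.compHom _
    ((Matrix.toLinAlgEquiv' (R := S) (n := Fin d)).toRingEquiv.toRingHom.comp A)

/-- `S^d` as a module through `A`. -/
def MatMod {S R : Type} [CommRing S] [CommRing R] (_ : R →+* Matrix (Fin d) (Fin d) S) : Type :=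
  Fin d → S

instance {S R : Type} [CommRing S] [CommRing R] (A : R →+* Matrix (Fin d) (Fin d) S) :
    AddCommGroup (MatMod A) := inferInstanceAs (AddCommGroup (Fin d → S))

instance {S R : Type} [CommRing S] [CommRing R] (A : R →+* Matrix (Fin d) (Fin d) S) :
    Module R (MatMod A) := matModule A

lemma MatMod.smul_apply {S R : Type} [CommRing S] [CommRing R]
    (A : R →+* Matrix (Fin d) (Fin d) S) (f : R) (v : MatMod A) (a : Fin d) :
    (f • v) a = ∑ b, A f a b * v b := rfl

lemma MatMod.add_apply {S R : Type} [CommRing S] [CommRing R]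
    (A : R →+* Matrix (Fin d) (Fin d) S) (u v : MatMod A) (a : Fin d) :
    (u + v) a = u a + v a := rfl

lemma MatMod.sum_apply {S R : Type} [CommRing S] [CommRing R] {ι : Type}
    (A : R →+* Matrix (Fin d) (Fin d) S) (s : Finset ι) (u : ι → MatMod A) (a : Fin d) :
    (∑ i ∈ s, u i) a = ∑ i ∈ s, u i a := Finset.sum_apply a s fun i => (u i : Fin d → S)

/-- The element of `MatMod A` with given coordinates. -/
def MatMod.mk {S R : Type} [CommRing S] [CommRing R] (A : R →+* Matrix (Fin d) (Fin d) S)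
    (v : Fin d → S) : MatMod A := v

/-- If `c ∈ 𝔪 ^ k` with `k ≥ 1` and `p ∈ 𝔪`, then `(1 + c) ^ p - 1 ∈ 𝔪 ^ (k + 1)`. -/
lemma one_add_pow_prime_sub_one_mem {A : Type*} [CommRing A] (I : Ideal A) {p : ℕ}
    (hpI : (p : A) ∈ I) {k : ℕ} (hk : 1 ≤ k) {c : A} (hc : c ∈ I ^ k) :
    (1 + c) ^ p - 1 ∈ I ^ (k + 1) := by
  obtain ⟨e, he⟩ : ∃ e, (1 + c) ^ p = 1 + (p : A) * c + c ^ 2 * e := by
    clear hpI
    induction p with
    | zero => exact ⟨0, by simp⟩
    | succ p ih =>
      obtain ⟨e, he⟩ := ih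
      exact ⟨e + (p : A) + c * e, by rw [pow_succ, he]; push_cast; ring⟩
  rw [he, add_assoc, add_sub_cancel_left]
  refine add_mem ?_ (Ideal.mul_mem_right _ _ ?_)
  · rw [pow_succ']
    exact Ideal.mul_mem_mul hpI hc
  · exact Ideal.pow_le_pow_right (by omega) ((pow_mul I k 2).symm ▸ Ideal.pow_mem_pow hc 2)

/-- The ideal of the diamond relations of levels `p ^ v i`. -/
def diamondIdeal (p : ℕ) {r : ℕ} (v : Fin r → ℕ) : Ideal (PS (Fin r) 𝒪) :=
  Ideal.span (Set.range fun i : Fin r =>
    ((1 + MvPowerSeries.X i) ^ (p ^ v i) - 1 : PS (Fin r) 𝒪))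

omit [IsDomain 𝒪] [IsDiscreteValuationRing 𝒪] [IsAdicComplete (maximalIdeal 𝒪) 𝒪]
  [Finite (ResidueField 𝒪)] in
lemma diamondIdeal_aug (p : ℕ) {r : ℕ} (v : Fin r → ℕ) :
    ∀ s ∈ diamondIdeal (𝒪 := 𝒪) p v, MvPowerSeries.constantCoeff s = 0 := fun s hs => by
  have hle : diamondIdeal (𝒪 := 𝒪) p v ≤ RingHom.ker MvPowerSeries.constantCoeff := by
    rw [diamondIdeal, Ideal.span_le]
    rintro _ ⟨i, rfl⟩
    simp
  exact hle hs

omit [IsAdicComplete (maximalIdeal 𝒪) 𝒪] [Finite (ResidueField 𝒪)] in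
/-- Levels tending to infinity give relations deep in the truncation filtration. -/
lemma diamondIdeal_trunc {p : ℕ} (_hp : p.Prime) (hp𝒪 : (p : 𝒪) ∈ maximalIdeal 𝒪) (r k : ℕ) :
    ∀ᶠ n in atTop, ∀ v : Fin r → ℕ, (∀ i, n ≤ v i) →
      diamondIdeal (𝒪 := 𝒪) p v ≤ trunc 𝒪 r k := by
  rw [eventually_atTop]
  refine ⟨2 * k, fun n hn v hv => ?_⟩
  rw [diamondIdeal, Ideal.span_le]
  rintro _ ⟨i, rfl⟩
  refine maximalIdeal_pow_le_trunc 𝒪 r k
    (Ideal.pow_le_pow_right (show 2 * k ≤ v i + 1 by have := hv i; omega) ?_)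
  show ((1 + MvPowerSeries.X i : PS (Fin r) 𝒪) ^ p ^ v i - 1) ∈ _
  generalize v i = m
  induction m with
  | zero => simp [MvPowerSeries.isUnit_iff_constantCoeff]
  | succ m ih =>
    have hP : (p : PS (Fin r) 𝒪) ∈ maximalIdeal _ := by
      simpa [MvPowerSeries.isUnit_iff_constantCoeff] using (mem_maximalIdeal _).mp hp𝒪
    have := one_add_pow_prime_sub_one_mem _ hP (Nat.le_add_left 1 m) ih
    rwa [show (1 + ((1 + MvPowerSeries.X i : PS (Fin r) 𝒪) ^ p ^ m - 1)) =
      (1 + MvPowerSeries.X i) ^ p ^ m by ring, ← pow_mul, ← pow_succ] at this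

end Fermat.Agent.LevelLowering

end
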