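import Mathlib.Algebra.CharP.Lemmas
import Mathlib.Algebra.MonoidAlgebra.Basic
import Fermat.Prelude.Thm_IsLocalRing_isAdicComplete_of_module_finite
import Fermat.Agent.LevelLowering.MinimalRT

/-!
# The diamond quotient is the group ring

`O⟦X₁, …, X_r⟧ / ((1+Xᵢ)^{p^{vᵢ}} - 1)` is isomorphic to the group ring of the diamond group,
`1 + Xᵢ` going to the generators; in particular the group ring is local.
-/

noncomputable section

namespace Fermat.Agent.LevelLowering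

open IsLocalRing

variable {𝒪 : Type} [CommRing 𝒪] [IsDomain 𝒪] [IsDiscreteValuationRing 𝒪]
  [IsAdicComplete (maximalIdeal 𝒪) 𝒪] [Finite (ResidueField 𝒪)] {p r : ℕ} {lv : Fin r → ℕ}

/-- The group of diamonds. -/
abbrev DiaGroup (p : ℕ) {r : ℕ} (lv : Fin r → ℕ) : Type :=
  Multiplicative (∀ i : Fin r, ZMod (p ^ lv i))

/-- A homomorphism from the diamond group given by commuting elements of order dividing
`p ^ lv i`. -/
def diaLift [∀ i, NeZero (p ^ lv i)] {M : Type*} [CommMonoid M] (g : Fin r → M)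
    (hg : ∀ i, g i ^ p ^ lv i = 1) : DiaGroup p lv →* M where
  toFun e := ∏ i, g i ^ (Multiplicative.toAdd e i).val
  map_one' := by simp
  map_mul' a b := by
    rw [← Finset.prod_mul_distrib]
    refine Finset.prod_congr rfl fun i _ => ?_
    rw [← pow_add, toAdd_mul, Pi.add_apply, ZMod.val_add]
    exact (pow_eq_pow_mod _ (hg i)).symm

/-- The generators of the diamond group. -/
def diaGen (p : ℕ) {r : ℕ} (lv : Fin r → ℕ) (i : Fin r) : DiaGroup p lv :=
  Multiplicative.ofAdd (Pi.single i 1)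

lemma diaGen_pow (i : Fin r) : diaGen p lv i ^ p ^ lv i = 1 := by
  apply Multiplicative.toAdd.injective
  rw [toAdd_pow, toAdd_one, diaGen, toAdd_ofAdd]
  funext j
  rcases eq_or_ne j i with rfl | hj
  · simp
  · simp [Pi.single_eq_of_ne hj]

lemma diaLift_gen [∀ i, NeZero (p ^ lv i)] {M : Type*} [CommMonoid M] (g : Fin r → M)
    (hg : ∀ i, g i ^ p ^ lv i = 1) (i : Fin r) : diaLift g hg (diaGen p lv i) = g i := by
  classical
  show ∏ j, g j ^ (Multiplicative.toAdd (diaGen p lv i) j).val = g i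
  rw [Finset.prod_eq_single i]
  · rcases (Nat.one_le_iff_ne_zero.mpr (NeZero.ne (p ^ lv i))).lt_or_eq with h | h
    · have : Fact (1 < p ^ lv i) := ⟨h⟩
      simp [diaGen, ZMod.val_one]
    · have hg1 : g i = 1 := by simpa [← h] using hg i
      simp [hg1]
  · intro j _ hj
    simp [diaGen, Pi.single_eq_of_ne hj]
  · simp

lemma diaHom_ext [∀ i, NeZero (p ^ lv i)] {M : Type*} [Monoid M] {f f' : DiaGroup p lv →* M}
    (h : ∀ i, f (diaGen p lv i) = f' (diaGen p lv i)) : f = f' := by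
  classical
  refine MonoidHom.ext fun e => ?_
  have he : e ∈ Submonoid.closure (Set.range fun i : Fin r => diaGen p lv i) := by
    have : e = ∏ i, diaGen p lv i ^ (Multiplicative.toAdd e i).val := by
      apply Multiplicative.toAdd.injective
      rw [toAdd_prod]
      funext j
      rw [Finset.sum_apply, Finset.sum_eq_single j]
      · simp [diaGen]
      · intro i _ hi
        simp [diaGen, Pi.single_eq_of_ne (Ne.symm hi)]
      · simp
    rw [this]
    exact Submonoid.prod_mem _ fun i _ => Submonoid.pow_mem _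
      (Submonoid.subset_closure (Set.mem_range_self (f := fun i : Fin r => diaGen p lv i) i)) _
  refine MonoidHom.eqOn_closureM ?_ he
  rintro _ ⟨i, rfl⟩
  exact h i

/-- The group ring. -/
abbrev DiaRing (𝒪 : Type) [CommRing 𝒪] (p : ℕ) {r : ℕ} (lv : Fin r → ℕ) : Type :=
    MonoidAlgebra 𝒪 (DiaGroup p lv)

instance diaQuot_nontrivial : Nontrivial (MvPowerSeries (Fin r) 𝒪 ⧸ diamondIdeal (𝒪 := 𝒪) p lv) :=
  Ideal.Quotient.nontrivial_iff.mpr fun h => one_ne_zero (α := 𝒪)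
    (by simpa using diamondIdeal_aug (𝒪 := 𝒪) p lv 1 (h ▸ Submodule.mem_top))

instance diaQuot_isLocalRing :
    IsLocalRing (MvPowerSeries (Fin r) 𝒪 ⧸ diamondIdeal (𝒪 := 𝒪) p lv) :=
  .of_surjective' (Ideal.Quotient.mk _) Ideal.Quotient.mk_surjective

variable [hp : Fact p.Prime]

instance diaGroup_neZero (n : ℕ) : NeZero (p ^ n) := ⟨pow_ne_zero n hp.out.ne_zero⟩

/-- The augmentation. -/
def diaAug : DiaRing 𝒪 p lv →ₐ[𝒪] 𝒪 := MonoidAlgebra.lift 𝒪 𝒪 (DiaGroup p lv) 1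

omit [IsDomain 𝒪] [IsDiscreteValuationRing 𝒪] [IsAdicComplete (maximalIdeal 𝒪) 𝒪]
  [Finite (ResidueField 𝒪)] hp in
lemma diaAug_of (g : DiaGroup p lv) : diaAug (𝒪 := 𝒪) (MonoidAlgebra.of 𝒪 _ g) = 1 := by
  simp [diaAug]

omit [IsAdicComplete (maximalIdeal 𝒪) 𝒪] in
/-- `O[Δ]` is local. -/
theorem isLocalRing_diaRing (hp𝒪 : (p : 𝒪) ∈ maximalIdeal 𝒪) :
    IsLocalRing (DiaRing 𝒪 p lv) := by
  have : Finite (𝒪 ⧸ maximalIdeal 𝒪) := ‹Finite (ResidueField 𝒪)›
  let ev : DiaRing 𝒪 p lv →+* ResidueField 𝒪 := (residue 𝒪).comp diaAug.toRingHom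
  have hsurj : Function.Surjective ev := fun z => by
    obtain ⟨c, rfl⟩ := residue_surjective z
    exact ⟨algebraMap 𝒪 _ c, congrArg (residue 𝒪) (diaAug.commutes c)⟩
  have hmax : (RingHom.ker ev).IsMaximal := RingHom.ker_isMaximal_of_surjective ev hsurj
  refine IsLocalRing.of_unique_max_ideal ⟨RingHom.ker ev, hmax, fun M hM => ?_⟩
  have : Module.Finite 𝒪 (DiaRing 𝒪 p lv) :=
    Module.Finite.equiv (MonoidAlgebra.coeffLinearEquiv 𝒪).symm
  have hle : Ideal.comap (algebraMap 𝒪 (DiaRing 𝒪 p lv)) M = maximalIdeal 𝒪 := by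
    have := hM
    exact IsLocalRing.eq_maximalIdeal
      (Ideal.isMaximal_comap_of_isIntegral_of_isMaximal M)
  refine (hmax.eq_of_le hM.ne_top fun x hx => ?_).symm
  have hpM : (p : DiaRing 𝒪 p lv) ∈ M := by
    have : (p : 𝒪) ∈ Ideal.comap (algebraMap 𝒪 (DiaRing 𝒪 p lv)) M := hle ▸ hp𝒪
    simpa using this
  have hg : ∀ g : DiaGroup p lv, MonoidAlgebra.of 𝒪 _ g - 1 ∈ M := fun g => by
    have hpow : g ^ p ^ Finset.univ.sup lv = 1 := by
      apply Multiplicative.toAdd.injective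
      rw [toAdd_pow, toAdd_one]
      funext j
      obtain ⟨k, hk⟩ := Nat.exists_eq_add_of_le (Finset.le_sup (f := lv) (Finset.mem_univ j))
      rw [hk, Pi.smul_apply, pow_add, mul_comm, mul_smul]
      simp
    have : CharP (DiaRing 𝒪 p lv ⧸ M) p := by
      have := hM
      let := Ideal.Quotient.field M
      refine (CharP.charP_iff_prime_eq_zero hp.out).2 ?_
      rw [← map_natCast (Ideal.Quotient.mk M), Ideal.Quotient.eq_zero_iff_mem]
      exact hpM
    have : IsDomain (DiaRing 𝒪 p lv ⧸ M) := (Ideal.Quotient.isDomain_iff_prime M).mpr hM.isPrime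
    rw [← Ideal.Quotient.eq_zero_iff_mem]
    refine pow_eq_zero_iff (n := p ^ Finset.univ.sup lv) (pow_ne_zero _ hp.out.ne_zero) |>.mp ?_
    rw [map_sub, map_one, sub_pow_char_pow, ← map_pow, ← map_pow, hpow, map_one, map_one,
      one_pow, sub_self]
  have hxs : x - algebraMap 𝒪 _ (diaAug x) ∈ M := by
    clear hx
    induction x using MonoidAlgebra.induction_linear with
    | zero => simp
    | add a b ha hb =>
      rw [map_add, map_add, add_sub_add_comm]
      exact add_mem ha hb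
    | single g c =>
      have e : MonoidAlgebra.single g c = c • MonoidAlgebra.of 𝒪 _ g := by simp
      rw [e, map_smul, diaAug_of, smul_eq_mul, mul_one, Algebra.smul_def,
        show algebraMap 𝒪 (DiaRing 𝒪 p lv) c * MonoidAlgebra.of 𝒪 _ g - algebraMap 𝒪 _ c =
          algebraMap 𝒪 _ c * (MonoidAlgebra.of 𝒪 _ g - 1) by ring]
      exact Ideal.mul_mem_left _ _ (hg g)
  have hc : algebraMap 𝒪 _ (diaAug x) ∈ M := by
    have : diaAug x ∈ maximalIdeal 𝒪 := (residue_eq_zero_iff _).mp hx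
    rw [← hle] at this
    exact this
  simpa using add_mem hxs hc

omit [IsDomain 𝒪] [IsDiscreteValuationRing 𝒪] [IsAdicComplete (maximalIdeal 𝒪) 𝒪]
  [Finite (ResidueField 𝒪)] hp in
lemma one_add_pow_eq_one (i : Fin r) :
    (1 + Ideal.Quotient.mk (diamondIdeal (𝒪 := 𝒪) p lv) (MvPowerSeries.X i)) ^ p ^ lv i = 1 := by
  rw [← sub_eq_zero, ← map_one (Ideal.Quotient.mk _), ← map_add, ← map_pow, ← map_sub,
    Ideal.Quotient.eq_zero_iff_mem]
  exact Ideal.subset_span ⟨i, rfl⟩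

/-- `O[Δ] → O⟦X⟧ / J`. -/
def toDiaQuot : DiaRing 𝒪 p lv →ₐ[𝒪] MvPowerSeries (Fin r) 𝒪 ⧸ diamondIdeal (𝒪 := 𝒪) p lv :=
  MonoidAlgebra.lift 𝒪 _ (DiaGroup p lv)
    (diaLift (fun i => 1 + Ideal.Quotient.mk (diamondIdeal (𝒪 := 𝒪) p lv) (MvPowerSeries.X i))
      one_add_pow_eq_one)

omit [IsDomain 𝒪] [IsDiscreteValuationRing 𝒪] [IsAdicComplete (maximalIdeal 𝒪) 𝒪]
  [Finite (ResidueField 𝒪)] in
lemma toDiaQuot_gen (i : Fin r) :
    toDiaQuot (𝒪 := 𝒪) (MonoidAlgebra.of 𝒪 _ (diaGen p lv i)) =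
      1 + Ideal.Quotient.mk (diamondIdeal (𝒪 := 𝒪) p lv) (MvPowerSeries.X i) := by
  rw [toDiaQuot, MonoidAlgebra.lift_of, diaLift_gen]

/-- **The diamond quotient is the group ring.** -/
theorem exists_diaEquiv (hp𝒪 : (p : 𝒪) ∈ maximalIdeal 𝒪) :
    ∃ E : (MvPowerSeries (Fin r) 𝒪 ⧸ diamondIdeal (𝒪 := 𝒪) p lv) ≃ₐ[𝒪] DiaRing 𝒪 p lv,
      ∀ i, E (Ideal.Quotient.mk _ (MvPowerSeries.X i)) =
        MonoidAlgebra.of 𝒪 _ (diaGen p lv i) - 1 := by
  have := isLocalRing_diaRing (lv := lv) hp𝒪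
  have : Module.Finite 𝒪 (DiaRing 𝒪 p lv) :=
    Module.Finite.equiv (MonoidAlgebra.coeffLinearEquiv 𝒪).symm
  have : IsNoetherianRing (DiaRing 𝒪 p lv) := IsNoetherianRing.of_finite 𝒪 _
  have : IsLocalHom (algebraMap 𝒪 (DiaRing 𝒪 p lv)) :=
    ⟨fun c hc => by
      have := hc.map (diaAug (𝒪 := 𝒪) (p := p) (lv := lv))
      rwa [AlgHom.commutes] at this⟩
  have : IsAdicComplete (maximalIdeal (DiaRing 𝒪 p lv)) (DiaRing 𝒪 p lv) :=
    IsLocalRing.isAdicComplete_of_module_finite (𝒪 := 𝒪)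
  let v : Fin r → DiaRing 𝒪 p lv := fun i => MonoidAlgebra.of 𝒪 _ (diaGen p lv i) - 1
  have hv : ∀ i, v i ∈ maximalIdeal (DiaRing 𝒪 p lv) := fun i => by
    rw [mem_maximalIdeal, mem_nonunits_iff]
    intro hu
    have := hu.map (diaAug (𝒪 := 𝒪) (p := p) (lv := lv))
    rw [map_sub, diaAug_of, map_one, sub_self] at this
    exact not_isUnit_zero this
  let f : MvPowerSeries (Fin r) 𝒪 →ₐ[𝒪] DiaRing 𝒪 p lv := evalSeries v hv
  have hker : ∀ s ∈ diamondIdeal (𝒪 := 𝒪) p lv, f s = 0 := by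
    intro s hs
    have : diamondIdeal (𝒪 := 𝒪) p lv ≤ RingHom.ker f := by
      rw [diamondIdeal, Ideal.span_le]
      rintro _ ⟨i, rfl⟩
      show f _ = 0
      rw [map_sub, map_pow, map_add, map_one, evalSeries_X, add_sub_cancel, ← map_pow,
        diaGen_pow, map_one, sub_self]
    exact this hs
  let F := Ideal.Quotient.liftₐ _ f hker
  have hF : ∀ i, F (Ideal.Quotient.mk _ (MvPowerSeries.X i)) = v i := fun i => evalSeries_X v hv i
  have h1 : ∀ x, toDiaQuot (F x) = x := by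
    intro x
    obtain ⟨s, rfl⟩ := Ideal.Quotient.mk_surjective x
    have hT : ∀ i, ((toDiaQuot (𝒪 := 𝒪)).comp f) (MvPowerSeries.X i) =
        Ideal.Quotient.mkₐ 𝒪 (diamondIdeal (𝒪 := 𝒪) p lv) (MvPowerSeries.X i) := fun i => by
      rw [AlgHom.comp_apply, evalSeries_X, map_sub, toDiaQuot_gen, map_one, add_sub_cancel_left]
      rfl
    have : IsNoetherianRing (MvPowerSeries (Fin r) 𝒪 ⧸ diamondIdeal (𝒪 := 𝒪) p lv) :=
      Ideal.Quotient.isNoetherianRing _
    refine sub_eq_zero.mp ?_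
    rw [← Submodule.mem_bot (MvPowerSeries (Fin r) 𝒪 ⧸ diamondIdeal (𝒪 := 𝒪) p lv),
      ← Ideal.iInf_pow_eq_bot_of_isLocalRing _ (maximalIdeal.isMaximal _).ne_top,
      Submodule.mem_iInf]
    intro k
    have hX : ∀ i, Ideal.Quotient.mkₐ 𝒪 (diamondIdeal (𝒪 := 𝒪) p lv) (MvPowerSeries.X i) ∈
        maximalIdeal _ := fun i => by
      rw [← map_maximalIdeal_of_surjective (Ideal.Quotient.mk _) Ideal.Quotient.mk_surjective]
      exact Ideal.mem_map_of_mem _ (by simp [MvPowerSeries.isUnit_iff_constantCoeff])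
    have a1 := algHom_sub_aeval_mem ((toDiaQuot (𝒪 := 𝒪)).comp f) (fun i => hT i ▸ hX i) s k
    have a2 := algHom_sub_aeval_mem (Ideal.Quotient.mkₐ 𝒪 (diamondIdeal (𝒪 := 𝒪) p lv)) hX s k
    rw [funext hT] at a1
    have a3 := sub_mem a1 a2
    rw [sub_sub_sub_cancel_right] at a3
    exact a3
  have h2 : F.comp toDiaQuot = AlgHom.id 𝒪 _ := by
    refine (MonoidAlgebra.lift 𝒪 _ _).symm.injective (diaHom_ext fun i => ?_)
    show F (toDiaQuot (MonoidAlgebra.of 𝒪 _ (diaGen p lv i))) = _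
    rw [toDiaQuot_gen, map_add, map_one, hF, add_sub_cancel]
    rfl
  exact ⟨AlgEquiv.ofAlgHom F toDiaQuot h2 (AlgHom.ext h1), hF⟩

end Fermat.Agent.LevelLowering

end
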