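import Mathlib.NumberTheory.MulChar.Basic
import Mathlib.RingTheory.IntegralDomain
import Mathlib.RingTheory.ZMod.UnitsCyclic
import Fermat.Agent.LevelLowering.FreeChar
import Fermat.Agent.LevelLowering.FreeGamma
import Fermat.Agent.LevelLowering.GroupRing

/-!
# The character of a Taylor–Wiles level

The product of surjections `(ℤ/q_i)ˣ → ℤ/p^{v_i}` as a character of `(ℤ/N)ˣ` onto the diamond
group, and the square roots of its inverse used to remove the nebentypus.
-/

noncomputable section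

namespace Fermat.Agent.LevelLowering

open scoped MatrixGroups
open CongruenceSubgroup

/-- A cyclic quotient of `(ℤ/q)ˣ` of order `p ^ v ∣ q - 1`. -/
theorem exists_units_surjection {p v q : ℕ} (hq : q.Prime) (hv : p ^ v ∣ q - 1) :
    ∃ π : (ZMod q)ˣ →* Multiplicative (ZMod (p ^ v)), Function.Surjective π := by
  have : Fact q.Prime := ⟨hq⟩
  have : IsCyclic (ZMod q)ˣ := inferInstance
  have hcard : Nat.card (ZMod q)ˣ = q - 1 := by
    rw [Nat.card_eq_fintype_card, ZMod.card_units]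
  let e := (zmodCyclicMulEquiv (inferInstance : IsCyclic (ZMod q)ˣ)).symm
  let f : Multiplicative (ZMod (Nat.card (ZMod q)ˣ)) →* Multiplicative (ZMod (p ^ v)) :=
    AddMonoidHom.toMultiplicative (ZMod.castHom (hcard.symm ▸ hv) (ZMod (p ^ v))).toAddMonoidHom
  refine ⟨f.comp e.toMonoidHom, fun x => ?_⟩
  obtain ⟨y, hy⟩ := ZMod.castHom_surjective (hcard.symm ▸ hv) (Multiplicative.toAdd x)
  exact ⟨e.symm (Multiplicative.ofAdd y), by
    show f (e (e.symm _)) = x
    rw [e.apply_symm_apply]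
    exact congrArg Multiplicative.ofAdd hy⟩

variable {p r : ℕ} [hp : Fact p.Prime] {lv : Fin r → ℕ}

/-- The components of a diamond. -/
def diaProj (i : Fin r) : DiaGroup p lv →* Multiplicative (ZMod (p ^ lv i)) :=
  AddMonoidHom.toMultiplicative (Pi.evalAddMonoidHom _ i)

/-- The diamond with one component. -/
def diaIncl (i : Fin r) : Multiplicative (ZMod (p ^ lv i)) →* DiaGroup p lv :=
  AddMonoidHom.toMultiplicative (AddMonoidHom.single (fun j => ZMod (p ^ lv j)) i)

omit hp in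
lemma prod_diaIncl_proj (g : DiaGroup p lv) : ∏ i, diaIncl i (diaProj i g) = g := by
  apply Multiplicative.toAdd.injective
  rw [toAdd_prod]
  exact Finset.univ_sum_single (M := fun j => ZMod (p ^ lv j)) (Multiplicative.toAdd g)

omit hp in
lemma isPGroup_diaGroup : IsPGroup p (DiaGroup p lv) := fun g => by
  refine ⟨Finset.univ.sup lv, ?_⟩
  apply Multiplicative.toAdd.injective
  rw [toAdd_pow, toAdd_one]
  funext j
  obtain ⟨k, hk⟩ := Nat.exists_eq_add_of_le (Finset.le_sup (f := lv) (Finset.mem_univ j))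
  rw [hk, Pi.smul_apply, pow_add, mul_comm, mul_smul]
  simp

omit hp in
/-- **The character of a Taylor–Wiles level.** -/
theorem exists_twPsi (q : Fin r → ℕ) (hq : ∀ i, (q i).Prime) (hinj : Function.Injective q)
    (hv : ∀ i, p ^ lv i ∣ q i - 1) {N : ℕ} [NeZero N] (hN : ∀ i, q i ∣ N) :
    ∃ (π : ∀ i, (ZMod (q i))ˣ →* Multiplicative (ZMod (p ^ lv i)))
      (Ψ : (ZMod N)ˣ →* DiaGroup p lv), Function.Surjective Ψ ∧ (∀ i, Function.Surjective (π i)) ∧
      ∀ i u, diaProj i (Ψ u) = π i (ZMod.unitsMap (hN i) u) := by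
  classical
  choose π hπ using fun i => exists_units_surjection (hq i) (hv i)
  let f : Fin r → Nat.Primes := fun i => ⟨q i, hq i⟩
  have hf : Function.Injective f := fun a b h => hinj (congrArg Subtype.val h)
  let Q : Finset Nat.Primes := Finset.univ.image f
  have hmem : ∀ x : Q, ∃ i, f i = x.1 := fun x => by
    obtain ⟨i, -, hi⟩ := Finset.mem_image.mp x.2
    exact ⟨i, hi⟩
  choose idx hidx using hmem
  have hQN : ∀ x ∈ Q, (x : ℕ) ∣ N := fun x hx => by
    obtain ⟨i, -, rfl⟩ := Finset.mem_image.mp hx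
    exact hN i
  have hcast : ∀ x : Q, ((x.1 : Nat.Primes) : ℕ) = q (idx x) := fun x =>
    (congrArg Subtype.val (hidx x)).symm
  let π' : ∀ x : Q, (ZMod ((x.1 : Nat.Primes) : ℕ))ˣ →* Multiplicative (ZMod (p ^ lv (idx x))) :=
    fun x => (π (idx x)).comp (ZMod.unitsMap ((hcast x).symm.dvd))
  have hπ' : ∀ x, Function.Surjective (π' x) := fun x => by
    have : NeZero ((x.1 : Nat.Primes) : ℕ) := ⟨x.1.2.ne_zero⟩
    exact (hπ (idx x)).comp (ZMod.unitsMap_surjective _)
  let back : (∀ x : Q, Multiplicative (ZMod (p ^ lv (idx x)))) → DiaGroup p lv := fun g =>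
    Multiplicative.ofAdd fun i => (congrArg (fun j => ZMod (p ^ lv j))
      (hf (hidx ⟨f i, Finset.mem_image_of_mem f (Finset.mem_univ i)⟩))).mp
        (Multiplicative.toAdd (g ⟨f i, Finset.mem_image_of_mem f (Finset.mem_univ i)⟩))
  let Ψ : (ZMod N)ˣ →* DiaGroup p lv :=
    { toFun := fun u => Multiplicative.ofAdd fun i =>
        Multiplicative.toAdd (π i (ZMod.unitsMap (hN i) u))
      map_one' := Multiplicative.toAdd.injective (funext fun i => by simp)
      map_mul' := fun a b => Multiplicative.toAdd.injective (funext fun i => by simp) }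
  refine ⟨π, Ψ, fun g => ?_, hπ, fun i u => rfl⟩
  obtain ⟨u, hu⟩ := piPsi_surjective hQN π' hπ' fun x => diaProj (idx x) g
  refine ⟨u, Multiplicative.toAdd.injective (funext fun i => ?_)⟩
  set x : Q := ⟨f i, Finset.mem_image_of_mem f (Finset.mem_univ i)⟩
  have h := congrFun hu x
  rw [piPsi_apply] at h
  have key : ∀ (j : Fin r) (d : q j ∣ ((x.1 : Nat.Primes) : ℕ)), j = i →
      (π j) (ZMod.unitsMap d (ZMod.unitsMap (hQN x.1 x.2) u)) = diaProj j g →
      π i (ZMod.unitsMap (hN i) u) = diaProj i g := by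
    rintro j d rfl hj
    rw [← hj, ← MonoidHom.comp_apply (ZMod.unitsMap d), ZMod.unitsMap_comp]
  exact congrArg Multiplicative.toAdd (key _ _ (hf (hidx x)) h)

variable {q : Fin r → ℕ} {N : ℕ} [NeZero N] (hN : ∀ i, q i ∣ N)
  (π : ∀ i, (ZMod (q i))ˣ →* Multiplicative (ZMod (p ^ lv i)))
  (Ψ : (ZMod N)ˣ →* DiaGroup p lv) (hΨπ : ∀ i u, diaProj i (Ψ u) = π i (ZMod.unitsMap (hN i) u))
  {K : Type*} [Field K]

/-- The square root used to remove the nebentypus. -/
def diaHalf : DiaGroup p lv →* DiaGroup p lv :=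
  powMonoidHom ((p ^ (Finset.univ.sup lv) + 1) / 2)

lemma diaHalf_sq (hp2 : p ≠ 2) (g : DiaGroup p lv) : diaHalf g ^ 2 = g := by
  have hodd : Odd (p ^ Finset.univ.sup lv) := (hp.out.odd_of_ne_two hp2).pow
  have h2 : (p ^ Finset.univ.sup lv + 1) / 2 * 2 = p ^ Finset.univ.sup lv + 1 :=
    Nat.div_mul_cancel (by obtain ⟨k, hk⟩ := hodd; exact ⟨k + 1, by omega⟩)
  rw [diaHalf, powMonoidHom_apply, ← pow_mul, h2, pow_succ]
  obtain ⟨k, hk⟩ : ∃ k, g ^ p ^ k = 1 := isPGroup_diaGroup g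
  have : g ^ p ^ Finset.univ.sup lv = 1 := by
    apply Multiplicative.toAdd.injective
    rw [toAdd_pow, toAdd_one]
    funext j
    obtain ⟨k, hk⟩ := Nat.exists_eq_add_of_le (Finset.le_sup (f := lv) (Finset.mem_univ j))
    rw [hk, Pi.smul_apply, pow_add, mul_comm, mul_smul]
    simp
  rw [this, one_mul]

omit [NeZero N] in
include hN hΨπ in
/-- The square roots of the inverse of the nebentypus at each prime. -/
theorem exists_sqrtChars (hinj : Function.Injective q) (hp2 : p ≠ 2)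
    (hπ : ∀ i, Function.Surjective (π i)) (χ : DiaGroup p lv →* K) :
    ∃ (ψ : ∀ l : ℕ, MulChar (ZMod l) K) (s : Finset ℕ),
      (∀ l ∈ s, ∃ i, q i = l) ∧ (∀ l ∈ s, ψ l ^ 2 ≠ 1) ∧ (∀ l ∈ s, ψ l (-1) = 1) ∧
      (∀ i, q i ∉ s → ∀ x, χ (diaIncl i x) = 1) ∧
      (∀ i, ∀ u : (ZMod (q i))ˣ, ψ (q i) u = (χ (diaHalf (diaIncl i (π i u))))⁻¹) ∧
      ∀ u : (ZMod N)ˣ, ∀ d : ℤ, (d : ZMod N) = u →
        ∏ l ∈ s, ψ l (d : ZMod l) ^ 2 = (χ (Ψ u))⁻¹ ∧
        ∏ l ∈ s, ψ l (d : ZMod l) = (χ (diaHalf (Ψ u)))⁻¹ := by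
  classical
  let hom : ∀ i, (ZMod (q i))ˣ →* Kˣ := fun i =>
    (χ.toHomUnits.comp ((diaHalf.comp (diaIncl i)).comp (π i)))⁻¹
  let ψ : ∀ l : ℕ, MulChar (ZMod l) K := fun l => MulChar.ofUnitHom
    (∏ i, if h : q i = l then (hom i).comp (ZMod.unitsMap h.dvd) else 1)
  have hψ : ∀ i (u : (ZMod (q i))ˣ), ψ (q i) u = (χ (diaHalf (diaIncl i (π i u))))⁻¹ := by
    intro i u
    show MulChar.ofUnitHom _ (u : ZMod (q i)) = _
    rw [MulChar.ofUnitHom_coe, MonoidHom.finsetProd_apply,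
      Finset.prod_eq_single i (fun j _ hj => by rw [dif_neg (hinj.ne hj)]; rfl) (by simp),
      dif_pos rfl]
    have e : ZMod.unitsMap (dvd_refl (q i)) u = u := by rw [ZMod.unitsMap_self, MonoidHom.id_apply]
    show ((hom i (ZMod.unitsMap _ u) : Kˣ) : K) = _
    rw [show (ZMod.unitsMap _ u : (ZMod (q i))ˣ) = u from e]
    simp [hom]
  have hpk : ∀ i (u : (ZMod (q i))ˣ), ψ (q i) u ^ 2 = 1 → ψ (q i) u = 1 := by
    intro i u h
    have h1 : ψ (q i) u ^ p ^ Finset.univ.sup lv = 1 := by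
      rw [hψ, inv_pow, ← map_pow, ← map_pow, ← map_pow, ← map_pow]
      have : π i u ^ p ^ Finset.univ.sup lv = 1 := by
        obtain ⟨k, hk⟩ := Nat.exists_eq_add_of_le (Finset.le_sup (f := lv) (Finset.mem_univ i))
        apply Multiplicative.toAdd.injective
        rw [hk, toAdd_pow, toAdd_one, pow_add, mul_comm, mul_smul]
        simp
      rw [map_pow (π i), this, map_one, map_one, map_one, inv_one]
    obtain ⟨k, hk⟩ := (hp.out.odd_of_ne_two hp2).pow (n := Finset.univ.sup lv)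
    rwa [hk, pow_add, pow_mul, h, one_pow, one_mul, pow_one] at h1
  refine ⟨ψ, (Finset.univ.image q).filter fun l => ψ l ≠ 1, fun l hl => ?_, fun l hl h2 => ?_,
    fun l hl => ?_, fun i hi x => ?_, hψ, fun u d hd => ?_⟩
  · obtain ⟨i, -, hi⟩ := Finset.mem_image.mp (Finset.mem_filter.mp hl).1
    exact ⟨i, hi⟩
  · obtain ⟨i, -, rfl⟩ := Finset.mem_image.mp (Finset.mem_filter.mp hl).1
    refine (Finset.mem_filter.mp hl).2 (MulChar.ext fun u => ?_)
    rw [MulChar.one_apply_coe]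
    refine hpk i u ?_
    rw [← MulChar.pow_apply_coe, h2, MulChar.one_apply_coe]
  · obtain ⟨i, -, rfl⟩ := Finset.mem_image.mp (Finset.mem_filter.mp hl).1
    have := hpk i (-1) (by rw [← map_pow, ← Units.val_pow_eq_pow_val, neg_one_sq, Units.val_one,
        map_one])
    simpa using this
  · obtain ⟨u, rfl⟩ := hπ i x
    have h1 : ψ (q i) = 1 := by
      by_contra h
      exact hi (Finset.mem_filter.mpr ⟨Finset.mem_image_of_mem q (Finset.mem_univ i), h⟩)
    have h2 := hψ i u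
    rw [h1, MulChar.one_apply_coe, eq_comm, inv_eq_one] at h2
    rw [← diaHalf_sq hp2 (diaIncl i (π i u)), map_pow, h2, one_pow]
  · have hall : ∀ e : ℕ, ∏ l ∈ (Finset.univ.image q).filter (fun l => ψ l ≠ 1),
        ψ l (d : ZMod l) ^ e = ((χ (diaHalf (Ψ u)))⁻¹) ^ e := by
      intro e
      have hu : ∀ i, (d : ZMod (q i)) =
          ((ZMod.unitsMap (hN i) u : (ZMod (q i))ˣ) : ZMod (q i)) := by
        intro i
        rw [ZMod.unitsMap_val, ← hd]
        exact (map_intCast (ZMod.castHom (hN i) (ZMod (q i))) d).symm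
      have h1 : ∀ i, ψ (q i) (d : ZMod (q i)) =
          (χ (diaHalf (diaIncl i (diaProj i (Ψ u)))))⁻¹ := fun i => by rw [hu, hψ, hΨπ]
      rw [Finset.prod_filter_of_ne, Finset.prod_image fun a _ b _ h => hinj h]
      · simp only [h1, Finset.prod_pow]
        congr 1
        rw [Finset.prod_inv_distrib, ← map_prod χ, ← map_prod diaHalf, prod_diaIncl_proj]
      · intro l hl hne h1'
        obtain ⟨i, -, rfl⟩ := Finset.mem_image.mp hl
        rw [h1', hu, MulChar.one_apply_coe, one_pow] at hne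
        exact hne rfl
    refine ⟨?_, by simpa using hall 1⟩
    rw [hall 2, inv_pow, ← map_pow, ← map_pow, map_pow diaHalf, diaHalf_sq hp2]

end Fermat.Agent.LevelLowering

end
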