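import Mathlib.LinearAlgebra.Eigenspace.Semisimple
import Mathlib.LinearAlgebra.Eigenspace.Triangularizable
import Fermat.Agent.LevelLowering.SemisimplePsi
import Fermat.Agent.LevelLowering.TWCharacter

/-!
# Eigenvectors at a Taylor–Wiles level

Commuting operators without Jordan blocks have a spanning family of common eigenvectors.  Applied
to the operators at good primes and the diamonds on `Hom_cl(Γ_Ψ, K)`.
-/

noncomputable section

namespace Fermat.Agent.LevelLowering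

open scoped MatrixGroups
open CongruenceSubgroup Fermat.Agent.Grp Fermat.Agent.Ihara Fermat.Agent.EigenTwist

section Jordan

variable {K V : Type*} [Field K] [AddCommGroup V] [Module K V]

/-- Without Jordan blocks generalised eigenvectors are eigenvectors. -/
lemma eq_smul_of_pow_apply_eq_zero {f : Module.End K V}
    (h : ∀ (α : K) (y w : V), f y = α • y + w → f w = α • w → w = 0) {α : K} :
    ∀ (k : ℕ) (x : V), ((f - α • 1) ^ k) x = 0 → f x = α • x := by
  intro k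
  induction k with
  | zero =>
    intro x hx
    rw [pow_zero, Module.End.one_apply] at hx
    simp [hx]
  | succ k ih =>
    intro x hx
    have h1 := ih ((f - α • 1) x) (by rwa [← Module.End.mul_apply, ← pow_succ])
    refine sub_eq_zero.mp (h α x (f x - α • x) (by abel) ?_)
    simpa using h1

/-- Commuting operators without Jordan blocks have spanning common eigenvectors. -/
theorem span_common_eigen_eq_top [IsAlgClosed K] [FiniteDimensional K V] {ι : Type*}
    (f : ι → Module.End K V) (hc : ∀ i j, Commute (f i) (f j))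
    (h : ∀ i (α : K) (y w : V), f i y = α • y + w → f i w = α • w → w = 0) :
    Submodule.span K {v | ∀ i, ∃ c : K, f i v = c • v} = ⊤ := by
  refine eq_top_iff.mpr ?_
  rw [← Module.End.iSup_iInf_maxGenEigenspace_eq_top_of_iSup_maxGenEigenspace_eq_top_of_commute f
    (fun i j _ => hc i j) fun i => Module.End.iSup_maxGenEigenspace_eq_top (f i)]
  refine iSup_le fun χ v hv => Submodule.subset_span fun i => ⟨χ i, ?_⟩
  obtain ⟨k, hk⟩ := (Module.End.mem_maxGenEigenspace (f i) (χ i) v).mp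
    ((Submodule.mem_iInf _).mp hv i)
  exact eq_smul_of_pow_apply_eq_zero (h i) k v hk

end Jordan

section Coeff

variable {N : ℕ} [NeZero N] {Δ : Type} [CommGroup Δ] [Fintype Δ] (Ψ : (ZMod N)ˣ →* Δ)
  (hΨ : Function.Surjective Ψ) (hneg : (-1 : SL(2, ℤ)) ∈ GammaPsi Ψ)
  (O K : Type) [CommRing O] [CommRing K] [Algebra O K]

/-- Change of coefficients. -/
def psiCast : clHoms O (GammaPsi Ψ) O →ₗ[O] clHoms K (GammaPsi Ψ) K where
  toFun v := ⟨(algebraMap O K).toAddMonoidHom.comp v.1, v.2.comp _⟩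
  map_add' _ _ := Subtype.ext (AddMonoidHom.comp_add _ _ _)
  map_smul' c v := Subtype.ext (AddMonoidHom.ext fun x => by
    show algebraMap O K (c * v.1 x) = c • algebraMap O K (v.1 x)
    rw [map_mul, Algebra.smul_def])

omit [NeZero N] [Fintype Δ] in
theorem psiCast_injective (h : Function.Injective (algebraMap O K)) :
    Function.Injective (psiCast Ψ O K) := fun _ _ e =>
  Subtype.ext (AddMonoidHom.ext fun x => h (DFunLike.congr_fun (congrArg Subtype.val e) x))

theorem psiCast_kerOp (ℓ : ℕ) [NeZero ℓ] (v : clHoms O (GammaPsi Ψ) O) :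
    psiCast Ψ O K (kerOp O Ψ hΨ hneg ℓ v) = kerOp K Ψ hΨ hneg ℓ (psiCast Ψ O K v) :=
  Subtype.ext (Corr.op_comp _ (algebraMap O K).toAddMonoidHom v.1).symm

omit [Fintype Δ] in
theorem psiCast_diaOp (δ : Δ) (v : clHoms O (GammaPsi Ψ) O) :
    psiCast Ψ O K (diaOp O Ψ hΨ δ v) = diaOp K Ψ hΨ δ (psiCast Ψ O K v) := rfl

end Coeff

section Level

variable {p r : ℕ} [Fact p.Prime] {lv : Fin r → ℕ} {q : Fin r → ℕ} {N : ℕ} [NeZero N]
  (hN : ∀ i, q i ∣ N) (π : ∀ i, (ZMod (q i))ˣ →* Multiplicative (ZMod (p ^ lv i)))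
  (Ψ : (ZMod N)ˣ →* DiaGroup p lv) (hΨ : Function.Surjective Ψ)
  (hneg : (-1 : SL(2, ℤ)) ∈ GammaPsi Ψ)

/-- The data of a Taylor–Wiles level. -/
structure IsTWLevel : Prop where
  two : p ≠ 2
  prime : ∀ i, (q i).Prime
  inj : Function.Injective q
  surj : ∀ i, Function.Surjective (π i)
  comp : ∀ i u, diaProj i (Ψ u) = π i (ZMod.unitsMap (hN i) u)
  once : ∀ i, ¬ q i * q i ∣ N

variable {hN π Ψ}

omit [Fact (Nat.Prime p)] [NeZero N] in
/-- The product of some of the primes divides the level, with a cofactor prime to them. -/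
theorem IsTWLevel.exists_split (h : IsTWLevel hN π Ψ) {s : Finset ℕ}
    (hs : ∀ l ∈ s, ∃ i, q i = l) :
    ∃ L0, L0 * ∏ l ∈ s, l = N ∧ (∀ l ∈ s, l.Prime) ∧ ∀ l ∈ s, ¬ l ∣ L0 := by
  have hp : ∀ l ∈ s, l.Prime := fun l hl => by obtain ⟨i, rfl⟩ := hs l hl; exact h.prime i
  obtain ⟨L0, hL0⟩ : ∏ l ∈ s, l ∣ N :=
    Finset.prod_primes_dvd N (fun l hl => (hp l hl).prime) fun l hl => by
      obtain ⟨i, rfl⟩ := hs l hl; exact hN i
  refine ⟨L0, by rw [mul_comm, ← hL0], hp, fun l hl hd => ?_⟩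
  obtain ⟨i, rfl⟩ := hs l hl
  refine h.once i ?_
  rw [hL0]
  exact Nat.mul_dvd_mul (Finset.dvd_prod_of_mem (fun l : ℕ => l) hl) hd

variable {K : Type} [Field K] [CharZero K]

/-- **No Jordan block at a Taylor–Wiles level.** -/
theorem IsTWLevel.kerOp_semisimple [IsAlgClosed K] (h : IsTWLevel hN π Ψ) {ℓ : ℕ} [NeZero ℓ]
    (hℓ : ℓ.Prime) (hℓN : ¬ ℓ ∣ N) {α : K} {φ z : clHoms K (GammaPsi Ψ) K}
    (h1 : kerOp K Ψ hΨ hneg ℓ φ = α • φ + z) (h2 : kerOp K Ψ hΨ hneg ℓ z = α • z) : z = 0 := by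
  refine kerOp_jordan_zero Ψ hΨ hneg (fun χ φ z α hφ hz e1 e2 => ?_) h1 h2
  obtain ⟨ψ, s, hs, hψ2, heven, -, -, hprod⟩ :=
    exists_sqrtChars hN π Ψ h.comp h.inj h.two h.surj χ
  obtain ⟨L0, hL0, hsp, hsn⟩ := h.exists_split hs
  refine kerOp_jordan_zero_eigen ψ hℓ Ψ hΨ hneg hℓN χ s L0 hsp hsn hL0 hψ2 heven (fun g => ?_)
    hφ hz e1 e2
  exact (hprod ((Gamma0Map N).toHomUnits g) (g.1.1 1 1) rfl).1

/-- The operators at good primes and the diamonds. -/
def goodOps : {ℓ : Nat.Primes // ¬ (ℓ : ℕ) ∣ N} ⊕ DiaGroup p lv →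
    Module.End K (clHoms K (GammaPsi Ψ) K)
  | .inl ℓ => haveI : NeZero (ℓ.1 : ℕ) := ⟨ℓ.1.2.ne_zero⟩
      kerOp K Ψ hΨ hneg ℓ.1
  | .inr δ => diaOp K Ψ hΨ δ

omit [CharZero K] in
theorem goodOps_comm (i j) : Commute (goodOps (K := K) hΨ hneg i) (goodOps hΨ hneg j) := by
  rcases i with ℓ | δ <;> rcases j with m | ε <;> show _ * _ = _ * _
  · exact kerOp_comm K Ψ hΨ hneg ℓ.1 m.1
  · exact (@diaOp_kerOp K _ N _ _ _ _ Ψ hΨ hneg ε _ ⟨ℓ.1.2.ne_zero⟩).symm
  · exact @diaOp_kerOp K _ N _ _ _ _ Ψ hΨ hneg δ _ ⟨m.1.2.ne_zero⟩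
  · simp only [goodOps, ← map_mul, mul_comm]

/-- **Common eigenvectors span a stable subspace.** -/
theorem IsTWLevel.le_span_eigen [IsAlgClosed K] (h : IsTWLevel hN π Ψ)
    (W : Submodule K (clHoms K (GammaPsi Ψ) K))
    (hW : ∀ i, ∀ w ∈ W, goodOps hΨ hneg i w ∈ W) :
    W ≤ Submodule.span K {v | v ∈ W ∧ ∀ i, ∃ c : K, goodOps hΨ hneg i v = c • v} := by
  obtain ⟨hfree, hfin⟩ := free_clHoms (K := GammaPsi Ψ) hneg K
  have := hfree
  have := hfin
  have hdia : ∀ δ : DiaGroup p lv, ∀ (α : K) (y w : clHoms K (GammaPsi Ψ) K),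
      diaOp K Ψ hΨ δ y = α • y + w → diaOp K Ψ hΨ δ w = α • w → w = 0 := fun δ α y w h1 h2 => by
    have hn : (Nat.card (DiaGroup p lv) : K) ≠ 0 := Nat.cast_ne_zero.mpr Nat.card_pos.ne'
    refine jordan_zero (diaOp K Ψ hΨ δ)
      (Polynomial.separable_X_pow_sub_C (n := Nat.card (DiaGroup p lv)) 1 hn one_ne_zero) ?_ h1 h2
    simp only [map_sub, map_pow, Polynomial.aeval_X, map_one]
    rw [← map_pow, pow_card_eq_one', map_one, sub_self]
  intro w hw
  let F : {ℓ : Nat.Primes // ¬ (ℓ : ℕ) ∣ N} ⊕ DiaGroup p lv → Module.End K W :=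
    fun i => (goodOps hΨ hneg i).restrict (hW i)
  have hcomm : ∀ i j, Commute (F i) (F j) := fun i j =>
    LinearMap.ext fun x => Subtype.ext
      (LinearMap.congr_fun (goodOps_comm hΨ hneg i j).eq x.1 :
        goodOps hΨ hneg i (goodOps hΨ hneg j x.1) = goodOps hΨ hneg j (goodOps hΨ hneg i x.1))
  have hWfin : FiniteDimensional K W := inferInstance
  have key := span_common_eigen_eq_top (K := K) (V := W) F hcomm
    (fun i α y z h1 h2 => ?_)
  · have hmem : (⟨w, hw⟩ : W) ∈ Submodule.span K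
        {v : W | ∀ i, ∃ c : K, (goodOps hΨ hneg i).restrict (hW i) v = c • v} := by
      rw [key]; exact Submodule.mem_top
    have := Submodule.mem_map_of_mem (f := W.subtype) hmem
    rw [Submodule.map_span] at this
    refine Submodule.span_mono ?_ this
    rintro _ ⟨v, hv, rfl⟩
    exact ⟨v.2, fun i => (hv i).imp fun c hc => congrArg Subtype.val hc⟩
  · refine Subtype.ext ?_
    have e1 := congrArg Subtype.val h1
    have e2 := congrArg Subtype.val h2
    rcases i with ℓ | δ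
    · have : NeZero (ℓ.1 : ℕ) := ⟨ℓ.1.2.ne_zero⟩
      exact h.kerOp_semisimple hΨ hneg ℓ.1.2 ℓ.2 (φ := y.1) (z := z.1) e1 e2
    · exact hdia δ α y.1 z.1 e1 e2

end Level

end Fermat.Agent.LevelLowering

end
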