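import Mathlib.Algebra.MonoidAlgebra.Basic
import Mathlib.Algebra.MonoidAlgebra.Lift
import Mathlib.Data.Matrix.Basic
import Mathlib.LinearAlgebra.Finsupp.LinearCombination

/-!
# Matrices over the group algebra

An algebra acting on a module, commuting with `Δ`, whose idempotent part is free over `O[Δ]`,
has a matrix representation over `O[Δ]`.
-/

noncomputable section

namespace Fermat.Agent.LevelLowering

variable {O : Type*} [CommRing O] {Δ : Type*} [CommGroup Δ] [Fintype Δ] {V : Type*}
  [AddCommGroup V] [Module O V] (ρ : Δ →* Module.End O V)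

/-- The action of the group algebra. -/
def algAct : MonoidAlgebra O Δ →ₐ[O] Module.End O V := MonoidAlgebra.lift O (Module.End O V) Δ ρ

omit [Fintype Δ] in
theorem algAct_single (g : Δ) (r : O) : algAct ρ (MonoidAlgebra.single g r) = r • ρ g :=
  MonoidAlgebra.lift_single ..

theorem algAct_apply (x : MonoidAlgebra O Δ) (w : V) :
    algAct ρ x w = ∑ g, x.coeff g • ρ g w := by
  rw [algAct, MonoidAlgebra.lift_apply, Finsupp.sum_fintype _ _ (by simp), LinearMap.sum_apply]
  rfl

/-- **Matrix representation over `O[Δ]`.**  An algebra acting on a module commuting with `Δ` and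
with an idempotent `e` whose part is free over `O[Δ]` on `v` maps to matrices over `O[Δ]`. -/
theorem exists_matrixRep {d : ℕ} (e : Module.End O V) (v : Fin d → V) (hv : ∀ i, e (v i) = v i)
    (heρ : ∀ g w, e (ρ g w) = ρ g (e w))
    (hfree : ∀ w, e w = w → ∃! c : Fin d → Δ → O, ∑ i, ∑ g, c i g • ρ g (v i) = w)
    {A : Type*} [Semiring A] [Algebra O A] (φ : A →ₐ[O] Module.End O V)
    (hφe : ∀ a w, e (φ a w) = φ a (e w)) (hφρ : ∀ a g w, φ a (ρ g w) = ρ g (φ a w)) :
    ∃ Φ : A →ₐ[O] Matrix (Fin d) (Fin d) (MonoidAlgebra O Δ),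
      (∀ a j, φ a (v j) = ∑ i, algAct ρ (Φ a i j) (v i)) ∧
      (∀ a b, (∀ j, φ a (v j) = φ b (v j)) → Φ a = Φ b) ∧
      ∀ a (x : MonoidAlgebra O Δ), (∀ j, φ a (v j) = algAct ρ x (v j)) →
        Φ a = Matrix.scalar (Fin d) x := by
  classical
  have hcomm : ∀ a (x : MonoidAlgebra O Δ) w, φ a (algAct ρ x w) = algAct ρ x (φ a w) := by
    intro a x w
    simp only [algAct_apply, map_sum, map_smul, hφρ]
  -- coordinates
  have hex : ∀ a j, ∃ c : Fin d → MonoidAlgebra O Δ, φ a (v j) = ∑ i, algAct ρ (c i) (v i) := by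
    intro a j
    obtain ⟨c, hc, -⟩ := hfree (φ a (v j)) (by rw [hφe, hv])
    refine ⟨fun i => .ofCoeff (Finsupp.equivFunOnFinite.symm (c i)), ?_⟩
    rw [← hc]
    simp [algAct_apply]
  have huniq : ∀ {x y : Fin d → MonoidAlgebra O Δ},
      ∑ i, algAct ρ (x i) (v i) = ∑ i, algAct ρ (y i) (v i) → x = y := by
    intro x y h
    have hfix : e (∑ i, algAct ρ (x i) (v i)) = ∑ i, algAct ρ (x i) (v i) := by
      simp only [algAct_apply, map_sum, map_smul, heρ, hv]
    obtain ⟨c, -, hc⟩ := hfree _ hfix
    have h1 := hc (fun i g => (x i).coeff g) (by simp [algAct_apply])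
    have h2 := hc (fun i g => (y i).coeff g) (by simp only [← algAct_apply]; exact h.symm)
    funext i
    exact MonoidAlgebra.coeff_injective (Finsupp.ext fun g =>
      congrFun (congrFun (h1.trans h2.symm) i) g)
  choose c hc using hex
  let M : A → Matrix (Fin d) (Fin d) (MonoidAlgebra O Δ) := fun a i j => c a j i
  have hM : ∀ a j, φ a (v j) = ∑ i, algAct ρ (M a i j) (v i) := hc
  have hext : ∀ a (X : Matrix (Fin d) (Fin d) (MonoidAlgebra O Δ)),
      (∀ j, φ a (v j) = ∑ i, algAct ρ (X i j) (v i)) → M a = X := fun a X h =>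
    Matrix.ext fun i j => congrFun (huniq (x := fun i => M a i j) (y := fun i => X i j)
      ((hM a j).symm.trans (h j))) i
  have hscalar : ∀ a (x : MonoidAlgebra O Δ), (∀ j, φ a (v j) = algAct ρ x (v j)) →
      M a = Matrix.scalar (Fin d) x := fun a x h => hext a _ fun j => by
    rw [h j, Finset.sum_eq_single j (fun i _ hij => by simp [hij]) (by simp)]
    simp
  refine ⟨
    { toFun := M
      map_one' := (hscalar 1 1 fun j => by simp).trans (map_one _)
      map_zero' := (hscalar 0 0 fun j => by simp).trans (map_zero _)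
      map_add' := fun a b => hext _ _ fun j => by
        simp only [map_add, LinearMap.add_apply, hM, Matrix.add_apply, Finset.sum_add_distrib]
      map_mul' := fun a b => hext _ _ fun j => by
        rw [map_mul, Module.End.mul_apply, hM b j, map_sum]
        simp only [hcomm, hM a, map_sum, Matrix.mul_apply, LinearMap.sum_apply]
        rw [Finset.sum_comm]
        refine Finset.sum_congr rfl fun i _ => Finset.sum_congr rfl fun k _ => ?_
        rw [← Module.End.mul_apply, ← map_mul, mul_comm]
      commutes' := fun r => (hscalar _ (algebraMap O _ r) fun j =>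
        by simp [algAct_single]).trans rfl },
    hM, fun a b h => hext a _ fun j => (h j).trans (hM b j), hscalar⟩

end Fermat.Agent.LevelLowering
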