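import Mathlib.LinearAlgebra.Matrix.ToLinearEquiv
import Mathlib.RingTheory.OrzechProperty
import Fermat.Agent.LevelLowering.FreeBase
import Fermat.Agent.LevelLowering.FreeMatrix
import Fermat.Agent.LevelLowering.TWCharacter

/-!
# The Hecke algebra of a Taylor–Wiles level in coordinates

The part at the residual system is free over `O[Δ] ≅ O⟦X⟧ / J` on a family lifting a prescribed
basis at level `M`; this gives a representation by matrices over `O⟦X⟧ / J` whose augmentation is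
the prescribed one at level `M`.
-/

noncomputable section

namespace Fermat.Agent.LevelLowering

open scoped MatrixGroups
open CongruenceSubgroup IsLocalRing Fermat.Agent.Grp Fermat.Agent.Ihara

section Rebase

/-- Free families over `O[Δ]` can be moved over a given basis of the quotient. -/
theorem exists_rebase {O V V₀ Δ : Type*} [CommRing O] [CommGroup Δ] [Fintype Δ]
    [AddCommGroup V] [Module O V] [AddCommGroup V₀] [Module O V₀] (ρ : Δ →* Module.End O V)
    (e : Module.End O V) (e₀ : Module.End O V₀) (π : V →ₗ[O] V₀) {d d₀ : ℕ} (v : Fin d → V)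
    (hv : ∀ i, e (v i) = v i) (hve₀ : ∀ i, e₀ (π (v i)) = π (v i))
    (hfree : ∀ w, e w = w → ∃! c : Fin d → Δ → O, ∑ i, ∑ g, c i g • ρ g (v i) = w)
    (hbase : ∀ x, e₀ x = x → ∃! b : Fin d → O, ∑ i, b i • π (v i) = x)
    (b₀ : Fin d₀ → V₀) (hb₀ : ∀ i, e₀ (b₀ i) = b₀ i)
    (hb₀free : ∀ x, e₀ x = x → ∃! b : Fin d₀ → O, ∑ i, b i • b₀ i = x) :
    ∃ v' : Fin d₀ → V, (∀ i, e (v' i) = v' i) ∧ (∀ i, π (v' i) = b₀ i) ∧
      ∀ w, e w = w → ∃! c : Fin d₀ → Δ → O, ∑ i, ∑ g, c i g • ρ g (v' i) = w := by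
  classical
  choose P hP hPu using fun j => hbase (b₀ j) (hb₀ j)
  choose R hR hRu using fun i => hb₀free (π (v i)) (hve₀ i)
  let P' : Matrix (Fin d) (Fin d₀) O := fun i j => P j i
  let R' : Matrix (Fin d₀) (Fin d) O := fun j i => R i j
  have hPR : P' * R' = 1 := by
    ext i k
    have h1 : ∑ i', (∑ j, R k j * P j i') • π (v i') = π (v k) := by
      simp only [Finset.sum_smul, mul_smul]
      rw [Finset.sum_comm]
      simp only [← Finset.smul_sum, hP, hR]
    obtain ⟨b, -, hbu⟩ := hbase (π (v k)) (hve₀ k)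
    have h2 := congrFun ((hbu _ h1).trans (hbu (Pi.single k 1) (by simp [Pi.single_apply])).symm) i
    rw [Matrix.mul_apply, Matrix.one_apply]
    refine (Finset.sum_congr rfl fun j _ => mul_comm _ _).trans (h2.trans ?_)
    simp [Pi.single_apply]
  have hRP : R' * P' = 1 := by
    ext j k
    have h1 : ∑ j', (∑ i, P k i * R i j') • b₀ j' = b₀ k := by
      simp only [Finset.sum_smul, mul_smul]
      rw [Finset.sum_comm]
      simp only [← Finset.smul_sum, hP, hR]
    obtain ⟨b, -, hbu⟩ := hb₀free (b₀ k) (hb₀ k)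
    have h2 := congrFun ((hbu _ h1).trans (hbu (Pi.single k 1) (by simp [Pi.single_apply])).symm) j
    rw [Matrix.mul_apply, Matrix.one_apply]
    refine (Finset.sum_congr rfl fun i _ => mul_comm _ _).trans (h2.trans ?_)
    simp [Pi.single_apply]
  let v' : Fin d₀ → V := fun j => ∑ i, P j i • v i
  have key : ∀ c : Fin d₀ → Δ → O, ∑ j, ∑ g, c j g • ρ g (v' j) =
      ∑ i, ∑ g, (∑ j, c j g * P j i) • ρ g (v i) := by
    intro c
    calc ∑ j, ∑ g, c j g • ρ g (v' j) = ∑ j, ∑ g, ∑ i, (c j g * P j i) • ρ g (v i) := by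
          simp only [v', map_sum, map_smul, Finset.smul_sum, smul_smul]
      _ = ∑ j, ∑ i, ∑ g, (c j g * P j i) • ρ g (v i) :=
          Finset.sum_congr rfl fun j _ => Finset.sum_comm
      _ = ∑ i, ∑ j, ∑ g, (c j g * P j i) • ρ g (v i) := Finset.sum_comm
      _ = _ := by
          refine Finset.sum_congr rfl fun i _ => ?_
          rw [Finset.sum_comm]
          simp only [Finset.sum_smul]
  refine ⟨v', fun j => by simp [v', hv], fun j => by simp [v', hP], fun w hw => ?_⟩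
  obtain ⟨c, hc, hcu⟩ := hfree w hw
  refine ⟨fun j g => ∑ i, R' j i * c i g, ?_, fun c' hc' => ?_⟩
  · show ∑ j, ∑ g, _ • ρ g (v' j) = w
    rw [key]
    refine Eq.trans (Finset.sum_congr rfl fun i _ => Finset.sum_congr rfl fun g _ => ?_) hc
    congr 1
    have h3 := congrFun (congrArg (fun X : Matrix (Fin d) (Fin d) O => X.mulVec fun i' =>
        c i' g) hPR) i
    simp only [← Matrix.mulVec_mulVec, Matrix.one_mulVec] at h3
    refine Eq.trans ?_ h3
    exact Finset.sum_congr rfl fun j _ => mul_comm _ _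
  · have h2 := hcu (fun i g => ∑ j, c' j g * P j i) ((key c').symm.trans hc')
    funext j g
    have h3 := congrFun (congrArg (fun X : Matrix (Fin d₀) (Fin d₀) O => X.mulVec fun j' =>
        c' j' g) hRP) j
    simp only [← Matrix.mulVec_mulVec, Matrix.one_mulVec] at h3
    rw [← h3]
    show ∑ i, R' j i * (∑ j', P' i j' * c' j' g) = _
    refine Finset.sum_congr rfl fun i _ => congrArg (R' j i * ·) ?_
    rw [← h2]
    exact Finset.sum_congr rfl fun j' _ => mul_comm _ _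

end Rebase

/-- If `x ≡ c` and `y ≡ 1` modulo an ideal then `x * y ≡ c`. -/
theorem mul_sub_algebraMap_mem {R A : Type*} [CommSemiring R] [CommRing A] [Algebra R A]
    {I : Ideal A} {x y : A} {c : R} (hx : x - algebraMap R A c ∈ I)
    (hy : y - algebraMap R A 1 ∈ I) : x * y - algebraMap R A c ∈ I := by
  rw [map_one] at hy
  convert I.add_mem (I.mul_mem_right y hx) (I.mul_mem_left (algebraMap R A c) hy) using 1
  ring

variable {O : Type} [CommRing O] [IsDomain O] [IsDiscreteValuationRing O]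
  [IsAdicComplete (maximalIdeal O) O] [Finite (ResidueField O)] [IsAddTorsionFree O]
  {p r : ℕ} [Fact p.Prime] {lv : Fin r → ℕ}

local notation "Sd" => MvPowerSeries (Fin r) O ⧸ diamondIdeal (𝒪 := O) p lv

/-- The class of a diamond. -/
def diaClass (δ : DiaGroup p lv) : Sd := toDiaQuot (MonoidAlgebra.of O _ δ)

/-- Augmentation. -/
def diaQuotAug : Sd →+* O :=
  Ideal.Quotient.lift _ MvPowerSeries.constantCoeff (diamondIdeal_aug p lv)

omit [IsDomain O] [IsDiscreteValuationRing O] [IsAdicComplete (maximalIdeal O) O]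
  [Finite (ResidueField O)] [IsAddTorsionFree O] in
lemma diaQuotAug_toDiaQuot (x : DiaRing O p lv) :
    diaQuotAug (toDiaQuot x) = diaAug x := by
  let f : DiaRing O p lv →ₐ[O] O :=
    { diaQuotAug.comp (toDiaQuot (𝒪 := O) (p := p) (lv := lv)).toRingHom with
      commutes' := fun c => by
        show diaQuotAug (toDiaQuot (algebraMap O _ c)) = c
        rw [AlgHom.commutes]
        show MvPowerSeries.constantCoeff (algebraMap O (MvPowerSeries (Fin r) O) c) = c
        exact MvPowerSeries.constantCoeff_C c }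
  have : f = diaAug := (MonoidAlgebra.lift O O _).symm.injective (diaHom_ext fun i => by
    show diaQuotAug (toDiaQuot (MonoidAlgebra.of O _ (diaGen p lv i))) =
        diaAug (MonoidAlgebra.of O _ _)
    rw [toDiaQuot_gen, diaAug_of, map_add, map_one]
    simp [diaQuotAug])
  exact AlgHom.congr_fun this x

omit [IsAddTorsionFree O] in
/-- A commutative algebra acting on a free `O[Δ]`-part acts by matrices over `O⟦X⟧ / J`. -/
theorem exists_diaAct (hp𝒪 : (p : O) ∈ maximalIdeal O) {V V₀ A : Type} [AddCommGroup V]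
    [Module O V] [AddCommGroup V₀] [Module O V₀] [CommRing A] [Algebra O A]
    (ρ : DiaGroup p lv →* Module.End O V) (φ : A →ₐ[O] Module.End O V)
    (hφρ : ∀ x g w, φ x (ρ g w) = ρ g (φ x w)) (e : A) (elt : DiaGroup p lv → A)
    (helt : ∀ δ, φ (elt δ) = ρ δ) {d : ℕ} (v : Fin d → V) (π : V →ₗ[O] V₀)
    (hv : ∀ i, φ e (v i) = v i)
    (hfree : ∀ w, φ e w = w → ∃! c : Fin d → DiaGroup p lv → O,
      ∑ i, ∑ g, c i g • ρ g (v i) = w)
    (hπdia : ∀ g w, π (ρ g w) = π w) :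
    ∃ act : A →ₐ[O] Matrix (Fin d) (Fin d) Sd,
      act e = 1 ∧ (∀ δ, act (elt δ) = Matrix.scalar (Fin d) (diaClass δ)) ∧
      (∀ x, ∀ j, π (φ x (v j)) = ∑ i, diaQuotAug (act x i j) • π (v i)) ∧
      ∀ x, act x = 0 ↔ ∀ w, φ e w = w → φ x w = 0 := by
  classical
  obtain ⟨E, hE⟩ := exists_diaEquiv (lv := lv) hp𝒪
  have hφe : ∀ x w, φ e (φ x w) = φ x (φ e w) := fun x w => by
    rw [← Module.End.mul_apply, ← Module.End.mul_apply, ← map_mul, ← map_mul, mul_comm]
  obtain ⟨Φ, hΦ, hΦext, hΦscalar⟩ :=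
    exists_matrixRep ρ (φ e) v hv (hφρ e) hfree φ hφe hφρ
  have htoE : ∀ x : DiaRing O p lv, toDiaQuot x = E.symm x := by
    have : (toDiaQuot (𝒪 := O) (p := p) (lv := lv)) = E.symm.toAlgHom :=
      (MonoidAlgebra.lift O _ _).symm.injective (diaHom_ext fun i => by
        show toDiaQuot (MonoidAlgebra.of O _ (diaGen p lv i)) = E.symm (MonoidAlgebra.of O _ _)
        rw [toDiaQuot_gen, eq_comm, AlgEquiv.symm_apply_eq, map_add, map_one, hE, add_sub_cancel])
    exact fun x => AlgHom.congr_fun this x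
  refine ⟨(toDiaQuot (𝒪 := O) (p := p) (lv := lv)).mapMatrix.comp Φ, ?_, fun δ => ?_, fun x j => ?_,
    fun x => ?_⟩
  · rw [AlgHom.comp_apply, hΦscalar e 1 fun j => by
        rw [map_one, Module.End.one_apply]; exact hv j,
      map_one, map_one]
  · rw [AlgHom.comp_apply, hΦscalar (elt δ) (MonoidAlgebra.of O _ δ) fun j => by
        rw [MonoidAlgebra.of_apply, algAct_single, one_smul, helt]]
    ext i j
    rcases eq_or_ne i j with rfl | h <;> simp [*, diaClass]
  · have h := congrArg π (hΦ x j)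
    rw [map_sum] at h
    refine h.trans (Finset.sum_congr rfl fun i _ => ?_)
    rw [AlgHom.comp_apply, AlgHom.mapMatrix_apply, Matrix.map_apply, diaQuotAug_toDiaQuot]
    rw [algAct_apply, map_sum, diaAug, MonoidAlgebra.lift_apply,
      Finsupp.sum_fintype _ _ (by simp), Finset.sum_smul]
    simp [hπdia]
  · constructor
    · intro h w hw
      have h0 : Φ x = 0 := Matrix.ext fun i j => by
        have := congrFun (congrFun h i) j
        rw [AlgHom.comp_apply, AlgHom.mapMatrix_apply, Matrix.map_apply, htoE] at this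
        exact E.symm.injective (this.trans (map_zero E.symm).symm)
      obtain ⟨c, hc, -⟩ := hfree w hw
      rw [← hc, map_sum]
      refine Finset.sum_eq_zero fun i _ => ?_
      rw [map_sum]
      refine Finset.sum_eq_zero fun g _ => ?_
      rw [map_smul, hφρ, hΦ x i, h0]
      simp
    · intro h
      have : Φ x = Φ 0 := hΦext x 0 fun j => by
          rw [map_zero, LinearMap.zero_apply]; exact h _ (hv j)
      rw [AlgHom.comp_apply, this, map_zero, map_zero]

variable {N : ℕ} [NeZero N] (Ψ : (ZMod N)ˣ →* DiaGroup p lv) (hΨ : Function.Surjective Ψ)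
  (hneg : (-1 : SL(2, ℤ)) ∈ GammaPsi Ψ) (𝓟 : Set Nat.Primes) (a : Nat.Primes → ResidueField O)

/-- The twisted operator `T_ℓ ⟨ℓ⟩^{1/2}` of a good prime. -/
def twElt (ℓ : 𝓟) (hℓN : ¬ (ℓ.1 : ℕ) ∣ N) : levelAlg O Ψ hΨ hneg 𝓟 :=
  levelElt O Ψ hΨ hneg 𝓟 (.inl ℓ) * levelElt O Ψ hΨ hneg 𝓟
    (.inr (diaHalf (Ψ (ZMod.unitOfCoprime (ℓ.1 : ℕ) (ℓ.1.2.coprime_iff_not_dvd.mpr hℓN)))))

omit [Finite (ResidueField O)] [IsAddTorsionFree O] [IsAdicComplete (maximalIdeal O) O] in
theorem twElt_sub_mem (ℓ : 𝓟) (hℓN : ¬ (ℓ.1 : ℕ) ∣ N) :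
    twElt Ψ hΨ hneg 𝓟 ℓ hℓN - algebraMap O _ (liftSys O a ℓ.1) ∈ sysIdeal O Ψ hΨ hneg 𝓟 a :=
  mul_sub_algebraMap_mem (sub_mem_genIdeal _ (genVal O (DiaGroup p lv) 𝓟 a) (.inl ℓ))
    (sub_mem_genIdeal _ (genVal O (DiaGroup p lv) 𝓟 a) (.inr _))

/-- **The coordinates at a Taylor–Wiles level.** -/
theorem exists_twAct (hp𝒪 : (p : O) ∈ maximalIdeal O) {V₀ : Type} [AddCommGroup V₀] [Module O V₀]
    {d : ℕ} (v : Fin d → clHoms O (GammaPsi Ψ) O) (π : clHoms O (GammaPsi Ψ) O →ₗ[O] V₀)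
    (hv : ∀ i, (levelIdem O Ψ hΨ hneg 𝓟 a).1.1 (v i) = v i)
    (hfree : ∀ w, (levelIdem O Ψ hΨ hneg 𝓟 a).1.1 w = w → ∃! c : Fin d → DiaGroup p lv → O,
      ∑ i, ∑ g, c i g • diaOp O Ψ hΨ g (v i) = w)
    (hπdia : ∀ g w, π (diaOp O Ψ hΨ g w) = π w) :
    ∃ act : levelAlg O Ψ hΨ hneg 𝓟 →ₐ[O] Matrix (Fin d) (Fin d) Sd,
      act (levelIdem O Ψ hΨ hneg 𝓟 a) = 1 ∧
      (∀ δ, act (levelElt O Ψ hΨ hneg 𝓟 (.inr δ)) = Matrix.scalar (Fin d) (diaClass δ)) ∧
      (∀ x : levelAlg O Ψ hΨ hneg 𝓟, ∀ j,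
        π (x.1.1 (v j)) = ∑ i, diaQuotAug (act x i j) • π (v i)) ∧
      ∀ x : levelAlg O Ψ hΨ hneg 𝓟, act x = 0 ↔
        ∀ w, (levelIdem O Ψ hΨ hneg 𝓟 a).1.1 w = w → x.1.1 w = 0 :=
  exists_diaAct hp𝒪 (diaOp O Ψ hΨ) ((AlgHom.fst O _ _).comp (levelAlg O Ψ hΨ hneg 𝓟).val)
    (fun x g w => LinearMap.congr_fun ((levelAlg_compat O Ψ hΨ hneg 𝓟 x.2).2.2 g).eq w)
    (levelIdem O Ψ hΨ hneg 𝓟 a) (fun δ => levelElt O Ψ hΨ hneg 𝓟 (.inr δ)) (fun _ => rfl) v π hv
    hfree hπdia

end Fermat.Agent.LevelLowering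

end
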