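import Fermat.Agent.Attach.HeckeRep
import Fermat.Agent.Attach.Inputs
import Fermat.Agent.Attach.UnipotentAt
import Fermat.Agent.Flat.DatumFlat
import Fermat.Agent.LevelLowering.TWHecke
import Fermat.Agent.TwoComponent.Unipotent

/-!
# Points of a Taylor–Wiles level

A `TWPoint` is a character of the joint Hecke algebra cut out by a common eigenvector at a residual
system, with the representation of the twisted eigensystem on `Γ₀(L)`; its local properties follow.
-/

noncomputable section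

namespace Fermat.Agent.LevelLowering

open scoped MatrixGroups
open CongruenceSubgroup IsLocalRing Polynomial Fermat.Agent.Grp Fermat.Agent.Ihara

local notation "Qbar" => AlgebraicClosure ℚ
local notation "GQ" => (AlgebraicClosure ℚ ≃ₐ[ℚ] AlgebraicClosure ℚ)

/-- The primes outside `S`. -/
def goodSet (S : Finset ℕ) : Set Nat.Primes := {ℓ | (ℓ : ℕ) ∉ S}

variable {O : Type} [CommRing O] [IsDomain O] [IsDiscreteValuationRing O]
  [IsAdicComplete (maximalIdeal O) O] [Finite (ResidueField O)] [IsAddTorsionFree O]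
  {p r : ℕ} [Fact p.Prime] {lv : Fin r → ℕ} {q : Fin r → ℕ} {N : ℕ} [NeZero N]
  (Ψ : (ZMod N)ˣ →* DiaGroup p lv) (hΨ : Function.Surjective Ψ)
  (hneg : (-1 : SL(2, ℤ)) ∈ GammaPsi Ψ) (S : Finset ℕ)
  (hNS : ∀ l : ℕ, l.Prime → l ∣ N → l ∈ S) (a : Nat.Primes → ResidueField O)

/-- The twisted good operator as a function of a prime outside `S`. -/
def twGood (ℓ : Nat.Primes) (hℓ : (ℓ : ℕ) ∉ S) : levelAlg O Ψ hΨ hneg (goodSet S) :=
  twElt Ψ hΨ hneg (goodSet S) ⟨ℓ, hℓ⟩ fun h => hℓ (hNS _ ℓ.2 h)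

variable (q) in
/-- The diamonds at `q i` act trivially. -/
def TrivialAt {R : Type} [CommRing R] [Algebra O R]
    (ev : levelAlg O Ψ hΨ hneg (goodSet S) →ₐ[O] R) (i : Fin r) : Prop :=
  ∀ x, ev (levelElt O Ψ hΨ hneg (goodSet S) (.inr (diaIncl i x))) = 1

variable (q) in
/-- An eigensystem of a Taylor–Wiles level. -/
structure TWPoint : Type 1 where
  /-- The ring of values of the eigensystem, a complete discrete valuation ring finite over `O`. -/
  R : Type
  [instCommRing : CommRing R]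
  [instDomain : IsDomain R]
  [instDVR : IsDiscreteValuationRing R]
  [instComplete : IsAdicComplete (maximalIdeal R) R]
  [instResidue : Finite (ResidueField R)]
  [instChar : CharZero R]
  [instAlgebra : Algebra O R]
  [instFinite : Module.Finite O R]
  [instLocalHom : IsLocalHom (algebraMap O R)]
  inj : Function.Injective (algebraMap O R)
  /-- The eigensystem, on the part of the level algebra at the residual system. -/
  ev : levelAlg O Ψ hΨ hneg (goodSet S) →ₐ[O] R
  ev_idem : ev (levelIdem O Ψ hΨ hneg (goodSet S) a) = 1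
  /-- The level of the twisted eigensystem. -/
  level : ℕ
  [instNeZero : NeZero level]
  level_mem : ∀ l : ℕ, l.Prime → l ∣ level → l ∈ S
  dvd_iff : ∀ l : ℕ, l.Prime → (l ∣ level ↔ l ∣ N)
  sq_dvd : ∀ l : ℕ, l.Prime → (∀ i, q i = l → TrivialAt Ψ hΨ hneg S ev i) →
    (l ^ 2 ∣ level ↔ l ^ 2 ∣ N)
  /-- The twisted eigensystem on `Γ₀(level)`, with its representation. -/
  H : Attach.HeckeRep level (↑S : Set ℕ) R R
  π_T : ∀ (ℓ : ℕ) (hℓ : ℓ.Prime) (hℓS : ℓ ∉ S),
    H.π (CuspForm.heckeAlgebra.T hℓ (fun h => hℓS (level_mem ℓ hℓ h)) hℓS) =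
      ev (twGood Ψ hΨ hneg S hNS ⟨ℓ, hℓ⟩ hℓS)
  unramified : ∀ l : ℕ, l.Prime → ¬ l ∣ N → l ≠ p → H.ρ.IsUnramifiedAt l
  not_unipotent : ∀ i, (∀ j, j ≠ i → TrivialAt Ψ hΨ hneg S ev j) →
    ¬ TrivialAt Ψ hΨ hneg S ev i → ¬ H.ρ.IsUnipotentOnInertiaAt (q i)

attribute [instance] TWPoint.instCommRing TWPoint.instDomain TWPoint.instDVR TWPoint.instComplete
  TWPoint.instResidue TWPoint.instChar TWPoint.instAlgebra TWPoint.instFinite
  TWPoint.instLocalHom TWPoint.instNeZero

variable {Ψ hΨ hneg S hNS a} (P : TWPoint q Ψ hΨ hneg S hNS a)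

namespace TWPoint

omit [Finite (ResidueField O)] [IsAddTorsionFree O] in
/-- Frobenius at a good prime. -/
theorem charpoly_frob (ℓ : ℕ) (hℓ : ℓ.Prime) (hℓS : ℓ ∉ S) (A : ValuationSubring Qbar)
    (hA : A.LiesOverPrime ℓ) (σ : GQ) (hσ : A.IsFrobeniusAt σ ℓ) :
    LinearMap.charpoly (P.H.ρ.ρ σ) =
      X ^ 2 - C (P.ev (twGood Ψ hΨ hneg S hNS ⟨ℓ, hℓ⟩ hℓS)) * X + C ((ℓ : P.R)) := by
  rw [P.H.charpoly_frob ℓ hℓ (fun h => hℓS (P.level_mem ℓ hℓ h)) hℓS A hA σ hσ, P.π_T]

omit [Finite (ResidueField O)] [IsAddTorsionFree O] in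
theorem natCast_mem (hp : (p : O) ∈ maximalIdeal O) : (p : P.R) ∈ maximalIdeal P.R := by
  rw [← map_natCast (algebraMap O P.R)]
  exact map_nonunit (algebraMap O P.R) _ hp

omit [Finite (ResidueField O)] [IsAddTorsionFree O] in
/-- At a prime dividing `N` once, with trivial diamonds there, inertia is unipotent. -/
theorem unipotent (hpS : p ∈ S) (hp : (p : O) ∈ maximalIdeal O) {l : ℕ} (hl : l.Prime)
    (hlp : l ≠ p) (hlN : l ∣ N) (hl2 : ¬ l ^ 2 ∣ N)
    (htriv : ∀ i, q i = l → TrivialAt Ψ hΨ hneg S P.ev i) :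
    P.H.ρ.IsUnipotentOnInertiaAt l := by
  have hpp : p.Prime := Fact.out
  refine Attach.isUnipotentOnInertiaAt_of_inputs (Attach.nonempty_jacobianInputs P.level p).some
    hpp (P.natCast_mem hp) hpS (fun m hm h => P.level_mem m hm h) P.H l hl hlp
    fun A hA σ hσ n y hy => ?_
  exact TwoComponent.inertia_smul_sub P.level l hl ((P.dvd_iff l hl).mpr hlN)
    (fun h => hl2 ((P.sq_dvd l hl htriv).mp h)) hA hσ hσ
    (fun h => hlp ((Nat.prime_dvd_prime_iff_eq hl hpp).mp (hl.dvd_of_dvd_pow h))) hy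

omit [Finite (ResidueField O)] [IsAddTorsionFree O] in
/-- At `p ∤ N` the representation is flat. -/
theorem flat (hpS : p ∈ S) (hp : (p : O) ∈ maximalIdeal O) (hpN : ¬ p ∣ N) :
    P.H.ρ.IsFlatAt p :=
  Flat.Datum.isFlatAt_of_inputs P.H (Attach.nonempty_jacobianInputs P.level p).some
    (P.natCast_mem hp) hpS (fun h => hpN ((P.dvd_iff p Fact.out).mp h))
    fun m hm h => P.level_mem m hm h

end TWPoint

end Fermat.Agent.LevelLowering

end
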