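import Fermat.Agent.LevelLowering.PointTools
import Fermat.Agent.LevelLowering.TWEigen
import Fermat.Agent.LevelLowering.TWPoint

/-!
# Characters and points of the part of a Taylor–Wiles level at a residual system

The span of the fixed vectors of the idempotent (`idemSpan`), the character of a common eigenvector
(`exists_eigVal`), its integral values and twisting data, and residual irreducibility of a point
(`residual_irr_of_point`). `LevelLowering.TWPointsExist` builds the points from them.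
-/

noncomputable section

namespace Fermat.Agent.LevelLowering

open scoped MatrixGroups
open CongruenceSubgroup IsLocalRing Polynomial Fermat.Agent.Grp Fermat.Agent.Ihara

local notation "Qbar" => AlgebraicClosure ℚ
local notation "GQ" => (AlgebraicClosure ℚ ≃ₐ[ℚ] AlgebraicClosure ℚ)

variable {O : Type} [CommRing O] [IsDomain O] [IsDiscreteValuationRing O]
  [IsAdicComplete (maximalIdeal O) O] [Finite (ResidueField O)] [CharZero O]
  {p r : ℕ} [Fact p.Prime] {lv : Fin r → ℕ} {q : Fin r → ℕ} {N : ℕ} [NeZero N]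
  {hN : ∀ i, q i ∣ N} {π : ∀ i, (ZMod (q i))ˣ →* Multiplicative (ZMod (p ^ lv i))}
  (Ψ : (ZMod N)ˣ →* DiaGroup p lv) (h : IsTWLevel hN π Ψ) (hΨ : Function.Surjective Ψ)
  (hneg : (-1 : SL(2, ℤ)) ∈ GammaPsi Ψ) (S : Finset ℕ) (hpS : p ∈ S) (hqp : ∀ i, q i ≠ p)
  (hNS : ∀ l : ℕ, l.Prime → l ∣ N → l ∈ S) (a : Nat.Primes → ResidueField O)
  (hp : (p : O) ∈ maximalIdeal O)
  {ρbar : ResidualGaloisRep (ResidueField O)} (habs : ρbar.IsAbsolutelyIrreducible)
  (hbar : ∀ (ℓ : ℕ) (hℓ : ℓ.Prime), ℓ ∉ S → ∀ A : ValuationSubring Qbar, A.LiesOverPrime ℓ →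
    ∀ σ : GQ, A.IsFrobeniusAt σ ℓ → LinearMap.charpoly (ρbar.ρ σ) =
      X ^ 2 - C (a ⟨ℓ, hℓ⟩) * X + C ((ℓ : ResidueField O)))

section Generic

/-- A vector stable under a representation gives a character. -/
theorem exists_eigenChar_of_smul {G K V : Type*} [Monoid G] [Field K] [AddCommGroup V] [Module K V]
    (ρ : G →* Module.End K V) {φ : V} (hφ : φ ≠ 0) (f : G → K) (h : ∀ g, ρ g φ = f g • φ) :
    ∃ χ : G →* K, ∀ g, χ g = f g := by
  refine ⟨{ toFun := f, map_one' := ?_, map_mul' := fun g g' => ?_ }, fun g => rfl⟩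
  · refine smul_left_injective K hφ ?_
    show f 1 • φ = (1 : K) • φ
    rw [← h, map_one, Module.End.one_apply, one_smul]
  · refine smul_left_injective K hφ ?_
    show f (g * g') • φ = (f g * f g') • φ
    rw [← h, map_mul, Module.End.mul_apply, h g', map_smul, h g, smul_smul, mul_comm]

end Generic

section Coeff

variable (O) (K : Type) [Field K] [Algebra O K]

omit [IsDomain O] [IsDiscreteValuationRing O] [IsAdicComplete (maximalIdeal O) O]
  [Finite (ResidueField O)] [CharZero O] [Fact (Nat.Prime p)] [NeZero N] in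
lemma psiCast_smul (c : O) (v : clHoms O (GammaPsi Ψ) O) :
    (psiCast Ψ O K).toAddMonoidHom (c • v) =
      algebraMap O K c • (psiCast Ψ O K).toAddMonoidHom v :=
  Subtype.ext (AddMonoidHom.ext fun x => map_mul (algebraMap O K) c (v.1 x))

/-- The fixed vectors of the idempotent, with coefficients in `K`. -/
def idemSpan : Submodule K (clHoms K (GammaPsi Ψ) K) :=
  Submodule.span K ((psiCast Ψ O K).toAddMonoidHom ''
    {w | (levelIdem O Ψ hΨ hneg (goodSet S) a).1.1 w = w})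

end Coeff

omit [IsDomain O] [IsDiscreteValuationRing O] [IsAdicComplete (maximalIdeal O) O]
  [Finite (ResidueField O)] [CharZero O] in
/-- Elements of the algebra extend to `K`. -/
theorem exists_ext (K : Type) [Field K] [Algebra O K] (x : levelAlg O Ψ hΨ hneg (goodSet S)) :
    ∃ X : Module.End K (clHoms K (GammaPsi Ψ) K),
      ∀ v, psiCast Ψ O K (x.1.1 v) = X (psiCast Ψ O K v) := by
  refine Algebra.adjoin_induction (p := fun y _ => ∃ X : Module.End K (clHoms K (GammaPsi Ψ) K),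
    ∀ v, psiCast Ψ O K (y.1 v) = X (psiCast Ψ O K v)) ?_ ?_ ?_ ?_ x.2
  · rintro _ ⟨(ℓ | δ), rfl⟩
    · have : NeZero (ℓ.1 : ℕ) := ⟨ℓ.1.2.ne_zero⟩
      exact ⟨_, fun v => psiCast_kerOp Ψ hΨ hneg O K _ v⟩
    · exact ⟨_, fun v => psiCast_diaOp Ψ hΨ O K δ v⟩
  · intro c
    refine ⟨algebraMap O K c • 1, fun v => ?_⟩
    rw [LinearMap.smul_apply, Module.End.one_apply]
    exact psiCast_smul O Ψ K c v
  · rintro y z _ _ ⟨A, hA⟩ ⟨B, hB⟩
    exact ⟨A + B, fun v => by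
      rw [Prod.fst_add, LinearMap.add_apply, map_add, hA, hB, LinearMap.add_apply]⟩
  · rintro y z _ _ ⟨A, hA⟩ ⟨B, hB⟩
    exact ⟨A * B, fun v => by
      rw [Prod.fst_mul, Module.End.mul_apply, hA, hB, Module.End.mul_apply]⟩

omit [IsDomain O] [IsDiscreteValuationRing O] [IsAdicComplete (maximalIdeal O) O]
  [Finite (ResidueField O)] [CharZero O] in
/-- Elements of the algebra commute with the good operators. -/
theorem commute_goodOps {x : levelEnd O Ψ} (hx : x ∈ levelAlg O Ψ hΨ hneg (goodSet S))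
    (m : Nat.Primes) :
    haveI : NeZero (m : ℕ) := ⟨m.2.ne_zero⟩
    Commute x.1 (kerOp O Ψ hΨ hneg m) := by
  have : NeZero (m : ℕ) := ⟨m.2.ne_zero⟩
  induction hx using Algebra.adjoin_induction with
  | mem x hx =>
    obtain ⟨(ℓ | δ), rfl⟩ := hx
    · have : NeZero (ℓ.1 : ℕ) := ⟨ℓ.1.2.ne_zero⟩
      show Commute (kerOp O Ψ hΨ hneg ℓ.1) _
      exact kerOp_comm O Ψ hΨ hneg ℓ.1 m
    · show Commute (diaOp O Ψ hΨ δ) _
      exact diaOp_kerOp O Ψ hΨ hneg δ m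
  | algebraMap c => exact Algebra.commutes c _
  | add x y _ _ hx hy => exact Commute.add_left hx hy
  | mul x y _ _ hx hy => exact Commute.mul_left hx hy

omit [Finite (ResidueField O)] in
/-- The span of the fixed vectors is stable. -/
theorem idemSpan_stable (K : Type) [Field K] [Algebra O K]
    (i : {ℓ : Nat.Primes // ¬ (ℓ : ℕ) ∣ N} ⊕ DiaGroup p lv) :
    ∀ w ∈ idemSpan O Ψ hΨ hneg S a K, goodOps hΨ hneg i w ∈ idemSpan O Ψ hΨ hneg S a K := by
  obtain ⟨e, he, hmem⟩ : ∃ e : levelEnd O Ψ, e = (levelIdem O Ψ hΨ hneg (goodSet S) a).1 ∧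
      e ∈ levelAlg O Ψ hΨ hneg (goodSet S) := ⟨_, rfl, (levelIdem O Ψ hΨ hneg (goodSet S) a).2⟩
  have key : ∀ f : Module.End O (clHoms O (GammaPsi Ψ) O), Commute e.1 f →
      ∀ v, e.1 v = v → e.1 (f v) = f v := fun f hf v hv => by
    rw [← Module.End.mul_apply, hf.eq, Module.End.mul_apply, hv]
  unfold idemSpan
  rw [← he]
  intro w hw
  induction hw using Submodule.span_induction with
  | mem y hy =>
    obtain ⟨v, hv, rfl⟩ := hy
    rcases i with ℓ | δ
    · have : NeZero (ℓ.1 : ℕ) := ⟨ℓ.1.2.ne_zero⟩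
      exact Submodule.subset_span ⟨kerOp O Ψ hΨ hneg ℓ.1 v,
        key _ (commute_goodOps Ψ hΨ hneg S hmem ℓ.1) v hv, psiCast_kerOp Ψ hΨ hneg O K _ v⟩
    · exact Submodule.subset_span ⟨diaOp O Ψ hΨ δ v,
        key _ ((levelAlg_compat O Ψ hΨ hneg (goodSet S) hmem).2.2 δ) v hv,
        psiCast_diaOp Ψ hΨ O K δ v⟩
  | zero => simp
  | add x y _ _ hx hy => rw [map_add]; exact add_mem hx hy
  | smul c x _ hx => rw [map_smul]; exact Submodule.smul_mem _ c hx

omit [IsDomain O] [IsDiscreteValuationRing O] [IsAdicComplete (maximalIdeal O) O]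
  [Finite (ResidueField O)] [CharZero O] in
include hNS in
/-- The values of the operators away from `S` at a common eigenvector. -/
theorem exists_eigData (K : Type) [Field K] [Algebra O K]
    (φ : clHoms K (GammaPsi Ψ) K) (hφ0 : φ ≠ 0)
    (hspan : φ ∈ Submodule.span K (Set.range (psiCast Ψ O K).toAddMonoidHom))
    (heig : ∀ i, ∃ c : K, goodOps hΨ hneg i φ = c • φ) :
    ∃ (val : levelAlg O Ψ hΨ hneg (goodSet S) →ₐ[O] K) (χ : DiaGroup p lv →* K),
      (∀ x, HasExtEigen (psiCast Ψ O K).toAddMonoidHom φ x.1.1 (val x)) ∧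
      (∀ δ, val (levelElt O Ψ hΨ hneg (goodSet S) (.inr δ)) = χ δ) ∧
      (∀ δ, diaOp K Ψ hΨ δ φ = χ δ • φ) ∧
      ∀ ℓ : goodSet S, haveI : NeZero (ℓ.1 : ℕ) := ⟨ℓ.1.2.ne_zero⟩
        kerOp K Ψ hΨ hneg ℓ.1 φ = val (levelElt O Ψ hΨ hneg (goodSet S) (.inl ℓ)) • φ := by
  classical
  let ι := (psiCast Ψ O K).toAddMonoidHom
  have hι : ∀ (c : O) v, ι (c • v) = algebraMap O K c • ι v := fun c v => psiCast_smul O Ψ K c v
  let fst : levelAlg O Ψ hΨ hneg (goodSet S) →ₐ[O] Module.End O (clHoms O (GammaPsi Ψ) O) :=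
    (AlgHom.fst O _ _).comp (levelAlg O Ψ hΨ hneg (goodSet S)).val
  have hgood : ∀ ℓ : goodSet S, ¬ (ℓ.1 : ℕ) ∣ N := fun ℓ hd => ℓ.2 (hNS _ ℓ.1.2 hd)
  have hgen : ∀ i, ∃ c : K, HasExtEigen ι φ (levelGen O Ψ hΨ hneg (goodSet S) i).1 c := by
    rintro (ℓ | δ)
    · have : NeZero (ℓ.1 : ℕ) := ⟨ℓ.1.2.ne_zero⟩
      obtain ⟨c, hc⟩ := heig (.inl ⟨ℓ.1, hgood ℓ⟩)
      exact ⟨c, kerOp K Ψ hΨ hneg ℓ.1, fun v => psiCast_kerOp Ψ hΨ hneg O K _ v, hc⟩
    · obtain ⟨c, hc⟩ := heig (.inr δ)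
      exact ⟨c, diaOp K Ψ hΨ δ, fun v => psiCast_diaOp Ψ hΨ O K δ v, hc⟩
  have hall : ∀ x : levelAlg O Ψ hΨ hneg (goodSet S), fst x ∈ extEigenAlg ι hι φ := fun x =>
    (Algebra.adjoin_le (S := (extEigenAlg ι hι φ).comap (AlgHom.fst O _ _)) (by
      rintro _ ⟨i, rfl⟩; exact hgen i) x.2 : _)
  obtain ⟨val, hval⟩ : ∃ val : levelAlg O Ψ hΨ hneg (goodSet S) →ₐ[O] K,
      ∀ x, HasExtEigen ι φ x.1.1 (val x) :=
    ⟨(extEigenVal (hι := hι) hφ0 hspan).comp (fst.codRestrict (extEigenAlg ι hι φ) hall),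
      fun x => hasExtEigen_val (hι := hι) hφ0 hspan ⟨fst x, hall x⟩⟩
  have hvalD : ∀ δ, diaOp K Ψ hΨ δ φ =
      val (levelElt O Ψ hΨ hneg (goodSet S) (.inr δ)) • φ := fun δ => by
    obtain ⟨c, hc⟩ := heig (.inr δ)
    have e1 := (hval (levelElt O Ψ hΨ hneg (goodSet S) (.inr δ))).unique hφ0 hspan
      ⟨diaOp K Ψ hΨ δ, fun v => psiCast_diaOp Ψ hΨ O K δ v, hc⟩
    rw [e1]; exact hc
  obtain ⟨χ, hχ⟩ := exists_eigenChar_of_smul (diaOp K Ψ hΨ) hφ0 _ hvalD
  refine ⟨val, χ, hval, fun δ => (hχ δ).symm, fun δ => (hvalD δ).trans (by rw [hχ]), fun ℓ => ?_⟩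
  have : NeZero (ℓ.1 : ℕ) := ⟨ℓ.1.2.ne_zero⟩
  obtain ⟨c, hc⟩ := heig (.inl ⟨ℓ.1, hgood ℓ⟩)
  have e1 := (hval (levelElt O Ψ hΨ hneg (goodSet S) (.inl ℓ))).unique hφ0 hspan
    ⟨kerOp K Ψ hΨ hneg ℓ.1, fun v => psiCast_kerOp Ψ hΨ hneg O K ℓ.1 v, hc⟩
  rw [e1]; exact hc

omit [Finite (ResidueField O)] [CharZero O] in
include hNS in
/-- The character of a common eigenvector. -/
theorem exists_eigVal (K : Type) [Field K] [Algebra O K]
    (φ : clHoms K (GammaPsi Ψ) K) (hφ : φ ∈ idemSpan O Ψ hΨ hneg S a K) (hφ0 : φ ≠ 0)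
    (heig : ∀ i, ∃ c : K, goodOps hΨ hneg i φ = c • φ) :
    ∃ (val : levelAlg O Ψ hΨ hneg (goodSet S) →ₐ[O] K) (χ : DiaGroup p lv →* K),
      (∀ x, HasExtEigen (psiCast Ψ O K).toAddMonoidHom φ x.1.1 (val x)) ∧
      val (levelIdem O Ψ hΨ hneg (goodSet S) a) = 1 ∧
      (∀ δ, val (levelElt O Ψ hΨ hneg (goodSet S) (.inr δ)) = χ δ) ∧
      (∀ δ, diaOp K Ψ hΨ δ φ = χ δ • φ) ∧
      ∀ ℓ : goodSet S, haveI : NeZero (ℓ.1 : ℕ) := ⟨ℓ.1.2.ne_zero⟩
        kerOp K Ψ hΨ hneg ℓ.1 φ = val (levelElt O Ψ hΨ hneg (goodSet S) (.inl ℓ)) • φ := by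
  have hspan : φ ∈ Submodule.span K (Set.range (psiCast Ψ O K).toAddMonoidHom) :=
    Submodule.span_mono (Set.image_subset_range _ _) hφ
  obtain ⟨val, χ, hval, hχ, hD, hT⟩ := exists_eigData Ψ hΨ hneg S hNS K φ hφ0 hspan heig
  refine ⟨val, χ, hval, ?_, hχ, hD, hT⟩
  have h0 := HasExtEigen.eq_zero hφ0 hφ
    (hval (1 - levelIdem O Ψ hΨ hneg (goodSet S) a)) fun v hv => by
      show (1 : Module.End O (clHoms O (GammaPsi Ψ) O)) v -
        (levelIdem O Ψ hΨ hneg (goodSet S) a).1.1 v = 0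
      rw [hv]; exact sub_self v
  rw [map_sub, map_one, sub_eq_zero] at h0
  exact h0.symm

/-- Values of a character of a finite algebra lie in the integers of a finite extension. -/
theorem exists_integerValued {A : Type} [CommRing A] [Algebra O A] [Module.Finite O A]
    (K : Type) [Field K] [Algebra O K] [Algebra (FractionRing O) K]
    [IsScalarTower O (FractionRing O) K] (val : A →ₐ[O] K) :
    ∃ (C : Type) (_ : CommRing C) (_ : IsDomain C) (_ : IsDiscreteValuationRing C)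
      (_ : IsAdicComplete (maximalIdeal C) C) (_ : Finite (ResidueField C)) (_ : CharZero C)
      (_ : Algebra O C) (_ : Module.Finite O C) (_ : IsLocalHom (algebraMap O C)),
      Function.Injective (algebraMap O C) ∧ ∃ (j : C →+* K) (ev : A →ₐ[O] C),
        Function.Injective j ∧ ∀ x, j (ev x) = val x := by
  classical
  have : Algebra.IsIntegral O A := Algebra.IsIntegral.of_finite O A
  obtain ⟨gs, hgs⟩ := (inferInstance : Module.Finite O A).fg_top
  let E : IntermediateField (FractionRing O) K :=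
    IntermediateField.adjoin (FractionRing O) (val '' (gs : Set A))
  have : FiniteDimensional (FractionRing O) E := by
    have : Finite (val '' (gs : Set A)) := (gs.finite_toSet.image val).to_subtype
    refine IntermediateField.finiteDimensional_adjoin fun x hx => ?_
    obtain ⟨y, -, rfl⟩ := hx
    exact ((Algebra.IsIntegral.isIntegral (R := O) y).map val).tower_top
  have hE : ∀ x, val x ∈ E := fun x => by
    have hx : x ∈ Submodule.span O (gs : Set A) := hgs ▸ Submodule.mem_top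
    induction hx using Submodule.span_induction with
    | mem y hy => exact IntermediateField.subset_adjoin _ _ ⟨y, hy, rfl⟩
    | zero => rw [map_zero]; exact zero_mem E
    | add y z _ _ hy hz => rw [map_add]; exact add_mem hy hz
    | smul c y _ hy =>
      rw [map_smul, Algebra.smul_def, IsScalarTower.algebraMap_apply O (FractionRing O) K]
      exact mul_mem (E.algebraMap_mem _) hy
  let valE : A →ₐ[O] E :=
    { toFun := fun x => ⟨val x, hE x⟩
      map_one' := Subtype.ext (map_one val)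
      map_mul' := fun x y => Subtype.ext (map_mul val x y)
      map_zero' := Subtype.ext (map_zero val)
      map_add' := fun x y => Subtype.ext (map_add val x y)
      commutes' := fun c => Subtype.ext (val.commutes c) }
  obtain ⟨hfin, hinjC, hdvr, hcomp, hres, hloc, hfrac⟩ := Attach.integralClosure_facts O E
  exact ⟨integralClosure O E, inferInstance, inferInstance, hdvr, hcomp, hres,
    charZero_of_injective_algebraMap hinjC, inferInstance, hfin, hloc, hinjC,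
    (algebraMap E K).comp (integralClosure O E).val.toRingHom,
    valE.codRestrict (integralClosure O E) fun x =>
      (Algebra.IsIntegral.isIntegral (R := O) x).map valE,
    (algebraMap E K).injective.comp Subtype.val_injective, fun x => rfl⟩

omit [IsDomain O] [IsDiscreteValuationRing O] [IsAdicComplete (maximalIdeal O) O]
  [Finite (ResidueField O)] [CharZero O] in
include h hNS in
/-- The twisting data of a common eigenvector. -/
theorem exists_twistData (K : Type) [Field K] [CharZero K] [Algebra O K]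
    (φ : clHoms K (GammaPsi Ψ) K) (hφ0 : φ ≠ 0)
    (val : levelAlg O Ψ hΨ hneg (goodSet S) →ₐ[O] K) (χ : DiaGroup p lv →* K)
    (hχ : ∀ δ, val (levelElt O Ψ hΨ hneg (goodSet S) (.inr δ)) = χ δ)
    (hD : ∀ δ, diaOp K Ψ hΨ δ φ = χ δ • φ)
    (hT : ∀ ℓ : goodSet S, haveI : NeZero (ℓ.1 : ℕ) := ⟨ℓ.1.2.ne_zero⟩
      kerOp K Ψ hΨ hneg ℓ.1 φ = val (levelElt O Ψ hΨ hneg (goodSet S) (.inl ℓ)) • φ) :
    ∃ (ψ : ∀ l : ℕ, MulChar (ZMod l) K) (s : Finset ℕ) (L0 : ℕ)
      (x : Additive (Gamma N) →+ K),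
      (∀ l ∈ s, ∃ i, q i = l) ∧ L0 * ∏ l ∈ s, l = N ∧ (∀ l ∈ s, l.Prime) ∧
      (∀ l ∈ s, ¬ l ∣ L0) ∧ (∀ l ∈ s, ψ l ^ 2 ≠ 1) ∧ (∀ l ∈ s, ψ l (-1) = 1) ∧
      (∀ i, q i ∈ s ↔ ¬ TrivialAt Ψ hΨ hneg S val i) ∧
      x = resHom (EigenTwist.gamma_le_GammaPsi Ψ) φ.1 ∧
      EigenTwist.IsNeb (L0 * ∏ l ∈ s, l) (fun d => ∏ l ∈ s, ψ l (d : ZMod l) ^ 2) x ∧
      IsClHom (Gamma N) x ∧ x ≠ 0 ∧
      ∀ (ℓ : ℕ) [NeZero ℓ] (hℓ : ℓ.Prime) (hℓS : ℓ ∉ S) (hℓN : Nat.Coprime ℓ N),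
        EigenTwist.opD hℓN x = (val (twGood Ψ hΨ hneg S hNS ⟨ℓ, hℓ⟩ hℓS) *
          ∏ l ∈ s, ψ l (ℓ : ZMod l)) • x := by
  classical
  obtain ⟨ψ, s, hs, hψ2, heven, hsout, hψ, hprod⟩ :=
    exists_sqrtChars hN π Ψ h.comp h.inj h.two h.surj χ
  obtain ⟨L0, hL0, hsp, hsn⟩ := h.exists_split hs
  have hins : ∀ i, q i ∈ s ↔ ¬ TrivialAt Ψ hΨ hneg S val i := by
    refine fun i => ⟨fun hi htr => hψ2 _ hi ?_, fun hi => ?_⟩
    · have h1 : ψ (q i) = 1 := MulChar.ext fun u => by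
        rw [hψ i u, MulChar.one_apply_coe,
          show diaHalf (diaIncl i (π i u)) =
            diaIncl i ((π i u) ^ ((p ^ (Finset.univ.sup lv) + 1) / 2)) from
              (map_pow (diaIncl i) _ _).symm,
          ← hχ, htr _, inv_one]
      rw [h1, one_pow]
    · by_contra hn
      exact hi fun w => (hχ _).trans (hsout i hn w)
  refine ⟨ψ, s, L0, resHom (EigenTwist.gamma_le_GammaPsi Ψ) φ.1, hs, hL0, hsp, hsn, hψ2,
    heven, hins,
    rfl, ?_, isClHom_resHom _ φ.2, fun h0 =>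
      hφ0 (Subtype.ext (EigenTwist.eq_zero_of_resHom_eq_zero (EigenTwist.gamma_le_GammaPsi Ψ) h0)),
    fun ℓ _ hℓ hℓS hℓN => ?_⟩
  · rw [hL0]
    refine EigenTwist.isNeb_resHom Ψ φ.1 _ fun g => ?_
    show _ = (∏ l ∈ s, ψ l ((g.1.1 1 1 : ℤ) : ZMod l) ^ 2) • φ.1
    rw [(hprod ((Gamma0Map N).toHomUnits g) (g.1.1 1 1) rfl).1]
    show _ = (χ (dChar Ψ g))⁻¹ • φ.1
    rw [← map_inv χ, ← map_inv (dChar Ψ)]
    refine Eq.trans ?_ (congrArg Subtype.val (hD (dChar Ψ g⁻¹)))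
    exact conjChar_congr (GammaPsi_le Ψ) (mem_GammaPsi Ψ)
      (d_sec (dChar_surjective Ψ hΨ) _).symm φ.1
  · set u := ZMod.unitOfCoprime ℓ hℓN
    have e1 := (hprod u (ℓ : ℤ) (by simp [u])).2
    simp only [Int.cast_natCast] at e1
    have e2 : val (twGood Ψ hΨ hneg S hNS ⟨ℓ, hℓ⟩ hℓS) * ∏ l ∈ s, ψ l (ℓ : ZMod l) =
        val (levelElt O Ψ hΨ hneg (goodSet S) (.inl ⟨⟨ℓ, hℓ⟩, hℓS⟩)) := by
      rw [e1]
      unfold twGood twElt
      rw [map_mul, hχ]
      show _ * χ (diaHalf (Ψ u)) * (χ (diaHalf (Ψ u)))⁻¹ = _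
      rw [mul_assoc, mul_inv_cancel₀, mul_one]
      intro h0
      have h1 := map_mul χ (diaHalf (Ψ u)) (diaHalf (Ψ u))⁻¹
      rw [mul_inv_cancel, map_one, h0, zero_mul] at h1
      exact one_ne_zero h1
    rw [e2]
    exact (EigenTwist.resHom_restrict_op Ψ hΨ hneg hℓ hℓN φ.1).symm.trans
      (congrArg (resHom (EigenTwist.gamma_le_GammaPsi Ψ))
        (congrArg Subtype.val (hT ⟨⟨ℓ, hℓ⟩, hℓS⟩)))

omit [CharZero O] [Finite (ResidueField O)] in
/-- A point at which the idempotent has value `1` has the residual system. -/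
theorem residue_ev_twGood {R : Type} [CommRing R] [IsLocalRing R] [Algebra O R]
    [IsLocalHom (algebraMap O R)] (ev : levelAlg O Ψ hΨ hneg (goodSet S) →ₐ[O] R)
    (he : ev (levelIdem O Ψ hΨ hneg (goodSet S) a) = 1) (ℓ : Nat.Primes) (hℓS : (ℓ : ℕ) ∉ S) :
    residue R (ev (twGood Ψ hΨ hneg S hNS ℓ hℓS)) = ResidueField.map (algebraMap O R) (a ℓ) := by
  have := finite_levelAlg O Ψ hΨ hneg (goodSet S)
  have h1 := residue_eq_of_sub_mem ev (Algebra.IsIntegral.of_finite O _)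
    (isIdemAt_levelIdem O Ψ hΨ hneg (goodSet S) a) he
    (twElt_sub_mem Ψ hΨ hneg (goodSet S) a ⟨ℓ, hℓS⟩ fun hd => hℓS (hNS _ ℓ.2 hd))
  rw [residue_liftSys] at h1
  exact h1

/-- The residual charpoly. -/
theorem charpoly_residual {R : Type} [CommRing R] [IsLocalRing R] (ρ : GaloisRepAdic R) (σ : GQ) :
    LinearMap.charpoly (ρ.residual.ρ σ) = (LinearMap.charpoly (ρ.ρ σ)).map (residue R) :=
  LinearMap.charpoly_baseChange (ρ.ρ σ) (ResidueField R)

omit [CharZero O] [Finite (ResidueField O)] in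
include habs hbar in
/-- The representation of a point is residually absolutely irreducible. -/
theorem residual_irr_of_point {R : Type} [CommRing R] [IsLocalRing R] [Algebra O R]
    [IsLocalHom (algebraMap O R)] (ev : levelAlg O Ψ hΨ hneg (goodSet S) →ₐ[O] R)
    (he : ev (levelIdem O Ψ hΨ hneg (goodSet S) a) = 1) (ρ : GaloisRepAdic R)
    (hfrob : ∀ (ℓ : ℕ) (hℓ : ℓ.Prime) (hℓS : ℓ ∉ S), ∀ B : ValuationSubring Qbar,
      B.LiesOverPrime ℓ → ∀ σ : GQ, B.IsFrobeniusAt σ ℓ → LinearMap.charpoly (ρ.ρ σ) =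
        X ^ 2 - C (ev (twGood Ψ hΨ hneg S hNS ⟨ℓ, hℓ⟩ hℓS)) * X + C ((ℓ : R))) :
    ρ.residual.IsAbsolutelyIrreducible := by
  refine isAbsolutelyIrreducible_of_frobenius (ResidueField.map (algebraMap O R)) ρbar habs _ S
    fun ℓ hℓ hℓS B hB σ hσ => ?_
  rw [charpoly_residual, hfrob ℓ hℓ hℓS B hB σ hσ, hbar ℓ hℓ hℓS B hB σ hσ]
  simp only [Polynomial.map_add, Polynomial.map_sub, Polynomial.map_mul, Polynomial.map_pow,
    Polynomial.map_X, Polynomial.map_C, map_natCast, Polynomial.map_natCast,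
    residue_ev_twGood Ψ hΨ hneg S hNS a ev he ⟨ℓ, hℓ⟩ hℓS]

end Fermat.Agent.LevelLowering

end
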