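import Fermat.Agent.EigenTwist.TwistRamified
import Fermat.Agent.LevelLowering.TWPointTools
import Fermat.Agent.SquareLevel.Core
import Fermat.Agent.SquareLevel.Descent

/-!
# Points of a Taylor–Wiles level exist and are jointly injective

A common eigenvector in the part at the residual system is twisted to an eigencharacter of
`Γ₀(L)`; its Hecke character gives the representation.
-/

noncomputable section

namespace Fermat.Agent.LevelLowering

open scoped MatrixGroups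
open CongruenceSubgroup IsLocalRing Polynomial Fermat.Agent.Grp Fermat.Agent.Ihara

local notation "Qbar" => AlgebraicClosure ℚ
local notation "GQ" => (AlgebraicClosure ℚ ≃ₐ[ℚ] AlgebraicClosure ℚ)

variable {O : Type} [CommRing O] [IsDomain O] [IsDiscreteValuationRing O]
  [IsAdicComplete (maximalIdeal O) O] [Finite (ResidueField O)] [CharZero O]
  {p r : ℕ} [Fact p.Prime] {lv : Fin r → ℕ} {q : Fin r → ℕ} {N : ℕ} [NeZero N]
  {hN : ∀ i, q i ∣ N} {π : ∀ i, (ZMod (q i))ˣ →* Multiplicative (ZMod (p ^ lv i))}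
  (Ψ : (ZMod N)ˣ →* DiaGroup p lv) (h : IsTWLevel hN π Ψ) (hΨ : Function.Surjective Ψ)
  (hneg : (-1 : SL(2, ℤ)) ∈ GammaPsi Ψ) (S : Finset ℕ) (hpS : p ∈ S) (hqp : ∀ i, q i ≠ p)
  (hNS : ∀ l : ℕ, l.Prime → l ∣ N → l ∈ S) (a : Nat.Primes → ResidueField O)
  (hp : (p : O) ∈ maximalIdeal O)
  {ρbar : ResidualGaloisRep (ResidueField O)} (habs : ρbar.IsAbsolutelyIrreducible)
  (hbar : ∀ (ℓ : ℕ) (hℓ : ℓ.Prime), ℓ ∉ S → ∀ A : ValuationSubring Qbar, A.LiesOverPrime ℓ →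
    ∀ σ : GQ, A.IsFrobeniusAt σ ℓ → LinearMap.charpoly (ρbar.ρ σ) =
      X ^ 2 - C (a ⟨ℓ, hℓ⟩) * X + C ((ℓ : ResidueField O)))

include hpS hNS in
/-- Twisting by a character ramified at one prime gives a ramified representation. -/
theorem not_unipotent_of_single {C0 : Type} [CommRing C0] [IsDomain C0]
    [IsDiscreteValuationRing C0] [IsAdicComplete (maximalIdeal C0) C0] [CharZero C0]
    (hp0 : (p : C0) ∈ maximalIdeal C0) {R : Type} [CommRing R] [IsDomain R]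
    [IsDiscreteValuationRing R] [IsAdicComplete (maximalIdeal R) R] [Algebra C0 R]
    [IsLocalHom (algebraMap C0 R)] (hinjR : Function.Injective (algebraMap C0 R))
    {K : Type} [Field K] [CharZero K] (jC : C0 →+* K) (hjC : Function.Injective jC)
    (ρ : GaloisRepAdic R) {l L0 : ℕ} (hl : l.Prime) (hlp : l ≠ p) (hlL : ¬ l ∣ L0)
    (hN' : L0 * l = N) (ψ : MulChar (ZMod l) K) (hψ2 : ψ ^ 2 ≠ 1) (heven : ψ (-1) = 1)
    (x : Additive (Gamma N) →+ K)
    (hneb : EigenTwist.IsNeb (L0 * l) (fun d => ψ (d : ZMod l) ^ 2) x)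
    (hxcl : IsClHom (Gamma N) x) (hx0 : x ≠ 0) (av : ℕ → C0)
    (hT : ∀ (ℓ : ℕ) [NeZero ℓ] (hℓN : Nat.Coprime ℓ N), ℓ.Prime → ℓ ∉ S →
      EigenTwist.opD hℓN x = (jC (av ℓ) * ψ (ℓ : ZMod l)) • x)
    (hρ : ∀ ℓ : ℕ, ℓ.Prime → ℓ ∉ S → ∀ B : ValuationSubring Qbar, B.LiesOverPrime ℓ →
      ∀ σ : GQ, B.IsFrobeniusAt σ ℓ → LinearMap.charpoly (ρ.ρ σ) =
        X ^ 2 - C (algebraMap C0 R (av ℓ)) * X + C ((ℓ : R))) :
    ¬ ρ.IsUnipotentOnInertiaAt l := by
  have : Fact l.Prime := ⟨hl⟩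
  have : NeZero l := ⟨hl.ne_zero⟩
  have hL00 : L0 ≠ 0 := fun h0 => NeZero.ne N (by rw [← hN', h0, zero_mul])
  have : NeZero L0 := ⟨hL00⟩
  have : NeZero (L0 * l) := ⟨mul_ne_zero hL00 hl.ne_zero⟩
  have : NeZero (L0 * l * l) := ⟨mul_ne_zero (NeZero.ne _) hl.ne_zero⟩
  have hgeo : SquareLevel.InertiaFixedBounded (L0 * l) l :=
    SquareLevel.inertiaFixedBounded_of_core _ _ hl (SquareLevel.coreBounded _ _ hl
      (dvd_mul_left _ _)
      fun hd => hlL (Nat.dvd_of_mul_dvd_mul_right hl.pos (by rwa [pow_two] at hd)))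
  exact EigenTwist.not_unipotent_of_twist hlp N L0 hgeo
    (Attach.nonempty_jacobianInputs (L0 * l * l) p).some.galois hlL (dvd_of_eq hN') hpS hNS
    hp0 hinjR ρ jC hjC ψ hψ2 heven x hneb hxcl hx0 av hT hρ

include h hpS hqp hp habs hbar in
/-- **One eigensystem gives one point.** -/
theorem exists_twPoint_of_eigen (K : Type) [Field K] [CharZero K] [Algebra O K]
    [Algebra (FractionRing O) K] [IsScalarTower O (FractionRing O) K]
    (φ : clHoms K (GammaPsi Ψ) K) (hφ : φ ∈ idemSpan O Ψ hΨ hneg S a K) (hφ0 : φ ≠ 0)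
    (heig : ∀ i, ∃ c : K, goodOps hΨ hneg i φ = c • φ) :
    ∃ P : TWPoint q Ψ hΨ hneg S hNS a, ∀ x, P.ev x = 0 ↔
      HasExtEigen (psiCast Ψ O K).toAddMonoidHom φ x.1.1 (0 : K) := by
  classical
  have hspan : φ ∈ Submodule.span K (Set.range (psiCast Ψ O K).toAddMonoidHom) :=
    Submodule.span_mono (Set.image_subset_range _ _) hφ
  obtain ⟨val, χ, hval, hval_e, hχ, hvalD, hvalT⟩ :=
    exists_eigVal Ψ hΨ hneg S hNS a K φ hφ hφ0 heig
  have := finite_levelAlg O Ψ hΨ hneg (goodSet S)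
  obtain ⟨C0, iC1, iC2, iC3, iC4, iC5, iC6, iC7, iC8, iC9, hinjC, jC, ev0, hjC, hjev⟩ :=
    exists_integerValued K val
  have hp0 : (p : C0) ∈ maximalIdeal C0 := by
    rw [← map_natCast (algebraMap O C0)]
    exact map_nonunit (algebraMap O C0) _ hp
  obtain ⟨ψ, s, L0, x, hs, hL0, hsp, hsn, hψ2, heven, hins, -, hneb, hxcl, hx0, hop⟩ :=
    exists_twistData Ψ h hΨ hneg S hNS K φ hφ0 val χ hχ hvalD hvalT
  have hPr0 : ∏ l ∈ s, l ≠ 0 := Finset.prod_ne_zero_iff.mpr fun l hl => (hsp l hl).ne_zero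
  have hL00 : L0 ≠ 0 := fun h0 => NeZero.ne N (by rw [← hL0, h0, zero_mul])
  obtain ⟨Lv, hLv⟩ : ∃ Lv, Lv = L0 * (∏ l ∈ s, l) ^ 2 := ⟨_, rfl⟩
  have : NeZero Lv := ⟨by rw [hLv]; exact mul_ne_zero hL00 (pow_ne_zero 2 hPr0)⟩
  subst hLv
  have hdvdN : ∀ l : ℕ, l.Prime → (l ∣ (L0 * (∏ l ∈ s, l) ^ 2) ↔ l ∣ N) := fun l hl => by
    rw [← hL0, hl.dvd_mul, hl.dvd_mul]
    exact or_congr Iff.rfl ⟨hl.dvd_of_dvd_pow, fun hh => dvd_pow hh two_ne_zero⟩
  have hLS : ∀ l : ℕ, l.Prime → l ∣ (L0 * (∏ l ∈ s, l) ^ 2) → l ∈ S := fun l hl hd =>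
      hNS l hl ((hdvdN l hl).mp hd)
  let av : ℕ → C0 := fun ℓ =>
    if hℓ : ℓ.Prime ∧ ℓ ∉ S then ev0 (twGood Ψ hΨ hneg S hNS ⟨ℓ, hℓ.1⟩ hℓ.2) else 0
  have hav : ∀ (ℓ : ℕ) (hℓ : ℓ.Prime) (hℓS : ℓ ∉ S),
      av ℓ = ev0 (twGood Ψ hΨ hneg S hNS ⟨ℓ, hℓ⟩ hℓS) := fun ℓ hℓ hℓS => dif_pos ⟨hℓ, hℓS⟩
  obtain ⟨y, hy, hy0, hyT⟩ := EigenTwist.exists_twist ψ s N L0 x hsp hsn hL0.dvd hψ2 heven hneb
    hxcl hx0
  obtain ⟨θ, hθ⟩ := exists_heckeHom (S := (↑S : Set ℕ)) hLS jC hjC y hy hy0 av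
    fun ℓ _ hℓ hℓS => by
      have hℓN : Nat.Coprime ℓ N := hℓ.coprime_iff_not_dvd.mpr fun hd => hℓS (hNS ℓ hℓ hd)
      rw [hav ℓ hℓ hℓS, hjev]
      exact hyT ℓ hℓN hℓ (fun hls => hℓS (by
        obtain ⟨i, rfl⟩ := hs ℓ hls; exact hNS _ hℓ (hN i))) _ _ (hop ℓ hℓ hℓS hℓN) rfl
  obtain ⟨R, iR, iD, iV, iC, iF, iZ, iA, iM, iL, hinjR, ρ, hρ, hρu⟩ :=
    Attach.exists_galoisRep_of_inputs (Attach.nonempty_jacobianInputs
      (L0 * (∏ l ∈ s, l) ^ 2) p).some hpS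
      hLS C0 hp0 θ
  let : Algebra O R := ((algebraMap C0 R).comp (algebraMap O C0)).toAlgebra
  have : IsScalarTower O C0 R := IsScalarTower.of_algebraMap_eq fun _ => rfl
  have : Module.Finite O R := Module.Finite.trans C0 R
  have : IsLocalHom (algebraMap O R) := ⟨fun c hc =>
    iC9.map_nonunit c (iL.map_nonunit _ hc)⟩
  let ev : levelAlg O Ψ hΨ hneg (goodSet S) →ₐ[O] R := (IsScalarTower.toAlgHom O C0 R).comp ev0
  have hev : ∀ z, ev z = algebraMap C0 R (ev0 z) := fun z => rfl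
  have hev_zero : ∀ z, ev z = 0 ↔ val z = 0 := fun z => by
    rw [hev, map_eq_zero_iff _ hinjR, ← map_eq_zero_iff jC hjC, hjev]
  have hev_one : ∀ z, ev z = 1 ↔ val z = 1 := fun z => by
    rw [hev, map_eq_one_iff _ hinjR, ← map_eq_one_iff jC hjC, hjev]
  have htriv : ∀ i, TrivialAt Ψ hΨ hneg S ev i ↔ TrivialAt Ψ hΨ hneg S val i := fun i =>
    forall_congr' fun w => hev_one _
  have hev_e : ev (levelIdem O Ψ hΨ hneg (goodSet S) a) = 1 := (hev_one _).mpr hval_e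
  have hfrob : ∀ (ℓ : ℕ) (hℓ : ℓ.Prime) (hℓS : ℓ ∉ S), ∀ B : ValuationSubring Qbar,
      B.LiesOverPrime ℓ → ∀ σ : GQ, B.IsFrobeniusAt σ ℓ → LinearMap.charpoly (ρ.ρ σ) =
        X ^ 2 - C (ev (twGood Ψ hΨ hneg S hNS ⟨ℓ, hℓ⟩ hℓS)) * X + C ((ℓ : R)) := by
    intro ℓ hℓ hℓS B hB σ hσ
    rw [hρ ℓ hℓ (fun hd => hℓS (hLS ℓ hℓ hd)) hℓS B hB σ hσ,
      hθ ℓ hℓ (fun hd => hℓS (hLS ℓ hℓ hd)) hℓS, hav ℓ hℓ hℓS, hev]
  have hirr : ρ.residual.IsAbsolutelyIrreducible :=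
    residual_irr_of_point Ψ hΨ hneg S hNS a habs hbar ev hev_e ρ hfrob
  have hsq : ∀ l : ℕ, l.Prime → (∀ i, q i = l → TrivialAt Ψ hΨ hneg S ev i) →
      (l ^ 2 ∣ (L0 * (∏ l ∈ s, l) ^ 2) ↔ l ^ 2 ∣ N) := by
    intro l hl htr
    have hls : l ∉ s := fun hm => by
      obtain ⟨i, rfl⟩ := hs l hm
      exact (hins i).mp hm ((htriv i).mp (htr i rfl))
    have hcop : Nat.Coprime (l ^ 2) (∏ m ∈ s, m) := Nat.Coprime.pow_left 2
      (Nat.Coprime.prod_right fun m hm => (Nat.coprime_primes hl (hsp m hm)).mpr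
        fun e => hls (e ▸ hm))
    rw [← hL0]
    exact ⟨fun hd => ((hcop.pow_right 2).dvd_of_dvd_mul_right hd).trans (dvd_mul_right _ _),
      fun hd => (hcop.dvd_of_dvd_mul_right hd).trans (dvd_mul_right _ _)⟩
  have hnon : ∀ i, (∀ j, j ≠ i → TrivialAt Ψ hΨ hneg S ev j) → ¬ TrivialAt Ψ hΨ hneg S ev i →
      ¬ ρ.IsUnipotentOnInertiaAt (q i) := by
    intro i hothers hi
    have hmem : q i ∈ s := (hins i).mpr fun ht => hi ((htriv i).mpr ht)
    have hseq : s = {q i} := by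
      refine Finset.eq_singleton_iff_unique_mem.mpr ⟨hmem, fun l hl => ?_⟩
      obtain ⟨j, rfl⟩ := hs l hl
      by_contra hne
      exact (hins j).mp hl ((htriv j).mp (hothers j fun e => hne (e ▸ rfl)))
    have hN' : L0 * q i = N := by rw [← hL0, hseq, Finset.prod_singleton]
    subst hseq
    simp only [Finset.prod_singleton] at hneb hop
    refine not_unipotent_of_single S hpS hNS hp0 hinjR jC hjC ρ (h.prime i) (hqp i) (hsn _ hmem)
      hN' (ψ (q i)) (hψ2 _ hmem) (heven _ hmem) x hneb hxcl hx0 av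
      (fun ℓ _ hℓN hℓ hℓS => ?_) fun ℓ hℓ hℓS B hB σ hσ => ?_
    · rw [hop ℓ hℓ hℓS hℓN, hav ℓ hℓ hℓS, hjev]
    · rw [hfrob ℓ hℓ hℓS B hB σ hσ, hav ℓ hℓ hℓS, hev]
  let H : Attach.HeckeRep (L0 * (∏ l ∈ s, l) ^ 2) (↑S : Set ℕ) R R :=
    { π := (algebraMap C0 R).comp θ
      ρ := ρ
      charpoly_frob := hρ
      residue_surjective := fun z => residue_surjective (R := R) z
      residual_absIrr := hirr }
  refine ⟨{ R := R, inj := hinjR.comp hinjC, ev := ev, ev_idem := hev_e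
            level := L0 * (∏ l ∈ s, l) ^ 2
            level_mem := hLS, dvd_iff := hdvdN, sq_dvd := hsq, H := H
            π_T := fun ℓ hℓ hℓS => by
              show algebraMap C0 R (θ _) = _
              rw [hθ ℓ hℓ (fun hd => hℓS (hLS ℓ hℓ hd)) hℓS, hav ℓ hℓ hℓS, hev]
            unramified := fun l hl hlN hlp => hρu l hl (fun hd => hlN ((hdvdN l hl).mp hd)) hlp
            not_unipotent := hnon }, fun z => ?_⟩
  rw [hev_zero]
  exact ⟨fun h0 => (congrArg (HasExtEigen (psiCast Ψ O K).toAddMonoidHom φ z.1.1) h0).mp (hval z),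
    fun h0 => (hval z).unique hφ0 hspan h0⟩

omit [Finite (ResidueField O)] in
include h in
/-- Finitely many common eigenvectors detect the operators on the part at a system. -/
theorem exists_eigenSet (K : Type) [Field K] [CharZero K] [IsAlgClosed K] [Algebra O K]
    (hinjK : Function.Injective (algebraMap O K)) :
    ∃ b : Set (clHoms K (GammaPsi Ψ) K), b.Finite ∧
      (∀ v ∈ b, v ∈ idemSpan O Ψ hΨ hneg S a K ∧ v ≠ 0 ∧
        ∀ i, ∃ c : K, goodOps hΨ hneg i v = c • v) ∧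
      ∀ (f : Module.End O (clHoms O (GammaPsi Ψ) O)) (X : Module.End K (clHoms K (GammaPsi Ψ) K)),
        (∀ w, psiCast Ψ O K (f w) = X (psiCast Ψ O K w)) →
        ((∀ v ∈ b, X v = 0) ↔
          ∀ w, (levelIdem O Ψ hΨ hneg (goodSet S) a).1.1 w = w → f w = 0) := by
  obtain ⟨hfree, hfinM⟩ := free_clHoms (K := GammaPsi Ψ) hneg K
  have := hfree
  have := hfinM
  set W := idemSpan O Ψ hΨ hneg S a K
  set s := {v | v ∈ W ∧ ∀ i, ∃ c : K, goodOps hΨ hneg i v = c • v}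
  have hW : W ≤ Submodule.span K s :=
    h.le_span_eigen hΨ hneg W (idemSpan_stable Ψ hΨ hneg S a K)
  obtain ⟨b, hbs, hbspan, hbli⟩ := exists_linearIndependent K s
  have : Finite b := hbli.finite
  refine ⟨b, Set.toFinite b, fun v hv => ⟨(hbs hv).1, hbli.ne_zero ⟨v, hv⟩, (hbs hv).2⟩,
    fun f X hX => ⟨fun hx w hw => ?_, fun hx v hv => ?_⟩⟩
  · have hbW : psiCast Ψ O K w ∈ Submodule.span K b := by
      rw [hbspan]
      exact hW (Submodule.subset_span ⟨w, hw, rfl⟩)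
    refine psiCast_injective Ψ O K hinjK ?_
    rw [hX, map_zero]
    exact LinearMap.eqOn_span (g := (0 : Module.End K (clHoms K (GammaPsi Ψ) K)))
      (fun u hu => hx u hu) hbW
  · exact LinearMap.eqOn_span (g := (0 : Module.End K (clHoms K (GammaPsi Ψ) K))) (by
      rintro _ ⟨w, hw, rfl⟩
      exact (hX w).symm.trans (by rw [hx w hw, map_zero]; rfl)) (hbs hv).1

omit [IsDomain O] [IsDiscreteValuationRing O] [IsAdicComplete (maximalIdeal O) O]
  [Finite (ResidueField O)] [CharZero O] [Fact p.Prime] [NeZero N] in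
/-- An extension of an operator takes an eigenvector in the span to its eigenvalue times it. -/
theorem ext_apply_eq_smul (K : Type) [Field K] [Algebra O K] {v : clHoms K (GammaPsi Ψ) K}
    (hv : v ∈ Submodule.span K (Set.range (psiCast Ψ O K).toAddMonoidHom))
    {f : Module.End O (clHoms O (GammaPsi Ψ) O)} {X : Module.End K (clHoms K (GammaPsi Ψ) K)}
    (hX : ∀ w, psiCast Ψ O K (f w) = X (psiCast Ψ O K w)) {c : K}
    (hc : HasExtEigen (psiCast Ψ O K).toAddMonoidHom v f c) : X v = c • v := by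
  obtain ⟨Y, hY, hYv⟩ := hc
  rw [← hYv]
  exact LinearMap.eqOn_span (R := K) (by rintro _ ⟨u, rfl⟩; exact (hX u).symm.trans (hY u)) hv

include h hpS hqp hp habs hbar in
/-- **The points are jointly injective on the part at the residual system.** -/
theorem exists_twPoints :
    ∃ (κ : Type) (_ : Fintype κ) (P : κ → TWPoint q Ψ hΨ hneg S hNS a),
      ∀ x : levelAlg O Ψ hΨ hneg (goodSet S), (∀ j, (P j).ev x = 0) ↔
        ∀ w, (levelIdem O Ψ hΨ hneg (goodSet S) a).1.1 w = w → x.1.1 w = 0 := by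
  classical
  let K := AlgebraicClosure (FractionRing O)
  have hinjK : Function.Injective (algebraMap O K) := injective_algebraMap_fracClosure O
  have : CharZero K := charZero_of_injective_algebraMap hinjK
  obtain ⟨b, hbfin, hb, hdet⟩ := exists_eigenSet Ψ h hΨ hneg S a K hinjK
  have := hbfin.to_subtype
  choose P hP using fun v : b => exists_twPoint_of_eigen Ψ h hΨ hneg S hpS hqp hNS a hp habs hbar
    K v.1 (hb v.1 v.2).1 (hb v.1 v.2).2.1 (hb v.1 v.2).2.2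
  refine ⟨b, Fintype.ofFinite b, P, fun x => ?_⟩
  obtain ⟨X, hX⟩ := exists_ext Ψ hΨ hneg S K x
  refine Iff.trans ?_ (hdet x.1.1 X hX)
  refine ⟨fun hx v hv => ?_, fun hx v =>
    (hP v x).mpr ⟨X, hX, (hx v v.2).trans (zero_smul K _).symm⟩⟩
  rw [ext_apply_eq_smul Ψ K (Submodule.span_mono (Set.image_subset_range _ _) (hb v hv).1) hX
    ((hP ⟨v, hv⟩ x).mp (hx ⟨v, hv⟩)), zero_smul]

end Fermat.Agent.LevelLowering

end
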