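import Fermat.Agent.LevelLowering.ExtEigen
import Fermat.Agent.LevelLowering.TWDiamond
import Fermat.Agent.LevelLowering.TWPoint

/-!
# An eigencharacter at a character of the diamonds has the kernel of a point

If the algebra in coordinates has the common kernel of finitely many points, an eigencharacter of
it (or of a subalgebra) at a character `φ` of the diamonds vanishes where one of the points does;
the point is trivial at `q i` exactly when `φ (X i) = 0`.
-/

noncomputable section

namespace Fermat.Agent.LevelLowering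

open scoped MatrixGroups
open CongruenceSubgroup IsLocalRing Polynomial Fermat.Agent.Grp Fermat.Agent.Ihara

variable {p r : ℕ} [Fact p.Prime] {lv : Fin r → ℕ}

/-- The component at `i` is generated by the generator. -/
lemma diaIncl_eq_diaGen_pow (i : Fin r) (x : Multiplicative (ZMod (p ^ lv i))) :
    diaIncl i x = diaGen p lv i ^ (Multiplicative.toAdd x).val := by
  have h : x = Multiplicative.ofAdd (1 : ZMod (p ^ lv i)) ^ (Multiplicative.toAdd x).val := by
    apply Multiplicative.toAdd.injective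
    rw [toAdd_pow, toAdd_ofAdd, nsmul_one, ZMod.natCast_zmod_val]
  conv_lhs => rw [h, map_pow]
  rfl

/-- Characters with the same kernel take the value one together. -/
lemma eq_one_iff_of_ker {B K R : Type*} [CommRing B] [CommRing K] [CommRing R] (lam : B →+* K)
    (ψ : B →+* R) (h : ∀ b, lam b = 0 ↔ ψ b = 0) (x : B) : lam x = 1 ↔ ψ x = 1 := by
  have := h (x - 1)
  rwa [map_sub, map_sub, map_one, map_one, sub_eq_zero, sub_eq_zero] at this

variable {O : Type} [CommRing O] [IsDomain O] [IsDiscreteValuationRing O]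
  [IsAdicComplete (maximalIdeal O) O] [Finite (ResidueField O)] [IsAddTorsionFree O]
  {q : Fin r → ℕ} {N : ℕ} [NeZero N] {Ψ : (ZMod N)ˣ →* DiaGroup p lv}
  {hΨ : Function.Surjective Ψ} {hneg : (-1 : SL(2, ℤ)) ∈ GammaPsi Ψ} {S : Finset ℕ}
  {hNS : ∀ l : ℕ, l.Prime → l ∣ N → l ∈ S} {a : Nat.Primes → ResidueField O}
  {κ : Type} [Fintype κ] (P : κ → TWPoint q Ψ hΨ hneg S hNS a) {d : ℕ}
  (act : levelAlg O Ψ hΨ hneg (goodSet S) →ₐ[O]
    Matrix (Fin d) (Fin d) (MvPowerSeries (Fin r) O ⧸ diamondIdeal (𝒪 := O) p lv))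
  (hdia : ∀ δ, act (levelElt O Ψ hΨ hneg (goodSet S) (.inr δ)) =
    Matrix.scalar (Fin d) (diaClass (O := O) δ))
  (hker : ∀ x, (∀ j, (P j).ev x = 0) ↔ act x = 0)
  {K : Type} [Field K] [IsAlgClosed K] [Algebra O K] (hinj : Function.Injective (algebraMap O K))
  (φ : (MvPowerSeries (Fin r) O ⧸ diamondIdeal (𝒪 := O) p lv) →ₐ[O] K)

include hdia hker hinj

omit [Finite (ResidueField O)] [IsAddTorsionFree O] in
/-- An eigencharacter on the whole algebra has the kernel of a point. -/
theorem exists_point_of_eigenchar (e : levelAlg O Ψ hΨ hneg (goodSet S) →+* K)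
    (hw : ∃ w : Fin d → K, w ≠ 0 ∧ ∀ z, ((act z).map φ).mulVec w = e z • w) :
    ∃ j, (∀ z, e z = 0 ↔ (P j).ev z = 0) ∧
      ∀ i, φ (diaX O p lv i) = 0 ↔ TrivialAt Ψ hΨ hneg S (P j).ev i := by
  classical
  obtain ⟨w, hw0, hw⟩ := hw
  have : Algebra.IsIntegral O (levelAlg O Ψ hΨ hneg (goodSet S)) :=
    haveI := finite_levelAlg O Ψ hΨ hneg (goodSet S)
    Algebra.IsIntegral.of_finite O _
  have huniq : ∀ {u v : K}, u • w = v • w → u = v := fun h => smul_left_injective K hw0 h
  let θ : levelAlg O Ψ hΨ hneg (goodSet S) →ₐ[O] K :=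
    { e with
      commutes' := fun o => huniq (by
        show e (algebraMap O _ o) • w = _
        rw [← hw, AlgHom.commutes, Matrix.algebraMap_eq_diagonal,
          Matrix.diagonal_map (map_zero φ)]
        ext i
        simp [Matrix.mulVec_diagonal]) }
  have hθ : ∀ z, θ z = e z := fun _ => rfl
  obtain ⟨j, hj⟩ := exists_ker_eq hinj (fun j => (P j).inj) (fun j => (P j).ev) θ fun z hz =>
    huniq (by
      rw [hθ, ← hw, (hker z).mp hz, Matrix.map_zero _ (map_zero φ), Matrix.zero_mulVec, zero_smul])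
  have hone : ∀ δ, φ (diaClass δ) = 1 ↔
      (P j).ev (levelElt O Ψ hΨ hneg (goodSet S) (.inr δ)) = 1 := fun δ => by
    have hd : θ (levelElt O Ψ hΨ hneg (goodSet S) (.inr δ)) = φ (diaClass δ) := huniq (by
      rw [hθ, ← hw, hdia, Matrix.scalar_apply, Matrix.diagonal_map (map_zero φ)]
      ext i
      simp [Matrix.mulVec_diagonal])
    rw [← hd]
    exact eq_one_iff_of_ker θ.toRingHom (P j).ev.toRingHom hj _
  refine ⟨j, hj, fun i => ?_⟩
  have hgen : diaClass (diaGen p lv i) =
      (1 : MvPowerSeries (Fin r) O ⧸ diamondIdeal (𝒪 := O) p lv) + diaX O p lv i := by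
    rw [diaClass, toDiaQuot_gen]
  constructor
  · intro h x
    refine (hone _).mp ?_
    have hg : φ (diaClass (diaGen p lv i)) = 1 := by rw [hgen, map_add, map_one, h, add_zero]
    rw [diaIncl_eq_diaGen_pow, diaClass, map_pow, map_pow, map_pow]
    rw [diaClass] at hg
    rw [hg, one_pow]
  · intro h
    have h1 := (hone _).mpr (h (Multiplicative.ofAdd 1))
    rw [show diaIncl i (Multiplicative.ofAdd 1) = diaGen p lv i from rfl, hgen, map_add,
      map_one] at h1
    exact add_eq_left.mp h1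

variable {B : Subalgebra O
    (Matrix (Fin d) (Fin d) (MvPowerSeries (Fin r) O ⧸ diamondIdeal (𝒪 := O) p lv))}
  (hB : B ≤ act.range)
  (ψ : ∀ j, B → (P j).R) (hψ : ∀ j x (hx : act x ∈ B), ψ j ⟨act x, hx⟩ = (P j).ev x)
  (lam : B → K) {w : Fin d → K} (hw : w ≠ 0)
  (hlam : ∀ t : B, ((t : Matrix (Fin d) (Fin d) _).map φ).mulVec w = lam t • w)

include hB hψ hw hlam

omit [Finite (ResidueField O)] [IsAddTorsionFree O] in
/-- **The point of an eigencharacter** of a subalgebra of the coordinates. -/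
theorem exists_point_of_eigen :
    ∃ j, (∀ t : B, lam t = 0 ↔ ψ j t = 0) ∧
      ∀ i, φ (diaX O p lv i) = 0 ↔ TrivialAt Ψ hΨ hneg S (P j).ev i := by
  classical
  choose z hz using fun t : B => hB t.2
  obtain ⟨c, hcv, hclam⟩ := exists_eigenChar_extend (φ.mapMatrix.comp act).toRingHom z lam hw
    fun t => (congrArg (fun M : Matrix (Fin d) (Fin d) _ => (M.map φ).mulVec w) (hz t)).trans
      (hlam t)
  obtain ⟨j, hj, htriv⟩ := exists_point_of_eigenchar P act hdia hker hinj φ c hcv
  refine ⟨j, fun t => ?_, htriv⟩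
  have he : t = ⟨act (z t), (hz t).symm ▸ t.2⟩ := Subtype.ext (hz t).symm
  rw [← hclam t, he, hψ j, ← he]
  exact hj (z t)

end Fermat.Agent.LevelLowering

end
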