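import Mathlib.LinearAlgebra.Eigenspace.Triangularizable
import Mathlib.LinearAlgebra.FiniteDimensional.Lemmas
import Mathlib.LinearAlgebra.LinearIndependent.Lemmas
import Mathlib.LinearAlgebra.Matrix.Charpoly.Eigs
import Mathlib.RingTheory.Artinian.Module
import Mathlib.RingTheory.Ideal.GoingUp
import Mathlib.RingTheory.Ideal.Operations

/-!
# Extending operators

`ι : V → V'` is a semilinear change of coefficients `R → K` and `y ∈ V'` is in the span of its
image.  The operators of `V` that extend to `V'` with eigenvector `y` form a subalgebra, and the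
eigenvalue is a character of it.  Also: characters of a commutative algebra coming from roots of
characteristic polynomials, and comparison of the kernels of two characters.
-/

noncomputable section

namespace Fermat.Agent.LevelLowering

section Ext

variable {R K V V' : Type*} [CommRing R] [Field K] [Algebra R K] [AddCommGroup V] [Module R V]
  [AddCommGroup V'] [Module K V'] (ι : V →+ V')
  (hι : ∀ (r : R) v, ι (r • v) = algebraMap R K r • ι v) (y : V')

/-- `x` extends to `V'` with `y` an eigenvector of value `c`. -/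
def HasExtEigen (x : Module.End R V) (c : K) : Prop :=
  ∃ X : Module.End K V', (∀ v, ι (x v) = X (ι v)) ∧ X y = c • y

include hι in
/-- The operators with an eigenvalue at `y`. -/
def extEigenAlg : Subalgebra R (Module.End R V) where
  carrier := {x | ∃ c : K, HasExtEigen ι y x c}
  mul_mem' := by
    rintro a b ⟨c, A, hA, hAy⟩ ⟨d, B, hB, hBy⟩
    exact ⟨c * d, A * B, fun v => by rw [Module.End.mul_apply, hA, hB, Module.End.mul_apply],
      by rw [Module.End.mul_apply, hBy, map_smul, hAy, smul_smul, mul_comm d c]⟩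
  add_mem' := by
    rintro a b ⟨c, A, hA, hAy⟩ ⟨d, B, hB, hBy⟩
    exact ⟨c + d, A + B, fun v => by rw [LinearMap.add_apply, map_add, hA, hB, LinearMap.add_apply],
      by rw [LinearMap.add_apply, hAy, hBy, add_smul]⟩
  algebraMap_mem' r := ⟨algebraMap R K r, algebraMap R K r • 1, fun v => by
    rw [Module.algebraMap_end_apply, hι, LinearMap.smul_apply, Module.End.one_apply],
    by rw [LinearMap.smul_apply, Module.End.one_apply]⟩

variable {ι hι y}

omit [Algebra R K] in
/-- Eigenvalues are unique. -/
theorem HasExtEigen.unique (hy0 : y ≠ 0) (hy : y ∈ Submodule.span K (Set.range ι))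
    {x : Module.End R V} {c d : K} (h1 : HasExtEigen ι y x c) (h2 : HasExtEigen ι y x d) :
    c = d := by
  obtain ⟨A, hA, hAy⟩ := h1
  obtain ⟨B, hB, hBy⟩ := h2
  have h : A y = B y :=
    LinearMap.eqOn_span (R := K) (by rintro _ ⟨v, rfl⟩; rw [← hA, ← hB]) hy
  exact smul_left_injective K hy0 (hAy.symm.trans (h.trans hBy))

omit [Algebra R K] in
/-- An operator killing a set spanning `y` has eigenvalue zero. -/
theorem HasExtEigen.eq_zero (hy0 : y ≠ 0) {s : Set V} (hy : y ∈ Submodule.span K (ι '' s))
    {x : Module.End R V} {c : K} (h : HasExtEigen ι y x c) (hx : ∀ v ∈ s, x v = 0) : c = 0 := by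
  obtain ⟨A, hA, hAy⟩ := h
  have h : A y = (0 : Module.End K V') y :=
    LinearMap.eqOn_span (R := K) (by
      rintro _ ⟨v, hv, rfl⟩
      rw [← hA, hx v hv, map_zero, LinearMap.zero_apply]) hy
  rw [hAy, LinearMap.zero_apply] at h
  exact (smul_eq_zero.mp h).resolve_right hy0

/-- The eigenvalue as a character. -/
def extEigenVal (hy0 : y ≠ 0) (hy : y ∈ Submodule.span K (Set.range ι)) :
    extEigenAlg ι hι y →ₐ[R] K where
  toFun x := x.2.choose
  map_one' := HasExtEigen.unique hy0 hy (1 : extEigenAlg ι hι y).2.choose_spec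
    ⟨1, fun _ => rfl, by rw [Module.End.one_apply, one_smul]⟩
  map_mul' a b := HasExtEigen.unique hy0 hy (a * b).2.choose_spec (by
    obtain ⟨A, hA, hAy⟩ := a.2.choose_spec
    obtain ⟨B, hB, hBy⟩ := b.2.choose_spec
    exact ⟨A * B, fun v => by
        rw [Subalgebra.coe_mul, Module.End.mul_apply, hA, hB, Module.End.mul_apply],
      by rw [Module.End.mul_apply, hBy, map_smul, hAy, smul_smul, mul_comm]⟩)
  map_zero' := HasExtEigen.unique hy0 hy (0 : extEigenAlg ι hι y).2.choose_spec
    ⟨0, fun v => by simp, by rw [LinearMap.zero_apply, zero_smul]⟩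
  map_add' a b := HasExtEigen.unique hy0 hy (a + b).2.choose_spec (by
    obtain ⟨A, hA, hAy⟩ := a.2.choose_spec
    obtain ⟨B, hB, hBy⟩ := b.2.choose_spec
    exact ⟨A + B, fun v => by
        rw [Subalgebra.coe_add, LinearMap.add_apply, map_add, hA, hB, LinearMap.add_apply],
      by rw [LinearMap.add_apply, hAy, hBy, add_smul]⟩)
  commutes' r := HasExtEigen.unique hy0 hy (algebraMap R (extEigenAlg ι hι y) r).2.choose_spec
    ⟨algebraMap R K r • 1, fun v => by
      rw [Subalgebra.coe_algebraMap, Module.algebraMap_end_apply, hι, LinearMap.smul_apply,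
        Module.End.one_apply], by rw [LinearMap.smul_apply, Module.End.one_apply]⟩

/-- The value of an element at the extended eigenvector. -/
theorem hasExtEigen_val (hy0 : y ≠ 0) (hy : y ∈ Submodule.span K (Set.range ι))
    (x : extEigenAlg ι hι y) : HasExtEigen ι y x.1 (extEigenVal hy0 hy x) :=
  x.2.choose_spec

end Ext

/-- A character vanishing on the common kernel of finitely many characters has the kernel of one
of them. -/
theorem exists_ker_eq {R A : Type*} [CommRing R] [CommRing A] [Algebra R A]
    [Algebra.IsIntegral R A] {K : Type*} [CommRing K] [IsDomain K] [Algebra R K]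
    (hinj : Function.Injective (algebraMap R K)) {κ : Type*} [Fintype κ] {F : κ → Type*}
    [∀ j, CommRing (F j)] [∀ j, IsDomain (F j)] [∀ j, Algebra R (F j)]
    (hinjF : ∀ j, Function.Injective (algebraMap R (F j))) (ev : ∀ j, A →ₐ[R] F j)
    (θ : A →ₐ[R] K) (h : ∀ a, (∀ j, ev j a = 0) → θ a = 0) :
    ∃ j, ∀ a, θ a = 0 ↔ ev j a = 0 := by
  classical
  have hp : (RingHom.ker θ).IsPrime := RingHom.ker_isPrime _
  have hle : (Finset.univ : Finset κ).inf (fun j => RingHom.ker (ev j)) ≤ RingHom.ker θ :=
      fun a ha =>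
    h a fun j => (Submodule.mem_finsetInf.mp ha) j (Finset.mem_univ j)
  obtain ⟨j, -, hj⟩ := (hp.inf_le').mp hle
  refine ⟨j, fun a => ⟨fun ha => ?_, fun ha => hj ha⟩⟩
  have : (RingHom.ker (ev j)).IsPrime := RingHom.ker_isPrime _
  by_contra hne
  refine (Ideal.IsIntegral.comap_lt_comap (R := R) (lt_of_le_not_ge hj fun hge =>
    hne (hge ha))).ne ?_
  have h1 : (RingHom.ker θ).comap (algebraMap R A) = ⊥ :=
    (Submodule.eq_bot_iff _).mpr fun r hr => hinj (by rw [map_zero, ← θ.commutes]; exact hr)
  have h2 : (RingHom.ker (ev j)).comap (algebraMap R A) = ⊥ :=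
    (Submodule.eq_bot_iff _).mpr fun r hr => hinjF j (by rw [map_zero, ← (ev j).commutes]; exact hr)
  rw [h1, h2]

end Fermat.Agent.LevelLowering

end
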