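import Mathlib.Algebra.CharP.Algebra
import Mathlib.Algebra.CharP.Lemmas
import Mathlib.GroupTheory.PGroup
import Mathlib.LinearAlgebra.Basis.VectorSpace
import Mathlib.LinearAlgebra.Dimension.Constructions
import Mathlib.LinearAlgebra.FiniteDimensional.Lemmas

/-!
# Freeness over the group algebra of a `p`-group

Over a field of characteristic `p`, a representation of a finite abelian `p`-group whose
invariants are the independent norms of a family of vectors is free on that family.
-/

namespace Fermat.Agent.LevelLowering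

variable {k : Type*} [Field k] {Δ : Type*} [CommGroup Δ] [Fintype Δ]
variable {V : Type*} [AddCommGroup V] [Module k V] (ρ : Δ →* Module.End k V)

/-- The norm of a representation of a finite group. -/
def normEnd : Module.End k V := ∑ g, ρ g

theorem normEnd_apply (v : V) : normEnd ρ v = ∑ g, ρ g v := by simp [normEnd]

/-- The orbit map of a family of vectors. -/
def orbitSum {ι : Type*} [Fintype ι] (v : ι → V) : (ι → Δ → k) →ₗ[k] V where
  toFun c := ∑ i, ∑ g, c i g • ρ g (v i)
  map_add' c c' := by simp [add_smul, Finset.sum_add_distrib]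
  map_smul' t c := by simp [Finset.smul_sum, smul_smul]

theorem orbitSum_apply {ι : Type*} [Fintype ι] (v : ι → V) (c : ι → Δ → k) :
    orbitSum ρ v c = ∑ i, ∑ g, c i g • ρ g (v i) := rfl

/-- Translation by `g` corresponds to `ρ g`. -/
theorem orbitSum_shift {ι : Type*} [Fintype ι] (v : ι → V) (c : ι → Δ → k) (g : Δ) :
    ρ g (orbitSum ρ v c) = orbitSum ρ v (fun i h => c i (g⁻¹ * h)) := by
  simp only [orbitSum_apply, map_sum, map_smul]
  refine Finset.sum_congr rfl fun i _ => ?_
  rw [← Equiv.sum_comp (Equiv.mulLeft g) (fun h => c i (g⁻¹ * h) • ρ h (v i))]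
  simp [map_mul]

variable {p : ℕ} [Fact p.Prime] [CharP k p]

omit [Fintype Δ] in
/-- A `p`-group acting in characteristic `p` fixes a nonzero vector in every nonzero stable
subspace. -/
theorem exists_ne_zero_fixed [Finite Δ] (hΔ : IsPGroup p Δ) (U : Submodule k V)
    (hU : ∀ g, ∀ v ∈ U, ρ g v ∈ U) (hne : U ≠ ⊥) :
    ∃ v ∈ U, v ≠ 0 ∧ ∀ g, ρ g v = v := by
  classical
  have : Fintype Δ := Fintype.ofFinite Δ
  suffices h : ∀ s : Finset Δ, ∃ v ∈ U, v ≠ 0 ∧ ∀ g ∈ s, ρ g v = v by
    obtain ⟨v, h1, h2, h3⟩ := h Finset.univ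
    exact ⟨v, h1, h2, fun g => h3 g (Finset.mem_univ g)⟩
  intro s
  induction s using Finset.induction_on with
  | empty =>
    obtain ⟨v, h1, h2⟩ := Submodule.exists_mem_ne_zero_of_ne_bot hne
    exact ⟨v, h1, h2, by simp⟩
  | insert g s _ ih =>
    obtain ⟨v, hv, hv0, hfix⟩ := ih
    obtain ⟨a, ha⟩ := hΔ g
    have hnil : ((ρ g - 1) ^ p ^ a) v = 0 := by
      have : CharP (Module.End k V) p ∨ Subsingleton (Module.End k V) := by
        rcases subsingleton_or_nontrivial (Module.End k V) with h | h
        · exact Or.inr h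
        · exact Or.inl (charP_of_injective_ringHom (algebraMap k (Module.End k V)).injective p)
      rcases this with h | h
      · rw [sub_pow_char_pow_of_commute _ _ (Commute.one_right _), ← map_pow, ha, map_one, one_pow,
          sub_self, LinearMap.zero_apply]
      · rw [Subsingleton.elim ((ρ g - 1) ^ p ^ a) 0, LinearMap.zero_apply]
    have hexn : ∃ n : ℕ, ((ρ g - 1) ^ n) v = 0 := ⟨_, hnil⟩
    set n := Nat.find hexn with hn
    have hn0 : n ≠ 0 := fun h0 => hv0 (by
      have := Nat.find_spec hexn
      rw [← hn, h0] at this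
      simpa using this)
    obtain ⟨m, hm⟩ := Nat.exists_eq_succ_of_ne_zero hn0
    have key : ∀ i : ℕ, ((ρ g - 1) ^ i) v ∈ U ∧
        ∀ h ∈ s, ρ h (((ρ g - 1) ^ i) v) = ((ρ g - 1) ^ i) v := by
      intro i
      induction i with
      | zero => simpa using ⟨hv, hfix⟩
      | succ i hi =>
        rw [pow_succ', Module.End.mul_apply, LinearMap.sub_apply, Module.End.one_apply]
        refine ⟨U.sub_mem (hU g _ hi.1) hi.1, fun h hh => ?_⟩
        rw [map_sub, hi.2 h hh, ← Module.End.mul_apply, ← map_mul, mul_comm, map_mul,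
          Module.End.mul_apply, hi.2 h hh]
    refine ⟨((ρ g - 1) ^ m) v, (key m).1, Nat.find_min hexn (by omega), fun h hh => ?_⟩
    rcases Finset.mem_insert.mp hh with rfl | hh
    · have := Nat.find_spec hexn
      rw [← hn, hm, pow_succ', Module.End.mul_apply, LinearMap.sub_apply, Module.End.one_apply,
        sub_eq_zero] at this
      exact this
    · exact (key m).2 h hh

/-- A module whose invariants are the norms of `ι`-many vectors with independent norms is free on
these vectors. -/
theorem orbitSum_bijective {ι : Type*} [Fintype ι] (hΔ : IsPGroup p Δ) (v : ι → V)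
    (hli : LinearIndependent k fun i => normEnd ρ (v i))
    (hspan : ∀ w, (∀ g, ρ g w = w) → w ∈ Submodule.span k (Set.range fun i => normEnd ρ (v i))) :
    Function.Bijective (orbitSum ρ v) := by
  classical
  let σ : Δ →* Module.End k (ι → Δ → k) :=
    { toFun := fun g =>
        { toFun := fun c i h => c i (g⁻¹ * h)
          map_add' := fun _ _ => rfl
          map_smul' := fun _ _ => rfl }
      map_one' := by ext c i h; simp
      map_mul' := fun a b => by ext c i h; simp [mul_assoc] }
  have hinj : Function.Injective (orbitSum ρ v) := by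
    refine LinearMap.ker_eq_bot.mp ?_
    by_contra hne
    obtain ⟨c, hc, hc0, hfix⟩ := exists_ne_zero_fixed σ hΔ (LinearMap.ker (orbitSum ρ v))
      (fun g c hc => by
        rw [LinearMap.mem_ker] at hc ⊢
        show orbitSum ρ v (fun i h => c i (g⁻¹ * h)) = 0
        rw [← orbitSum_shift, hc, map_zero]) hne
    have hconst : ∀ i g, c i g = c i 1 := fun i g => by
      have := congrFun (congrFun (hfix g) i) g
      simpa [σ] using this.symm
    have hrel : ∑ i, c i 1 • normEnd ρ (v i) = 0 := by
      rw [LinearMap.mem_ker, orbitSum_apply] at hc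
      rw [← hc]
      refine Finset.sum_congr rfl fun i _ => ?_
      rw [normEnd_apply, Finset.smul_sum]
      exact Finset.sum_congr rfl fun g _ => by rw [hconst i g]
    refine hc0 (funext fun i => funext fun g => ?_)
    rw [hconst i g, Fintype.linearIndependent_iff.mp hli _ hrel i]
    rfl
  let W := Submodule.span k (Set.range fun i => normEnd ρ (v i))
  let b : Module.Basis ι k W := Module.Basis.span hli
  obtain ⟨l, hl⟩ := LinearMap.exists_extend b.equivFun.toLinearMap
  let Ψ : V →ₗ[k] ι → Δ → k := LinearMap.pi fun i => LinearMap.pi fun g =>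
    (LinearMap.proj i).comp (l.comp (ρ g⁻¹))
  have hΨ : Function.Injective Ψ := by
    refine LinearMap.ker_eq_bot.mp ?_
    by_contra hne
    obtain ⟨w, hw, hw0, hfix⟩ := exists_ne_zero_fixed ρ hΔ (LinearMap.ker Ψ) (fun g w hw => by
      rw [LinearMap.mem_ker] at hw ⊢
      funext i h
      have := congrFun (congrFun hw i) (g⁻¹ * h)
      simp only [Ψ, LinearMap.pi_apply, LinearMap.comp_apply, LinearMap.proj_apply,
        Pi.zero_apply] at this ⊢
      rw [← this, ← Module.End.mul_apply, ← map_mul]
      simp [mul_comm]) hne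
    have hwW : w ∈ W := hspan w hfix
    refine hw0 (congrArg Subtype.val (b.equivFun.injective (a₁ := ⟨w, hwW⟩) (a₂ := 0) ?_))
    rw [map_zero]
    funext i
    have h1 := congrFun (congrFun (LinearMap.mem_ker.mp hw) i) 1
    have h2 := LinearMap.congr_fun hl ⟨w, hwW⟩
    simp only [LinearMap.comp_apply, Submodule.subtype_apply, LinearEquiv.coe_coe] at h2
    rw [← h2]
    simpa [Ψ] using h1
  have : FiniteDimensional k V := Module.Finite.of_injective Ψ hΨ
  exact ⟨hinj, (LinearMap.injective_iff_surjective_of_finrank_eq_finrank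
    (le_antisymm (LinearMap.finrank_le_finrank_of_injective hinj)
      (LinearMap.finrank_le_finrank_of_injective hΨ))).mp hinj⟩

end Fermat.Agent.LevelLowering
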