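import Mathlib.Algebra.Module.Projective
import Mathlib.RingTheory.Finiteness.Basic
import Mathlib.RingTheory.LocalRing.ResidueField.Basic
import Mathlib.RingTheory.Nakayama
import Fermat.Agent.LevelLowering.FreeResidual

/-!
# Freeness over a local ring from residual freeness

A map of finite modules with projective target which is bijective residually is bijective. With
an idempotent on which `η` is invertible this lifts the residual freeness over the group algebra of
a `p`-group to freeness over `O[Δ]`.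
-/

namespace Fermat.Agent.LevelLowering

open IsLocalRing

variable {O : Type*} [CommRing O] [IsLocalRing O]

/-- A map of finite modules with projective target which is bijective residually is bijective. -/
theorem bijective_of_residual {F W : Type*} [AddCommGroup F] [Module O F] [Module.Finite O F]
    [AddCommGroup W] [Module O W] [Module.Finite O W] [Module.Projective O W] (Φ : F →ₗ[O] W)
    (hsurj : ∀ w, ∃ c, w - Φ c ∈ maximalIdeal O • (⊤ : Submodule O W))
    (hinj : ∀ c, Φ c ∈ maximalIdeal O • (⊤ : Submodule O W) →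
      c ∈ maximalIdeal O • (⊤ : Submodule O F)) :
    Function.Bijective Φ := by
  have hJ : maximalIdeal O ≤ Ideal.jacobson (⊥ : Ideal O) :=
    (IsLocalRing.jacobson_eq_maximalIdeal (⊥ : Ideal O) bot_ne_top).ge
  have hs : Function.Surjective Φ := by
    rw [← LinearMap.range_eq_top]
    refine top_le_iff.mp (Submodule.le_of_le_smul_of_le_jacobson_bot Module.Finite.fg_top hJ
      fun w _ => ?_)
    obtain ⟨c, hc⟩ := hsurj w
    exact Submodule.mem_sup.mpr ⟨Φ c, ⟨c, rfl⟩, w - Φ c, hc, add_sub_cancel _ _⟩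
  obtain ⟨s, hs'⟩ := Module.projective_lifting_property Φ LinearMap.id hs
  let q : F →ₗ[O] F := LinearMap.id - s.comp Φ
  have hq : ∀ c, Φ c = 0 → q c = c := fun c hc => by simp [q, hc]
  have hΦq : ∀ c, Φ (q c) = 0 := fun c => by
    have := LinearMap.congr_fun hs' (Φ c)
    simp only [LinearMap.comp_apply, LinearMap.id_apply] at this
    simp [q, this]
  have hbot : LinearMap.range q = ⊥ := by
    refine Submodule.eq_bot_of_le_smul_of_le_jacobson_bot (maximalIdeal O) _
      (Module.Finite.fg_top (R := O) (M := F) |>.map q |> fun h => by rwa [← Submodule.map_top])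
        ?_ hJ
    rintro _ ⟨c, rfl⟩
    have hm : q c ∈ maximalIdeal O • (⊤ : Submodule O F) := hinj _ (by rw [hΦq]; exact zero_mem _)
    have h2 : q (q c) ∈ (maximalIdeal O • (⊤ : Submodule O F)).map q := ⟨_, hm, rfl⟩
    rw [Submodule.map_smul'', Submodule.map_top, hq _ (hΦq c)] at h2
    exact h2
  refine ⟨LinearMap.ker_eq_bot.mp (eq_bot_iff.mpr fun c hc => ?_), hs⟩
  rw [← hq c (LinearMap.mem_ker.mp hc), ← hbot]
  exact ⟨c, rfl⟩

variable {Δ : Type*} [CommGroup Δ] [Fintype Δ]
variable {V V₀ : Type*} [AddCommGroup V] [Module O V] [AddCommGroup V₀] [Module O V₀]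
variable {V₁ V₀₁ : Type*} [AddCommGroup V₁] [Module O V₁] [Module (ResidueField O) V₁]
  [IsScalarTower O (ResidueField O) V₁] [AddCommGroup V₀₁] [Module O V₀₁]
  [Module (ResidueField O) V₀₁] [IsScalarTower O (ResidueField O) V₀₁]

/-- The residual image of the fixed space of an idempotent. -/
def residualPart (π : V →ₗ[O] V₁) (e : Module.End O V) : Submodule (ResidueField O) V₁ where
  carrier := {y | ∃ w, π (e w) = y}
  zero_mem' := ⟨0, by simp⟩
  add_mem' := by rintro _ _ ⟨a, rfl⟩ ⟨b, rfl⟩; exact ⟨a + b, by simp⟩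
  smul_mem' := by
    rintro t _ ⟨a, rfl⟩
    obtain ⟨r, rfl⟩ := residue_surjective (R := O) t
    exact ⟨r • a, by rw [map_smul, map_smul, ← IsLocalRing.ResidueField.algebraMap_eq,
      algebraMap_smul]⟩

theorem mem_residualPart {π : V →ₗ[O] V₁} {e : Module.End O V} {y : V₁} :
    y ∈ residualPart π e ↔ ∃ w, π (e w) = y := Iff.rfl

/-- An idempotent moves a residual element of the part to itself. -/
theorem residual_idem {π : V →ₗ[O] V₁} {e : Module.End O V} (he : e * e = e)
    (hπk : LinearMap.ker π = maximalIdeal O • (⊤ : Submodule O V)) {x : V} {y : V₁}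
    (hy : y ∈ residualPart π e) (hx : π x = y) : π (e x) = y := by
  obtain ⟨w, rfl⟩ := hy
  have h : x - e w ∈ maximalIdeal O • (⊤ : Submodule O V) := by
    rw [← hπk, LinearMap.mem_ker, map_sub, hx, sub_self]
  have h2 : e (x - e w) ∈ maximalIdeal O • (⊤ : Submodule O V) := by
    have := Submodule.mem_map_of_mem (f := e) h
    rw [Submodule.map_smul''] at this
    exact Submodule.smul_mono le_rfl le_top this
  rw [← hπk, LinearMap.mem_ker, map_sub, ← Module.End.mul_apply, he, map_sub, sub_eq_zero] at h2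
  exact h2

theorem mem_smul_top_of_coe {M : Type*} [AddCommGroup M] [Module O M] (f : Module.End O M)
    (hf : f * f = f) (z : LinearMap.range f)
    (hz : (z : M) ∈ maximalIdeal O • (⊤ : Submodule O M)) :
    z ∈ maximalIdeal O • (⊤ : Submodule O (LinearMap.range f)) := by
  obtain ⟨x, hx⟩ := z.2
  have h2 : f.rangeRestrict (z : M) ∈ (maximalIdeal O • (⊤ : Submodule O M)).map f.rangeRestrict :=
    Submodule.mem_map_of_mem hz
  rw [Submodule.map_smul''] at h2
  have h3 : f.rangeRestrict (z : M) = z := Subtype.ext (by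
    show f (z : M) = z
    rw [← hx, ← Module.End.mul_apply, hf])
  rw [h3] at h2
  exact Submodule.smul_mono le_rfl le_top h2

theorem coe_mem_smul_top {M : Type*} [AddCommGroup M] [Module O M] (f : Module.End O M)
    (z : LinearMap.range f) (hz : z ∈ maximalIdeal O • (⊤ : Submodule O (LinearMap.range f))) :
    (z : M) ∈ maximalIdeal O • (⊤ : Submodule O M) := by
  have h2 := Submodule.mem_map_of_mem (f := (LinearMap.range f).subtype) hz
  rw [Submodule.map_smul''] at h2
  exact Submodule.smul_mono le_rfl le_top h2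

omit [IsLocalRing O] in
/-- The image of an idempotent of a projective module is projective. -/
theorem projective_range_of_idem {M : Type*} [AddCommGroup M] [Module O M] [Module.Projective O M]
    (f : Module.End O M) (hf : f * f = f) : Module.Projective O (LinearMap.range f) :=
  Module.Projective.of_split (LinearMap.range f).subtype f.rangeRestrict
    (LinearMap.ext fun ⟨_, z, rfl⟩ => Subtype.ext (by
      show f (f z) = f z
      rw [← Module.End.mul_apply, hf]))

/-- A vector with coordinates in the maximal ideal is in `𝔪` times the free module. -/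
theorem mem_smul_top_of_forall_mem {ι : Type*} [Fintype ι] (c : ι → O)
    (hc : ∀ i, c i ∈ maximalIdeal O) :
    c ∈ maximalIdeal O • (⊤ : Submodule O (ι → O)) := by
  classical
  rw [pi_eq_sum_univ c]
  exact Submodule.sum_mem _ fun i _ => Submodule.smul_mem_smul (hc i) trivial

/-- A linear map surjective on a finite dimensional subspace is injective on it. -/
theorem eq_zero_of_surjOn {k M : Type*} [Field k] [AddCommGroup M] [Module k M]
    [FiniteDimensional k M]
    (f : Module.End k M) (U : Submodule k M) (hf : ∀ x ∈ U, f x ∈ U)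
    (hs : ∀ x ∈ U, ∃ y ∈ U, f y = x) {x : M} (hx : x ∈ U) (h0 : f x = 0) : x = 0 := by
  have hsurj : Function.Surjective (f.restrict hf) := fun ⟨z, hz⟩ => by
    obtain ⟨y, hy, rfl⟩ := hs z hz
    exact ⟨⟨y, hy⟩, rfl⟩
  exact congrArg Subtype.val ((LinearMap.injective_iff_surjective.mpr hsurj)
    (a₁ := ⟨x, hx⟩) (a₂ := 0) (Subtype.ext (by simp [LinearMap.restrict_apply, h0])))

/-- Everything that the localised freeness argument uses. -/
structure FreeData (O : Type*) [CommRing O] [IsLocalRing O] (Δ : Type*) [CommGroup Δ] [Fintype Δ]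
    (V V₀ V₁ V₀₁ : Type*) [AddCommGroup V] [Module O V] [AddCommGroup V₀] [Module O V₀]
    [AddCommGroup V₁] [Module O V₁] [Module (ResidueField O) V₁]
    [AddCommGroup V₀₁] [Module O V₀₁] [Module (ResidueField O) V₀₁] where
  /-- The action of `Δ` on the upper module. -/
  ρ : Δ →* Module.End O V
  /-- Restriction, from the lower module to the upper one. -/
  res : V₀ →ₗ[O] V
  /-- Corestriction, with `res ∘ cor` the sum over `Δ`. -/
  cor : V →ₗ[O] V₀
  /-- The operator on the upper module, commuting with `Δ`. -/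
  η : Module.End O V
  /-- The operator on the lower module. -/
  η₀ : Module.End O V₀
  /-- Reduction of the upper module modulo the maximal ideal. -/
  π : V →ₗ[O] V₁
  /-- Reduction of the lower module modulo the maximal ideal. -/
  π₀ : V₀ →ₗ[O] V₀₁
  /-- The residual action of `Δ`. -/
  ρ' : Δ →* Module.End (ResidueField O) V₁
  /-- The residual restriction. -/
  res' : V₀₁ →ₗ[ResidueField O] V₁
  /-- The residual corestriction. -/
  cor' : V₁ →ₗ[ResidueField O] V₀₁
  /-- The residual operator on the upper module. -/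
  η' : Module.End (ResidueField O) V₁
  /-- The residual operator on the lower module. -/
  η₀' : Module.End (ResidueField O) V₀₁
  π_surj : Function.Surjective π
  π₀_surj : Function.Surjective π₀
  ker_π : LinearMap.ker π = maximalIdeal O • (⊤ : Submodule O V)
  ker_π₀ : LinearMap.ker π₀ = maximalIdeal O • (⊤ : Submodule O V₀)
  π_ρ : ∀ g x, π (ρ g x) = ρ' g (π x)
  π_res : ∀ x, π (res x) = res' (π₀ x)
  π_cor : ∀ x, π₀ (cor x) = cor' (π x)
  π_η : ∀ x, π (η x) = η' (π x)
  π_η₀ : ∀ x, π₀ (η₀ x) = η₀' (π₀ x)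
  res_cor : ∀ x, res (cor x) = ∑ g, ρ g x
  η_ρ : ∀ g x, η (ρ g x) = ρ g (η x)
  /-- The kernel of restriction is killed by `η`. -/
  ker_res : ∀ x, res' x = 0 → η₀' x = 0
  /-- Invariants come from below up to `η`. -/
  fixed_res : ∀ y, (∀ g, ρ' g y = y) → ∃ x, res' x = η' y
  /-- The cokernel of corestriction is killed by `η`. -/
  coker_cor : ∀ x, ∃ y, cor' y = η₀' x

namespace FreeData

variable (D : FreeData O Δ V V₀ V₁ V₀₁) {p : ℕ} [Fact p.Prime] [CharP (ResidueField O) p]

/-- On the idempotent parts residual restriction is injective, invariants come from below and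
residual corestriction is surjective. -/
theorem residualPart_exact [FiniteDimensional (ResidueField O) V₁]
    [FiniteDimensional (ResidueField O) V₀₁]
    (e : Module.End O V) (e₀ : Module.End O V₀) (he : e * e = e) (he₀ : e₀ * e₀ = e₀)
    (heρ : ∀ g x, e (D.ρ g x) = D.ρ g (e x)) (heres : ∀ x, e (D.res x) = D.res (e₀ x))
    (hecor : ∀ x, e₀ (D.cor x) = D.cor (e x))
    (heη : ∀ x, e (D.η x) = D.η (e x)) (heη₀ : ∀ x, e₀ (D.η₀ x) = D.η₀ (e₀ x))
    (hsurj : ∀ x, e x = x → ∃ y, e y = y ∧ D.η y = x)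
    (hsurj₀ : ∀ x, e₀ x = x → ∃ y, e₀ y = y ∧ D.η₀ y = x) :
    (∀ x ∈ residualPart D.π₀ e₀, D.res' x = 0 → x = 0) ∧
      (∀ y ∈ residualPart D.π e, (∀ g, D.ρ' g y = y) →
        ∃ x ∈ residualPart D.π₀ e₀, D.res' x = y) ∧
      ∀ x ∈ residualPart D.π₀ e₀, ∃ y ∈ residualPart D.π e, D.cor' y = x := by
  set U := residualPart D.π e
  set U₀ := residualPart D.π₀ e₀
  have hηU : ∀ x ∈ U, D.η' x ∈ U := by
    rintro _ ⟨w, rfl⟩
    exact ⟨D.η w, by rw [heη, D.π_η]⟩
  have hρU : ∀ g, ∀ x ∈ U, D.ρ' g x ∈ U := by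
    rintro g _ ⟨w, rfl⟩
    exact ⟨D.ρ g w, by rw [heρ, D.π_ρ]⟩
  have hηU₀ : ∀ x ∈ U₀, D.η₀' x ∈ U₀ := by
    rintro _ ⟨w, rfl⟩
    exact ⟨D.η₀ w, by rw [heη₀, D.π_η₀]⟩
  have hsU : ∀ x ∈ U, ∃ y ∈ U, D.η' y = x := by
    rintro _ ⟨w, rfl⟩
    obtain ⟨y, hy1, hy2⟩ := hsurj (e w) (by rw [← Module.End.mul_apply, he])
    exact ⟨D.π y, ⟨y, by rw [hy1]⟩, by rw [← D.π_η, hy2]⟩
  have hsU₀ : ∀ x ∈ U₀, ∃ y ∈ U₀, D.η₀' y = x := by
    rintro _ ⟨w, rfl⟩
    obtain ⟨y, hy1, hy2⟩ := hsurj₀ (e₀ w) (by rw [← Module.End.mul_apply, he₀])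
    exact ⟨D.π₀ y, ⟨y, by rw [hy1]⟩, by rw [← D.π_η₀, hy2]⟩
  have hinj := fun {x} => eq_zero_of_surjOn D.η' U hηU hsU (x := x)
  have hinj₀ := fun {x} => eq_zero_of_surjOn D.η₀' U₀ hηU₀ hsU₀ (x := x)
  have hres : ∀ {x}, x ∈ U₀ → D.res' x = 0 → x = 0 := fun hx h0 => hinj₀ hx (D.ker_res _ h0)
  have hinv : ∀ {y}, y ∈ U → (∀ g, D.ρ' g y = y) → ∃ x ∈ U₀, D.res' x = y := by
    intro y hy hfix
    obtain ⟨y', hy', rfl⟩ := hsU y hy
    have hfix' : ∀ g, D.ρ' g y' = y' := fun g => by
      refine sub_eq_zero.mp (hinj (U.sub_mem (hρU g _ hy') hy') ?_)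
      rw [map_sub, sub_eq_zero]
      obtain ⟨w, rfl⟩ := D.π_surj y'
      conv_rhs => rw [← hfix g, ← D.π_η, ← D.π_ρ, ← D.η_ρ, D.π_η, D.π_ρ]
    obtain ⟨x, hx⟩ := D.fixed_res y' hfix'
    obtain ⟨z, rfl⟩ := D.π₀_surj x
    refine ⟨D.π₀ (e₀ z), ⟨z, rfl⟩, ?_⟩
    rw [← D.π_res, ← heres]
    exact residual_idem he D.ker_π hy (by rw [D.π_res, hx])
  have hcor : ∀ {x}, x ∈ U₀ → ∃ y ∈ U, D.cor' y = x := by
    intro x hx
    obtain ⟨x', hx', rfl⟩ := hsU₀ x hx
    obtain ⟨y, hy⟩ := D.coker_cor x'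
    obtain ⟨z, rfl⟩ := D.π_surj y
    refine ⟨D.π (e z), ⟨z, rfl⟩, ?_⟩
    rw [← D.π_cor, ← hecor]
    exact residual_idem he₀ D.ker_π₀ hx (by rw [D.π_cor, hy])
  exact ⟨fun x => hres, fun y => hinv, fun x => hcor⟩

/-- Freeness of an idempotent part on which `η` is invertible. -/
theorem exists_free_basis (hΔ : IsPGroup p Δ) [Module.Free O V] [Module.Finite O V]
    [Module.Free O V₀] [Module.Finite O V₀]
    [FiniteDimensional (ResidueField O) V₁] [FiniteDimensional (ResidueField O) V₀₁]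
    (e : Module.End O V) (e₀ : Module.End O V₀) (he : e * e = e) (he₀ : e₀ * e₀ = e₀)
    (heρ : ∀ g x, e (D.ρ g x) = D.ρ g (e x)) (heres : ∀ x, e (D.res x) = D.res (e₀ x))
    (hecor : ∀ x, e₀ (D.cor x) = D.cor (e x))
    (heη : ∀ x, e (D.η x) = D.η (e x)) (heη₀ : ∀ x, e₀ (D.η₀ x) = D.η₀ (e₀ x))
    (hsurj : ∀ x, e x = x → ∃ y, e y = y ∧ D.η y = x)
    (hsurj₀ : ∀ x, e₀ x = x → ∃ y, e₀ y = y ∧ D.η₀ y = x) :
    ∃ (d : ℕ) (v : Fin d → V), (∀ i, e (v i) = v i) ∧
      (∀ w, e w = w → ∃! c : Fin d → Δ → O, ∑ i, ∑ g, c i g • D.ρ g (v i) = w) ∧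
      ∀ x, e₀ x = x → ∃! a : Fin d → O, ∑ i, a i • D.cor (v i) = x := by
  classical
  set U := residualPart D.π e
  set U₀ := residualPart D.π₀ e₀
  have hρU : ∀ g, ∀ x ∈ U, D.ρ' g x ∈ U := by
    rintro g _ ⟨w, rfl⟩
    exact ⟨D.ρ g w, by rw [heρ, D.π_ρ]⟩
  obtain ⟨hres, hinv, hcor⟩ :=
    D.residualPart_exact e e₀ he he₀ heρ heres hecor heη heη₀ hsurj hsurj₀
  have hN : ∀ y, D.res' (D.cor' y) = ∑ g, D.ρ' g y := fun y => by
    obtain ⟨z, rfl⟩ := D.π_surj y
    rw [← D.π_cor, ← D.π_res, D.res_cor, map_sum]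
    exact Finset.sum_congr rfl fun g _ => D.π_ρ g z
  -- a basis and its lift
  let b := Module.finBasis (ResidueField O) U₀
  choose y hyU hy using fun i => hcor _ (b i).2
  choose w hw using fun i => mem_residualPart.mp (hyU i)
  let v := fun i => e (w i)
  have hev : ∀ i, e (v i) = v i := fun i => by rw [← Module.End.mul_apply, he]
  have hπv : ∀ i, D.π (v i) = y i := hw
  -- residual freeness
  let ρU : Δ →* Module.End (ResidueField O) U :=
    { toFun := fun g => (D.ρ' g).restrict (hρU g)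
      map_one' := LinearMap.ext fun x => Subtype.ext (by simp [LinearMap.restrict_apply])
      map_mul' := fun g h => LinearMap.ext fun x =>
        Subtype.ext (by simp [LinearMap.restrict_apply]) }
  have hρUv : ∀ g (z : U), ((ρU g z : U) : V₁) = D.ρ' g z := fun g z => rfl
  have hnorm : ∀ i, ((normEnd ρU ⟨y i, hyU i⟩ : U) : V₁) = D.res' (b i : V₀₁) := fun i => by
    rw [normEnd_apply, ← hy i, hN]
    simp [hρUv]
  have hbij : Function.Bijective (orbitSum ρU fun i => (⟨y i, hyU i⟩ : U)) := by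
    refine orbitSum_bijective ρU hΔ _ ?_ ?_
    · refine Fintype.linearIndependent_iff.mpr fun a ha i => ?_
      have h1 : D.res' ((∑ j, a j • b j : U₀) : V₀₁) = 0 := by
        have := congrArg Subtype.val ha
        simpa [hnorm] using this
      have h2 : (∑ j, a j • b j : U₀) = 0 := Subtype.ext (hres _ (Subtype.coe_prop _) h1)
      exact Fintype.linearIndependent_iff.mp b.linearIndependent a h2 i
    · intro z hz
      obtain ⟨x, hx, hxz⟩ := hinv _ z.2 fun g => congrArg Subtype.val (hz g)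
      refine (Submodule.mem_span_range_iff_exists_fun _).mpr
        ⟨fun i => b.repr ⟨x, hx⟩ i, Subtype.ext ?_⟩
      have hsum := congrArg Subtype.val (b.sum_repr ⟨x, hx⟩)
      simp only [Submodule.coe_sum, Submodule.coe_smul] at hsum ⊢
      simp only [hnorm, ← map_smul, ← map_sum, hsum, hxz]
  have hsmul : ∀ (r : O) (z : V₁), r • z = residue O r • z := fun r z => by
    rw [← IsLocalRing.ResidueField.algebraMap_eq, algebraMap_smul]
  have hsmul₀ : ∀ (r : O) (z : V₀₁), r • z = residue O r • z := fun r z => by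
    rw [← IsLocalRing.ResidueField.algebraMap_eq, algebraMap_smul]
  -- the two maps
  have hmemW : ∀ c : Fin _ → Δ → O, ∑ i, ∑ g, c i g • D.ρ g (v i) ∈ LinearMap.range e := fun c =>
    ⟨∑ i, ∑ g, c i g • D.ρ g (v i), by simp only [map_sum, map_smul, heρ, hev]⟩
  let Φ : (Fin (Module.finrank (ResidueField O) U₀) → Δ → O) →ₗ[O] LinearMap.range e :=
    { toFun := fun c => ⟨∑ i, ∑ g, c i g • D.ρ g (v i), hmemW c⟩
      map_add' := fun c c' => Subtype.ext (by simp [add_smul, Finset.sum_add_distrib])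
      map_smul' := fun t c => Subtype.ext (by simp [Finset.smul_sum, smul_smul]) }
  have hmemW₀ : ∀ a : Fin _ → O, ∑ i, a i • D.cor (v i) ∈ LinearMap.range e₀ := fun a =>
    ⟨∑ i, a i • D.cor (v i), by simp only [map_sum, map_smul, hecor, hev]⟩
  let Ψ : (Fin (Module.finrank (ResidueField O) U₀) → O) →ₗ[O] LinearMap.range e₀ :=
    { toFun := fun a => ⟨∑ i, a i • D.cor (v i), hmemW₀ a⟩
      map_add' := fun a a' => Subtype.ext (by simp [add_smul, Finset.sum_add_distrib])
      map_smul' := fun t a => Subtype.ext (by simp [Finset.smul_sum, smul_smul]) }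
  have := projective_range_of_idem e he
  have := projective_range_of_idem e₀ he₀
  have hπΦ : ∀ c, D.π (Φ c : V) = ((orbitSum ρU (fun i => (⟨y i, hyU i⟩ : U))
      (fun i g => residue O (c i g)) : U) : V₁) := fun c => by
    simp [Φ, orbitSum_apply, hρUv, D.π_ρ, hπv, hsmul]
  have hΦ : Function.Bijective Φ := by
    refine bijective_of_residual Φ (fun z => ?_) (fun c hc => ?_)
    · obtain ⟨x, hx⟩ := z.2
      obtain ⟨c, hc⟩ := hbij.2 ⟨D.π z, ⟨x, by rw [hx]⟩⟩
      choose c' hc' using fun i g => residue_surjective (R := O) (c i g)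
      refine ⟨c', mem_smul_top_of_coe e he _ ?_⟩
      rw [← D.ker_π, LinearMap.mem_ker, Submodule.coe_sub, map_sub, hπΦ]
      simp [hc', hc]
    · have h1 : (Φ c : V) ∈ LinearMap.ker D.π := by rw [D.ker_π]; exact coe_mem_smul_top e _ hc
      rw [LinearMap.mem_ker, hπΦ] at h1
      have h2 := hbij.1 (a₁ := fun i g => residue O (c i g)) (a₂ := 0)
        (Subtype.ext (by rw [h1, map_zero]; rfl))
      have hc : c = ∑ i, ∑ g, c i g • (fun j h => if i = j ∧ g = h then (1 : O) else 0) := by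
        funext j h
        simp [Finset.sum_apply, ite_and]
      rw [hc]
      exact Submodule.sum_mem _ fun i _ => Submodule.sum_mem _ fun g _ => Submodule.smul_mem_smul
        ((residue_eq_zero_iff _).mp (congrFun (congrFun h2 i) g)) trivial
  have hπΨ : ∀ a, D.π₀ (Ψ a : V₀) = ((∑ i, residue O (a i) • b i : U₀) : V₀₁) := fun a => by
    simp [Ψ, D.π_cor, hπv, hy, hsmul₀]
  have hΨ : Function.Bijective Ψ := by
    refine bijective_of_residual Ψ (fun z => ?_) (fun a ha => ?_)
    · obtain ⟨x, hx⟩ := z.2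
      choose a ha using fun i => residue_surjective (R := O) (b.repr ⟨D.π₀ z, ⟨x, by rw [hx]⟩⟩ i)
      refine ⟨a, mem_smul_top_of_coe e₀ he₀ _ ?_⟩
      rw [← D.ker_π₀, LinearMap.mem_ker, Submodule.coe_sub, map_sub, hπΨ]
      simp only [ha, b.sum_repr, sub_self]
    · have h1 : (Ψ a : V₀) ∈ LinearMap.ker D.π₀ := by rw [D.ker_π₀]; exact coe_mem_smul_top e₀ _ ha
      rw [LinearMap.mem_ker, hπΨ] at h1
      have h2 := Fintype.linearIndependent_iff.mp b.linearIndependent _ (Subtype.ext h1)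
      exact mem_smul_top_of_forall_mem a fun i => (residue_eq_zero_iff _).mp (h2 i)
  refine ⟨_, v, hev, fun z hz => ?_, fun x hx => ?_⟩
  · obtain ⟨c, hc⟩ := hΦ.2 ⟨z, ⟨z, hz⟩⟩
    exact ⟨c, congrArg Subtype.val hc, fun c' hc' => hΦ.1 (Subtype.ext
      (hc'.trans (congrArg Subtype.val hc).symm))⟩
  · obtain ⟨a, ha⟩ := hΨ.2 ⟨x, ⟨x, hx⟩⟩
    exact ⟨a, congrArg Subtype.val ha, fun a' ha' => hΨ.1 (Subtype.ext
      (ha'.trans (congrArg Subtype.val ha).symm))⟩

end FreeData

end Fermat.Agent.LevelLowering
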