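import Fermat.Agent.Grp.HomCl
import Fermat.Agent.LevelLowering.FreeFacts
import Fermat.Agent.LevelLowering.FreeLocal

/-!
# Freeness over the group algebra

For a character `d : G → Δ` onto a finite `p`-group with kernel `H`, an idempotent part of
`Hom_cl(H, O)` on which some `T - deg T` is invertible is free over `O[Δ]`, with rank that of the
corresponding part for `G`.
-/

noncomputable section

namespace Fermat.Agent.LevelLowering

open scoped MatrixGroups
open IsLocalRing Fermat.Agent.Grp Fermat.Agent.Ihara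

/-- Residual classes of characters. -/
def redCl (O : Type*) [CommRing O] [IsLocalRing O] (K : Subgroup SL(2, ℤ)) :
    clHoms O K O →ₗ[O] clHoms (ResidueField O) K (ResidueField O) where
  toFun φ := ⟨(residue O).toAddMonoidHom.comp φ.1, IsClHom.comp φ.2 _⟩
  map_add' φ ψ := Subtype.ext (AddMonoidHom.comp_add _ _ _)
  map_smul' c φ := Subtype.ext (AddMonoidHom.ext fun x => by
    show residue O (c * φ.1 x) = c • residue O (φ.1 x)
    rw [map_mul, Algebra.smul_def, IsLocalRing.ResidueField.algebraMap_eq])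

section Reduction

variable {O : Type*} [CommRing O] [IsLocalRing O] {K : Subgroup SL(2, ℤ)} [K.FiniteIndex]

omit [K.FiniteIndex] in
theorem coe_redCl (φ : clHoms O K O) (x : Additive K) :
    (redCl O K φ : Additive K →+ ResidueField O) x = residue O (φ.1 x) := rfl

theorem redCl_surjective (hneg : (-1 : SL(2, ℤ)) ∈ K) : Function.Surjective (redCl O K) := by
  intro ψ
  obtain ⟨γ, e, hecl, -, hdec⟩ := clBasis_exists K hneg
  choose a ha using fun i => residue_surjective (R := O) (ψ.1 (Additive.ofMul (γ i)))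
  refine ⟨⟨∑ i, (zmultiplesHom O (a i)).comp (e i), fun x hx => ?_⟩,
    Subtype.ext (AddMonoidHom.ext fun x => ?_)⟩
  · simp [hecl _ x hx]
  · rw [coe_redCl, hdec _ ψ.1 ψ.2 x]
    simp [ha, map_sum]

theorem ker_redCl (hneg : (-1 : SL(2, ℤ)) ∈ K) :
    LinearMap.ker (redCl O K) = maximalIdeal O • (⊤ : Submodule O (clHoms O K O)) := by
  obtain ⟨γ, e, hecl, -, hdec⟩ := clBasis_exists K hneg
  refine le_antisymm (fun φ hφ => ?_) (Submodule.smul_le.mpr fun r hr φ _ => ?_)
  · have hm : ∀ i, φ.1 (Additive.ofMul (γ i)) ∈ maximalIdeal O := fun i =>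
      (residue_eq_zero_iff _).mp (DFunLike.congr_fun
        (congrArg Subtype.val (LinearMap.mem_ker.mp hφ)) (Additive.ofMul (γ i)))
    let ê : Fin (clRank K) → clHoms O K O := fun i =>
      ⟨(Int.castAddHom O).comp (e i), fun x hx => by simp [hecl i x hx]⟩
    have : φ = ∑ i, φ.1 (Additive.ofMul (γ i)) • ê i := Subtype.ext (AddMonoidHom.ext fun x => by
      rw [hdec _ φ.1 φ.2 x, Submodule.coe_sum, AddMonoidHom.finsetSum_apply]
      exact Finset.sum_congr rfl fun i _ => by simp [ê, zsmul_eq_mul, mul_comm])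
    rw [this]
    exact Submodule.sum_mem _ fun i _ => Submodule.smul_mem_smul (hm i) trivial
  · rw [LinearMap.mem_ker, map_smul]
    exact Subtype.ext (AddMonoidHom.ext fun x => by
      show r • residue O (φ.1 x) = 0
      rw [Algebra.smul_def, IsLocalRing.ResidueField.algebraMap_eq, (residue_eq_zero_iff _).mpr hr,
        zero_mul])

/-- The closed homomorphisms on a level form a finite free module. -/
theorem free_clHoms (hneg : (-1 : SL(2, ℤ)) ∈ K) (R : Type*) [CommRing R] :
    Module.Free R (clHoms R K R) ∧ Module.Finite R (clHoms R K R) := by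
  obtain ⟨f⟩ := nonempty_clHoms_equiv_pi K hneg R R
  exact ⟨Module.Free.of_equiv f.symm, Module.Finite.equiv f.symm⟩

/-- Reduction commutes with corestriction. -/
theorem redCl_coresCl {G : Subgroup SL(2, ℤ)} (h : K ≤ G) (φ : clHoms O K O) :
    redCl O G (coresCl h O O φ) =
      coresCl h (ResidueField O) (ResidueField O) (redCl O K φ) :=
  Subtype.ext (coresHom_comp h (residue O).toAddMonoidHom φ.1).symm

omit [K.FiniteIndex] in
/-- Reduction commutes with the operators. -/
theorem redCl_opCl (C : Corr K) (φ : clHoms O K O) :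
    redCl O K (C.opCl O O φ) = C.opCl (ResidueField O) (ResidueField O) (redCl O K φ) :=
  Subtype.ext (C.op_comp (residue O).toAddMonoidHom φ.1).symm

end Reduction

variable {O : Type*} [CommRing O] [IsLocalRing O] [IsAddTorsionFree O]
variable {G H : Subgroup SL(2, ℤ)} [G.FiniteIndex] [H.FiniteIndex] {Δ : Type*} [CommGroup Δ]
    [Fintype Δ]
  {d : G →* Δ} (hHG : H ≤ G) (hker : ∀ g : G, (g : SL(2, ℤ)) ∈ H ↔ d g = 1)
  (hd : Function.Surjective d) (hneg : (-1 : SL(2, ℤ)) ∈ H)
  {C : Corr G} (hC : C.Compat d)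

/-- `T - deg T` on the kernel. -/
def etaKer (R : Type*) [CommRing R] : Module.End R (clHoms R H R) :=
  (C.restrict hker hC hneg).opCl R R - (C.deg : R) • 1

/-- `T - deg T` below. -/
def etaBase (C : Corr G) (R : Type*) [CommRing R] : Module.End R (clHoms R G R) :=
  C.opCl R R - (C.deg : R) • 1

omit [Fintype Δ] [G.FiniteIndex] [IsAddTorsionFree O] [IsLocalRing O] in
theorem etaKer_apply (φ : clHoms O H O) :
    etaKer hker hneg hC O φ = (C.restrict hker hC hneg).opCl O O φ - C.deg • φ := by
  simp [etaKer, Nat.cast_smul_eq_nsmul]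

omit [G.FiniteIndex] [IsAddTorsionFree O] [IsLocalRing O] in
theorem etaBase_apply (ψ : clHoms O G O) :
    etaBase C O ψ = C.opCl O O ψ - C.deg • ψ := by
  simp [etaBase, Nat.cast_smul_eq_nsmul]

/-- The input of the abstract argument. -/
def kernelFreeData (hbal : C.Balanced) (htr : ∀ g : G, |tr (g : SL(2, ℤ))| ≤ 2 → d g = 1) :
    FreeData O Δ (clHoms O H O) (clHoms O G O) (clHoms (ResidueField O) H (ResidueField O))
      (clHoms (ResidueField O) G (ResidueField O)) where
  ρ := actCl hHG hker hd O O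
  res := resCl hHG O O
  cor := coresCl hHG O O
  η := etaKer hker hneg hC O
  η₀ := etaBase C O
  π := redCl O H
  π₀ := redCl O G
  ρ' := actCl hHG hker hd (ResidueField O) (ResidueField O)
  res' := resCl hHG (ResidueField O) (ResidueField O)
  cor' := coresCl hHG (ResidueField O) (ResidueField O)
  η' := etaKer hker hneg hC (ResidueField O)
  η₀' := etaBase C (ResidueField O)
  π_surj := redCl_surjective hneg
  π₀_surj := redCl_surjective (hHG hneg)
  ker_π := ker_redCl hneg
  ker_π₀ := ker_redCl (hHG hneg)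
  π_ρ _ _ := rfl
  π_res _ := rfl
  π_cor := redCl_coresCl hHG
  π_η φ := by rw [etaKer_apply, etaKer_apply, map_sub, map_nsmul, redCl_opCl]
  π_η₀ φ := by rw [etaBase_apply, etaBase_apply, map_sub, map_nsmul, redCl_opCl]
  res_cor φ := Subtype.ext (by
    rw [coe_resCl, coe_coresCl, res_cores hHG hker hd, Submodule.coe_sum]
    rfl)
  η_ρ δ φ := by
    rw [etaKer_apply, etaKer_apply, map_sub, map_nsmul]
    exact congrArg (· - _) (Subtype.ext (restrict_op_actChar hHG hker hd hC hneg δ φ.1))
  ker_res x hx := by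
    rw [etaBase_apply, sub_eq_zero]
    exact Subtype.ext (op_of_res_eq_zero hHG hker hC (congrArg Subtype.val hx))
  fixed_res y hy := by
    obtain ⟨F, hFcl, hF⟩ := exists_res_eq_of_invariant hHG hker hd hC hneg htr y.2
      fun δ => congrArg Subtype.val (hy δ)
    exact ⟨⟨F, hFcl⟩, Subtype.ext (by rw [coe_resCl, hF, etaKer_apply]; rfl)⟩
  coker_cor x := by
    obtain ⟨φ, hφ⟩ := exists_cores_eq hHG hker hC hneg hbal x
    exact ⟨φ, by rw [hφ, etaBase_apply]⟩

variable {p : ℕ} [Fact p.Prime] [CharP (ResidueField O) p]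

omit [IsAddTorsionFree O] in
include hHG hker hd hneg hC in
/-- **Freeness over `O[Δ]`.** -/
theorem exists_free_basis_kernel (hΔ : IsPGroup p Δ) (hbal : C.Balanced)
    (htr : ∀ g : G, |tr (g : SL(2, ℤ))| ≤ 2 → d g = 1)
    (e : Module.End O (clHoms O H O)) (e₀ : Module.End O (clHoms O G O))
    (he : e * e = e) (he₀ : e₀ * e₀ = e₀)
    (heρ : ∀ δ, Commute e (actCl hHG hker hd O O δ))
    (heres : e.comp (resCl hHG O O) = (resCl hHG O O).comp e₀)
    (hecor : e₀.comp (coresCl hHG O O) = (coresCl hHG O O).comp e)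
    (heη : Commute e (etaKer hker hneg hC O)) (heη₀ : Commute e₀ (etaBase C O))
    (hsurj : ∀ x, e x = x → ∃ y, e y = y ∧ etaKer hker hneg hC O y = x)
    (hsurj₀ : ∀ x, e₀ x = x → ∃ y, e₀ y = y ∧ etaBase C O y = x) :
    ∃ (n : ℕ) (v : Fin n → clHoms O H O), (∀ i, e (v i) = v i) ∧
      (∀ w, e w = w → ∃! c : Fin n → Δ → O,
        ∑ i, ∑ g, c i g • actCl hHG hker hd O O g (v i) = w) ∧
      ∀ x, e₀ x = x → ∃! a : Fin n → O, ∑ i, a i • coresCl hHG O O (v i) = x := by
  obtain ⟨h1, h2⟩ := free_clHoms (K := H) hneg O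
  obtain ⟨h3, h4⟩ := free_clHoms (K := G) (hHG hneg) O
  obtain ⟨-, h5⟩ := free_clHoms (K := H) hneg (ResidueField O)
  obtain ⟨-, h6⟩ := free_clHoms (K := G) (hHG hneg) (ResidueField O)
  exact (kernelFreeData hHG hker hd hneg hC hbal htr).exists_free_basis hΔ e e₀ he he₀
    (fun δ x => LinearMap.congr_fun (heρ δ) x) (fun x => LinearMap.congr_fun heres x)
    (fun x => LinearMap.congr_fun hecor x) (fun x => LinearMap.congr_fun heη x)
    (fun x => LinearMap.congr_fun heη₀ x) hsurj hsurj₀

end Fermat.Agent.LevelLowering
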