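import Fermat.Agent.EigenTwist.NonUnipotent
import Fermat.Agent.Gal.Compare
import Fermat.Agent.LevelLowering.ExtEigen
import Fermat.Agent.LevelLowering.FreeMain

/-!
# Tools for the points of a Taylor–Wiles level

An eigencharacter of `Γ₀(M)` gives a character of the Hecke algebra; a trace basis gives absolute
irreducibility, which passes to representations with the same Frobenius polynomials.
-/

noncomputable section

namespace Fermat.Agent.LevelLowering

open scoped TensorProduct MatrixGroups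
open CongruenceSubgroup Fermat.Agent.Attach IsLocalRing

/-- A domain embeds into an algebraic closure of its fraction field. -/
theorem injective_algebraMap_fracClosure (R : Type) [CommRing R] [IsDomain R] :
    Function.Injective (algebraMap R (AlgebraicClosure (FractionRing R))) := by
  rw [IsScalarTower.algebraMap_eq R (FractionRing R) (AlgebraicClosure (FractionRing R))]
  exact (algebraMap (FractionRing R) _).injective.comp (IsFractionRing.injective R _)

/-- An eigencharacter of `Γ₀(M)` gives a character of the Hecke algebra. -/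
theorem exists_heckeHom {M : ℕ} [NeZero M] {S : Set ℕ} (hMS : ∀ q, q.Prime → q ∣ M → q ∈ S)
    {O K : Type} [CommRing O] [Field K] (j : O →+* K) (hj : Function.Injective j)
    (y : Additive (Gamma0 M) →+ K) (hy : Grp.IsClHom (Gamma0 M) y) (hy0 : y ≠ 0) (a : ℕ → O)
    (hT : ∀ (ℓ : ℕ) [NeZero ℓ], ℓ.Prime → ℓ ∉ S → Hecke.perTransfer M ℓ K y = j (a ℓ) • y) :
    ∃ θ : CuspForm.heckeAlgebra M 2 S →+* O,
      ∀ (ℓ : ℕ) (hℓ : ℓ.Prime) (hℓM : ¬ ℓ ∣ M) (hℓS : ℓ ∉ S),
        θ (CuspForm.heckeAlgebra.T hℓ hℓM hℓS) = a ℓ := by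
  obtain ⟨hfree, hfin⟩ := free_clHoms (K := Gamma0 M) (Grp.neg_one_mem_Gamma0 M) ℤ
  have := hfree
  have := hfin
  let ι : clLattice M →+ (Additive (Gamma0 M) →+ K) := EigenTwist.latChar K M
  have hι : ∀ (r : ℤ) v, ι (r • v) = algebraMap ℤ K r • ι v := fun r v => by
    rw [map_zsmul, eq_intCast, Int.cast_smul_eq_zsmul]
  have hys : y ∈ Submodule.span K (Set.range ι) := by
    refine Submodule.span_mono ?_
      ((EigenTwist.latChar_basis K (Module.finBasis ℤ (clLattice M))).2 y hy)
    rintro _ ⟨i, rfl⟩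
    exact ⟨_, rfl⟩
  let f : CuspForm.heckeAlgebra M 2 S →+* Module.End ℤ (clLattice M) :=
    (latticeHecke M).comp (toAnemic hMS)
  have hgen : ∀ (ℓ : ℕ) (hℓ : ℓ.Prime) (hℓM : ¬ ℓ ∣ M) (hℓS : ℓ ∉ S),
      HasExtEigen ι y (f (CuspForm.heckeAlgebra.T hℓ hℓM hℓS)) (j (a ℓ)) := by
    intro ℓ hℓ hℓM hℓS
    have : NeZero ℓ := ⟨hℓ.ne_zero⟩
    refine ⟨Hecke.transferLin (Hecke.upperConj M ℓ) K K, fun v => ?_, hT ℓ hℓ hℓS⟩
    show (Int.castAddHom K).comp (latticeHecke M (toAnemic hMS _) v).1 =
      Hecke.perTransfer M ℓ K ((Int.castAddHom K).comp v.1)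
    rw [toAnemic_T, latticeHecke_T M hℓ hℓM]
    exact (Hecke.transferHom_comp (Hecke.upperConj M ℓ) (Int.castAddHom K) v.1).symm
  let C : Subalgebra ℤ (Module.End ℤ (clLattice M)) := extEigenAlg ι hι y
  have hall : ∀ t, f t ∈ C :=
    forall_mem_of_T_mem (fun q hq hq' => hMS q hq' hq) f C.toSubring
      fun ℓ hℓ hℓM hℓS => ⟨_, hgen ℓ hℓ hℓM hℓS⟩
  let val : CuspForm.heckeAlgebra M 2 S →+* K :=
    (extEigenVal (hι := hι) hy0 hys).toRingHom.comp (f.codRestrict C hall)
  have hval : ∀ (ℓ : ℕ) (hℓ : ℓ.Prime) (hℓM : ¬ ℓ ∣ M) (hℓS : ℓ ∉ S),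
      val (CuspForm.heckeAlgebra.T hℓ hℓM hℓS) = j (a ℓ) := fun ℓ hℓ hℓM hℓS =>
    HasExtEigen.unique hy0 hys (hasExtEigen_val (hι := hι) hy0 hys ⟨_, hall _⟩)
      (hgen ℓ hℓ hℓM hℓS)
  have hrange : ∀ t, val t ∈ j.range :=
    forall_mem_of_T_mem (fun q hq hq' => hMS q hq' hq) val j.range
      fun ℓ hℓ hℓM hℓS => ⟨a ℓ, (hval ℓ hℓ hℓM hℓS).symm⟩
  choose θ hθ using hrange
  exact ⟨{ toFun := θ
           map_one' := hj (by rw [hθ, map_one, map_one])
           map_mul' := fun s t => hj (by rw [hθ, map_mul, map_mul j, hθ, hθ])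
           map_zero' := hj (by rw [hθ, map_zero, map_zero])
           map_add' := fun s t => hj (by rw [hθ, map_add, map_add j, hθ, hθ]) },
    fun ℓ hℓ hℓM hℓS => hj ((hθ _).trans (hval ℓ hℓ hℓM hℓS))⟩

/-- A representation with a trace basis over a field is irreducible. -/
theorem eq_bot_or_top_of_traceBasis {G K V : Type*} [Monoid G] [Field K] [AddCommGroup V]
    [Module K V] (hV : Module.finrank K V = 2) (r : G →* Module.End K V) (g : Fin 4 → G)
    (hdet : (Matrix.of fun i j => LinearMap.trace K V (r (g i) * r (g j))).det ≠ 0)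
    (U : Submodule K V) (hU : ∀ x, ∀ v ∈ U, r x v ∈ U) : U = ⊥ ∨ U = ⊤ := by
  classical
  have : Module.Finite K V := Module.finite_of_finrank_eq_succ hV
  let e : Fin 4 → Module.End K V := fun i => r (g i)
  have hli : LinearIndependent K e := by
    refine Fintype.linearIndependent_iff.mpr fun c hc => ?_
    have hv : Matrix.vecMul c (Matrix.of fun i j => LinearMap.trace K V
        (r (g i) * r (g j))) = 0 := by
      funext j
      have := congrArg (fun f => LinearMap.trace K V (f * r (g j))) hc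
      simp only [e, Finset.sum_mul, smul_mul_assoc, map_sum, map_smul, zero_mul, map_zero,
        smul_eq_mul] at this
      exact this
    exact fun i => congrFun (Matrix.eq_zero_of_vecMul_eq_zero hdet hv) i
  have hfin : Module.finrank K (V →ₗ[K] V) = 4 := by
    rw [Module.finrank_linearMap, hV]
  have hspan : Submodule.span K (Set.range e) = ⊤ :=
    hli.span_eq_top_of_card_eq_finrank' (by rw [Fintype.card_fin]; exact hfin.symm)
  by_cases hbot : U = ⊥
  · exact Or.inl hbot
  refine Or.inr (Submodule.eq_top_iff'.mpr fun w => ?_)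
  obtain ⟨v, hv, hv0⟩ := Submodule.exists_mem_ne_zero_of_ne_bot hbot
  have hall : ∀ f : Module.End K V, f v ∈ U := fun f => by
    have hf : f ∈ Submodule.span K (Set.range e) := hspan ▸ Submodule.mem_top
    induction hf using Submodule.span_induction with
    | mem x hx => obtain ⟨i, rfl⟩ := hx; exact hU (g i) v hv
    | zero => exact zero_mem U
    | add x y _ _ hx hy => exact add_mem hx hy
    | smul a x _ hx => exact U.smul_mem a hx
  obtain ⟨φ, hφ⟩ := Module.Projective.exists_dual_ne_zero K hv0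
  have := hall (φ.smulRight ((φ v)⁻¹ • w))
  rwa [LinearMap.smulRight_apply, smul_smul, mul_inv_cancel₀ hφ, one_smul] at this

/-- A trace basis gives absolute irreducibility. -/
theorem isAbsolutelyIrreducible_of_hasTraceBasis {k : Type} [Field k] (ρ : ResidualGaloisRep k)
    (h : Gal.HasTraceBasis ρ.ρ) : ρ.IsAbsolutelyIrreducible := by
  obtain ⟨g, hg⟩ := h
  refine eq_bot_or_top_of_traceBasis (ρ.baseChange (AlgebraicClosure k)).finrank_eq
    (ρ.baseChange (AlgebraicClosure k)).ρ g ?_
  have h1 := (hg.map (algebraMap k (AlgebraicClosure k))).ne_zero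
  rw [RingHom.map_det] at h1
  have key : ∀ x, LinearMap.trace (AlgebraicClosure k) (ρ.baseChange (AlgebraicClosure k)).V
      ((ρ.baseChange (AlgebraicClosure k)).ρ x) =
        algebraMap k (AlgebraicClosure k) (LinearMap.trace k ρ.V (ρ.ρ x)) :=
    fun x => LinearMap.trace_baseChange (ρ.ρ x) (AlgebraicClosure k)
  intro h0
  refine h1 (Eq.trans (congrArg Matrix.det ?_) h0)
  ext i j
  rw [RingHom.mapMatrix_apply, Matrix.map_apply, Matrix.of_apply, Matrix.of_apply,
    ← map_mul (ρ.baseChange (AlgebraicClosure k)).ρ, key, map_mul ρ.ρ]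

/-- Absolute irreducibility passes to a representation with the same Frobenius polynomials over a
larger field. -/
theorem isAbsolutelyIrreducible_of_frobenius {k k' : Type} [Field k] [Field k'] (φ : k →+* k')
    (ρ : ResidualGaloisRep k) (h : ρ.IsAbsolutelyIrreducible) (ρ' : ResidualGaloisRep k')
    (S : Finset ℕ) (hf : ∀ ℓ : ℕ, ℓ.Prime → ℓ ∉ S →
      ∀ A : ValuationSubring (AlgebraicClosure ℚ), A.LiesOverPrime ℓ →
      ∀ σ : AlgebraicClosure ℚ ≃ₐ[ℚ] AlgebraicClosure ℚ, A.IsFrobeniusAt σ ℓ →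
        LinearMap.charpoly (ρ'.ρ σ) = (LinearMap.charpoly (ρ.ρ σ)).map φ) :
    ρ'.IsAbsolutelyIrreducible := by
  refine isAbsolutelyIrreducible_of_hasTraceBasis ρ' ?_
  let : Algebra k k' := φ.toAlgebra
  have hc := Gal.residual_charpoly_eq_of_frobenius ρ' (ρ.baseChange k') S
    fun ℓ hℓ hℓS A hA σ hσ => by
    rw [hf ℓ hℓ hℓS A hA σ hσ]
    exact (LinearMap.charpoly_baseChange (ρ.ρ σ) k').symm
  have htr : ∀ x, LinearMap.trace k' ρ'.V (ρ'.ρ x) = φ (LinearMap.trace k ρ.V (ρ.ρ x)) :=
      fun x => by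
    rw [((Gal.charpoly_eq_iff ρ'.finrank_eq (ρ.baseChange k').finrank_eq _ _).mp (hc x)).1]
    exact LinearMap.trace_baseChange (ρ.ρ x) k'
  obtain ⟨g, hg⟩ := Gal.hasTraceBasis_of_isAbsolutelyIrreducible ρ h
  refine ⟨g, ?_⟩
  have h1 := hg.map φ
  rw [RingHom.map_det] at h1
  convert h1 using 2
  ext i j
  simp only [RingHom.mapMatrix_apply, Matrix.map_apply, Matrix.of_apply, ← map_mul]
  exact htr (g i * g j)

/-- A local ring finite over `O` maps locally to a local `O`-algebra. -/
theorem map_maximalIdeal_mem {O T R : Type*} [CommRing O] [IsLocalRing O] [CommRing T]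
    [IsLocalRing T] [Algebra O T] [Module.Finite O T] [CommRing R] [IsLocalRing R] [Algebra O R]
    [IsLocalHom (algebraMap O R)] (f : T →ₐ[O] R) : IsLocalHom (f : T →+* R) := by
  have : Algebra.IsIntegral O T := Algebra.IsIntegral.of_finite O T
  refine ((IsLocalRing.local_hom_TFAE (f : T →+* R)).out 0 4 rfl rfl).mpr ?_
  -- the pullback of the maximal ideal is a prime over the maximal ideal of `O`
  have hover : ((maximalIdeal R).comap (f : T →+* R)).comap (algebraMap O T) = maximalIdeal O := by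
    rw [Ideal.comap_comap, show ((f : T →+* R).comp (algebraMap O T)) = algebraMap O R from
      RingHom.ext f.commutes]
    exact ((IsLocalRing.local_hom_TFAE (algebraMap O R)).out 0 4 rfl rfl).mp inferInstance
  have : ((maximalIdeal R).comap (f : T →+* R)).IsPrime := Ideal.comap_isPrime _ _
  exact eq_maximalIdeal (Ideal.isMaximal_of_isIntegral_of_isMaximal_comap (R := O) _
    (hover ▸ maximalIdeal.isMaximal O))

end Fermat.Agent.LevelLowering

end
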