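import Fermat.Agent.LevelLowering.JointRing

/-!
# The local Hecke algebra of a level with its representation

An algebra acting in coordinates over `O⟦X⟧/J`, a finite family of eigensystems with Galois
representations which is faithful on it, and the residual system give a `LevelCore`, mapping to
each eigensystem.
-/

noncomputable section

namespace Fermat.Agent.LevelLowering

open IsLocalRing Polynomial

local notation "Qbar" => AlgebraicClosure ℚ
local notation "GQ" => (AlgebraicClosure ℚ ≃ₐ[ℚ] AlgebraicClosure ℚ)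

variable {O : Type} [CommRing O] [IsDomain O] [IsDiscreteValuationRing O]
  [IsAdicComplete (maximalIdeal O) O] [Finite (ResidueField O)]
  {p : ℕ} [Fact p.Prime] {ρbar : ResidualGaloisRep (ResidueField O)}
  {D d : ℕ} [NeZero d] {Tm : ℕ → Matrix (Fin d) (Fin d) O} {S : Finset ℕ}

/-- The joint ring of a family of eigensystems of an algebra `A` in coordinates, acting in
these coordinates. -/
structure PointCore (p : ℕ) (ρbar : ResidualGaloisRep (ResidueField O)) {D : ℕ}
    (J : Ideal (MvPowerSeries (Fin D) O)) {d : ℕ} (S : Finset ℕ)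
    {A : Type} [CommRing A] [Algebra O A]
    (Φ : A →ₐ[O] Matrix (Fin d) (Fin d) (MvPowerSeries (Fin D) O ⧸ J)) (x : ℕ → A)
    {ι : Type} (R : ι → Type) [∀ a, CommRing (R a)] [∀ a, IsLocalRing (R a)] [∀ a, Algebra O (R a)]
    (ev : ∀ a, A →ₐ[O] R a) (ρpt : ∀ a, GaloisRepAdic (R a)) : Type 1
    extends JointRing p ρbar S R (fun a ℓ => ev a (x ℓ)) ρpt where
  /-- The faithful action in coordinates, extending `Φ`. -/
  act : T →+* Matrix (Fin d) (Fin d) (MvPowerSeries (Fin D) O ⧸ J)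
  act_injective : Function.Injective act
  act_algebraMap : ∀ c, act (algebraMap O T c) =
    Matrix.scalar (Fin d) (algebraMap O (MvPowerSeries (Fin D) O ⧸ J) c)
  act_τ : ∀ ℓ : ℕ, ℓ.Prime → ℓ ∉ S → act (τ ℓ) = Φ (x ℓ)
  lift : ∀ t, ∃ z : A, Φ z = act t ∧ ∀ a, pt a t = ev a z

/-- The level with an action agreeing with the coordinates modulo the variables. -/
def PointCore.toLevelCore {J : Ideal (MvPowerSeries (Fin D) O)} {A : Type} [CommRing A]
    [Algebra O A]
    {Φ : A →ₐ[O] Matrix (Fin d) (Fin d) (MvPowerSeries (Fin D) O ⧸ J)} {x : ℕ → A}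
    {ι : Type} {R : ι → Type} [∀ a, CommRing (R a)] [∀ a, IsLocalRing (R a)] [∀ a, Algebra O (R a)]
    {ev : ∀ a, A →ₐ[O] R a} {ρpt : ∀ a, GaloisRepAdic (R a)}
    (P : PointCore p ρbar J S Φ x R ev ρpt) (J_aug : ∀ s ∈ J, MvPowerSeries.constantCoeff s = 0)
    (act : P.T →+* Matrix (Fin d) (Fin d) (MvPowerSeries (Fin D) O ⧸ J))
    (hC : ∀ c, act (algebraMap O P.T c) =
      Matrix.scalar (Fin d) (algebraMap O (MvPowerSeries (Fin D) O ⧸ J) c))
    (haug : ∀ t, (act t).map (Ideal.Quotient.lift J MvPowerSeries.constantCoeff J_aug) =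
      (P.act t).map (Ideal.Quotient.lift J MvPowerSeries.constantCoeff J_aug))
    (hTm : ∀ ℓ : ℕ, ℓ.Prime → ℓ ∉ S →
      (Φ (x ℓ)).map (Ideal.Quotient.lift J MvPowerSeries.constantCoeff J_aug) = Tm ℓ) :
    Scalar.LevelCore p ρbar D d Tm S where
  T := P.T
  residue_surjective := P.residue_surjective
  ρ := P.ρ
  residual := P.residual
  det := P.det
  τ := P.τ
  trace_frob := fun ℓ h h' A hA σ hσ => (P.trace_frob ℓ h h' A hA σ hσ).1
  gen := P.gen
  J := J
  J_aug := J_aug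
  act := act
  act_algebraMap := hC
  act_aug := fun ℓ h h' => by rw [haug, P.act_τ ℓ h h', hTm ℓ h h']

/-- **The Galois part of a level from its points.** `Φ` is the algebra in coordinates, `e` the
idempotent of the residual system, `x ℓ` the operators and `ev` the eigensystems. -/
theorem exists_pointCore (h2 : IsUnit (2 : O)) (hp𝒪 : (p : O) ∈ maximalIdeal O)
    (habs : ρbar.IsAbsolutelyIrreducible)
    (hodd : ∃ c : GQ, c * c = 1 ∧ LinearMap.det (ρbar.ρ c) = -1)
    (J : Ideal (MvPowerSeries (Fin D) O)) [Nontrivial (MvPowerSeries (Fin D) O ⧸ J)]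
    {A : Type} [CommRing A] [Algebra O A] [Module.Finite O A]
    (Φ : A →ₐ[O] Matrix (Fin d) (Fin d) (MvPowerSeries (Fin D) O ⧸ J))
    {𝔫 : Ideal A} {e : A} (he : IsIdemAt 𝔫 e) (hΦe : Φ e = 1)
    (x : ℕ → A) (c : ℕ → O)
    (hc : ∀ ℓ : ℕ, ℓ.Prime → ℓ ∉ S → x ℓ - algebraMap O A (c ℓ) ∈ 𝔫)
    (hbar : ∀ ℓ : ℕ, ℓ.Prime → ℓ ∉ S → ∀ P : ValuationSubring Qbar, P.LiesOverPrime ℓ →
      ∀ σ : GQ, P.IsFrobeniusAt σ ℓ → LinearMap.charpoly (ρbar.ρ σ) =
        X ^ 2 - C (residue O (c ℓ)) * X + C (ℓ : ResidueField O))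
    {ι : Type} [Fintype ι] (R : ι → Type) [∀ a, CommRing (R a)] [∀ a, IsDomain (R a)]
    [∀ a, IsLocalRing (R a)] [∀ a, IsNoetherianRing (R a)] [∀ a, Algebra O (R a)]
    [∀ a, Module.Finite O (R a)] [∀ a, IsLocalHom (algebraMap O (R a))]
    (ev : ∀ a, A →ₐ[O] R a) (hker : ∀ a z, Φ z = 0 → ev a z = 0)
    (hjinj : ∀ z, (∀ a, ev a z = 0) → Φ z = 0)
    (ρ : ∀ a, GaloisRepAdic (R a))
    (hfrob : ∀ a, ∀ ℓ : ℕ, ℓ.Prime → ℓ ∉ S → ∀ P : ValuationSubring Qbar, P.LiesOverPrime ℓ →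
      ∀ σ : GQ, P.IsFrobeniusAt σ ℓ →
        LinearMap.charpoly ((ρ a).ρ σ) = X ^ 2 - C (ev a (x ℓ)) * X + C (ℓ : R a)) :
    Nonempty (PointCore p ρbar J S Φ x R ev ρ) := by
  have hone : ∀ a, ev a e = 1 := fun a => (sub_eq_zero.mp (by
    rw [← map_one (ev a), ← map_sub]
    exact hker a _ (by rw [map_sub, hΦe, map_one, sub_self]))).symm
  have : Nonempty ι := by
    by_contra h
    exact one_ne_zero ((map_one Φ).symm.trans (hjinj 1 fun a => absurd ⟨a⟩ h))
  obtain ⟨P⟩ := exists_jointRing (ρpt := ρ) h2 hp𝒪 habs hodd c hbar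
    (c := fun a ℓ => ev a (x ℓ)) (fun a ℓ h h' => by
      rw [← residue_eq_zero_iff, map_sub,
        residue_eq_of_sub_mem (ev a) (Algebra.IsIntegral.of_finite O A) he (hone a) (hc ℓ h h'),
        ResidueField.map_residue, sub_self])
    hfrob
  obtain ⟨act, hτ, -, hlift⟩ := P.exists_act Φ x id ev (fun a ℓ _ _ => rfl) hjinj
  exact ⟨{ P with
    act := act
    act_injective := (injective_iff_map_eq_zero act).mpr fun t ht =>
      P.pt_injective t fun a => by
        obtain ⟨z, hz, hz'⟩ := hlift t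
        rw [show P.pt a t = ev a z from (hz' a).symm]
        exact hker a z (hz.trans ht)
    act_algebraMap := fun r => by
      show act (algebraMap O P.T r) = _
      rw [act.commutes, Matrix.algebraMap_eq_diagonal]
      rfl
    act_τ := hτ
    lift := fun t => (hlift t).imp fun z hz => ⟨hz.1, fun a => (hz.2 a).symm⟩ }⟩

end Fermat.Agent.LevelLowering

end
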