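import Fermat.Agent.LevelLowering.FreeTW
import Fermat.Agent.LevelLowering.TWHecke
import Fermat.Agent.LevelLowering.TWPointsExist

/-!
# A Taylor–Wiles level in coordinates, with its points

Freeness gives the algebra at the good primes and the auxiliary ones on `(O⟦X⟧ / J)^d`, lifting a
given basis at level `M`.  Restricted to the good primes, its kernel is cut out by a subfamily of
the points of the level.
-/

noncomputable section

namespace Fermat.Agent.LevelLowering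

open scoped MatrixGroups IsMulCommutative
open CongruenceSubgroup IsLocalRing Polynomial Fermat.Agent.Grp Fermat.Agent.Ihara

local notation "Qbar" => AlgebraicClosure ℚ
local notation "GQ" => (AlgebraicClosure ℚ ≃ₐ[ℚ] AlgebraicClosure ℚ)

section Generic

/-- The points not killing the kernel of `f` are not needed to detect it. -/
theorem eq_zero_of_points_on_ker {R A B : Type*} [CommRing R] [IsDomain R] [CommRing A]
    [Algebra R A] [Ring B] [Algebra R B] (htor : ∀ (m : R) (b : B), m • b = 0 → m = 0 ∨ b = 0)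
    (f : A →ₐ[R] B) {κ : Type*} [Fintype κ] {F : κ → Type*} [∀ j, CommRing (F j)]
    [∀ j, IsDomain (F j)] [∀ j, Algebra R (F j)] [∀ j, Module.Finite R (F j)]
    (ev : ∀ j, A →ₐ[R] F j) (h : ∀ x, (∀ j, ev j x = 0) → f x = 0) (x : A)
    (hx : ∀ j, (∀ y, f y = 0 → ev j y = 0) → ev j x = 0) : f x = 0 := by
  classical
  let s : Finset κ := Finset.univ.filter fun j => ¬ ∀ y, f y = 0 → ev j y = 0
  have hs : ∀ j ∈ s, ∃ (m : R) (z : A), m ≠ 0 ∧ f z = 0 ∧ ev j z = algebraMap R (F j) m := by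
    intro j hj
    obtain ⟨y, hy⟩ := not_forall.mp (Finset.mem_filter.mp hj).2
    obtain ⟨hy0, hyj⟩ := Classical.not_imp.mp hy
    have hint : IsIntegral R (ev j y) := (Algebra.IsIntegral.of_finite R (F j)).isIntegral _
    obtain ⟨g, hg, hgX⟩ := Polynomial.exists_eq_pow_rootMultiplicity_mul_and_not_dvd
      (minpoly R (ev j y)) (minpoly.ne_zero hint) 0
    rw [map_zero, sub_zero] at hg hgX
    have hg0 : aeval (ev j y) g = 0 := by
      have := minpoly.aeval R (ev j y)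
      rw [hg, map_mul, map_pow, aeval_X] at this
      exact (mul_eq_zero.mp this).resolve_left (pow_ne_zero _ hyj)
    refine ⟨-g.coeff 0, y * aeval y g.divX, neg_ne_zero.mpr fun h0 => hgX (X_dvd_iff.mpr h0),
      by rw [map_mul, hy0, zero_mul], ?_⟩
    have key := congrArg (aeval (ev j y)) (X_mul_divX_add g)
    rw [map_add, map_mul, aeval_X, aeval_C, hg0] at key
    rw [map_mul, ← aeval_algHom_apply, map_neg]
    exact eq_neg_of_add_eq_zero_left key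
  choose! m z hm hz hev using hs
  have h0 : f (x * ∏ j ∈ s, (algebraMap R A (m j) - z j)) = 0 := h _ fun k => by
    by_cases hk : k ∈ s
    · rw [map_mul, map_prod, Finset.prod_eq_zero hk (by rw [map_sub, AlgHom.commutes, hev k hk,
        sub_self]),
        mul_zero]
    · rw [map_mul, hx k (not_not.mp fun hn => hk (Finset.mem_filter.mpr ⟨Finset.mem_univ k, hn⟩)),
        zero_mul]
  have hprod : Ideal.Quotient.mk (RingHom.ker f.toRingHom) (∏ j ∈ s, (algebraMap R A (m j) - z j)) =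
      Ideal.Quotient.mk _ (algebraMap R A (∏ j ∈ s, m j)) := by
    rw [map_prod (algebraMap R A), map_prod, map_prod]
    refine Finset.prod_congr rfl fun j hj => Ideal.Quotient.eq.mpr ?_
    rw [sub_sub_cancel_left]
    exact neg_mem (hz j hj)
  have hprod' : f (∏ j ∈ s, (algebraMap R A (m j) - z j)) = algebraMap R B (∏ j ∈ s, m j) := by
    rw [← f.commutes, ← sub_eq_zero, ← map_sub]
    exact Ideal.Quotient.eq.mp hprod
  rw [map_mul, hprod', ← Algebra.commutes, ← Algebra.smul_def] at h0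
  exact (htor _ _ h0).resolve_left (Finset.prod_ne_zero_iff.mpr hm)

/-- A map of algebras matching two residual systems carries one idempotent over the other. -/
theorem IsIdemAt.map_mul_eq {A B : Type*} [CommRing A] [CommRing B] {𝔫 : Ideal A} {𝔫' : Ideal B}
    (f : A →+* B) (hf : ∀ x ∈ 𝔫, f x ∈ 𝔫') {e : A} {e' : B} (he : IsIdemAt 𝔫 e)
    (he' : IsIdemAt 𝔫' e') : f e * e' = e' := by
  by_cases htop : 𝔫' = ⊤
  · rw [he'.eq_zero_of_top htop, mul_zero]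
  have h1 : 1 - f e ∈ 𝔫' := by rw [← map_one f, ← map_sub]; exact hf _ he.one_sub_mem
  obtain ⟨b, hb⟩ := he'.exists_inv (f e) fun hmem =>
    htop ((Ideal.eq_top_iff_one _).mpr (by simpa using add_mem h1 hmem))
  have h2 : f e * f e = f e := by rw [← map_mul, he.idem]
  linear_combination (f e - 1) * hb.symm + b * e' * h2

/-- A map of algebras matching generators and residual values matches the idempotents. -/
theorem IsIdemAt.map_gen_mul_eq {O A B : Type*} [CommRing O] [IsLocalRing O] [CommRing A]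
    [Algebra O A] [CommRing B] [Algebra O B] {ι κ : Type*} (f : A →ₐ[O] B) {g : ι → A} {c : ι → O}
    {g' : κ → B} {c' : κ → O} (σ : ι → κ) (hσ : ∀ i, f (g i) = g' (σ i))
    (hc : ∀ i, c' (σ i) - c i ∈ maximalIdeal O) {e : A} {e' : B} (he : IsIdemAt (genIdeal g c) e)
    (he' : IsIdemAt (genIdeal g' c') e') : f e * e' = e' := by
  refine IsIdemAt.map_mul_eq f.toRingHom (fun x hx => ?_) he he'
  have hle : genIdeal g c ≤ (genIdeal g' c').comap f.toRingHom := by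
    refine sup_le (Ideal.map_le_iff_le_comap.mpr fun r hr => ?_) (Ideal.span_le.mpr ?_)
    · refine Ideal.mem_comap.mpr (Ideal.mem_comap.mpr ?_)
      rw [AlgHom.toRingHom_eq_coe, RingHom.coe_coe, f.commutes]
      exact algebraMap_mem_genIdeal _ _ hr
    · rintro _ ⟨i, rfl⟩
      refine Ideal.mem_comap.mpr ?_
      rw [AlgHom.toRingHom_eq_coe, RingHom.coe_coe, map_sub, f.commutes, hσ]
      have := add_mem (sub_mem_genIdeal g' c' (σ i)) (algebraMap_mem_genIdeal g' c' (hc i))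
      rwa [map_sub, sub_add_sub_cancel] at this
  exact hle hx

/-- Residual values agreeing outside `S` are congruent. -/
theorem genVal_sub_mem {O : Type} [CommRing O] [IsLocalRing O] (Δ : Type)
    {𝓟 𝓟' : Set Nat.Primes} (hsub : 𝓟 ⊆ 𝓟') (a a' : Nat.Primes → ResidueField O)
    (ha : ∀ ℓ ∈ 𝓟, a' ℓ = a ℓ) (i : 𝓟 ⊕ Δ) :
    genVal O Δ 𝓟' a' (Sum.map (Set.inclusion hsub) id i) - genVal O Δ 𝓟 a i ∈ maximalIdeal O := by
  rcases i with ℓ | δ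
  · simp only [genVal, Sum.map_inl]
    rw [← residue_eq_zero_iff, map_sub, residue_liftSys, residue_liftSys, ha _ ℓ.2, sub_self]
  · simp [genVal]

/-- Inclusion of commutative subalgebras. -/
theorem exists_commInclusion {R B : Type*} [CommRing R] [Ring B] [Algebra R B]
    {U V : Subalgebra R B} (h : U ≤ V) :
    ∃ inc : U →ₐ[R] V, ∀ x, (inc x).1 = x.1 :=
  ⟨Subalgebra.inclusion h, fun _ => rfl⟩

end Generic

variable {O : Type} [CommRing O] [IsDomain O] [IsDiscreteValuationRing O]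
  [IsAdicComplete (maximalIdeal O) O] [Finite (ResidueField O)] [CharZero O]
  {p r : ℕ} [Fact p.Prime] {lv : Fin r → ℕ} {q : Fin r → ℕ} {M N : ℕ} [NeZero M] [NeZero N]
  {hN : ∀ i, q i ∣ N} {π : ∀ i, (ZMod (q i))ˣ →* Multiplicative (ZMod (p ^ lv i))}

omit [CharZero O] in
/-- Scalars of the coordinate ring have no torsion. -/
theorem diaQuot_smul_eq_zero (hp : (p : O) ∈ maximalIdeal O) (m : O)
    (x : MvPowerSeries (Fin r) O ⧸ diamondIdeal (𝒪 := O) p lv) (h : m • x = 0) :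
    m = 0 ∨ x = 0 := by
  obtain ⟨E, -⟩ := exists_diaEquiv (lv := lv) hp
  have h1 : m • MonoidAlgebra.coeffLinearEquiv O (E x) = 0 := by
    rw [← map_smul, ← map_smul, h, map_zero, map_zero]
  refine or_iff_not_imp_left.mpr fun hm => E.injective ?_
  rw [map_zero, ← (MonoidAlgebra.coeffLinearEquiv O).map_eq_zero_iff]
  exact (smul_eq_zero.mp h1).resolve_left hm

omit [Finite (ResidueField O)] [CharZero O] in
/-- Restriction to fewer good primes respects the residual systems. -/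
theorem exists_restrictGood (Ψ : (ZMod N)ˣ →* DiaGroup p lv) (hΨ : Function.Surjective Ψ)
    (hneg : (-1 : SL(2, ℤ)) ∈ GammaPsi Ψ) {S S₀ : Finset ℕ} (hSS : ∀ l, l ∈ S₀ → l ∈ S)
    (a a' : Nat.Primes → ResidueField O) (ha : ∀ ℓ : Nat.Primes, (ℓ : ℕ) ∉ S → a' ℓ = a ℓ) :
    ∃ inc : levelAlg O Ψ hΨ hneg (goodSet S) →ₐ[O] levelAlg O Ψ hΨ hneg (goodSet S₀),
      (∀ x, (inc x).1 = x.1) ∧
      (∀ δ, inc (levelElt O Ψ hΨ hneg (goodSet S) (.inr δ)) =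
        levelElt O Ψ hΨ hneg (goodSet S₀) (.inr δ)) ∧
      inc (levelIdem O Ψ hΨ hneg (goodSet S) a) * levelIdem O Ψ hΨ hneg (goodSet S₀) a' =
        levelIdem O Ψ hΨ hneg (goodSet S₀) a' := by
  have hsub : goodSet S ⊆ goodSet S₀ := fun ℓ hℓ hm => hℓ (hSS _ hm)
  have hle : levelAlg O Ψ hΨ hneg (goodSet S) ≤ levelAlg O Ψ hΨ hneg (goodSet S₀) := by
    refine Algebra.adjoin_le ?_
    rintro _ ⟨(⟨ℓ, hℓ⟩ | δ), rfl⟩
    · exact Algebra.subset_adjoin ⟨.inl ⟨ℓ, hsub hℓ⟩, rfl⟩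
    · exact Algebra.subset_adjoin ⟨.inr δ, rfl⟩
  obtain ⟨inc, hinc⟩ : ∃ inc : levelAlg O Ψ hΨ hneg (goodSet S) →ₐ[O]
      levelAlg O Ψ hΨ hneg (goodSet S₀), ∀ x, (inc x).1 = x.1 :=
    exists_commInclusion hle
  refine ⟨inc, hinc, fun δ => Subtype.ext (hinc _),
    IsIdemAt.map_gen_mul_eq inc (g := levelElt O Ψ hΨ hneg (goodSet S))
      (g' := levelElt O Ψ hΨ hneg (goodSet S₀)) (c := genVal O (DiaGroup p lv) (goodSet S) a)
      (c' := genVal O (DiaGroup p lv) (goodSet S₀) a') (Sum.map (Set.inclusion hsub) id) ?_ ?_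
      (isIdemAt_levelIdem O Ψ hΨ hneg (goodSet S) a)
      (isIdemAt_levelIdem O Ψ hΨ hneg (goodSet S₀) a')⟩
  · rintro (ℓ | δ) <;> exact Subtype.ext (hinc _)
  · intro i
    have h1 := genVal_sub_mem (O := O) (DiaGroup p lv) hsub a a' (fun ℓ hℓ => ha ℓ hℓ) i
    exact h1

/-- The action at all unramified primes, restricted to the good ones. -/
theorem exists_actRestrict (Ψ : (ZMod N)ˣ →* DiaGroup p lv) (hΨ : Function.Surjective Ψ)
    (hneg : (-1 : SL(2, ℤ)) ∈ GammaPsi Ψ) (hp : (p : O) ∈ maximalIdeal O) {S S₀ : Finset ℕ}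
    (hSS : ∀ l, l ∈ S₀ → l ∈ S) (a a' : Nat.Primes → ResidueField O)
    (ha : ∀ ℓ : Nat.Primes, (ℓ : ℕ) ∉ S → a' ℓ = a ℓ) {V₀ : Type} [AddCommGroup V₀] [Module O V₀]
    {d : ℕ} (v : Fin d → clHoms O (GammaPsi Ψ) O) (πV : clHoms O (GammaPsi Ψ) O →ₗ[O] V₀)
    (hv : ∀ i, (levelIdem O Ψ hΨ hneg (goodSet S₀) a').1.1 (v i) = v i)
    (hfree : ∀ w, (levelIdem O Ψ hΨ hneg (goodSet S₀) a').1.1 w = w →
      ∃! c : Fin d → DiaGroup p lv → O, ∑ i, ∑ g, c i g • diaOp O Ψ hΨ g (v i) = w)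
    (hπdia : ∀ g w, πV (diaOp O Ψ hΨ g w) = πV w) :
    ∃ act₀ : levelAlg O Ψ hΨ hneg (goodSet S) →ₐ[O]
        Matrix (Fin d) (Fin d) (MvPowerSeries (Fin r) O ⧸ diamondIdeal (𝒪 := O) p lv),
      act₀ (levelIdem O Ψ hΨ hneg (goodSet S) a) = 1 ∧
      (∀ δ, act₀ (levelElt O Ψ hΨ hneg (goodSet S) (.inr δ)) =
        Matrix.scalar (Fin d) (diaClass (O := O) δ)) ∧
      (∀ x, (∀ w, (levelIdem O Ψ hΨ hneg (goodSet S) a).1.1 w = w → x.1.1 w = 0) → act₀ x = 0) ∧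
      ∀ x : levelAlg O Ψ hΨ hneg (goodSet S), ∀ j,
        πV (x.1.1 (v j)) = ∑ i, diaQuotAug (act₀ x i j) • πV (v i) := by
  obtain ⟨act, hacte, hactdia, hactaug, hactker⟩ :=
    exists_twAct Ψ hΨ hneg (goodSet S₀) a' hp v πV hv hfree hπdia
  obtain ⟨inc, hinc, hincr, hee⟩ := exists_restrictGood Ψ hΨ hneg (S := S) (S₀ := S₀) hSS a a' ha
  refine ⟨act.comp inc, ?_, fun δ => ?_, fun x hx => ?_, fun x j => ?_⟩
  · have h1 := congrArg act hee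
    rw [map_mul, hacte, mul_one] at h1
    exact h1
  · rw [AlgHom.comp_apply, hincr, hactdia]
  · rw [AlgHom.comp_apply, hactker]
    intro w hw
    rw [hinc]
    refine hx w ?_
    have h2 := congrArg (fun y : levelEnd O Ψ => y.1 w) (congrArg Subtype.val hee)
    simp only [MulMemClass.coe_mul, Prod.fst_mul, Module.End.mul_apply] at h2
    rwa [hw, hinc] at h2
  · have h1 := hactaug (inc x) j
    rw [hinc] at h1
    exact h1

omit [Finite (ResidueField O)] in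
/-- A free family at a Taylor–Wiles level over a given basis at level `M`. -/
theorem exists_freeFamily (Ψ : (ZMod N)ˣ →* DiaGroup p lv) (hΨ : Function.Surjective Ψ)
    (hneg : (-1 : SL(2, ℤ)) ∈ GammaPsi Ψ) (hq : ∀ i, (q i).Prime) (hqinj : Function.Injective q)
    (hNM : N = M * ∏ i, q i) (hqM : ∀ i, ¬ q i ∣ M) (hlv : ∀ i, 1 ≤ lv i)
    (hv : ∀ i, p ^ lv i ∣ q i - 1)
    (hΨtr : ∀ g : Gamma0 N, |tr (g : SL(2, ℤ))| ≤ 2 → dChar Ψ g = 1)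
    (S₀ : Finset ℕ) (hqS : ∀ i, q i ∉ S₀) (a : Nat.Primes → ResidueField O)
    (hp : (p : O) ∈ maximalIdeal O) (α β : Fin r → ResidueField O) (hαβ : ∀ i, α i * β i = 1)
    (hne : ∀ i, α i ≠ β i) (haq : ∀ i, a ⟨q i, hq i⟩ = α i + β i)
    (hℓ₀ : ∃ ℓ₀ : Nat.Primes, (ℓ₀ : ℕ) ∉ S₀ ∧ ¬ (ℓ₀ : ℕ) ∣ N ∧ a ℓ₀ ≠ (ℓ₀ : ℕ) + 1)
    {d : ℕ} (b₀ : Fin d → clH O M) (hb₀ : ∀ i, (baseIdem O M (goodSet S₀) a).1 (b₀ i) = b₀ i)
    (hb₀free : ∀ x, (baseIdem O M (goodSet S₀) a).1 x = x →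
      ∃! b : Fin d → O, ∑ i, b i • b₀ i = x) :
    ∃ (a' : Nat.Primes → ResidueField O) (v : Fin d → clHoms O (GammaPsi Ψ) O)
      (πV : clHoms O (GammaPsi Ψ) O →ₗ[O] clH O M),
      (∀ ℓ : Nat.Primes, (∀ i, q i ≠ ℓ) → a' ℓ = a ℓ) ∧
      (∀ i, a' ⟨q i, hq i⟩ = α i) ∧
      (∀ i, (levelIdem O Ψ hΨ hneg (goodSet S₀) a').1.1 (v i) = v i) ∧
      (∀ w, (levelIdem O Ψ hΨ hneg (goodSet S₀) a').1.1 w = w →
        ∃! c : Fin d → DiaGroup p lv → O, ∑ i, ∑ g, c i g • diaOp O Ψ hΨ g (v i) = w) ∧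
      (∀ i, πV (v i) = b₀ i) ∧
      (∀ g w, πV (diaOp O Ψ hΨ g w) = πV w) ∧
      ∀ i : goodSet S₀, (∀ k, q k ≠ (i.1 : ℕ)) → ∀ w,
        πV ((levelGen O Ψ hΨ hneg (goodSet S₀) (.inl i)).1 w) =
          baseGen O M (goodSet S₀) i (πV w) := by
  classical
  have : CharP (ResidueField O) p := (CharP.charP_iff_prime_eq_zero Fact.out).mpr (by
    rw [← map_natCast (residue O), residue_eq_zero_iff]; exact hp)
  obtain ⟨qf, hqfv⟩ : ∃ qf : Fin r → Nat.Primes, ∀ i, qf i = ⟨q i, hq i⟩ := ⟨_, fun i => rfl⟩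
  have hqf : Function.Injective qf := fun i j e => hqinj (by
    rw [hqfv, hqfv] at e; exact congrArg Subtype.val e)
  let Q : Finset Nat.Primes := Finset.univ.image qf
  have hmemQ : ∀ ℓ ∈ Q, ∃ i, qf i = ℓ := fun ℓ hℓ => by
    obtain ⟨i, -, hi⟩ := Finset.mem_image.mp hℓ
    exact ⟨i, hi⟩
  have hnotQ : ∀ ℓ : Nat.Primes, (∀ i, q i ≠ ℓ) → ℓ ∉ Q := fun ℓ h hℓ => by
    obtain ⟨i, rfl⟩ := hmemQ ℓ hℓ
    exact h i (by rw [hqfv])
  let αf := Function.extend qf α fun _ => 0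
  let βf := Function.extend qf β fun _ => 0
  have hαf : ∀ i, αf (qf i) = α i := hqf.extend_apply _ _
  have hβf : ∀ i, βf (qf i) = β i := hqf.extend_apply _ _
  have hbot : sysBot O Q αf βf a = a := funext fun ℓ => by
    unfold sysBot
    split_ifs with hℓ
    · obtain ⟨i, rfl⟩ := hmemQ ℓ hℓ
      rw [hαf, hβf, ← haq i, hqfv]
    · rfl
  obtain ⟨ℓ₀, hℓ₀S, hℓ₀N, hℓ₀a⟩ := hℓ₀
  have hq1 : ∀ i, ((q i : ℕ) : ResidueField O) = 1 := fun i => by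
    have h1 : ((q i - 1 : ℕ) : ResidueField O) = 0 := (CharP.cast_eq_zero_iff _ p _).mpr
      ((dvd_pow_self p (Nat.one_le_iff_ne_zero.mp (hlv i))).trans (hv i))
    rwa [Nat.cast_sub (hq i).one_le, Nat.cast_one, sub_eq_zero] at h1
  obtain ⟨d', v, πM, hvfix, hfree, -, hπfix, hbase, hπdia, hπgen, -⟩ :=
    tw_free_of_ker O M (goodSet S₀) αf βf Q
      (fun l hl => by obtain ⟨i, rfl⟩ := hmemQ l hl; rw [hqfv]; exact hqS i)
      (fun l hl => by obtain ⟨i, rfl⟩ := hmemQ l hl; rw [hqfv]; exact hqM i)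
      (fun l hl => by obtain ⟨i, rfl⟩ := hmemQ l hl; rw [hqfv]; exact hq1 i)
      (fun l hl => by obtain ⟨i, rfl⟩ := hmemQ l hl; rw [hαf, hβf]; exact hαβ i)
      (fun l hl => by obtain ⟨i, rfl⟩ := hmemQ l hl; rw [hαf, hβf]; exact hne i)
      a (hNM.trans (congrArg (M * ·) (by
        rw [show Q = Finset.univ.image qf from rfl, Finset.prod_image hqf.injOn]
        exact Finset.prod_congr rfl fun i _ => by rw [hqfv]))) Ψ hΨ hneg hΨtr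
      isPGroup_diaGroup (ℓ₀ := ℓ₀) hℓ₀S hℓ₀N hℓ₀a
  rw [hbot] at hbase hπfix
  obtain ⟨v', hv'fix, hv'π, hv'free⟩ := exists_rebase (diaOp O Ψ hΨ)
    (levelIdem O Ψ hΨ hneg (goodSet S₀) (sysTop O Q αf a)).1.1
    (baseIdem O M (goodSet S₀) a).1 πM v hvfix (fun i => hπfix (v i)) hfree hbase b₀ hb₀ hb₀free
  exact ⟨sysTop O Q αf a, v', πM, fun ℓ h => if_neg (hnotQ ℓ h), fun i =>
      (if_pos (by rw [← hqfv]; exact Finset.mem_image_of_mem qf (Finset.mem_univ i))).trans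
        (by rw [← hqfv, hαf]),
    hv'fix, hv'free, hv'π, hπdia,
    fun i h => hπgen i (hnotQ i.1 h)⟩

/-- A Taylor–Wiles level in coordinates, with points at any system agreeing off `S`. -/
theorem exists_twLevelAct_of_agree (Ψ : (ZMod N)ˣ →* DiaGroup p lv) (h : IsTWLevel hN π Ψ)
    (hΨ : Function.Surjective Ψ) (hneg : (-1 : SL(2, ℤ)) ∈ GammaPsi Ψ)
    (hNM : N = M * ∏ i, q i) (hqM : ∀ i, ¬ q i ∣ M) (hlv : ∀ i, 1 ≤ lv i)
    (hv : ∀ i, p ^ lv i ∣ q i - 1)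
    (hΨtr : ∀ g : Gamma0 N, |tr (g : SL(2, ℤ))| ≤ 2 → dChar Ψ g = 1)
    (S₀ S : Finset ℕ) (hS : ∀ l, l ∈ S ↔ l ∈ S₀ ∨ ∃ i, q i = l) (hpS : p ∈ S₀)
    (hqS : ∀ i, q i ∉ S₀) (hNS : ∀ l : ℕ, l.Prime → l ∣ N → l ∈ S)
    (a a₁ : Nat.Primes → ResidueField O) (ha₁ : ∀ ℓ : Nat.Primes, (ℓ : ℕ) ∉ S → a₁ ℓ = a ℓ)
    (hp : (p : O) ∈ maximalIdeal O)
    {ρbar : ResidualGaloisRep (ResidueField O)} (habs : ρbar.IsAbsolutelyIrreducible)
    (hbar : ∀ (ℓ : ℕ) (hℓ : ℓ.Prime), ℓ ∉ S →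
      ∀ A : ValuationSubring Qbar, A.LiesOverPrime ℓ →
      ∀ σ : GQ, A.IsFrobeniusAt σ ℓ → LinearMap.charpoly (ρbar.ρ σ) =
        X ^ 2 - C (a₁ ⟨ℓ, hℓ⟩) * X + C ((ℓ : ResidueField O)))
    (α β : Fin r → ResidueField O) (hαβ : ∀ i, α i * β i = 1) (hne : ∀ i, α i ≠ β i)
    (haq : ∀ i, a ⟨q i, h.prime i⟩ = α i + β i)
    (hℓ₀ : ∃ ℓ₀ : Nat.Primes, (ℓ₀ : ℕ) ∉ S₀ ∧ ¬ (ℓ₀ : ℕ) ∣ N ∧ a ℓ₀ ≠ (ℓ₀ : ℕ) + 1)
    {d : ℕ} (b₀ : Fin d → clH O M) (hb₀ : ∀ i, (baseIdem O M (goodSet S₀) a).1 (b₀ i) = b₀ i)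
    (hb₀free : ∀ x, (baseIdem O M (goodSet S₀) a).1 x = x →
      ∃! b : Fin d → O, ∑ i, b i • b₀ i = x)
    (Tm : ℕ → Matrix (Fin d) (Fin d) O)
    (hTm : ∀ (ℓ : goodSet S₀) j,
      baseGen O M (goodSet S₀) ℓ (b₀ j) = ∑ i, Tm (ℓ.1 : ℕ) i j • b₀ i) :
    ∃ (κ : Type) (_ : Fintype κ) (P : κ → TWPoint q Ψ hΨ hneg S hNS a₁)
      (act₀ : levelAlg O Ψ hΨ hneg (goodSet S) →ₐ[O]
        Matrix (Fin d) (Fin d) (MvPowerSeries (Fin r) O ⧸ diamondIdeal (𝒪 := O) p lv)),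
      act₀ (levelIdem O Ψ hΨ hneg (goodSet S) a₁) = 1 ∧
      (∀ δ, act₀ (levelElt O Ψ hΨ hneg (goodSet S) (.inr δ)) =
        Matrix.scalar (Fin d) (diaClass (O := O) δ)) ∧
      (∀ x, (∀ j, (P j).ev x = 0) ↔ act₀ x = 0) ∧
      ∀ (ℓ : ℕ) (hℓ : ℓ.Prime) (hℓS : ℓ ∉ S),
        (act₀ (twGood Ψ hΨ hneg S hNS ⟨ℓ, hℓ⟩ hℓS)).map (diaQuotAug (O := O) (p := p) (lv := lv)) =
          Tm ℓ := by
  classical
  obtain ⟨a', v, πV, ha', -, hvfix, hvfree, hvπ, hπdia, hπgen⟩ := exists_freeFamily Ψ hΨ hneg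
    h.prime h.inj hNM hqM hlv hv hΨtr S₀ hqS a hp α β hαβ hne haq hℓ₀ b₀ hb₀ hb₀free
  obtain ⟨act₀, h0e, h0dia, h0ker, h0aug⟩ := exists_actRestrict Ψ hΨ hneg hp
    (fun l hl => (hS l).mpr (Or.inl hl)) a₁ a'
    (fun ℓ hℓ => (ha' ℓ fun i hi => hℓ ((hS _).mpr (Or.inr ⟨i, hi⟩))).trans (ha₁ ℓ hℓ).symm)
      (V₀ := clH O M) v πV hvfix hvfree hπdia
  obtain ⟨κ, hκ, P, hP⟩ := exists_twPoints Ψ h hΨ hneg S ((hS p).mpr (Or.inl hpS))
    (fun i hi => hqS i (hi ▸ hpS)) hNS a₁ hp habs hbar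
  refine ⟨{j // ∀ y, act₀ y = 0 → (P j).ev y = 0}, Fintype.ofFinite _, fun j => P j.1, act₀, h0e,
    h0dia, fun x => ⟨fun hx => eq_zero_of_points_on_ker ?_ act₀ (fun j => (P j).ev)
      (fun y hy => h0ker y ((hP y).mp hy)) x fun j hj => hx ⟨j, hj⟩, fun hx j => j.2 x hx⟩,
    fun ℓ hℓ hℓS => ?_⟩
  · intro m B hB
    refine or_iff_not_imp_left.mpr fun hm => Matrix.ext fun i j => ?_
    exact (diaQuot_smul_eq_zero hp m _ (congrFun (congrFun hB i) j)).resolve_left hm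
  · have : NeZero ℓ := ⟨hℓ.ne_zero⟩
    let ℓ' : goodSet S₀ := ⟨⟨ℓ, hℓ⟩, fun hm => hℓS ((hS ℓ).mpr (Or.inl hm))⟩
    ext i j
    rw [Matrix.map_apply]
    have h1 := h0aug (twGood Ψ hΨ hneg S hNS ⟨ℓ, hℓ⟩ hℓS) j
    have h2 : πV ((twGood Ψ hΨ hneg S hNS ⟨ℓ, hℓ⟩ hℓS).1.1 (v j)) = ∑ i, Tm ℓ i j • b₀ i := by
      exact (hπgen ℓ' (fun k hk => hℓS ((hS ℓ).mpr (Or.inr ⟨k, hk⟩))) _).trans
        ((congrArg (baseGen O M (goodSet S₀) ℓ') ((hπdia _ _).trans (hvπ j))).trans (hTm ℓ' j))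
    rw [h2] at h1
    simp only [hvπ] at h1
    have hfix : (baseIdem O M (goodSet S₀) a).1 (∑ i, Tm ℓ i j • b₀ i) = ∑ i, Tm ℓ i j • b₀ i := by
      simp [map_sum, hb₀]
    exact congrFun ((hb₀free _ hfix).unique h1.symm rfl) i

/-- **A Taylor–Wiles level in coordinates, with its points.** -/
theorem exists_twLevelAct (Ψ : (ZMod N)ˣ →* DiaGroup p lv) (h : IsTWLevel hN π Ψ)
    (hΨ : Function.Surjective Ψ) (hneg : (-1 : SL(2, ℤ)) ∈ GammaPsi Ψ)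
    (hNM : N = M * ∏ i, q i) (hqM : ∀ i, ¬ q i ∣ M) (hlv : ∀ i, 1 ≤ lv i)
    (hv : ∀ i, p ^ lv i ∣ q i - 1)
    (hΨtr : ∀ g : Gamma0 N, |tr (g : SL(2, ℤ))| ≤ 2 → dChar Ψ g = 1)
    (S₀ S : Finset ℕ) (hS : ∀ l, l ∈ S ↔ l ∈ S₀ ∨ ∃ i, q i = l) (hpS : p ∈ S₀)
    (hqS : ∀ i, q i ∉ S₀) (hNS : ∀ l : ℕ, l.Prime → l ∣ N → l ∈ S)
    (a : Nat.Primes → ResidueField O) (hp : (p : O) ∈ maximalIdeal O)
    {ρbar : ResidualGaloisRep (ResidueField O)} (habs : ρbar.IsAbsolutelyIrreducible)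
    (hbar : ∀ (ℓ : ℕ) (hℓ : ℓ.Prime), ℓ ∉ S →
      ∀ A : ValuationSubring Qbar, A.LiesOverPrime ℓ →
      ∀ σ : GQ, A.IsFrobeniusAt σ ℓ → LinearMap.charpoly (ρbar.ρ σ) =
        X ^ 2 - C (a ⟨ℓ, hℓ⟩) * X + C ((ℓ : ResidueField O)))
    (α β : Fin r → ResidueField O) (hαβ : ∀ i, α i * β i = 1) (hne : ∀ i, α i ≠ β i)
    (haq : ∀ i, a ⟨q i, h.prime i⟩ = α i + β i)
    (hℓ₀ : ∃ ℓ₀ : Nat.Primes, (ℓ₀ : ℕ) ∉ S₀ ∧ ¬ (ℓ₀ : ℕ) ∣ N ∧ a ℓ₀ ≠ (ℓ₀ : ℕ) + 1)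
    {d : ℕ} (b₀ : Fin d → clH O M) (hb₀ : ∀ i, (baseIdem O M (goodSet S₀) a).1 (b₀ i) = b₀ i)
    (hb₀free : ∀ x, (baseIdem O M (goodSet S₀) a).1 x = x →
      ∃! b : Fin d → O, ∑ i, b i • b₀ i = x)
    (Tm : ℕ → Matrix (Fin d) (Fin d) O)
    (hTm : ∀ (ℓ : goodSet S₀) j,
      baseGen O M (goodSet S₀) ℓ (b₀ j) = ∑ i, Tm (ℓ.1 : ℕ) i j • b₀ i) :
    ∃ (κ : Type) (_ : Fintype κ) (P : κ → TWPoint q Ψ hΨ hneg S hNS a)
      (act₀ : levelAlg O Ψ hΨ hneg (goodSet S) →ₐ[O]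
        Matrix (Fin d) (Fin d) (MvPowerSeries (Fin r) O ⧸ diamondIdeal (𝒪 := O) p lv)),
      act₀ (levelIdem O Ψ hΨ hneg (goodSet S) a) = 1 ∧
      (∀ δ, act₀ (levelElt O Ψ hΨ hneg (goodSet S) (.inr δ)) =
        Matrix.scalar (Fin d) (diaClass (O := O) δ)) ∧
      (∀ x, (∀ j, (P j).ev x = 0) ↔ act₀ x = 0) ∧
      ∀ (ℓ : ℕ) (hℓ : ℓ.Prime) (hℓS : ℓ ∉ S),
        (act₀ (twGood Ψ hΨ hneg S hNS ⟨ℓ, hℓ⟩ hℓS)).map (diaQuotAug (O := O) (p := p) (lv := lv)) =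
          Tm ℓ :=
  exists_twLevelAct_of_agree Ψ h hΨ hneg hNM hqM hlv hv hΨtr S₀ S hS hpS hqS hNS a a
    (fun _ _ => rfl) hp habs hbar α β hαβ hne haq hℓ₀ b₀ hb₀ hb₀free Tm hTm

end Fermat.Agent.LevelLowering

end
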