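import Fermat.Agent.Ihara.Cores

/-!
# Functoriality of corestriction

Base change and transitivity of corestriction between subgroups of `SL(2,ℤ)`, with an index
criterion for the hypothesis of base change.
-/

noncomputable section

namespace Fermat.Agent.LevelLowering

open scoped MatrixGroups
open Fermat.Agent.Grp Fermat.Agent.Ihara

variable {A : Type*} [AddCommGroup A]

/-- A homomorphism `K → G` restricted to the preimage `L` of `H`. -/
def restrictPre {G H K L : Subgroup SL(2, ℤ)} (hLK : L ≤ K) (f : K →* G)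
    (hL : ∀ k : K, (k : SL(2, ℤ)) ∈ L ↔ (f k : SL(2, ℤ)) ∈ H) : L →* H :=
  MonoidHom.codRestrict ((G.subtype.comp f).comp (Subgroup.inclusion hLK)) H
    fun l => (hL (Subgroup.inclusion hLK l)).mp l.2

/-- Base change for corestriction. -/
theorem coresHom_comp_pre {G H K L : Subgroup SL(2, ℤ)} [H.FiniteIndex] [L.FiniteIndex]
    (hHG : H ≤ G) (hLK : L ≤ K) (f : K →* G)
    (hL : ∀ k : K, (k : SL(2, ℤ)) ∈ L ↔ (f k : SL(2, ℤ)) ∈ H)
    (hsurj : ∀ g : G, ∃ k : K, (((f k)⁻¹ * g : G) : SL(2, ℤ)) ∈ H) (χ : Additive H →+ A) :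
    (coresHom hHG χ).comp (MonoidHom.toAdditive f) =
      coresHom hLK (χ.comp (MonoidHom.toAdditive (restrictPre hLK f hL))) := by
  have := (L.subgroupOf K).fintypeQuotientOfFiniteIndex
  refine Hecke.addChar_ext fun k => ?_
  let r := fun i : K ⧸ L.subgroupOf K => i.out
  have hr : Function.Bijective fun i => ((r i : K) : K ⧸ L.subgroupOf K) := by
    simp only [r, QuotientGroup.out_eq']; exact Function.bijective_id
  have hmem : ∀ a b : K, ((a⁻¹ * b : K) : SL(2, ℤ)) ∈ L ↔ (((f a)⁻¹ * f b : G) : SL(2, ℤ)) ∈ H :=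
    fun a b => by rw [hL, map_mul, map_inv]
  have hfr : Function.Bijective fun i => ((f (r i) : G) : G ⧸ H.subgroupOf G) := by
    constructor
    · intro i j h
      refine hr.1 ?_
      rw [QuotientGroup.eq, Subgroup.mem_subgroupOf] at h ⊢
      exact (hmem _ _).mpr h
    · intro y
      obtain ⟨a, ha⟩ := hsurj y.out
      obtain ⟨i, hi⟩ := hr.2 ((a : K) : K ⧸ L.subgroupOf K)
      refine ⟨i, ?_⟩
      conv_rhs => rw [← QuotientGroup.out_eq' y]
      rw [QuotientGroup.eq, Subgroup.mem_subgroupOf] at hi ⊢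
      have := mul_mem ((hmem _ _).mp hi) ha
      rw [← Subgroup.coe_mul, ← mul_assoc, mul_inv_cancel_right] at this
      exact this
  have hσ : ∀ i, ((r (k • i))⁻¹ * (k * r i) : K).1 ∈ L := fun i =>
    Subgroup.mem_subgroupOf.mp (Hecke.cocycle_mem Quotient.out QuotientGroup.out_eq' k i)
  have hσ' : ∀ i, ((f (r (k • i)))⁻¹ * (f k * f (r i)) : G).1 ∈ H := fun i => by
    rw [← map_mul, ← hmem]
    exact hσ i
  show coresHom hHG χ (Additive.ofMul (f k)) = _
  rw [coresHom_apply_reps hHG χ _ hfr (f k) (fun i => k • i) hσ',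
    coresHom_apply_reps hLK _ r hr k (fun i => k • i) hσ]
  refine Finset.sum_congr rfl fun i _ => congrArg χ (congrArg Additive.ofMul (Subtype.ext ?_))
  show _ = ((f ((r (k • i))⁻¹ * (k * r i)) : G) : SL(2, ℤ))
  rw [map_mul, map_inv, map_mul]

/-- Corestriction is transitive. -/
theorem coresHom_trans {G H L : Subgroup SL(2, ℤ)} [H.FiniteIndex] [L.FiniteIndex] (hHG : H ≤ G)
    (hLH : L ≤ H) (χ : Additive L →+ A) :
    coresHom hHG (coresHom hLH χ) = coresHom (hLH.trans hHG) χ := by
  have := (H.subgroupOf G).fintypeQuotientOfFiniteIndex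
  have := (L.subgroupOf H).fintypeQuotientOfFiniteIndex
  refine Hecke.addChar_ext fun g => ?_
  let r := fun i : G ⧸ H.subgroupOf G => i.out
  let t := fun j : H ⧸ L.subgroupOf H => j.out
  have hr : Function.Bijective fun i => ((r i : G) : G ⧸ H.subgroupOf G) := by
    simp only [r, QuotientGroup.out_eq']; exact Function.bijective_id
  have ht : Function.Bijective fun j => ((t j : H) : H ⧸ L.subgroupOf H) := by
    simp only [t, QuotientGroup.out_eq']; exact Function.bijective_id
  have hσ : ∀ i, ((r (g • i))⁻¹ * (g * r i) : G).1 ∈ H := fun i =>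
    Subgroup.mem_subgroupOf.mp (Hecke.cocycle_mem Quotient.out QuotientGroup.out_eq' g i)
  let z : (G ⧸ H.subgroupOf G) → H := fun i => ⟨_, hσ i⟩
  have hτ : ∀ i j, ((t (z i • j))⁻¹ * (z i * t j) : H).1 ∈ L := fun i j =>
    Subgroup.mem_subgroupOf.mp (Hecke.cocycle_mem Quotient.out QuotientGroup.out_eq' (z i) j)
  let R : (G ⧸ H.subgroupOf G) × (H ⧸ L.subgroupOf H) → G :=
    fun p => r p.1 * Subgroup.inclusion hHG (t p.2)
  have hR : Function.Bijective fun p => ((R p : G) : G ⧸ L.subgroupOf G) := by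
    constructor
    · rintro ⟨i, j⟩ ⟨i', j'⟩ h
      rw [QuotientGroup.eq, Subgroup.mem_subgroupOf] at h
      have hii : i = i' := by
        refine hr.1 ?_
        rw [QuotientGroup.eq, Subgroup.mem_subgroupOf]
        have := mul_mem (mul_mem (t j).2 (hLH h)) (inv_mem (t j').2)
        simpa [R, mul_assoc] using this
      subst hii
      refine Prod.ext rfl (ht.1 ?_)
      rw [QuotientGroup.eq, Subgroup.mem_subgroupOf]
      simpa [R, mul_assoc] using h
    · intro y
      obtain ⟨i, hi⟩ := hr.2 ((y.out : G) : G ⧸ H.subgroupOf G)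
      rw [QuotientGroup.eq, Subgroup.mem_subgroupOf] at hi
      obtain ⟨j, hj⟩ := ht.2 ((⟨_, hi⟩ : H) : H ⧸ L.subgroupOf H)
      refine ⟨(i, j), ?_⟩
      conv_rhs => rw [← QuotientGroup.out_eq' y]
      rw [QuotientGroup.eq, Subgroup.mem_subgroupOf] at hj ⊢
      simpa [R, mul_assoc] using hj
  rw [coresHom_apply_reps hHG _ r hr g (fun i => g • i) hσ,
    Finset.sum_congr rfl fun i _ =>
      coresHom_apply_reps hLH χ t ht (z i) (fun j => z i • j) (hτ i),
    coresHom_apply_reps (hLH.trans hHG) χ R hR g (fun p => (g • p.1, z p.1 • p.2))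
      (fun p => by simpa [R, z, mul_assoc] using hτ p.1 p.2),
    Fintype.sum_prod_type]
  refine Finset.sum_congr rfl fun i _ => Finset.sum_congr rfl fun j _ =>
    congrArg χ (congrArg Additive.ofMul (Subtype.ext ?_))
  simp [R, z, mul_assoc]

/-- An index criterion for the surjectivity needed in base change. -/
theorem exists_mem_of_index_eq {G H K L : Subgroup SL(2, ℤ)} [H.FiniteIndex] (f : K →* G)
    (hL : ∀ k : K, (k : SL(2, ℤ)) ∈ L ↔ (f k : SL(2, ℤ)) ∈ H)
    (hidx : (L.subgroupOf K).index = (H.subgroupOf G).index) (g : G) :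
    ∃ k : K, (((f k)⁻¹ * g : G) : SL(2, ℤ)) ∈ H := by
  have : Finite (G ⧸ H.subgroupOf G) := inferInstance
  let F : (K ⧸ L.subgroupOf K) → G ⧸ H.subgroupOf G :=
    fun i => ((f i.out : G) : G ⧸ H.subgroupOf G)
  have hinj : Function.Injective F := fun i j h => by
    rw [← QuotientGroup.out_eq' i, ← QuotientGroup.out_eq' j, QuotientGroup.eq,
      Subgroup.mem_subgroupOf, hL, map_mul, map_inv]
    exact Subgroup.mem_subgroupOf.mp (QuotientGroup.eq.mp h)
  have hbij : Function.Bijective F :=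
    hinj.bijective_of_nat_card_le hidx.ge
  obtain ⟨i, hi⟩ := hbij.2 (g : G ⧸ H.subgroupOf G)
  exact ⟨i.out, Subgroup.mem_subgroupOf.mp (QuotientGroup.eq.mp hi)⟩

end Fermat.Agent.LevelLowering
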