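import Fermat.Agent.Ihara.DegenMaps
import Fermat.Agent.LevelLowering.FreeGamma
import Fermat.Agent.LevelLowering.FreeTransfer

/-!
# Hecke operators commute with the degeneracy maps

For primes `ℓ ≠ q` the operator `T_ℓ` commutes with the two degeneracy maps and the two
transfers between `Γ₀(N)` and `Γ₀(Nq)`.
-/

noncomputable section

namespace Fermat.Agent.LevelLowering

open scoped MatrixGroups
open CongruenceSubgroup Fermat.Agent.Grp Fermat.Agent.Ihara Fermat.Agent.Hecke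

variable {N q ℓ : ℕ} [NeZero N] [NeZero q] [NeZero ℓ] {A : Type*} [AddCommGroup A]

theorem perTransfer_eq_cores (φ : Additive (Gamma0 N) →+ A) :
    perTransfer N ℓ A φ =
      coresHom (upperGrp_le N ℓ) (φ.comp (MonoidHom.toAdditive (upperCorr N ℓ).conj)) :=
  (upperCorr_op N ℓ φ).symm

omit [NeZero ℓ] in
theorem index_upperSub_mul (hℓ : ℓ.Prime) (hq : q.Prime) (hne : ℓ ≠ q) :
    (upperSub (N * q) ℓ).index = (upperSub N ℓ).index := by
  have key : ∀ M, [NeZero M] → ℓ ∣ M → (upperSub M ℓ).index = ℓ := fun M _ h => by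
    rw [Subgroup.index, ← Nat.card_congr (Equiv.ofBijective _ (upperRep_bijective hℓ h)),
      Nat.card_eq_fintype_card, Fintype.card_fin]
  by_cases h : ℓ ∣ N
  · rw [key N h, key (N * q) (h.mul_right q)]
  · rw [index_upperSub hℓ h, index_upperSub hℓ fun h' => (hℓ.dvd_mul.mp h').elim h fun h'' =>
      hne ((Nat.prime_dvd_prime_iff_eq hℓ hq).mp h'')]

omit [NeZero q] [NeZero ℓ] in
theorem int_dvd_mul_iff (hℓ : ℓ.Prime) (hq : q.Prime) (hne : ℓ ≠ q) (z : ℤ) :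
    (ℓ : ℤ) ∣ (q : ℤ) * z ↔ (ℓ : ℤ) ∣ z :=
  ((Nat.prime_iff_prime_int.mp hℓ).dvd_mul).trans (or_iff_right fun h =>
    hne ((Nat.prime_dvd_prime_iff_eq hℓ hq).mp (Int.natCast_dvd_natCast.mp h)))

variable (hℓ : ℓ.Prime) (hq : q.Prime) (hne : ℓ ≠ q)
include hℓ hq hne

omit [NeZero N] [NeZero ℓ] in
theorem mem_upperGrp_betaHom_iff (k : Gamma0 (N * q)) :
    (k : SL(2, ℤ)) ∈ upperGrp (N * q) ℓ ↔ (betaHom N q k : SL(2, ℤ)) ∈ upperGrp N ℓ := by
  let f := betaHom N q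
  show (k : SL(2, ℤ)) ∈ upperGrp (N * q) ℓ ↔ (f k : SL(2, ℤ)) ∈ upperGrp N ℓ
  rw [mem_upperGrp, mem_upperGrp]
  refine ⟨fun ⟨h, h'⟩ => ⟨(f k).2, ?_⟩, fun ⟨h, h'⟩ => ⟨k.2, ?_⟩⟩
  · show (ℓ : ℤ) ∣ (betaHom N q k).1.1 0 1
    rw [betaHom_val]; exact (int_dvd_mul_iff hℓ hq hne _).mpr h'
  · rw [show (f k).1 0 1 = (q : ℤ) * k.1 0 1 from
      congrArg (fun X : Matrix (Fin 2) (Fin 2) ℤ => X 0 1) (betaHom_val k)] at h'
    exact (int_dvd_mul_iff hℓ hq hne _).mp h'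

omit [NeZero N] [NeZero q] [NeZero ℓ] hℓ hq hne in
theorem upperGrp_mul_le : upperGrp (N * q) ℓ ≤ upperGrp N ℓ := fun γ hγ => by
  obtain ⟨h, h'⟩ := mem_upperGrp.mp hγ
  exact mem_upperGrp.mpr ⟨Gamma0_le_mul N q h, h'⟩

omit [NeZero q] in
theorem mem_upperGrp_conj_iff (k : upperGrp N ℓ) : (k : SL(2, ℤ)) ∈ upperGrp (N * q) ℓ ↔
    ((upperCorr N ℓ).conj k : SL(2, ℤ)) ∈ Gamma0 (N * q) := by
  obtain ⟨hk, hk'⟩ := mem_upperGrp.mp k.2
  rw [mem_upperGrp, Hecke.Gamma0_mem_iff_dvd, Hecke.Gamma0_mem_iff_dvd,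
    show ((upperCorr N ℓ).conj k).1 1 0 = (ℓ : ℤ) * k.1 1 0 from
      congrArg (fun X : Matrix (Fin 2) (Fin 2) ℤ => X 1 0) (upperCorr_conj_val N ℓ k)]
  refine ⟨fun ⟨h, _⟩ => h.mul_left _, fun h => ⟨?_, hk'⟩⟩
  obtain ⟨c, hc⟩ := Hecke.Gamma0_mem_iff_dvd.mp hk
  rw [hc] at h ⊢
  push_cast at h ⊢
  rw [mul_left_comm] at h
  exact mul_dvd_mul_left _ ((int_dvd_mul_iff hq hℓ hne.symm c).mp
    ((mul_dvd_mul_iff_left (by exact_mod_cast NeZero.ne N)).mp h))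

theorem index_upperGrp_subgroupOf : ((upperGrp (N * q) ℓ).subgroupOf (upperGrp N ℓ)).index =
    ((Gamma0 (N * q)).subgroupOf (Gamma0 N)).index := by
  have h1 := Subgroup.relIndex_mul_relIndex _ _ _
    (upperGrp_mul_le (N := N) (q := q) (ℓ := ℓ)) (upperGrp_le N ℓ)
  have h2 := Subgroup.relIndex_mul_relIndex _ _ _ (upperGrp_le (N * q) ℓ) (Gamma0_le_mul N q)
  rw [← h2] at h1
  have e : (upperGrp N ℓ).relIndex (Gamma0 N) =
      (upperGrp (N * q) ℓ).relIndex (Gamma0 (N * q)) := by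
    rw [Subgroup.relIndex, Subgroup.relIndex, upperGrp_subgroupOf, upperGrp_subgroupOf,
      index_upperSub_mul hℓ hq hne]
  rw [e, mul_comm] at h1
  refine Nat.eq_of_mul_eq_mul_left (Nat.pos_of_ne_zero ?_) h1
  rw [Subgroup.relIndex]
  exact Subgroup.FiniteIndex.index_ne_zero

omit [NeZero N] [NeZero q] [NeZero ℓ] hℓ hq hne in
theorem upperGrp_le_of_mul_left : upperGrp N (q * ℓ) ≤ upperGrp N q := fun γ hγ => by
  obtain ⟨h, h'⟩ := mem_upperGrp.mp hγ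
  exact mem_upperGrp.mpr ⟨h, (dvd_mul_right (q : ℤ) ℓ).trans (by push_cast at h'; exact h')⟩

omit [NeZero N] [NeZero q] [NeZero ℓ] hℓ hq hne in
theorem upperGrp_le_of_mul_right : upperGrp N (q * ℓ) ≤ upperGrp N ℓ := fun γ hγ => by
  obtain ⟨h, h'⟩ := mem_upperGrp.mp hγ
  exact mem_upperGrp.mpr ⟨h, (dvd_mul_left (ℓ : ℤ) q).trans (by push_cast at h'; exact h')⟩

omit [NeZero N] [NeZero ℓ] hℓ hq hne in
theorem mem_upperGrp_alphaUp_iff (k : upperGrp N q) : (k : SL(2, ℤ)) ∈ upperGrp N (q * ℓ) ↔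
    (alphaUp N q k : SL(2, ℤ)) ∈ upperGrp (N * q) ℓ := by
  have hq0 : (q : ℤ) ≠ 0 := by exact_mod_cast NeZero.ne q
  obtain ⟨hk, z, hz⟩ := mem_upperGrp.mp k.2
  rw [mem_upperGrp, mem_upperGrp,
    show (alphaUp N q k).1 0 1 = k.1 0 1 / (q : ℤ) from
      congrArg (fun X : Matrix (Fin 2) (Fin 2) ℤ => X 0 1) (alphaUp_val k), hz,
    Int.mul_ediv_cancel_left _ hq0]
  push_cast
  rw [mul_dvd_mul_iff_left hq0]
  exact ⟨fun ⟨_, h⟩ => ⟨(alphaUp N q k).2, h⟩, fun ⟨_, h⟩ => ⟨hk, h⟩⟩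

omit [NeZero q] hℓ hq hne in
theorem mem_upperGrp_conj_upperGrp_iff (k : upperGrp N ℓ) : (k : SL(2, ℤ)) ∈ upperGrp N (q * ℓ) ↔
    ((upperCorr N ℓ).conj k : SL(2, ℤ)) ∈ upperGrp N q := by
  have hℓ0 : (ℓ : ℤ) ≠ 0 := by exact_mod_cast NeZero.ne ℓ
  obtain ⟨hk, z, hz⟩ := mem_upperGrp.mp k.2
  rw [mem_upperGrp, mem_upperGrp,
    show ((upperCorr N ℓ).conj k).1 0 1 = k.1 0 1 / (ℓ : ℤ) from
      congrArg (fun X : Matrix (Fin 2) (Fin 2) ℤ => X 0 1) (upperCorr_conj_val N ℓ k), hz,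
    Int.mul_ediv_cancel_left _ hℓ0]
  push_cast
  rw [mul_comm (q : ℤ), mul_dvd_mul_iff_left hℓ0]
  exact ⟨fun ⟨_, h⟩ => ⟨((upperCorr N ℓ).conj k).2, h⟩, fun ⟨_, h⟩ => ⟨hk, h⟩⟩

/-- `T_ℓ` commutes with the first degeneracy map. -/
theorem op_degA (φ : Additive (Gamma0 N) →+ A) :
    perTransfer (N * q) ℓ A (degA N q φ) = degA N q (perTransfer N ℓ A φ) := by
  let f := Subgroup.inclusion (Gamma0_le_mul N q)
  have hL : ∀ k : Gamma0 (N * q),
      (k : SL(2, ℤ)) ∈ upperGrp (N * q) ℓ ↔ (f k : SL(2, ℤ)) ∈ upperGrp N ℓ := fun k => by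
    rw [mem_upperGrp, mem_upperGrp]
    exact ⟨fun ⟨h, h'⟩ => ⟨(f k).2, h'⟩, fun ⟨h, h'⟩ => ⟨k.2, h'⟩⟩
  rw [perTransfer_eq_cores, perTransfer_eq_cores]
  refine Eq.trans ?_ (coresHom_comp_pre (upperGrp_le N ℓ) (upperGrp_le (N * q) ℓ) f hL
    (exists_mem_of_index_eq f hL (by
      rw [upperGrp_subgroupOf, upperGrp_subgroupOf, index_upperSub_mul hℓ hq hne])) _).symm
  rfl

/-- `T_ℓ` commutes with the second degeneracy map. -/
theorem op_degB (φ : Additive (Gamma0 N) →+ A) :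
    perTransfer (N * q) ℓ A (degB N q φ) = degB N q (perTransfer N ℓ A φ) := by
  let f := betaHom N q
  have hL := mem_upperGrp_betaHom_iff (N := N) hℓ hq hne
  rw [perTransfer_eq_cores, perTransfer_eq_cores, degB, degB,
    coresHom_comp_pre (upperGrp_le N ℓ) (upperGrp_le (N * q) ℓ) f hL
      (exists_mem_of_index_eq f hL (by
        rw [upperGrp_subgroupOf, upperGrp_subgroupOf, index_upperSub_mul hℓ hq hne]))]
  congr 1
  refine addChar_ext fun u => congrArg φ (congrArg Additive.ofMul (Subtype.ext (Subtype.ext ?_)))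
  show (betaHom N q ((upperCorr (N * q) ℓ).conj u)).1.1 =
    ((upperCorr N ℓ).conj (restrictPre (upperGrp_le (N * q) ℓ) f hL u)).1.1
  obtain ⟨-, z, hz⟩ := mem_upperGrp.mp u.2
  obtain ⟨c, hc⟩ := Gamma0_dvd (Subgroup.inclusion (upperGrp_le (N * q) ℓ) u)
  have hq0 : (q : ℤ) ≠ 0 := by exact_mod_cast NeZero.ne q
  have hℓ0 : (ℓ : ℤ) ≠ 0 := by exact_mod_cast NeZero.ne ℓ
  have hc' : u.1 1 0 = (q : ℤ) * ((N : ℤ) * c) := by
    rw [show u.1 1 0 = _ from hc]; push_cast; ring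
  rw [betaHom_val, upperCorr_conj_val, upperCorr_conj_val]
  show _ = !![(betaHom N q _).1.1 0 0, (betaHom N q _).1.1 0 1 / _;
    _ * (betaHom N q _).1.1 1 0, (betaHom N q _).1.1 1 1]
  rw [betaHom_val]
  ext i j
  fin_cases i <;> fin_cases j
  · rfl
  · show (q : ℤ) * (u.1 0 1 / ℓ) = (q : ℤ) * u.1 0 1 / ℓ
    rw [hz, Int.mul_ediv_cancel_left _ hℓ0, mul_left_comm, Int.mul_ediv_cancel_left _ hℓ0]
  · show (ℓ : ℤ) * u.1 1 0 / q = (ℓ : ℤ) * (u.1 1 0 / q)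
    rw [hc', Int.mul_ediv_cancel_left _ hq0, mul_left_comm, Int.mul_ediv_cancel_left _ hq0]
  · rfl

/-- `T_ℓ` commutes with the first transfer. -/
theorem op_corA (χ : Additive (Gamma0 (N * q)) →+ A) :
    corA N q (perTransfer (N * q) ℓ A χ) = perTransfer N ℓ A (corA N q χ) := by
  have hLK := upperGrp_mul_le (N := N) (q := q) (ℓ := ℓ)
  have hL := mem_upperGrp_conj_iff (N := N) hℓ hq hne
  have hidx := index_upperGrp_subgroupOf (N := N) hℓ hq hne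
  rw [perTransfer_eq_cores, perTransfer_eq_cores, corA, corA, coresHom_trans,
    coresHom_comp_pre (Gamma0_le_mul N q) hLK (upperCorr N ℓ).conj hL
      (exists_mem_of_index_eq _ hL hidx), coresHom_trans]
  rfl

/-- `T_ℓ` commutes with the second transfer. -/
theorem op_corB (χ : Additive (Gamma0 (N * q)) →+ A) :
    corB N q (perTransfer (N * q) ℓ A χ) = perTransfer N ℓ A (corB N q χ) := by
  have hqℓ : ¬ q ∣ ℓ := fun h => hne ((Nat.prime_dvd_prime_iff_eq hq hℓ).mp h).symm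
  have hLq := upperGrp_le_of_mul_left (N := N) (q := q) (ℓ := ℓ)
  have hLℓ := upperGrp_le_of_mul_right (N := N) (q := q) (ℓ := ℓ)
  have hq0 : (q : ℤ) ≠ 0 := by exact_mod_cast NeZero.ne q
  have hℓ0 : (ℓ : ℤ) ≠ 0 := by exact_mod_cast NeZero.ne ℓ
  have hLα := mem_upperGrp_alphaUp_iff (N := N) (q := q) (ℓ := ℓ)
  have hLc := mem_upperGrp_conj_upperGrp_iff (N := N) (q := q) (ℓ := ℓ)
  rw [perTransfer_eq_cores, perTransfer_eq_cores, corB, corB,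
    coresHom_comp_pre (upperGrp_le (N * q) ℓ) hLq (alphaUp N q) hLα
      (fun g => ⟨(upperCorr N q).e.symm g, by
        rw [show alphaUp N q ((upperCorr N q).e.symm g) = g from
          (upperCorr N q).e.apply_symm_apply g, inv_mul_cancel]
        exact one_mem _⟩),
    coresHom_comp_pre (upperGrp_le N q) hLℓ (upperCorr N ℓ).conj hLc
      (fun g => by
        obtain ⟨s, -, hs⟩ := exists_kernel_middle (1 : (ZMod N)ˣ →* PUnit.{1}) hq hqℓ g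
        exact ⟨s, hs⟩), coresHom_trans, coresHom_trans]
  congr 1
  refine addChar_ext fun u => congrArg χ (congrArg Additive.ofMul (Subtype.ext (Subtype.ext ?_)))
  show ((upperCorr (N * q) ℓ).conj (restrictPre hLq (alphaUp N q) hLα u)).1.1 =
    (alphaUp N q (restrictPre hLℓ (upperCorr N ℓ).conj hLc u)).1.1
  rw [upperCorr_conj_val, alphaUp_val]
  show !![(alphaUp N q _).1.1 0 0, (alphaUp N q _).1.1 0 1 / _; _ * (alphaUp N q _).1.1 1 0,
      (alphaUp N q _).1.1 1 1] =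
    !![((upperCorr N ℓ).conj _).1.1 0 0, ((upperCorr N ℓ).conj _).1.1 0 1 / _;
      _ * ((upperCorr N ℓ).conj _).1.1 1 0, ((upperCorr N ℓ).conj _).1.1 1 1]
  rw [alphaUp_val, upperCorr_conj_val]
  ext i j
  fin_cases i <;> fin_cases j
  · rfl
  · show u.1 0 1 / (q : ℤ) / ℓ = u.1 0 1 / (ℓ : ℤ) / q
    rw [Int.ediv_ediv_of_nonneg (Int.natCast_nonneg q),
      Int.ediv_ediv_of_nonneg (Int.natCast_nonneg ℓ), mul_comm (q : ℤ) (ℓ : ℤ)]
  · show (ℓ : ℤ) * ((q : ℤ) * u.1 1 0) = (q : ℤ) * ((ℓ : ℤ) * u.1 1 0)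
    ring
  · rfl

end Fermat.Agent.LevelLowering
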