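import Mathlib.LinearAlgebra.FreeModule.Finite.Matrix
import Mathlib.RingTheory.Adjoin.Basic
import Mathlib.RingTheory.Finiteness.Prod
import Fermat.Agent.LevelLowering.FreeGamma
import Fermat.Agent.LevelLowering.FreeIdem
import Fermat.Agent.LevelLowering.FreeMain
import Fermat.Agent.LevelLowering.FreeSys

/-!
# Freeness at one level

The joint Hecke algebra of `Hom_cl(Γ_Ψ, O)` and `Hom_cl(Γ₀(N), O)` with the diamonds, the
idempotent of a residual system with trivial diamond action, and freeness of the part of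
`Hom_cl(Γ_Ψ, O)` over `O[Δ]` when the system is not Eisenstein at some good prime.
-/

noncomputable section

namespace Fermat.Agent.LevelLowering

open scoped MatrixGroups IsMulCommutative
open CongruenceSubgroup IsLocalRing Fermat.Agent.Grp Fermat.Agent.Ihara

variable (O : Type) [CommRing O] {N : ℕ} [NeZero N] {Δ : Type} [CommGroup Δ] [Fintype Δ]
  (Ψ : (ZMod N)ˣ →* Δ) (hΨ : Function.Surjective Ψ) (hneg : (-1 : SL(2, ℤ)) ∈ GammaPsi Ψ)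

/-- The operator of `diag(1,ℓ)` on `Hom_cl(Γ_Ψ, O)`. -/
def kerOp (ℓ : ℕ) [NeZero ℓ] : Module.End O (clHoms O (GammaPsi Ψ) O) :=
  ((upperCorr N ℓ).restrict (mem_GammaPsi Ψ) (upperCorr_compat Ψ hΨ) hneg).opCl O O

variable (N) in
/-- The operator of `diag(1,ℓ)` on `Hom_cl(Γ₀(N), O)`. -/
def baseOp (ℓ : ℕ) [NeZero ℓ] : Module.End O (clHoms O (Gamma0 N) O) := (upperCorr N ℓ).opCl O O

theorem coe_baseOp (ℓ : ℕ) [NeZero ℓ] (φ : clHoms O (Gamma0 N) O) :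
    (baseOp O N ℓ φ : Additive (Gamma0 N) →+ O) = Hecke.perTransfer N ℓ O φ.1 :=
  upperCorr_op N ℓ φ.1

/-- The diamond operators. -/
def diaOp : Δ →* Module.End O (clHoms O (GammaPsi Ψ) O) :=
  actCl (GammaPsi_le Ψ) (mem_GammaPsi Ψ) (dChar_surjective Ψ hΨ) O O

theorem kerOp_congr {a b : ℕ} [NeZero a] [NeZero b] (h : a = b) :
    kerOp O Ψ hΨ hneg a = kerOp O Ψ hΨ hneg b := by subst h; rfl

theorem baseOp_congr {a b : ℕ} [NeZero a] [NeZero b] (h : a = b) :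
    baseOp O N a = baseOp O N b := by subst h; rfl

theorem kerOp_mul {ℓ m : ℕ} [NeZero ℓ] [NeZero m] (hm : m.Prime) (h : ¬ m ∣ ℓ) :
    kerOp O Ψ hΨ hneg ℓ * kerOp O Ψ hΨ hneg m = kerOp O Ψ hΨ hneg (ℓ * m) :=
  LinearMap.ext fun φ => Subtype.ext (kernel_op_op Ψ hΨ hneg hm h φ.1)

omit [Fintype Δ] in
include Ψ in
theorem baseOp_mul {ℓ m : ℕ} [NeZero ℓ] [NeZero m] (hm : m.Prime) (h : ¬ m ∣ ℓ) :
    baseOp O N ℓ * baseOp O N m = baseOp O N (ℓ * m) :=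
  LinearMap.ext fun φ => Subtype.ext (Corr.op_op (fun g => mem_upper_mul g)
    (fun k hk hk' => conj_upper_mul k hk hk')
    (fun g => (exists_kernel_middle Ψ hm h g).imp fun _ hs => hs.2) φ.1)

theorem kerOp_comm (p q : Nat.Primes) :
    haveI : NeZero (p : ℕ) := ⟨p.2.ne_zero⟩
    haveI : NeZero (q : ℕ) := ⟨q.2.ne_zero⟩
    kerOp O Ψ hΨ hneg p * kerOp O Ψ hΨ hneg q = kerOp O Ψ hΨ hneg q * kerOp O Ψ hΨ hneg p := by
  have : NeZero (p : ℕ) := ⟨p.2.ne_zero⟩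
  have : NeZero (q : ℕ) := ⟨q.2.ne_zero⟩
  rcases eq_or_ne p q with rfl | hne
  · rfl
  have hpq : ¬ (q : ℕ) ∣ p := fun h =>
    hne (Subtype.ext ((Nat.prime_dvd_prime_iff_eq q.2 p.2).mp h).symm)
  have hqp : ¬ (p : ℕ) ∣ q := fun h =>
    hne (Subtype.ext ((Nat.prime_dvd_prime_iff_eq p.2 q.2).mp h))
  rw [kerOp_mul O Ψ hΨ hneg q.2 hpq, kerOp_mul O Ψ hΨ hneg p.2 hqp]
  exact kerOp_congr O Ψ hΨ hneg (mul_comm _ _)

omit [Fintype Δ] in
include Ψ in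
theorem baseOp_comm (p q : Nat.Primes) :
    haveI : NeZero (p : ℕ) := ⟨p.2.ne_zero⟩
    haveI : NeZero (q : ℕ) := ⟨q.2.ne_zero⟩
    baseOp O N p * baseOp O N q = baseOp O N q * baseOp O N p := by
  have : NeZero (p : ℕ) := ⟨p.2.ne_zero⟩
  have : NeZero (q : ℕ) := ⟨q.2.ne_zero⟩
  rcases eq_or_ne p q with rfl | hne
  · rfl
  have hpq : ¬ (q : ℕ) ∣ p := fun h =>
    hne (Subtype.ext ((Nat.prime_dvd_prime_iff_eq q.2 p.2).mp h).symm)
  have hqp : ¬ (p : ℕ) ∣ q := fun h =>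
    hne (Subtype.ext ((Nat.prime_dvd_prime_iff_eq p.2 q.2).mp h))
  rw [baseOp_mul O Ψ q.2 hpq, baseOp_mul O Ψ p.2 hqp]
  exact baseOp_congr O (mul_comm _ _)

theorem diaOp_kerOp (δ : Δ) (ℓ : ℕ) [NeZero ℓ] :
    diaOp O Ψ hΨ δ * kerOp O Ψ hΨ hneg ℓ = kerOp O Ψ hΨ hneg ℓ * diaOp O Ψ hΨ δ :=
  LinearMap.ext fun φ => Subtype.ext (restrict_op_actChar (GammaPsi_le Ψ) (mem_GammaPsi Ψ)
    (dChar_surjective Ψ hΨ) (upperCorr_compat Ψ hΨ) hneg δ φ.1).symm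

variable (𝓟 : Set Nat.Primes)

/-- Pairs of endomorphisms of the two lattices. -/
abbrev levelEnd : Type :=
  Module.End O (clHoms O (GammaPsi Ψ) O) × Module.End O (clHoms O (Gamma0 N) O)

instance instRingLevelEnd : Ring (levelEnd O Ψ) := inferInstance

/- Named copies of the inherited instances keep the terms mentioning `levelAlg` small. -/
instance instSemiringLevelEnd : Semiring (levelEnd O Ψ) := inferInstance

instance instAlgebraLevelEnd : Algebra O (levelEnd O Ψ) := inferInstance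

/-- The generators of the joint Hecke algebra. -/
def levelGen : 𝓟 ⊕ Δ → levelEnd O Ψ
  | .inl ℓ => haveI : NeZero (ℓ.1 : ℕ) := ⟨ℓ.1.2.ne_zero⟩
      (kerOp O Ψ hΨ hneg ℓ.1, baseOp O N ℓ.1)
  | .inr δ => (diaOp O Ψ hΨ δ, 1)

/-- The joint Hecke algebra of `Hom_cl(Γ_Ψ, O)` and `Hom_cl(Γ₀(N), O)`. -/
abbrev levelAlg :
    Subalgebra O (levelEnd O Ψ) :=
  Algebra.adjoin O (Set.range (levelGen O Ψ hΨ hneg 𝓟))

instance instIsMulCommutative_levelAlg : IsMulCommutative (levelAlg O Ψ hΨ hneg 𝓟) := by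
  refine Algebra.isMulCommutative_adjoin O ?_
  rintro _ ⟨x, rfl⟩ _ ⟨y, rfl⟩
  rcases x with ℓ | δ <;> rcases y with m | ε <;> refine Prod.ext ?_ ?_ <;>
    simp only [levelGen, Prod.fst_mul, Prod.snd_mul, one_mul, mul_one]
  · exact kerOp_comm O Ψ hΨ hneg ℓ.1 m.1
  · exact baseOp_comm O Ψ ℓ.1 m.1
  · exact (@diaOp_kerOp O _ N _ Δ _ _ Ψ hΨ hneg ε _ ⟨ℓ.1.2.ne_zero⟩).symm
  · exact @diaOp_kerOp O _ N _ Δ _ _ Ψ hΨ hneg δ _ ⟨m.1.2.ne_zero⟩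
  · rw [← map_mul, ← map_mul, mul_comm]

instance instCommRing_levelAlg : CommRing (levelAlg O Ψ hΨ hneg 𝓟) := inferInstance

/-- The generators as elements of the algebra. -/
def levelElt (i : 𝓟 ⊕ Δ) : levelAlg O Ψ hΨ hneg 𝓟 :=
  ⟨levelGen O Ψ hΨ hneg 𝓟 i, Algebra.subset_adjoin ⟨i, rfl⟩⟩

variable [IsAddTorsionFree O]

/-- Elements of the joint algebra commute with restriction, corestriction and diamonds. -/
theorem levelAlg_compat {x} (hx : x ∈ levelAlg O Ψ hΨ hneg 𝓟) :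
    x.1.comp (resCl (GammaPsi_le Ψ) O O) = (resCl (GammaPsi_le Ψ) O O).comp x.2 ∧
      x.2.comp (coresCl (GammaPsi_le Ψ) O O) = (coresCl (GammaPsi_le Ψ) O O).comp x.1 ∧
      ∀ δ, Commute x.1 (diaOp O Ψ hΨ δ) := by
  have hle := GammaPsi_le Ψ
  have hker := mem_GammaPsi Ψ
  have hd := dChar_surjective Ψ hΨ
  induction hx using Algebra.adjoin_induction with
  | mem x hx =>
    obtain ⟨(ℓ | δ), rfl⟩ := hx
    · have : NeZero (ℓ.1 : ℕ) := ⟨ℓ.1.2.ne_zero⟩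
      refine ⟨LinearMap.ext fun ψ => Subtype.ext ?_, LinearMap.ext fun φ => Subtype.ext ?_,
        fun δ => (diaOp_kerOp O Ψ hΨ hneg δ _).symm⟩
      · exact restrict_op_res hle hker (upperCorr_compat Ψ hΨ) hneg ψ.1
      · exact op_coresHom hle hker hd (upperCorr_compat Ψ hΨ) hneg φ.1
    · refine ⟨LinearMap.ext fun ψ => Subtype.ext ?_, LinearMap.ext fun φ => Subtype.ext ?_,
        fun ε => ?_⟩
      · exact conjChar_res hle hker _ ψ.1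
      · refine resHom_injective hle hker hd ?_
        show resHom hle (coresHom hle φ.1) = resHom hle (coresHom hle (actChar hle hker hd δ φ.1))
        rw [res_cores hle hker hd, res_cores hle hker hd,
          ← Equiv.sum_comp (Equiv.mulRight δ) (fun g => actChar hle hker hd g φ.1)]
        exact Finset.sum_congr rfl fun g _ => (actChar_mul hle hker hd g δ φ.1).symm
      · show diaOp O Ψ hΨ δ * diaOp O Ψ hΨ ε = diaOp O Ψ hΨ ε * diaOp O Ψ hΨ δ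
        rw [← map_mul, ← map_mul, mul_comm]
  | algebraMap r =>
    refine ⟨LinearMap.ext fun ψ => ?_, LinearMap.ext fun φ => ?_, fun δ => ?_⟩
    · simp [Algebra.algebraMap_eq_smul_one]
    · simp [Algebra.algebraMap_eq_smul_one]
    · exact Algebra.commutes r _
  | add x y _ _ hx hy =>
    exact ⟨by simp [LinearMap.add_comp, LinearMap.comp_add, hx.1, hy.1],
      by simp [LinearMap.add_comp, LinearMap.comp_add, hx.2.1, hy.2.1],
      fun δ => (hx.2.2 δ).add_left (hy.2.2 δ)⟩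
  | mul x y _ _ hx hy =>
    refine ⟨?_, ?_, fun δ => (hx.2.2 δ).mul_left (hy.2.2 δ)⟩
    · show (x.1 * y.1).comp _ = _
      rw [Module.End.mul_eq_comp, LinearMap.comp_assoc, hy.1, ← LinearMap.comp_assoc, hx.1,
        LinearMap.comp_assoc]
      rfl
    · show (x.2 * y.2).comp _ = _
      rw [Module.End.mul_eq_comp, LinearMap.comp_assoc, hy.2.1, ← LinearMap.comp_assoc, hx.2.1,
        LinearMap.comp_assoc]
      rfl

variable [IsLocalRing O] (a : Nat.Primes → ResidueField O)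

/-- A lift of the residual system. -/
def liftSys (ℓ : Nat.Primes) : O := (residue_surjective (R := O) (a ℓ)).choose

omit [IsAddTorsionFree O] in
theorem residue_liftSys (ℓ : Nat.Primes) : residue O (liftSys O a ℓ) = a ℓ :=
  (residue_surjective (R := O) (a ℓ)).choose_spec

variable (Δ) in
/-- The value of a generator. -/
def genVal : 𝓟 ⊕ Δ → O
  | .inl ℓ => liftSys O a ℓ.1
  | .inr _ => 1

/-- The ideal of the residual system `a` with trivial diamond action. -/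
def sysIdeal : Ideal (levelAlg O Ψ hΨ hneg 𝓟) :=
  genIdeal (levelElt O Ψ hΨ hneg 𝓟) (genVal O Δ 𝓟 a)

omit [IsLocalRing O] [IsAddTorsionFree O] in
theorem adjoin_levelElt :
    Algebra.adjoin O (Set.range (levelElt O Ψ hΨ hneg 𝓟)) = ⊤ :=
  adjoin_range_mk_eq_top (levelGen O Ψ hΨ hneg 𝓟)

omit [IsAddTorsionFree O] in
theorem sysIdeal_isMaximal_or_top :
    (sysIdeal O Ψ hΨ hneg 𝓟 a).IsMaximal ∨ sysIdeal O Ψ hΨ hneg 𝓟 a = ⊤ :=
  genIdeal_isMaximal_or_top _ _ (adjoin_levelElt O Ψ hΨ hneg 𝓟)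

omit [IsLocalRing O] [IsAddTorsionFree O] in
theorem etaKer_eq (ℓ : 𝓟) :
    haveI : NeZero (ℓ.1 : ℕ) := ⟨ℓ.1.2.ne_zero⟩
    (levelElt O Ψ hΨ hneg 𝓟 (.inl ℓ) -
      algebraMap O (levelAlg O Ψ hΨ hneg 𝓟) ((upperCorr N (ℓ.1 : ℕ)).deg : O)).1.1 =
      etaKer (C := upperCorr N (ℓ.1 : ℕ)) (mem_GammaPsi Ψ) hneg (upperCorr_compat Ψ hΨ) O := by
  simp [levelElt, levelGen, etaKer, kerOp, Nat.cast_smul_eq_nsmul]

omit [IsLocalRing O] [IsAddTorsionFree O] in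
theorem etaBase_eq (ℓ : 𝓟) :
    haveI : NeZero (ℓ.1 : ℕ) := ⟨ℓ.1.2.ne_zero⟩
    (levelElt O Ψ hΨ hneg 𝓟 (.inl ℓ) -
      algebraMap O (levelAlg O Ψ hΨ hneg 𝓟) ((upperCorr N (ℓ.1 : ℕ)).deg : O)).1.2 =
      etaBase (upperCorr N (ℓ.1 : ℕ)) O := by
  simp [levelElt, levelGen, etaBase, baseOp, Nat.cast_smul_eq_nsmul]

variable [IsNoetherianRing O] [IsAdicComplete (maximalIdeal O) O]

omit [IsLocalRing O] [IsAddTorsionFree O] [IsAdicComplete (maximalIdeal O) O] in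
/-- The level algebra is finite over the coefficients. -/
theorem finite_levelAlg : Module.Finite O (levelAlg O Ψ hΨ hneg 𝓟) := by
  obtain ⟨h1, h2⟩ := free_clHoms (K := GammaPsi Ψ) hneg O
  obtain ⟨h3, h4⟩ := free_clHoms (K := Gamma0 N) (GammaPsi_le Ψ hneg) O
  have : IsNoetherian O (levelEnd O Ψ) := isNoetherian_of_isNoetherianRing_of_finite O _
  exact Module.Finite.of_fg (IsNoetherian.noetherian (levelAlg O Ψ hΨ hneg 𝓟).toSubmodule)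

/-- The idempotent of the residual system. -/
def levelIdem : levelAlg O Ψ hΨ hneg 𝓟 :=
  haveI := finite_levelAlg O Ψ hΨ hneg 𝓟
  (exists_isIdemAt (O := O) _ _ (sysIdeal_isMaximal_or_top O Ψ hΨ hneg 𝓟 a)).choose

omit [IsAddTorsionFree O] in
/-- The chosen idempotent cuts out the residual system in the level algebra. -/
theorem isIdemAt_levelIdem :
    IsIdemAt (sysIdeal O Ψ hΨ hneg 𝓟 a) (levelIdem O Ψ hΨ hneg 𝓟 a) :=
  haveI := finite_levelAlg O Ψ hΨ hneg 𝓟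
  (exists_isIdemAt (O := O) _ _ (sysIdeal_isMaximal_or_top O Ψ hΨ hneg 𝓟 a)).choose_spec

attribute [irreducible] levelIdem

omit [IsAddTorsionFree O] in
theorem exists_inv_eta (ℓ : 𝓟) (hℓN : ¬ (ℓ.1 : ℕ) ∣ N) (hne : a ℓ.1 ≠ (ℓ.1 : ℕ) + 1) :
    haveI : NeZero (ℓ.1 : ℕ) := ⟨ℓ.1.2.ne_zero⟩
    ∃ b, (levelElt O Ψ hΨ hneg 𝓟 (.inl ℓ) -
        algebraMap O (levelAlg O Ψ hΨ hneg 𝓟) ((upperCorr N (ℓ.1 : ℕ)).deg : O)) * b *
      levelIdem O Ψ hΨ hneg 𝓟 a = levelIdem O Ψ hΨ hneg 𝓟 a := by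
  have : NeZero (ℓ.1 : ℕ) := ⟨ℓ.1.2.ne_zero⟩
  have hdeg := upperCorr_deg (N := N) ℓ.1.2 hℓN
  refine exists_inv_shift _ _ (isIdemAt_levelIdem O Ψ hΨ hneg 𝓟 a) (.inl ℓ) _ ?_
  refine notMem_maximalIdeal.mp fun hm => hne ?_
  rw [← residue_eq_zero_iff, map_sub, sub_eq_zero, hdeg] at hm
  rw [← residue_liftSys O a ℓ.1]
  exact hm.trans (by simp)

variable {p : ℕ} [Fact p.Prime] [CharP (ResidueField O) p]

/-- **Freeness at one level**, given that the character kills elliptic and parabolic elements. -/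
theorem level_free_of_ker (hker : ∀ g : Gamma0 N, |tr (g : SL(2, ℤ))| ≤ 2 → dChar Ψ g = 1)
    (hΔ : IsPGroup p Δ) {ℓ₀ : Nat.Primes}
    (hℓ₀ : ℓ₀ ∈ 𝓟) (hℓ₀N : ¬ (ℓ₀ : ℕ) ∣ N) (hne : a ℓ₀ ≠ (ℓ₀ : ℕ) + 1) :
    ∃ (n : ℕ) (v : Fin n → clHoms O (GammaPsi Ψ) O),
      (∀ i, (levelIdem O Ψ hΨ hneg 𝓟 a).1.1 (v i) = v i) ∧
      (∀ w, (levelIdem O Ψ hΨ hneg 𝓟 a).1.1 w = w → ∃! c : Fin n → Δ → O,
        ∑ i, ∑ g, c i g • diaOp O Ψ hΨ g (v i) = w) ∧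
      ∀ x, (levelIdem O Ψ hΨ hneg 𝓟 a).1.2 x = x → ∃! b : Fin n → O,
        ∑ i, b i • coresCl (GammaPsi_le Ψ) O O (v i) = x := by
  have : NeZero (ℓ₀ : ℕ) := ⟨ℓ₀.2.ne_zero⟩
  have hI := isIdemAt_levelIdem O Ψ hΨ hneg 𝓟 a
  obtain ⟨hres, hcor, hdia⟩ := levelAlg_compat O Ψ hΨ hneg 𝓟 (levelIdem O Ψ hΨ hneg 𝓟 a).2
  obtain ⟨b, hb⟩ := exists_inv_eta O Ψ hΨ hneg 𝓟 a ⟨ℓ₀, hℓ₀⟩ hℓ₀N hne
  have hη1 := etaKer_eq O Ψ hΨ hneg 𝓟 ⟨ℓ₀, hℓ₀⟩
  have hη2 := etaBase_eq O Ψ hΨ hneg 𝓟 ⟨ℓ₀, hℓ₀⟩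
  suffices aux : ∀ e t : levelAlg O Ψ hΨ hneg 𝓟, e * e = e → t * b * e = e →
      t.1.1 = etaKer (C := upperCorr N (ℓ₀ : ℕ)) (mem_GammaPsi Ψ) hneg (upperCorr_compat Ψ hΨ) O →
      t.1.2 = etaBase (upperCorr N (ℓ₀ : ℕ)) O →
      e.1.1.comp (resCl (GammaPsi_le Ψ) O O) = (resCl (GammaPsi_le Ψ) O O).comp e.1.2 →
      e.1.2.comp (coresCl (GammaPsi_le Ψ) O O) = (coresCl (GammaPsi_le Ψ) O O).comp e.1.1 →
      (∀ δ, Commute e.1.1 (diaOp O Ψ hΨ δ)) →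
      ∃ (n : ℕ) (v : Fin n → clHoms O (GammaPsi Ψ) O),
        (∀ i, e.1.1 (v i) = v i) ∧
        (∀ w, e.1.1 w = w → ∃! c : Fin n → Δ → O,
          ∑ i, ∑ g, c i g • diaOp O Ψ hΨ g (v i) = w) ∧
        ∀ x, e.1.2 x = x → ∃! b : Fin n → O,
          ∑ i, b i • coresCl (GammaPsi_le Ψ) O O (v i) = x from
    aux _ _ hI.idem hb hη1 hη2 hres hcor hdia
  intro e t he hb hη1 hη2 hres hcor hdia
  let f₁ := (RingHom.fst _ _).comp (levelAlg O Ψ hΨ hneg 𝓟).val.toRingHom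
  let f₂ := (RingHom.snd _ _).comp (levelAlg O Ψ hΨ hneg 𝓟).val.toRingHom
  have hi1 : e.1.1 * e.1.1 = e.1.1 := (map_mul f₁ e e).symm.trans (congrArg f₁ he)
  have hi2 : e.1.2 * e.1.2 = e.1.2 := (map_mul f₂ e e).symm.trans (congrArg f₂ he)
  have hc1 : e.1.1 * t.1.1 = t.1.1 * e.1.1 :=
    (map_mul f₁ e t).symm.trans ((congrArg f₁ (mul_comm e t)).trans (map_mul f₁ t e))
  have hc2 : e.1.2 * t.1.2 = t.1.2 * e.1.2 :=
    (map_mul f₂ e t).symm.trans ((congrArg f₂ (mul_comm e t)).trans (map_mul f₂ t e))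
  have hs1 : ∀ x, e.1.1 x = x → ∃ y, e.1.1 y = y ∧ t.1.1 y = x :=
    exists_preimage_of_inv f₁ hb he
  have hs2 : ∀ x, e.1.2 x = x → ∃ y, e.1.2 y = y ∧ t.1.2 y = x :=
    exists_preimage_of_inv f₂ hb he
  rw [hη1] at hc1 hs1
  rw [hη2] at hc2 hs2
  exact exists_free_basis_kernel (GammaPsi_le Ψ) (mem_GammaPsi Ψ) (dChar_surjective Ψ hΨ) hneg
    (upperCorr_compat Ψ hΨ) hΔ (upperCorr_balanced ℓ₀.2 hℓ₀N)
    hker e.1.1 e.1.2
    hi1 hi2 hdia hres hcor hc1 hc2 hs1 hs2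

end Fermat.Agent.LevelLowering
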