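import Fermat.Agent.LevelLowering.FreeDescent

/-!
# Taylor–Wiles freeness

Descent iterated over a finite set `Q` of Taylor–Wiles primes and freeness over `O[Δ]` of the
part of `Hom_cl(Γ_Ψ, O)` at a residual system, with basis lifting one of the part at the minimal
level.
-/

noncomputable section

namespace Fermat.Agent.LevelLowering

open scoped MatrixGroups IsMulCommutative
open CongruenceSubgroup IsLocalRing Fermat.Agent.Grp Fermat.Agent.Ihara

/-- A map carrying the part of one idempotent bijectively to the part of another has an inverse. -/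
theorem exists_section_of_idem {R V V' : Type*} [CommRing R] [AddCommGroup V] [Module R V]
    [AddCommGroup V'] [Module R V'] (Φ : V →ₗ[R] V') (e : Module.End R V) (e' : Module.End R V')
    (he : e * e = e) (he' : e' * e' = e') (h1 : ∀ y, e' (Φ y) = Φ y) (h2 : ∀ y, Φ (e y) = Φ y)
    (h3 : ∀ w, e' w = w → ∃! y, e y = y ∧ Φ y = w) :
    ∃ S : V' →ₗ[R] V, (∀ w, S (e' w) = S w) ∧ (∀ w, e (S w) = S w) ∧ (∀ w, Φ (S w) = e' w) ∧
      ∀ y, S (Φ y) = e y := by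
  have hfix : ∀ w, e' (e' w) = e' w := fun w => by rw [← Module.End.mul_apply, he']
  choose f hf huniq using fun w => h3 (e' w) (hfix w)
  refine ⟨{ toFun := f, map_add' := fun u v => ?_, map_smul' := fun c v => ?_ },
    fun w => ?_, fun w => (hf w).1, fun w => (hf w).2, fun y => ?_⟩
  · refine (huniq (u + v) _ ⟨?_, ?_⟩).symm
    · rw [map_add, (hf u).1, (hf v).1]
    · rw [map_add, (hf u).2, (hf v).2, map_add]
  · refine (huniq (c • v) _ ⟨?_, ?_⟩).symm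
    · rw [map_smul, RingHom.id_apply, (hf v).1]
    · rw [RingHom.id_apply, map_smul, (hf v).2, map_smul]
  · exact huniq w (f (e' w)) ⟨(hf _).1, (hf (e' w)).2.trans (hfix w)⟩
  · exact (huniq (Φ y) _ ⟨by rw [← Module.End.mul_apply, he], by rw [h2, h1]⟩).symm

variable (O : Type) [CommRing O] [IsLocalRing O] [IsNoetherianRing O]
  [IsAdicComplete (maximalIdeal O) O]

/-- The residual system at level `N = M ∏ Q`. -/
def sysTop (Q : Finset Nat.Primes) (α : Nat.Primes → ResidueField O)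
    (a : Nat.Primes → ResidueField O) : Nat.Primes → ResidueField O :=
  fun ℓ => if ℓ ∈ Q then α ℓ else a ℓ

/-- The residual system at level `M`. -/
def sysBot (Q : Finset Nat.Primes) (α β : Nat.Primes → ResidueField O)
    (a : Nat.Primes → ResidueField O) : Nat.Primes → ResidueField O :=
  fun ℓ => if ℓ ∈ Q then α ℓ + β ℓ else a ℓ

variable (M : ℕ) [NeZero M] (𝓟 : Set Nat.Primes) (α β : Nat.Primes → ResidueField O)

/-- **Iterated descent**: the localisations at levels `M ∏ Q` and `M` are isomorphic. -/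
theorem tw_descent (Q : Finset Nat.Primes) (hQ : ↑Q ⊆ 𝓟) (hQM : ∀ q ∈ Q, ¬ (q : ℕ) ∣ M)
    (hq1 : ∀ q ∈ Q, ((q : ℕ) : ResidueField O) = 1) (hαβ : ∀ q ∈ Q, α q * β q = 1)
    (hne : ∀ q ∈ Q, α q ≠ β q) (a : Nat.Primes → ResidueField O) (N : ℕ) [NeZero N]
    (hN : N = M * ∏ q ∈ Q, (q : ℕ)) :
    ∃ Φ : clH O M →ₗ[O] clH O N,
      (∀ y, (baseIdem O N 𝓟 (sysTop O Q α a)).1 (Φ y) = Φ y) ∧
      (∀ y, Φ ((baseIdem O M 𝓟 (sysBot O Q α β a)).1 y) = Φ y) ∧
      (∀ w, (baseIdem O N 𝓟 (sysTop O Q α a)).1 w = w →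
        ∃! y, (baseIdem O M 𝓟 (sysBot O Q α β a)).1 y = y ∧ Φ y = w) ∧
      (∀ i : 𝓟, i.1 ∉ Q → ∀ y, baseGen O N 𝓟 i (Φ y) = Φ (baseGen O M 𝓟 i y)) ∧
      ∀ i : 𝓟, i.1 ∈ Q → ∀ y, baseGen O N 𝓟 i (baseGen O N 𝓟 i (Φ y)) + ((i.1 : ℕ) : O) • Φ y =
        baseGen O N 𝓟 i (Φ (baseGen O M 𝓟 i y)) := by
  classical
  induction Q using Finset.induction_on generalizing N a with
  | empty =>
    rw [Finset.prod_empty, mul_one] at hN
    subst hN
    have hT : sysTop O ∅ α a = a := funext fun ℓ => by simp [sysTop]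
    have hB : sysBot O ∅ α β a = a := funext fun ℓ => by simp [sysBot]
    rw [hT, hB]
    set e := (baseIdem O N 𝓟 a).1
    have he : ∀ y, e (e y) = e y := fun y => by
      rw [← Module.End.mul_apply]
      exact LinearMap.congr_fun (congrArg Subtype.val (isIdemAt_baseIdem O N 𝓟 a).idem) y
    refine ⟨e, he, he, fun w hw => ⟨w, ⟨hw, hw⟩, fun y hy => hy.1.symm.trans hy.2⟩,
      fun i _ y => ?_, fun i hi => by simp at hi⟩
    exact LinearMap.congr_fun (congrArg Subtype.val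
      (mul_comm (baseElt O N 𝓟 i) (baseIdem O N 𝓟 a))) y
  | insert q s hqs ih =>
    have hqp : (q : ℕ).Prime := q.2
    have : NeZero (q : ℕ) := ⟨hqp.ne_zero⟩
    obtain ⟨hq𝓟, hs𝓟⟩ : q ∈ 𝓟 ∧ ↑s ⊆ 𝓟 := by
      rw [Finset.coe_insert, Set.insert_subset_iff] at hQ; exact hQ
    set N' := M * ∏ r ∈ s, (r : ℕ) with hN'
    have : NeZero N' := ⟨mul_ne_zero (NeZero.ne M)
      (Finset.prod_ne_zero_iff.mpr fun r _ => r.2.ne_zero)⟩
    have hNq : N = N' * q := by rw [hN, Finset.prod_insert hqs, hN']; ring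
    subst hNq
    have hqN' : ¬ (q : ℕ) ∣ N' := fun h => by
      rcases hqp.dvd_mul.mp h with h | h
      · exact hQM q (Finset.mem_insert_self q s) h
      · obtain ⟨r, hr, hrq⟩ := (hqp.prime.dvd_finsetProd_iff _).mp h
        exact hqs ((Subtype.ext ((Nat.prime_dvd_prime_iff_eq hqp r.2).mp hrq) : q = r) ▸ hr)
    obtain ⟨Φs, s1, s2, s3, s4, s5⟩ := ih hs𝓟 (fun r hr => hQM r (Finset.mem_insert_of_mem hr))
      (fun r hr => hq1 r (Finset.mem_insert_of_mem hr))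
      (fun r hr => hαβ r (Finset.mem_insert_of_mem hr))
      (fun r hr => hne r (Finset.mem_insert_of_mem hr))
      (Function.update a q (α q + β q)) N' rfl
    obtain ⟨Φq, q1, q2, q3, q4, q5⟩ := descent_step O N' (q : ℕ) hqp hqN' 𝓟 hq𝓟
      (sysTop O s α a) (α q) (β q) (hq1 q (Finset.mem_insert_self q s))
      (hαβ q (Finset.mem_insert_self q s)) (hne q (Finset.mem_insert_self q s))
    have eT : Function.update (sysTop O s α a) q (α q) = sysTop O (insert q s) α a := by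
      funext ℓ
      rcases eq_or_ne ℓ q with rfl | h
      · simp [sysTop]
      · simp [sysTop, h]
    have eM : Function.update (sysTop O s α a) q (α q + β q) =
        sysTop O s α (Function.update a q (α q + β q)) := by
      funext ℓ
      rcases eq_or_ne ℓ q with rfl | h
      · simp [sysTop, hqs]
      · simp [sysTop, Function.update_of_ne h]
    have eB : sysBot O s α β (Function.update a q (α q + β q)) =
        sysBot O (insert q s) α β a := by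
      funext ℓ
      rcases eq_or_ne ℓ q with rfl | h
      · simp [sysBot, hqs]
      · simp [sysBot, h]
    have q1' : ∀ y, (baseIdem O (N' * q) 𝓟 (sysTop O (insert q s) α a)).1 (Φq y) = Φq y := by
      rw [← eT]; exact q1
    have q2' : ∀ y, Φq ((baseIdem O N' 𝓟 (sysTop O s α (Function.update a q (α q + β q)))).1 y) =
        Φq y := by rw [← eM]; exact q2
    have q3' : ∀ w, (baseIdem O (N' * q) 𝓟 (sysTop O (insert q s) α a)).1 w = w →
        ∃! y, (baseIdem O N' 𝓟 (sysTop O s α (Function.update a q (α q + β q)))).1 y = y ∧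
          Φq y = w := by rw [← eT, ← eM]; exact q3
    rw [eB] at s2 s3
    refine ⟨Φq ∘ₗ Φs, fun y => q1' _, fun y => congrArg Φq (s2 y), fun w hw => ?_,
      fun i hi y => ?_, fun i hi y => ?_⟩
    · obtain ⟨z, ⟨hz, hzw⟩, hzu⟩ := q3' w hw
      obtain ⟨y, ⟨hy, hyz⟩, hyu⟩ := s3 z hz
      refine ⟨y, ⟨hy, (congrArg Φq hyz).trans hzw⟩, fun y' hy' => hyu y' ⟨hy'.1, ?_⟩⟩
      exact hzu _ ⟨s1 y', hy'.2⟩
    · rw [Finset.mem_insert, not_or] at hi
      exact (q4 i hi.1 _).trans (congrArg Φq (s4 i hi.2 y))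
    · rcases Finset.mem_insert.mp hi with hiq | his
      · have hi' : i = ⟨q, hq𝓟⟩ := Subtype.ext hiq
        subst hi'
        exact (q5 (Φs y)).trans (congrArg (fun z => baseGen O (N' * q) 𝓟 ⟨q, hq𝓟⟩ (Φq z))
          (s4 ⟨q, hq𝓟⟩ hqs y))
      · have hne' : i.1 ≠ q := fun h => hqs (h ▸ his)
        have h4 := q4 i hne'
        show baseGen O _ 𝓟 i (baseGen O _ 𝓟 i (Φq (Φs y))) + _ • Φq (Φs y) =
          baseGen O _ 𝓟 i (Φq (Φs (baseGen O M 𝓟 i y)))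
        rw [h4, h4, h4, ← map_smul, ← map_add, s5 i his y]

variable {Δ : Type} [CommGroup Δ] [Fintype Δ] [IsAddTorsionFree O] {p : ℕ} [Fact p.Prime]
  [CharP (ResidueField O) p]

/-- **Taylor-Wiles freeness**.  The localisation at `(θ, U_q ↦ α_q, δ ↦ 1)` of
`Hom_cl(Γ_Ψ, O)` is free over `O[Δ]` on a basis mapping to a basis of the localisation at level
`M`; the map to level `M` commutes with the operators outside `Q` and its kernel is the
augmentation part. -/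
theorem tw_free_of_ker (Q : Finset Nat.Primes) (hQ : ↑Q ⊆ 𝓟) (hQM : ∀ q ∈ Q, ¬ (q : ℕ) ∣ M)
    (hq1 : ∀ q ∈ Q, ((q : ℕ) : ResidueField O) = 1) (hαβ : ∀ q ∈ Q, α q * β q = 1)
    (hne : ∀ q ∈ Q, α q ≠ β q) (a : Nat.Primes → ResidueField O) {N : ℕ} [NeZero N]
    (hN : N = M * ∏ q ∈ Q, (q : ℕ)) (Ψ : (ZMod N)ˣ →* Δ) (hΨ : Function.Surjective Ψ)
    (hneg : (-1 : SL(2, ℤ)) ∈ GammaPsi Ψ)
    (hker : ∀ g : Gamma0 N, |tr (g : SL(2, ℤ))| ≤ 2 → dChar Ψ g = 1) (hΔ : IsPGroup p Δ)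
    {ℓ₀ : Nat.Primes} (hℓ₀ : ℓ₀ ∈ 𝓟) (hℓ₀N : ¬ (ℓ₀ : ℕ) ∣ N) (hℓ₀a : a ℓ₀ ≠ (ℓ₀ : ℕ) + 1) :
    ∃ (d : ℕ) (v : Fin d → clHoms O (GammaPsi Ψ) O) (π : clHoms O (GammaPsi Ψ) O →ₗ[O] clH O M),
      (∀ i, (levelIdem O Ψ hΨ hneg 𝓟 (sysTop O Q α a)).1.1 (v i) = v i) ∧
      (∀ w, (levelIdem O Ψ hΨ hneg 𝓟 (sysTop O Q α a)).1.1 w = w → ∃! c : Fin d → Δ → O,
        ∑ i, ∑ g, c i g • diaOp O Ψ hΨ g (v i) = w) ∧
      (∀ w, π ((levelIdem O Ψ hΨ hneg 𝓟 (sysTop O Q α a)).1.1 w) = π w) ∧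
      (∀ w, (baseIdem O M 𝓟 (sysBot O Q α β a)).1 (π w) = π w) ∧
      (∀ x, (baseIdem O M 𝓟 (sysBot O Q α β a)).1 x = x →
        ∃! b : Fin d → O, ∑ i, b i • π (v i) = x) ∧
      (∀ g w, π (diaOp O Ψ hΨ g w) = π w) ∧
      (∀ i : 𝓟, i.1 ∉ Q → ∀ w,
        π ((levelGen O Ψ hΨ hneg 𝓟 (.inl i)).1 w) = baseGen O M 𝓟 i (π w)) ∧
      ∀ w, (levelIdem O Ψ hΨ hneg 𝓟 (sysTop O Q α a)).1.1 w = w → π w = 0 →
        w ∈ Submodule.span O (Set.range fun x : Fin d × Δ =>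
          diaOp O Ψ hΨ x.2 (v x.1) - v x.1) := by
  classical
  set aT := sysTop O Q α a with haT
  set aB := sysBot O Q α β a with haB
  have hℓQ : ℓ₀ ∉ Q := fun h => hℓ₀N (by
    rw [hN]; exact (Finset.dvd_prod_of_mem (fun q : Nat.Primes => (q : ℕ)) h).mul_left M)
  obtain ⟨d, v, hv, hfree, hbase⟩ := level_free_of_ker O Ψ hΨ hneg 𝓟 aT hker hΔ hℓ₀ hℓ₀N
    (show aT ℓ₀ ≠ _ by simpa [haT, sysTop, hℓQ] using hℓ₀a)
  rw [levelIdem_snd O 𝓟 aT Ψ hΨ hneg] at hbase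
  obtain ⟨Φ, h1, h2, h3, h4, -⟩ := tw_descent O M 𝓟 α β Q hQ hQM hq1 hαβ hne a N hN
  obtain ⟨S, S1, S2, S3, S4⟩ := exists_section_of_idem Φ _ _
    (congrArg Subtype.val (isIdemAt_baseIdem O M 𝓟 aB).idem)
    (congrArg Subtype.val (isIdemAt_baseIdem O N 𝓟 aT).idem) h1 h2 h3
  obtain ⟨hres, hcor, hdia⟩ := levelAlg_compat O Ψ hΨ hneg 𝓟
    (levelIdem O Ψ hΨ hneg 𝓟 aT).2
  rw [levelIdem_snd O 𝓟 aT Ψ hΨ hneg] at hcor
  have hcor' : ∀ w, (baseIdem O N 𝓟 aT).1 (coresCl (GammaPsi_le Ψ) O O w) =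
      coresCl (GammaPsi_le Ψ) O O ((levelIdem O Ψ hΨ hneg 𝓟 aT).1.1 w) :=
    fun w => LinearMap.congr_fun hcor w
  have hgen : ∀ j w, (levelGen O Ψ hΨ hneg 𝓟 j).2 (coresCl (GammaPsi_le Ψ) O O w) =
      coresCl (GammaPsi_le Ψ) O O ((levelGen O Ψ hΨ hneg 𝓟 j).1 w) := fun j w =>
    LinearMap.congr_fun (levelAlg_compat O Ψ hΨ hneg 𝓟
      (x := levelGen O Ψ hΨ hneg 𝓟 j) (Algebra.subset_adjoin ⟨j, rfl⟩)).2.1 w
  have hdiaπ : ∀ g w, S (coresCl (GammaPsi_le Ψ) O O (diaOp O Ψ hΨ g w)) =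
      S (coresCl (GammaPsi_le Ψ) O O w) := fun g w => congrArg S (hgen (.inr g) w).symm
  refine ⟨d, v, S ∘ₗ coresCl (GammaPsi_le Ψ) O O, hv, hfree, fun w => ?_, fun w => S2 _,
    fun x hx => ?_, hdiaπ, fun i hi w => ?_, fun w hw h0 => ?_⟩
  · show S (coresCl (GammaPsi_le Ψ) O O _) = S (coresCl (GammaPsi_le Ψ) O O w)
    rw [← hcor', S1]
  · have hvb : ∀ i, (baseIdem O N 𝓟 aT).1 (coresCl (GammaPsi_le Ψ) O O (v i)) =
        coresCl (GammaPsi_le Ψ) O O (v i) := fun i => by rw [hcor', hv i]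
    obtain ⟨b, hb, hbu⟩ := hbase (Φ x) (h1 x)
    refine ⟨b, ?_, fun b' hb' => hbu b' ?_⟩
    · have := congrArg S hb
      simp only [map_sum, map_smul] at this
      exact this.trans ((S4 x).trans hx)
    · have := congrArg Φ hb'
      simp only [map_sum, map_smul, LinearMap.comp_apply, S3, hvb] at this
      exact this
  · show S (coresCl (GammaPsi_le Ψ) O O _) = baseGen O M 𝓟 i (S _)
    rw [← hgen (.inl i) w]
    show S (baseGen O N 𝓟 i (coresCl (GammaPsi_le Ψ) O O w)) = _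
    set z := coresCl (GammaPsi_le Ψ) O O w
    have hcomm : (baseIdem O N 𝓟 aT).1 (baseGen O N 𝓟 i z) =
        baseGen O N 𝓟 i ((baseIdem O N 𝓟 aT).1 z) :=
      LinearMap.congr_fun (congrArg Subtype.val
        (mul_comm (baseIdem O N 𝓟 aT) (baseElt O N 𝓟 i))) z
    have hcommM : (baseIdem O M 𝓟 aB).1 (baseGen O M 𝓟 i (S z)) =
        baseGen O M 𝓟 i ((baseIdem O M 𝓟 aB).1 (S z)) :=
      LinearMap.congr_fun (congrArg Subtype.val
        (mul_comm (baseIdem O M 𝓟 aB) (baseElt O M 𝓟 i))) (S z)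
    rw [← S1, hcomm, ← S3, h4 i hi, S4, hcommM, S2]
  · obtain ⟨c, hc, -⟩ := hfree w hw
    have hvb : ∀ i, (baseIdem O N 𝓟 aT).1 (coresCl (GammaPsi_le Ψ) O O (v i)) =
        coresCl (GammaPsi_le Ψ) O O (v i) := fun i => by rw [hcor', hv i]
    have hsum : ∑ i, (∑ g, c i g) • coresCl (GammaPsi_le Ψ) O O (v i) = 0 := by
      have := congrArg Φ h0
      rw [LinearMap.comp_apply, S3, hcor', hw, map_zero, ← hc] at this
      simp only [map_sum, map_smul] at this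
      rw [← this]
      refine Finset.sum_congr rfl fun i _ => ?_
      rw [Finset.sum_smul]
      exact Finset.sum_congr rfl fun g _ => congrArg (c i g • ·) (hgen (.inr g) (v i))
    obtain ⟨b, -, hbu⟩ := hbase 0 (map_zero _)
    have hc0 : ∀ i, ∑ g, c i g = 0 := fun i =>
      (congrFun (hbu _ hsum) i).trans (congrFun (hbu 0 (by simp)).symm i)
    have hw' : w = ∑ i, ∑ g, c i g • (diaOp O Ψ hΨ g (v i) - v i) := by
      rw [← hc]
      refine Finset.sum_congr rfl fun i _ => ?_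
      simp only [smul_sub, Finset.sum_sub_distrib, ← Finset.sum_smul, hc0 i, zero_smul, sub_zero]
    rw [hw']
    exact sum_mem fun i _ => sum_mem fun g _ => Submodule.smul_mem _ _
      (Submodule.subset_span ⟨(i, g), rfl⟩)

end Fermat.Agent.LevelLowering
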