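import Fermat.Prelude.Def_FLTPrelim_Ramification
import Fermat.Agent.EC.TorsionGalois
import Fermat.Agent.Frey.FreyModel
import Fermat.Agent.Frey.Local
import Fermat.Agent.LevelLowering.Transvections
import Fermat.Agent.Tate.Frey
import Fermat.Agent.Tate.Line

/-!
# Facts about the mod `p` representation of the Frey curve

It is ramified at `2`; if irreducible its image contains `SL₂(𝔽_p)`, it is absolutely irreducible
and it stays irreducible on index two subgroups.
-/

noncomputable section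

namespace Fermat.Agent.LevelLowering

open WeierstrassCurve WeierstrassCurve.Affine.Point
open scoped WeierstrassCurve.Affine

local notation "Qbar" => AlgebraicClosure ℚ
local notation "GQ" => (AlgebraicClosure ℚ ≃ₐ[ℚ] AlgebraicClosure ℚ)

/-- The Frey discriminant is even, with `2`-adic valuation prime to `p`. -/
theorem two_dvd_freyCurveInt_Δ (P : FreyPackage) : (2 : ℤ) ∣ P.freyCurveInt.Δ ∧
    ¬ P.p ∣ padicValInt 2 P.freyCurveInt.Δ := by
  obtain ⟨N, u, ha4, hu, hN, hpN⟩ := Frey.freyCurveInt_a4_two P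
  set s := 1 + 4 * P.freyCurveInt.a₂ with hs
  set m := u ^ 2 * (s ^ 2 - 64 * P.freyCurveInt.a₄) with hm
  have hΔ : P.freyCurveInt.Δ = 2 ^ (2 * N) * m := by
    have e : P.freyCurveInt.Δ = P.freyCurveInt.a₄ ^ 2 * (s ^ 2 - 64 * P.freyCurveInt.a₄) := by
      have e1 : P.freyCurveInt.a₁ = 1 := rfl
      have e3 : P.freyCurveInt.a₃ = 0 := rfl
      have e6 : P.freyCurveInt.a₆ = 0 := rfl
      simp only [WeierstrassCurve.Δ, WeierstrassCurve.b₂, WeierstrassCurve.b₄, WeierstrassCurve.b₆,
        WeierstrassCurve.b₈, e1, e3, e6, hs]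
      ring
    rw [e, hm, ha4]
    ring
  have h2 : Prime (2 : ℤ) := Int.prime_two
  have hmodd : ¬ (2 : ℤ) ∣ m := by
    rw [hm, h2.dvd_mul]
    rintro (h | h)
    · exact hu (h2.dvd_of_dvd_pow h)
    · have : (2 : ℤ) ∣ s ^ 2 := by
        simpa using dvd_add h (dvd_mul_of_dvd_left (show (2 : ℤ) ∣ 64 by norm_num)
          P.freyCurveInt.a₄)
      obtain ⟨c, hc⟩ := h2.dvd_of_dvd_pow this
      omega
  refine ⟨?_, ?_⟩
  · rw [hΔ]
    exact dvd_mul_of_dvd_left (dvd_pow_self _ (by omega)) _
  · have hv : padicValInt 2 P.freyCurveInt.Δ = 2 * N := by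
      rw [hΔ, padicValInt.mul (pow_ne_zero _ two_ne_zero) (fun h : m = 0 =>
        hmodd (by rw [h]; exact dvd_zero _)),
        padicValInt.eq_zero_of_not_dvd (z := m) (by exact_mod_cast hmodd), add_zero, padicValInt,
        Int.natAbs_pow]
      exact padicValNat.prime_pow _
    rw [hv]
    intro h
    rcases (Nat.Prime.dvd_mul P.pp).mp h with h | h
    · exact absurd (Nat.le_of_dvd two_pos h) (by have := P.hp5; omega)
    · exact hpN h

/-- An inertia element at `2` acts on `E[p]` as a nontrivial unipotent. -/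
theorem exists_transvection (P : FreyPackage) [Fact P.p.Prime] :
    ∃ A : ValuationSubring Qbar, A.LiesOverPrime 2 ∧ ∃ σ ∈ A.inertiaSubgroupIn ℚ,
      galoisRepModuleEnd (S := ℚ) (K := Qbar) P.freyCurve P.p σ ≠ 1 ∧
      ∀ v, galoisRepModuleEnd (S := ℚ) (K := Qbar) P.freyCurve P.p σ
          (galoisRepModuleEnd (S := ℚ) (K := Qbar) P.freyCurve P.p σ v - v) =
        galoisRepModuleEnd (S := ℚ) (K := Qbar) P.freyCurve P.p σ v - v := by
  rw [Frey.freyCurve_eq_map]
  obtain ⟨A, hA⟩ := Gal.exists_liesOverPrime Nat.prime_two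
  have hΔ0 := Frey.freyCurveInt_Δ_ne_zero P
  obtain ⟨hΔ, hn⟩ := two_dvd_freyCurveInt_Δ P
  have hp2 : P.p ≠ 2 := by have := P.hp5; omega
  have hc₄ := Tate.frey_multiplicative P Nat.prime_two (q := 2) (by exact_mod_cast hΔ)
  have hvΔ : A.valuation ((P.freyCurveInt.Δ : ℤ) : Qbar) < 1 :=
    (Tate.val_intCast_lt_one_iff Nat.prime_two hA _).2 (by exact_mod_cast hΔ)
  obtain ⟨Q, hQ, hQd⟩ := Tate.exists_torsion_not_inE0 (p := P.p)
    (W := Tate.qbarCurve P.freyCurveInt) (A := A) (Tate.isInt_qbarCurve A _)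
    (by simpa [Tate.qbar_Δ] using hΔ0) (by rwa [Tate.qbar_Δ])
    (by rw [Tate.qbar_c₄]; exact (Tate.val_intCast_eq_one_iff Nat.prime_two hA _).2 hc₄) hp2
  obtain ⟨σ, hσ, hmove⟩ := Tate.exists_inertia_smul_ne Nat.prime_two hA hΔ0 (by exact_mod_cast hΔ)
    hc₄ hp2 hp2 hn (P := Q) hQ hQd
  refine ⟨A, hA, σ, hσ, fun h => hmove ?_, fun v => ?_⟩
  · have := congrArg Subtype.val (LinearMap.congr_fun h
      ⟨Q, by rw [Submodule.mem_torsionBy_iff, natCast_zsmul]; exact hQ⟩)
    rw [galoisRepModuleEnd_apply] at this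
    exact this
  · simp only [galoisRepModuleEnd_apply]
    exact Frey.inertia_unipotent hΔ0 (Frey.freyCurveInt_isSemistable P) Nat.prime_two hA P.pp hp2
      (Ne.symm hp2) hσ v

/-- The Frey representation is ramified at `2`. -/
theorem not_galoisRepUnramifiedAt_two (P : FreyPackage) [Fact P.p.Prime] :
    ¬ P.GaloisRepUnramifiedAt 2 := by
  intro h
  obtain ⟨A, hA, σ, hσ, h1, -⟩ := exists_transvection P
  exact h1 (LinearMap.ext fun v => (galoisRepModuleEnd_apply _ _ _ _).trans (h A hA σ hσ v))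

/-- An irreducible Frey representation has opposite transvections in its image. -/
theorem frey_hasOppositeTransvections (P : FreyPackage) [Fact P.p.Prime]
    (hirr : GaloisRepIsIrreducible (K := Qbar) ℚ P.freyCurve P.p) :
    HasOppositeTransvections
      (galoisRepModuleEnd (S := ℚ) (K := Qbar) P.freyCurve P.p) := by
  obtain ⟨A, -, σ, -, h1, h2⟩ := exists_transvection P
  have hell := Frey.isElliptic_freyCurve P
  refine HasOppositeTransvections.of_unipotent
    (EC.finrank_torsionBy (K := Qbar) P.freyCurve P.p (Nat.cast_ne_zero.mpr P.pp.ne_zero)) _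
    (fun W hW => hirr.2 W fun τ x hx => ?_) h1 h2
  have := hW τ x hx
  rwa [galoisRepModuleEnd_apply] at this

/-- `2` is nonzero modulo the prime of a Frey package. -/
theorem frey_two_ne_zero (P : FreyPackage) [Fact P.p.Prime] : (2 : ZMod P.p) ≠ 0 := by
  rw [← Nat.cast_two, Ne, ZMod.natCast_eq_zero_iff]
  exact fun h => absurd (Nat.le_of_dvd two_pos h) (by have := P.hp5; omega)

/-- The image of an irreducible Frey representation contains `SL₂(𝔽_p)`. -/
theorem frey_sl2_le_range (P : FreyPackage) [Fact P.p.Prime]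
    (hirr : GaloisRepIsIrreducible (K := Qbar) ℚ P.freyCurve P.p)
    (f : Module.End (ZMod P.p)
      (Submodule.torsionBy ℤ ((P.freyCurve)⁄Qbar).Point (P.p : ℤ)))
    (hf : LinearMap.det f = 1) :
    ∃ g, galoisRepModuleEnd (S := ℚ) (K := Qbar) P.freyCurve P.p g = f :=
  (frey_hasOppositeTransvections P hirr).sl2_le_range f hf

/-- `E[p]` over an extension `k` of `𝔽_p`. -/
theorem frey_baseChange_facts (P : FreyPackage) [Fact P.p.Prime] [P.freyCurve.IsElliptic]
    (hirr : GaloisRepIsIrreducible (K := Qbar) ℚ P.freyCurve P.p) {k : Type} [Field k]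
    [Algebra (ZMod P.p) k] :
    HasOppositeTransvections ((EC.residualRep P.freyCurve P.p).baseChange k).ρ ∧
      ((EC.residualRep P.freyCurve P.p).baseChange k).IsAbsolutelyIrreducible ∧
      ∀ (K : Type) [Field K] [Algebra k K] (H : Subgroup GQ), H.index = 2 →
        ∀ W : Submodule K (((EC.residualRep P.freyCurve P.p).baseChange k).baseChange K).V,
          (∀ σ ∈ H, ∀ x ∈ W,
            (((EC.residualRep P.freyCurve P.p).baseChange k).baseChange K).ρ σ x ∈ W) →
          W = ⊥ ∨ W = ⊤ := by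
  have h2 : (2 : k) ≠ 0 := by
    rw [← map_ofNat (algebraMap (ZMod P.p) k) 2, Ne, map_eq_zero]
    exact frey_two_ne_zero P
  have h : HasOppositeTransvections ((EC.residualRep P.freyCurve P.p).baseChange k).ρ :=
    HasOppositeTransvections.baseChange (frey_hasOppositeTransvections P hirr) _ fun _ => rfl
  exact ⟨h, isAbsolutelyIrreducible_of_transvections _ h h2,
    fun K _ _ H hH W hW => irreducible_indexTwo_of_transvections _ h h2 K H hH W hW⟩

end Fermat.Agent.LevelLowering
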