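import Fermat.Agent.Attach.DeformationToHecke
import Fermat.Agent.LevelLowering.TWCore

/-!
# Assembling the levels

The core of a level with a corrected action of the coordinates, points unipotent at the scalar
primes and a space of strict classes is a `LevelData`; without auxiliary primes it is a `LevelCore`.
-/

noncomputable section

namespace Fermat.Agent.LevelLowering

open IsLocalRing Polynomial Module Fermat.Agent.Gal Fermat.Agent.TW

local notation "GQ" => (AlgebraicClosure ℚ ≃ₐ[ℚ] AlgebraicClosure ℚ)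

variable {O : Type} [CommRing O] [IsDomain O] [IsDiscreteValuationRing O]
  {p : ℕ} [Fact p.Prime] {ρbar : ResidualGaloisRep (ResidueField O)}
  {bbar : Basis (Fin 2) (ResidueField O) ρbar.V} {m D d : ℕ}
  {Tm : ℕ → Matrix (Fin d) (Fin d) O} {S : Finset ℕ}
  {J : Ideal (MvPowerSeries (Fin D) O)} {A : Type} [CommRing A] [Algebra O A]
  {Φ : A →ₐ[O] Matrix (Fin d) (Fin d) (MvPowerSeries (Fin D) O ⧸ J)} {x : ℕ → A}
  {ι : Type} {R : ι → Type} [∀ a, CommRing (R a)] [∀ a, IsDomain (R a)]
  [∀ a, IsDiscreteValuationRing (R a)] [∀ a, CharZero (R a)] [∀ a, Algebra O (R a)]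
  {ev : ∀ a, A →ₐ[O] R a} {ρpt : ∀ a, GaloisRepAdic (R a)}
  (C : PointCore p ρbar J S Φ x R ev ρpt) (J_aug : ∀ s ∈ J, MvPowerSeries.constantCoeff s = 0)
  (hTm : ∀ ℓ : ℕ, ℓ.Prime → ℓ ∉ S →
    (Φ (x ℓ)).map (Ideal.Quotient.lift J MvPowerSeries.constantCoeff J_aug) = Tm ℓ)

/-- A core is a level. -/
def PointCore.levelCore : Scalar.LevelCore p ρbar D d Tm S :=
  C.toLevelCore J_aug C.act C.act_algebraMap (fun _ => rfl) hTm

variable (SP : Scalar.ScalarPrimes p ρbar bbar m) (g : ℕ)
  (act : C.T →+* Matrix (Fin d) (Fin d) (MvPowerSeries (Fin D) O ⧸ J))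
  (hC : ∀ c, act (algebraMap O C.T c) =
    Matrix.scalar (Fin d) (algebraMap O (MvPowerSeries (Fin D) O ⧸ J) c))
  (haug : ∀ t, (act t).map (Ideal.Quotient.lift J MvPowerSeries.constantCoeff J_aug) =
    (C.act t).map (Ideal.Quotient.lift J MvPowerSeries.constantCoeff J_aug))
  (hsq : ∀ i j, (Pi.single j (Ideal.Quotient.mk J (MvPowerSeries.X i) ^ 2) : Fin d → _) ∈
    Submodule.span (MvPowerSeries (Fin D) O ⧸ J)
      {v | ∃ t ∈ maximalIdeal C.T, ∃ w, (act t).mulVec w = v})
  (hunip : ∀ a i, (ρpt a).IsUnipotentOnInertiaAt (SP.r i))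
  (Z : Submodule (ResidueField O) (AG → sl2 (ResidueField O)))
  (Z_fin : FiniteDimensional (ResidueField O) (classes (adRep (rbar bbar)) Z))
  (Z_le : finrank (ResidueField O) (classes (adRep (rbar bbar)) Z) ≤ g)
  (Z_mem : ∀ (b : Basis (Fin 2) C.T C.ρ.V) (hb : Adapted bbar C.residue_surjective C.ρ b)
    (δ : tangent C.residue_surjective),
    (∀ i, ∀ h ∈ (SP.A i).decompositionSubgroup ℚ, tanCocycle hb C.det δ h = 0) →
      tanCocycle hb C.det δ ∈ Z)

include hTm hC haug hsq hunip Z Z_fin Z_le Z_mem in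
/-- **A level from its core.** -/
theorem exists_levelData_of_core :
    ∃ L : Scalar.LevelData SP g D d Tm S, L.core.J = J :=
  ⟨{ core := C.toLevelCore J_aug act hC haug hTm
     ι := ι
     F := R
     pt := C.pt
     pt_mem := fun a t ht => (mem_maximalIdeal _).mpr fun hu =>
       (mem_maximalIdeal _).mp ht (@IsLocalHom.map_nonunit _ _ _ _ _ _ _ (C.pt_local a) t hu)
     pts_injective := C.pt_injective
     pt_unipotent := fun a i => by
       rw [← hunip a i (SP.A i) (SP.lies i) (SP.σ i) (SP.tame i).1,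
         ← Attach.charpoly_eq_of_isEquiv (C.pt_equiv a) (SP.σ i)]
       exact (Attach.charpoly_baseChangeAlong (C.pt a).toRingHom (C.pt_local a) C.ρ (SP.σ i)).symm
     Z := Z
     Z_fin := Z_fin
     Z_le := Z_le
     Z_mem := Z_mem
     sq_mem := fun i j => by
       rw [map_pow]
       exact hsq i j }, rfl⟩

end Fermat.Agent.LevelLowering

end
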