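import Fermat.Agent.LevelLowering.TWCore
import Fermat.Agent.LevelLowering.TWEigenPoint
import Fermat.Agent.TW.Tangent

/-!
# The diamond action of a Taylor–Wiles level from its points

The local algebra of the points, in coordinates with the diamond classes, is corrected so that the
Galois diamonds become the variables.
-/

noncomputable section

namespace Fermat.Agent.LevelLowering

open scoped MatrixGroups
open CongruenceSubgroup IsLocalRing Polynomial Fermat.Agent.Grp Fermat.Agent.Ihara Fermat.Agent.Gal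
  Fermat.Agent.TW

local notation "Qbar" => AlgebraicClosure ℚ
local notation "GQ" => (AlgebraicClosure ℚ ≃ₐ[ℚ] AlgebraicClosure ℚ)

/-- The characteristic polynomial at a point of a representation over a ring with that point. -/
theorem charpoly_map_of_equiv {T R : Type} [CommRing T] [IsLocalRing T] [CommRing R] [IsLocalRing R]
    {ψ : T →+* R} {hψ : IsLocalHom ψ} {ρ : GaloisRepAdic T} {ρ' : GaloisRepAdic R}
    (h : (ρ.baseChangeAlong ψ hψ).IsEquiv ρ') (b : Module.Basis (Fin 2) T ρ.V) (σ : GQ) :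
    (matrixRep b ρ.ρ σ).charpoly.map ψ = LinearMap.charpoly (ρ'.ρ σ) := by
  obtain ⟨e⟩ := h
  let : Algebra T R := ψ.toAlgebra
  have h1 : LinearMap.charpoly ((ρ.baseChangeAlong ψ hψ).ρ σ) =
      (matrixRep b ρ.ρ σ).charpoly.map ψ := by
    refine (LinearMap.charpoly_baseChange (ρ.ρ σ) R).trans ?_
    rw [← LinearMap.charpoly_toMatrix (ρ.ρ σ) b]
    rfl
  rw [← h1, ← e.toLinearEquiv.charpoly_conj ((ρ.baseChangeAlong ψ hψ).ρ σ)]
  congr 1
  refine LinearMap.ext fun v => ?_
  rw [LinearEquiv.conj_apply_apply, e.map_apply, LinearEquiv.apply_symm_apply]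

/-- The residue field is finite when it is that of the coefficients. -/
theorem finite_residueField_of_hres {O T : Type} [CommRing O] [IsLocalRing O]
    [Finite (ResidueField O)] [CommRing T] [IsLocalRing T] [Algebra O T]
    [IsLocalHom (algebraMap O T)] (hres : Function.Surjective (residue T ∘ algebraMap O T)) :
    Finite (ResidueField T) :=
  Finite.of_surjective (ResidueField.map (algebraMap O T)) fun y => by
    obtain ⟨c, rfl⟩ := hres y
    exact ⟨residue O c, ResidueField.map_residue _ c⟩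

variable {O : Type} [CommRing O] [IsDomain O] [IsDiscreteValuationRing O]
  [IsAdicComplete (maximalIdeal O) O] [Finite (ResidueField O)]
  {p r : ℕ} [Fact p.Prime] {lv : Fin r → ℕ}

local notation "Sd" => MvPowerSeries (Fin r) O ⧸ diamondIdeal (𝒪 := O) p lv

/-- The diamond action from representations at the points with the matching local behaviour. -/
theorem exists_diamond_act_of_reps {ρbar : ResidualGaloisRep (ResidueField O)} {T : Type}
    [CommRing T] [IsLocalRing T] [IsNoetherianRing T] [IsAdicComplete (maximalIdeal T) T]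
    [Algebra O T] [IsLocalHom (algebraMap O T)]
    (hres : Function.Surjective (residue T ∘ algebraMap O T)) (ρ : GaloisRepAdic T)
    (hresid : ρ.residual.IsEquiv (ρbar.baseChangeAlong (ResidueField.map (algebraMap O T))))
    (hdet : ρ.DetIsCyclotomic p) {d : ℕ} (act : T →+* Matrix (Fin d) (Fin d) Sd)
    (hC : ∀ c, act (algebraMap O T c) = Matrix.scalar (Fin d) (algebraMap O Sd c))
    (hp𝒪 : (p : O) ∈ maximalIdeal O) {q : Fin r → ℕ}
    (hq : ∀ i, (q i).Prime) (hpq : ∀ i, p ≠ q i) (hlv : ∀ i, 1 ≤ lv i)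
    (hv : ∀ i, p ^ lv i ∣ q i - 1) (hv' : ∀ i, ¬ p ^ (lv i + 1) ∣ q i - 1)
    (hbarq : ∀ i, ρbar.IsUnramifiedAt (q i))
    (hfrobq : ∀ i, ∃ (A : ValuationSubring Qbar) (σ : GQ) (α β : ResidueField O),
      A.LiesOverPrime (q i) ∧ A.IsFrobeniusAt σ (q i) ∧ α ≠ β ∧
        LinearMap.charpoly (ρbar.ρ σ) = (X - Polynomial.C α) * (X - Polynomial.C β))
    {κ : Type} [Fintype κ] {R : κ → Type} [∀ j, CommRing (R j)] [∀ j, IsDomain (R j)]
    [∀ j, IsLocalRing (R j)] (pt : ∀ j, T →+* R j)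
    (hinjpt : ∀ t, (∀ j, pt j t = 0) → t = 0) (hloc : ∀ j, IsLocalHom (pt j))
    (ρpt : ∀ j, GaloisRepAdic (R j))
    (hequiv : ∀ j, (ρ.baseChangeAlong (pt j) (hloc j)).IsEquiv (ρpt j))
    {K : Type} [Field K] [IsAlgClosed K] [CharZero K] [Algebra O K]
    (hinjK : Function.Injective (algebraMap O K))
    (hpoint : ∀ (φ : Sd →ₐ[O] K) (lam : T →+* K),
      (∃ w : Fin d → K, w ≠ 0 ∧ ∀ t, ((act t).map φ).mulVec w = lam t • w) →
      ∃ j, (∀ t, lam t = 0 ↔ pt j t = 0) ∧
        (∀ i, φ (diaX O p lv i) = 0 → (ρpt j).IsUnipotentOnInertiaAt (q i)) ∧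
        ∀ i, (∀ i', i' ≠ i → φ (diaX O p lv i') = 0) → φ (diaX O p lv i) ≠ 0 →
          ¬ (ρpt j).IsUnipotentOnInertiaAt (q i)) :
    ∃ (δ : Fin r → T) (act' : T →+* Matrix (Fin d) (Fin d) Sd),
      (∀ i, δ i ∈ maximalIdeal T) ∧
      (∀ c, act' (algebraMap O T c) = Matrix.scalar (Fin d) (algebraMap O Sd c)) ∧
      (∀ i, act' (δ i) = Matrix.scalar (Fin d) (diaX O p lv i)) ∧
      (∀ y, act' y = 0 → act y = 0) ∧
      (∀ y, (act' y).map (Ideal.Quotient.lift _ MvPowerSeries.constantCoeff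
        (diamondIdeal_aug p lv)) =
        (act y).map (Ideal.Quotient.lift _ MvPowerSeries.constantCoeff (diamondIdeal_aug p lv))) ∧
      ∀ i j, (Pi.single j (diaX O p lv i ^ 2) : Fin d → Sd) ∈
        Submodule.span Sd {v | ∃ t ∈ maximalIdeal T, ∃ w, (act' t).mulVec w = v} := by
  classical
  have hfinT : Finite (ResidueField T) := finite_residueField_of_hres hres
  obtain ⟨b, hb⟩ := exists_adapted (bbar := basisTwo ρbar.finrank_eq) hres ρ hresid
  choose A Φ α β hA hΦ hab hF using hfrobq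
  have hmap : ∀ σ, (matrixRep b ρ.ρ σ).map (residue T) =
      (rbar (basisTwo ρbar.finrank_eq) σ).map (resEquiv hres) := fun σ => by
    ext i j
    rw [← hb σ]
    exact (map_resEquiv_toRes hres _).symm
  have hchar : ∀ j (σ : GQ), ((matrixRep b ρ.ρ σ).charpoly).map (pt j) =
      LinearMap.charpoly ((ρpt j).ρ σ) := fun j σ => charpoly_map_of_equiv (hequiv j) b σ
  have hroots : ∀ i, {y : T | y ^ p ^ lv i = 1}.Finite := fun i =>
    finite_roots_of_points pt hinjpt (pow_pos (Fact.out : p.Prime).pos _)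
  refine exists_twDiamond_act hinjK hp𝒪 act hC q hq hpq hlv hv hv' hroots
    (matrixRep b ρ.ρ) (Scalar.exists_nearOne ρ b) A hA Φ hΦ (fun i σ hσ => ?_)
    (fun i σ hσ => ?_) (fun i => resEquiv hres (α i)) (fun i => resEquiv hres (β i))
    (fun i h => hab i ((resEquiv hres).injective h)) (fun i => ?_)
    (fun i φ hφ lam hlam σ hσ => ?_) fun i φ hothers hprim lam hlam => ?_
  · rw [hmap]
    show ((matrixRep _ ρbar.ρ σ).map (resEquiv hres)) = 1
    rw [show matrixRep (basisTwo ρbar.finrank_eq) ρbar.ρ σ = 1 from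
      (congrArg (LinearMap.toMatrixAlgEquiv _) (hbarq i (A i) (hA i) σ hσ)).trans (map_one _)]
    exact Matrix.map_one _ (map_zero _) (map_one _)
  · rw [show (matrixRep b ρ.ρ σ).det = LinearMap.det (ρ.ρ σ) from LinearMap.det_toMatrix b _]
    exact det_inertia_of_detIsCyclotomic hdet Fact.out (hq i) (fun h => hpq i h.symm) (hA i) hσ
  · rw [hmap, show ((rbar (basisTwo ρbar.finrank_eq) (Φ i)).map (resEquiv hres)).charpoly =
      ((rbar (basisTwo ρbar.finrank_eq) (Φ i)).charpoly).map (resEquiv hres).toRingHom from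
        Matrix.charpoly_map _ _,
      show (rbar (basisTwo ρbar.finrank_eq) (Φ i)).charpoly = LinearMap.charpoly (ρbar.ρ (Φ i))
        from LinearMap.charpoly_toMatrix _ _, hF i]
    simp [Polynomial.map_mul, Polynomial.map_sub]
  · obtain ⟨j, hj, hu, -⟩ := hpoint φ lam hlam
    rw [map_eq_sq_iff_of_ker _ lam (pt j) hj, hchar]
    exact hu i hφ (A i) (hA i) σ hσ
  · obtain ⟨j, hj, -, hnu⟩ := hpoint φ lam hlam
    by_contra hcon
    push Not at hcon
    refine hnu i hothers (fun h => hprim.ne_one (Fact.out : p.Prime).one_lt (by rw [h, add_zero]))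
      (isUnipotentOnInertiaAt_of_place _ (hq i) (hA i) fun σ hσ => ?_)
    rw [← hchar, ← map_eq_sq_iff_of_ker _ lam (pt j) hj]
    exact hcon σ hσ

variable [IsAddTorsionFree O] [CharZero O] {q : Fin r → ℕ} {N : ℕ} [NeZero N]
  {Ψ : (ZMod N)ˣ →* DiaGroup p lv} {hΨ : Function.Surjective Ψ}
  {hneg : (-1 : SL(2, ℤ)) ∈ GammaPsi Ψ} {S : Finset ℕ}
  {hNS : ∀ l : ℕ, l.Prime → l ∣ N → l ∈ S} {a : Nat.Primes → ResidueField O}
  {ρbar : ResidualGaloisRep (ResidueField O)} {κ : Type} [Fintype κ]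
  (P : κ → TWPoint q Ψ hΨ hneg S hNS a) {d : ℕ}
  (act : levelAlg O Ψ hΨ hneg (goodSet S) →ₐ[O]
    Matrix (Fin d) (Fin d) (MvPowerSeries (Fin r) O ⧸ diamondIdeal (𝒪 := O) p lv))
  {x : ℕ → levelAlg O Ψ hΨ hneg (goodSet S)}
  (C : PointCore p ρbar (diamondIdeal (𝒪 := O) p lv) S act x (fun j => (P j).R)
    (fun j => (P j).ev) fun j => (P j).H.ρ)

omit [CharZero O] [IsAddTorsionFree O] [Finite (ResidueField O)] C in
/-- An eigencharacter of an algebra mapping into the coordinates has the kernel of a point. -/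
theorem exists_point_of_algHom
    (hdia : ∀ δ, act (levelElt O Ψ hΨ hneg (goodSet S) (.inr δ)) =
      Matrix.scalar (Fin d) (diaClass (O := O) δ))
    (hker : ∀ y, (∀ j, (P j).ev y = 0) ↔ act y = 0)
    {T : Type} [CommRing T] [Algebra O T]
    (actT : T →ₐ[O] Matrix (Fin d) (Fin d) Sd) (hinjT : Function.Injective actT)
    (pt : ∀ j, T → (P j).R) (hlift : ∀ t, ∃ z, act z = actT t ∧ ∀ j, pt j t = (P j).ev z)
    {K : Type} [Field K] [IsAlgClosed K] [Algebra O K]
    (hinjK : Function.Injective (algebraMap O K)) (φ : Sd →ₐ[O] K) (lam : T → K)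
    {w : Fin d → K} (hw0 : w ≠ 0) (hw : ∀ t, ((actT t).map φ).mulVec w = lam t • w) :
    ∃ j, (∀ t, lam t = 0 ↔ pt j t = 0) ∧
      ∀ i, φ (diaX O p lv i) = 0 ↔ TrivialAt Ψ hΨ hneg S (P j).ev i := by
  classical
  have hB : actT.range ≤ act.range := by
    rintro _ ⟨t, rfl⟩
    obtain ⟨z, hz, -⟩ := hlift t
    exact ⟨z, hz⟩
  have hpre : ∀ b : actT.range, actT b.2.choose = b.1 := fun b => b.2.choose_spec
  obtain ⟨j, h1, h3⟩ := exists_point_of_eigen P act hdia hker hinjK φ hB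
    (fun j b => pt j b.2.choose) (fun j y hy => by
      obtain ⟨z, hz, hzpt⟩ := hlift (⟨act y, hy⟩ : actT.range).2.choose
      show pt j _ = _
      rw [hzpt j, ← sub_eq_zero, ← map_sub]
      exact (hker _).mpr (by rw [map_sub, hz, hpre, sub_self]) j)
    (fun b => lam b.2.choose) hw0
      (fun b => (congrArg (fun M => (M.map φ).mulVec w) (hpre b)).symm.trans (hw _))
  refine ⟨j, fun t => ?_, h3⟩
  have ht : (⟨actT t, t, rfl⟩ : actT.range).2.choose = t := hinjT (hpre _)
  have := h1 ⟨actT t, t, rfl⟩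
  simp only [ht] at this
  exact this

/-- The action of the core as a map of algebras. -/
def PointCore.actAlg {D' : ℕ} {J : Ideal (MvPowerSeries (Fin D') O)} {A' : Type} [CommRing A']
    [Algebra O A'] {d' : ℕ} {Φ' : A' →ₐ[O] Matrix (Fin d') (Fin d') (MvPowerSeries (Fin D') O ⧸ J)}
    {x' : ℕ → A'} {ι : Type} {R' : ι → Type} [∀ a, CommRing (R' a)] [∀ a, IsLocalRing (R' a)]
    [∀ a, Algebra O (R' a)] {ev' : ∀ a, A' →ₐ[O] R' a} {ρ' : ∀ a, GaloisRepAdic (R' a)}
    {S' : Finset ℕ} (C' : PointCore p ρbar J S' Φ' x' R' ev' ρ') :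
    C'.T →ₐ[O] Matrix (Fin d') (Fin d') (MvPowerSeries (Fin D') O ⧸ J) :=
  { C'.act with
    commutes' := fun c => by
      show C'.act (algebraMap O C'.T c) = _
      rw [C'.act_algebraMap, Matrix.algebraMap_eq_diagonal]
      rfl }

omit [IsAddTorsionFree O] in
/-- **The diamond action of a Taylor–Wiles level.** -/
theorem exists_twTame_act
    (hdia : ∀ δ, act (levelElt O Ψ hΨ hneg (goodSet S) (.inr δ)) =
      Matrix.scalar (Fin d) (diaClass (O := O) δ))
    (hker : ∀ y, (∀ j, (P j).ev y = 0) ↔ act y = 0)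
    (hp𝒪 : (p : O) ∈ maximalIdeal O) (hpS : p ∈ S) (hinjq : Function.Injective q)
    (hq : ∀ i, (q i).Prime) (hpq : ∀ i, p ≠ q i) (hqN : ∀ i, q i ∣ N)
    (hq2 : ∀ i, ¬ q i ^ 2 ∣ N) (hlv : ∀ i, 1 ≤ lv i) (hv : ∀ i, p ^ lv i ∣ q i - 1)
    (hv' : ∀ i, ¬ p ^ (lv i + 1) ∣ q i - 1)
    (hbarq : ∀ i, ρbar.IsUnramifiedAt (q i))
    (hfrobq : ∀ i, ∃ (A : ValuationSubring Qbar) (σ : GQ) (α β : ResidueField O),
      A.LiesOverPrime (q i) ∧ A.IsFrobeniusAt σ (q i) ∧ α ≠ β ∧
        LinearMap.charpoly (ρbar.ρ σ) = (X - Polynomial.C α) * (X - Polynomial.C β)) :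
    ∃ (δ : Fin r → C.T) (act' : C.T →+* Matrix (Fin d) (Fin d) Sd),
      (∀ i, δ i ∈ maximalIdeal C.T) ∧
      (∀ c, act' (algebraMap O C.T c) = Matrix.scalar (Fin d) (algebraMap O Sd c)) ∧
      (∀ i, act' (δ i) = Matrix.scalar (Fin d) (diaX O p lv i)) ∧
      (∀ y, act' y = 0 → C.act y = 0) ∧
      (∀ y, (act' y).map (Ideal.Quotient.lift _ MvPowerSeries.constantCoeff
        (diamondIdeal_aug p lv)) =
        (C.act y).map (Ideal.Quotient.lift _ MvPowerSeries.constantCoeff (diamondIdeal_aug p lv))) ∧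
      ∀ i j, (Pi.single j (diaX O p lv i ^ 2) : Fin d → Sd) ∈
        Submodule.span Sd {v | ∃ t ∈ maximalIdeal C.T, ∃ w, (act' t).mulVec w = v} := by
  have hinjK : Function.Injective (algebraMap O (AlgebraicClosure (FractionRing O))) :=
    injective_algebraMap_fracClosure O
  have : CharZero (AlgebraicClosure (FractionRing O)) := charZero_of_injective_algebraMap hinjK
  refine exists_diamond_act_of_reps C.residue_surjective C.ρ C.residual C.det C.act C.act_algebraMap
    hp𝒪 hq hpq hlv hv hv' hbarq hfrobq (fun j => (C.pt j).toRingHom) C.pt_injective C.pt_local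
    (fun j => (P j).H.ρ) C.pt_equiv hinjK fun φ lam hlam => ?_
  obtain ⟨w, hw0, hw⟩ := hlam
  obtain ⟨j, hj, htriv⟩ := exists_point_of_algHom P act hdia hker C.actAlg C.act_injective
    (fun j => C.pt j) C.lift hinjK φ lam hw0 hw
  refine ⟨j, hj, fun i hφ => ?_, fun i hothers hne => ?_⟩
  · refine (P j).unipotent hpS hp𝒪 (hq i) (fun h => hpq i h.symm) (hqN i) (hq2 i) fun i' hi' => ?_
    exact (hinjq hi').symm ▸ (htriv i).mp hφ
  · exact (P j).not_unipotent i (fun i' hi' => (htriv i').mp (hothers i' hi'))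
      fun h => hne ((htriv i).mpr h)

end Fermat.Agent.LevelLowering

end
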