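import Mathlib.RingTheory.MvPowerSeries.Inverse
import Fermat.Agent.AV.SpanPow
import Fermat.Agent.LevelLowering.Ultralimit
import Fermat.Agent.Patching.PowerSeriesRegular

/-!
# `O⟦X₁, …, X_D⟧` is complete for its maximal ideal

The weight filtration compares the powers of the maximal ideal with the truncations, which gives
completeness of the coordinate rings of patching.
-/

namespace Fermat.Agent.LevelLowering

open IsLocalRing Fermat.Agent.Patching

variable {𝒪 : Type} [CommRing 𝒪] {D : ℕ}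

variable (𝒪 D) [IsLocalRing 𝒪]

variable {N : ℕ} (w : Fin N → ℕ)

/-- The filtration by weighted degree: the coefficient of weight `j` lies in `𝔪 ^ (k - j)`. -/
def wFil (k : ℕ) : Ideal (MvPowerSeries (Fin N) 𝒪) where
  carrier := {f | ∀ d : Fin N →₀ ℕ,
    MvPowerSeries.coeff d f ∈ maximalIdeal 𝒪 ^ (k - Finsupp.weight w d)}
  add_mem' hf hg d := by rw [map_add]; exact add_mem (hf d) (hg d)
  zero_mem' d := by simp
  smul_mem' g f hf d := by
    classical
    rw [smul_eq_mul, MvPowerSeries.coeff_mul]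
    refine sum_mem fun x hx => Ideal.mul_mem_left _ _ (Ideal.pow_le_pow_right ?_ (hf x.2))
    rw [Finset.mem_antidiagonal] at hx
    rw [← hx, map_add]
    omega

lemma wFil_mul (a b : ℕ) : wFil 𝒪 w a * wFil 𝒪 w b ≤ wFil 𝒪 w (a + b) :=
  Ideal.mul_le.mpr fun f hf g hg d => by
    classical
    rw [MvPowerSeries.coeff_mul]
    refine sum_mem fun x hx => ?_
    refine Ideal.pow_le_pow_right ?_ ((pow_add (maximalIdeal 𝒪) _ _).symm ▸
      Ideal.mul_mem_mul (hf x.1) (hg x.2))
    rw [Finset.mem_antidiagonal] at hx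
    rw [← hx, map_add]
    omega

/-- The powers of the maximal ideal of the power series lie in the degree filtration. -/
lemma maximalIdeal_pow_le_wFil_degree (k : ℕ) :
    maximalIdeal (MvPowerSeries (Fin D) 𝒪) ^ k ≤ wFil 𝒪 (fun _ : Fin D => 1) k := by
  induction k with
  | zero => exact fun f _ d => by simp
  | succ k ih =>
    rw [pow_succ]
    refine (Ideal.mul_mono ih ?_).trans (wFil_mul 𝒪 _ k 1)
    intro f hf d
    rw [← Finsupp.degree_eq_weight_one]
    rcases Nat.eq_zero_or_pos d.degree with h | h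
    · rw [(Finsupp.degree_eq_zero_iff d).mp h]
      simp only [map_zero, tsub_zero, pow_one, MvPowerSeries.coeff_zero_eq_constantCoeff_apply]
      rw [mem_maximalIdeal, mem_nonunits_iff, MvPowerSeries.isUnit_iff_constantCoeff] at hf
      rwa [mem_maximalIdeal, mem_nonunits_iff]
    · rw [show 1 - d.degree = 0 by omega, pow_zero, Ideal.one_eq_top]
      trivial

lemma maximalIdeal_pow_le_trunc (k : ℕ) :
    maximalIdeal (MvPowerSeries (Fin D) 𝒪) ^ (2 * k) ≤ trunc 𝒪 D k := fun _ hf d hd =>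
  Ideal.pow_le_pow_right (by rw [← Finsupp.degree_eq_weight_one]; omega)
    (maximalIdeal_pow_le_wFil_degree 𝒪 D (2 * k) hf d)

lemma C_mem_maximalIdeal_pow {k : ℕ} {c : 𝒪} (hc : c ∈ maximalIdeal 𝒪 ^ k) :
    (MvPowerSeries.C c : MvPowerSeries (Fin D) 𝒪) ∈
      maximalIdeal (MvPowerSeries (Fin D) 𝒪) ^ k := by
  have h1 : (maximalIdeal 𝒪).map (MvPowerSeries.C (σ := Fin D) (R := 𝒪)) ≤
      maximalIdeal (MvPowerSeries (Fin D) 𝒪) := Ideal.map_le_iff_le_comap.mpr fun x hx => by
    rw [Ideal.mem_comap, mem_maximalIdeal, mem_nonunits_iff,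
      MvPowerSeries.isUnit_iff_constantCoeff, MvPowerSeries.constantCoeff_C]
    exact hx
  refine Ideal.pow_right_mono h1 k ?_
  rw [← Ideal.map_pow]
  exact Ideal.mem_map_of_mem _ hc

/-- Truncation ideals lie in the powers of the maximal ideal. -/
lemma trunc_le_maximalIdeal_pow (k : ℕ) :
    trunc 𝒪 D k ≤ maximalIdeal (MvPowerSeries (Fin D) 𝒪) ^ k := by
  classical
  intro f hf
  let low := ((MvPowerSeries.truncTotal k f : MvPolynomial (Fin D) 𝒪) : MvPowerSeries (Fin D) 𝒪)
  have h1 : low ∈ maximalIdeal (MvPowerSeries (Fin D) 𝒪) ^ k := by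
    show ((MvPowerSeries.truncTotal k f : MvPolynomial (Fin D) 𝒪) : MvPowerSeries (Fin D) 𝒪) ∈ _
    rw [(MvPowerSeries.truncTotal k f).as_sum, ← MvPolynomial.coeToMvPowerSeries.ringHom_apply,
      map_sum]
    refine sum_mem fun d _ => ?_
    rw [MvPolynomial.coeToMvPowerSeries.ringHom_apply,
      ← mul_one (MvPolynomial.coeff d (MvPowerSeries.truncTotal k f)),
        ← MvPolynomial.C_mul_monomial,
      MvPolynomial.coe_mul, MvPolynomial.coe_C]
    refine Ideal.mul_mem_right _ _ (C_mem_maximalIdeal_pow 𝒪 D ?_)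
    rw [MvPowerSeries.coeff_truncTotal_eq_ite]
    split_ifs with hd
    · exact hf d hd
    · exact zero_mem _
  have h2 : f - low ∈ maximalIdeal (MvPowerSeries (Fin D) 𝒪) ^ k := by
    refine Ideal.pow_right_mono ?_ k (AV.Series.mem_span_X_pow k _ fun d hd => ?_)
    · rw [Ideal.span_le]
      rintro _ ⟨i, rfl⟩
      simp [MvPowerSeries.isUnit_iff_constantCoeff]
    · rw [map_sub, MvPolynomial.coeff_coe, MvPowerSeries.coeff_truncTotal f hd, sub_self]
  simpa using add_mem h2 h1

instance isAdicComplete_series [IsAdicComplete (maximalIdeal 𝒪) 𝒪] :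
    IsAdicComplete (maximalIdeal (MvPowerSeries (Fin D) 𝒪)) (MvPowerSeries (Fin D) 𝒪) where
  haus' f hf := eq_zero_of_mem_trunc 𝒪 D fun k => maximalIdeal_pow_le_trunc 𝒪 D k <| by
    simpa [SModEq.zero] using hf (2 * k)
  prec' f hf := by
    have hf' : ∀ {m n}, m ≤ n → f m - f n ∈ maximalIdeal (MvPowerSeries (Fin D) 𝒪) ^ m :=
      fun h => by simpa [SModEq.sub_mem] using hf h
    obtain ⟨s, hs⟩ := exists_glue 𝒪 D (fun k => f (2 * k)) fun {k l} hkl =>
      maximalIdeal_pow_le_trunc 𝒪 D k (hf' (by omega))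
    refine ⟨s, fun k => ?_⟩
    rw [SModEq.sub_mem, smul_eq_mul, Ideal.mul_top]
    simpa using sub_mem (hf' (show k ≤ 2 * k by omega))
      (trunc_le_maximalIdeal_pow 𝒪 D k (hs k))

end Fermat.Agent.LevelLowering
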