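import Mathlib.RingTheory.AdicCompletion.RingHom
import Mathlib.RingTheory.MvPowerSeries.Equiv
import Fermat.Agent.LevelLowering.CompleteSeries

/-!
# Evaluation of power series in a complete local algebra

Elements of the maximal ideal of a complete local `𝒪`-algebra give a unique algebra homomorphism
from `𝒪⟦X₁, …, X_n⟧`, built from the truncations. Used to present local rings in patching.
-/

namespace Fermat.Agent.LevelLowering

open IsLocalRing

variable {𝒪 : Type} [CommRing 𝒪] {n : ℕ} {T : Type} [CommRing T] [Algebra 𝒪 T]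

/-- `f - f_{<k} ∈ (X)^k`. -/
lemma sub_truncTotal_mem (f : MvPowerSeries (Fin n) 𝒪) (k : ℕ) :
    f - ((MvPowerSeries.truncTotal k f : MvPolynomial (Fin n) 𝒪) : MvPowerSeries (Fin n) 𝒪) ∈
      Ideal.span (Set.range fun i : Fin n => (MvPowerSeries.X i : MvPowerSeries (Fin n) 𝒪)) ^ k :=
  AV.Series.mem_span_X_pow k _ fun d hd => by
    rw [map_sub, MvPolynomial.coeff_coe, MvPowerSeries.coeff_truncTotal f hd, sub_self]

/-- An algebra homomorphism is determined modulo `I ^ k` by the values of the variables. -/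
lemma algHom_sub_aeval_mem (ψ : MvPowerSeries (Fin n) 𝒪 →ₐ[𝒪] T) {I : Ideal T}
    (hI : ∀ i, ψ (MvPowerSeries.X i) ∈ I) (f : MvPowerSeries (Fin n) 𝒪) (k : ℕ) :
    ψ f - MvPolynomial.aeval (fun i => ψ (MvPowerSeries.X i)) (MvPowerSeries.truncTotal k f) ∈
      I ^ k := by
  have hcoe : ∀ p : MvPolynomial (Fin n) 𝒪, ψ (p : MvPowerSeries (Fin n) 𝒪) =
      MvPolynomial.aeval (fun i => ψ (MvPowerSeries.X i)) p := fun p => by
    induction p using MvPolynomial.induction_on with
    | C a => rw [MvPolynomial.coe_C, MvPowerSeries.c_eq_algebraMap, AlgHom.commutes,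
        MvPolynomial.aeval_C]
    | add p q hp hq => rw [MvPolynomial.coe_add, map_add, map_add, hp, hq]
    | mul_X p i hp => rw [MvPolynomial.coe_mul, MvPolynomial.coe_X, map_mul, map_mul, hp,
        MvPolynomial.aeval_X]
  rw [← hcoe, ← map_sub]
  have := Ideal.mem_map_of_mem ψ.toRingHom (sub_truncTotal_mem f k)
  rw [Ideal.map_pow] at this
  refine Ideal.pow_right_mono ?_ k this
  rw [Ideal.map_span, Ideal.span_le]
  rintro _ ⟨_, ⟨i, rfl⟩, rfl⟩
  exact hI i

variable [IsLocalRing T] (v : Fin n → T) (hv : ∀ i, v i ∈ maximalIdeal T)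
  [IsAdicComplete (maximalIdeal T) T]

/-- The polynomial evaluation modulo `𝔪 ^ k`. -/
noncomputable def evalStep (k : ℕ) :
    MvPolynomial (Fin n) 𝒪 ⧸ MvPolynomial.idealOfVars (Fin n) 𝒪 ^ k →ₐ[𝒪] T ⧸ maximalIdeal T ^ k :=
  Ideal.Quotient.liftₐ _ ((Ideal.Quotient.mkₐ 𝒪 _).comp (MvPolynomial.aeval v)) (by
    have : MvPolynomial.idealOfVars (Fin n) 𝒪 ^ k ≤
        Ideal.comap (MvPolynomial.aeval (R := 𝒪) v).toRingHom (maximalIdeal T ^ k) := by
      rw [← Ideal.map_le_iff_le_comap, Ideal.map_pow]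
      refine Ideal.pow_right_mono ?_ k
      rw [Ideal.map_span, Ideal.span_le]
      rintro _ ⟨_, ⟨i, rfl⟩, rfl⟩
      simpa using hv i
    exact fun p hp => Ideal.Quotient.eq_zero_iff_mem.mpr (this hp))

omit [IsAdicComplete (maximalIdeal T) T] in
lemma evalStep_mk (k : ℕ) (p : MvPolynomial (Fin n) 𝒪) :
    evalStep v hv k (Ideal.Quotient.mk _ p) =
      Ideal.Quotient.mk (maximalIdeal T ^ k) (MvPolynomial.aeval v p) := rfl

/-- The compatible family of truncated evaluations. -/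
noncomputable def evalFamily (k : ℕ) : MvPowerSeries (Fin n) 𝒪 →ₐ[𝒪] T ⧸ maximalIdeal T ^ k :=
  (evalStep v hv k).comp ((MvPowerSeries.truncTotalAlgHom (Fin n) 𝒪 k).restrictScalars 𝒪)

omit [IsAdicComplete (maximalIdeal T) T] in
lemma evalFamily_compat {a b : ℕ} (h : a ≤ b) :
    (Ideal.Quotient.factorₐ 𝒪 (Ideal.pow_le_pow_right h)).comp (evalFamily (𝒪 := 𝒪) v hv b) =
      evalFamily v hv a := AlgHom.ext fun f => by
  simp only [evalFamily, AlgHom.comp_apply, AlgHom.restrictScalars_apply,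
    MvPowerSeries.truncTotalAlgHom_apply, evalStep_mk]
  refine Ideal.Quotient.eq.mpr ?_
  rw [← map_sub]
  have := Ideal.mem_map_of_mem (MvPolynomial.aeval (R := 𝒪) v).toRingHom
    (MvPowerSeries.truncTotal_sub_truncTotal_mem_pow_idealOfVars h (le_refl a) f)
  rw [Ideal.map_pow] at this
  refine Ideal.pow_right_mono ?_ a this
  rw [Ideal.map_span, Ideal.span_le]
  rintro _ ⟨_, ⟨i, rfl⟩, rfl⟩
  simpa using hv i

/-- Evaluation of power series at elements of the maximal ideal. -/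
noncomputable def evalSeries : MvPowerSeries (Fin n) 𝒪 →ₐ[𝒪] T :=
  IsAdicComplete.liftAlgHom (maximalIdeal T) (evalFamily v hv)
    (fun h => evalFamily_compat v hv h)

lemma mk_evalSeries (k : ℕ) (f : MvPowerSeries (Fin n) 𝒪) :
    Ideal.Quotient.mk (maximalIdeal T ^ k) (evalSeries v hv f) =
      Ideal.Quotient.mk _ (MvPolynomial.aeval v (MvPowerSeries.truncTotal k f)) := by
  exact IsAdicComplete.mk_liftAlgHom _ _ (fun h => evalFamily_compat v hv h) k f

@[simp]
lemma evalSeries_X (i : Fin n) : evalSeries (𝒪 := 𝒪) v hv (MvPowerSeries.X i) = v i := by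
  rw [← sub_eq_zero]
  refine IsHausdorff.haus' (I := maximalIdeal T) _ fun k => ?_
  rw [SModEq.zero, smul_eq_mul, Ideal.mul_top]
  refine Ideal.pow_le_pow_right (show k ≤ k + 2 by omega) ?_
  rw [← Ideal.Quotient.eq, mk_evalSeries]
  congr 1
  have : MvPowerSeries.truncTotal (k + 2) (MvPowerSeries.X i : MvPowerSeries (Fin n) 𝒪) =
      MvPolynomial.X i := by
    classical
    ext d
    rw [MvPowerSeries.coeff_truncTotal_eq_ite, MvPowerSeries.coeff_X, MvPolynomial.coeff_X]
    by_cases hd : Finsupp.single i 1 = d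
    · subst hd; simp [Finsupp.degree_single]
    · simp [hd, Ne.symm hd]
  rw [this, MvPolynomial.aeval_X]

omit hv in
/-- Uniqueness of evaluation. -/
lemma algHom_ext_series {ψ ψ' : MvPowerSeries (Fin n) 𝒪 →ₐ[𝒪] T}
    (hψ : ∀ i, ψ (MvPowerSeries.X i) ∈ maximalIdeal T)
    (h : ∀ i, ψ (MvPowerSeries.X i) = ψ' (MvPowerSeries.X i)) : ψ = ψ' := by
  refine AlgHom.ext fun f => sub_eq_zero.mp <| IsHausdorff.haus' (I := maximalIdeal T) _ fun k => ?_
  rw [SModEq.zero, smul_eq_mul, Ideal.mul_top]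
  have h1 := algHom_sub_aeval_mem ψ hψ f k
  have h2 := algHom_sub_aeval_mem ψ' (fun i => h i ▸ hψ i) f k
  rw [funext h] at h1
  simpa using sub_mem h1 h2

end Fermat.Agent.LevelLowering
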