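import Mathlib.Combinatorics.Pigeonhole
import Mathlib.RingTheory.AdicCompletion.Functoriality
import Mathlib.RingTheory.Filtration
import Fermat.Prelude.Thm_IsAdicComplete_of_module_finite
import Fermat.Agent.LevelLowering.CompleteSeries
import Fermat.Agent.LevelLowering.ScalarPatching

/-!
# Patched modules are finite over the ring

If at every level the squares of the variables move the module into `𝔪_R · P` (the soft form of
local-global compatibility at Taylor–Wiles primes), the limit module is finite over `R`.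
-/

namespace Fermat.Agent.LevelLowering

open IsLocalRing Filter

lemma sup_pow_le_sup_pow {A : Type*} [CommRing A] (a b : Ideal A) (k : ℕ) :
    (a ⊔ b) ^ k ≤ a ⊔ b ^ k := by
  induction k with
  | zero => simp
  | succ k ih =>
    rw [pow_succ, pow_succ]
    refine (Ideal.mul_mono ih le_rfl).trans ?_
    rw [Ideal.sup_mul, Ideal.mul_sup (b ^ k)]
    exact sup_le ((Ideal.mul_le_inf.trans inf_le_left).trans le_sup_left)
      (sup_le ((Ideal.mul_le_inf.trans inf_le_right).trans le_sup_left) le_sup_right)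

variable {𝒪 : Type} [CommRing 𝒪] [IsDomain 𝒪] [IsDiscreteValuationRing 𝒪] {D : ℕ}

local notation "PS" => MvPowerSeries (Fin D) 𝒪

omit [IsDomain 𝒪] [IsDiscreteValuationRing 𝒪] in
lemma span_X_pow_le_span_sq :
    Ideal.span (Set.range fun i : Fin D => (MvPowerSeries.X i : PS)) ^ (D + 1) ≤
      Ideal.span (Set.range fun i : Fin D => (MvPowerSeries.X i : PS) ^ 2) := by
  classical
  rw [Ideal.span, Submodule.span_pow, Submodule.span_le]
  intro x hx
  obtain ⟨f, rfl⟩ := Set.mem_pow.mp hx
  have hf : ∀ a : Fin (D + 1), ∃ i, (MvPowerSeries.X i : PS) = f a := fun a => (f a).2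
  choose i hi using hf
  obtain ⟨a, b, hab, heq⟩ := Fintype.exists_ne_map_eq_of_card_lt i (by simp)
  rw [List.prod_ofFn, ← Finset.mul_prod_erase _ _ (Finset.mem_univ a),
    ← Finset.mul_prod_erase _ _ (Finset.mem_erase.mpr ⟨hab.symm, Finset.mem_univ b⟩), ← mul_assoc,
    ← hi a, ← hi b, ← heq, ← sq]
  exact Ideal.mul_mem_right _ _ (Ideal.subset_span ⟨i a, rfl⟩)

/-- The ideal `(ϖ, X₁², …, X_D²)` has finite index. -/
lemma finite_quotient_sq [Finite (ResidueField 𝒪)] {ϖ : 𝒪} (hϖ : Irreducible ϖ) :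
    Finite (PS ⧸ (Ideal.span {MvPowerSeries.C ϖ} ⊔
      Ideal.span (Set.range fun i : Fin D => (MvPowerSeries.X i : PS) ^ 2))) := by
  classical
  set A := Ideal.span {(MvPowerSeries.C ϖ : PS)}
  set X := Ideal.span (Set.range fun i : Fin D => (MvPowerSeries.X i : PS))
  have hm : maximalIdeal PS ≤ A ⊔ X := by
    intro f hf
    have h1 : f - MvPowerSeries.C (MvPowerSeries.constantCoeff f) ∈ X :=
      AV.Series.sub_C_constantCoeff_mem f
    have h2 : MvPowerSeries.constantCoeff f ∈ maximalIdeal 𝒪 := by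
      rw [mem_maximalIdeal, mem_nonunits_iff] at hf ⊢
      rwa [MvPowerSeries.isUnit_iff_constantCoeff] at hf
    rw [hϖ.maximalIdeal_eq, Ideal.mem_span_singleton] at h2
    obtain ⟨e, he⟩ := h2
    rw [← sub_add_cancel f (MvPowerSeries.C (MvPowerSeries.constantCoeff f))]
    refine add_mem (Ideal.mem_sup_right h1) (Ideal.mem_sup_left ?_)
    rw [he, map_mul]
    exact Ideal.mul_mem_right _ _ (Ideal.mem_span_singleton_self _)
  have hle : maximalIdeal PS ^ (D + 1) ≤
      A ⊔ Ideal.span (Set.range fun i : Fin D => (MvPowerSeries.X i : PS) ^ 2) :=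
    le_trans (Ideal.pow_right_mono hm _) (le_trans (sup_pow_le_sup_pow A X (D + 1))
      (sup_le_sup le_rfl span_X_pow_le_span_sq))
  have : Finite (PS ⧸ maximalIdeal PS) := by
    refine Finite.of_surjective (fun r : ResidueField 𝒪 =>
      Ideal.Quotient.mk (maximalIdeal PS) (MvPowerSeries.C (Quotient.out r))) fun y => ?_
    obtain ⟨f, rfl⟩ := Ideal.Quotient.mk_surjective y
    refine ⟨residue 𝒪 (MvPowerSeries.constantCoeff f), ?_⟩
    rw [Ideal.Quotient.eq, mem_maximalIdeal, mem_nonunits_iff,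
      MvPowerSeries.isUnit_iff_constantCoeff, map_sub, MvPowerSeries.constantCoeff_C,
      ← mem_nonunits_iff, ← mem_maximalIdeal, ← Ideal.Quotient.eq]
    exact Ideal.Quotient.mk_out _
  have := Ideal.finite_quotient_pow (IsNoetherian.noetherian (maximalIdeal PS)) (D + 1)
  exact Finite.of_surjective (Ideal.Quotient.factor hle) (Ideal.Quotient.factor_surjective hle)

/-- The image of `mulVec` by elements of a finitely generated ideal lies in the span of the
images by the generators. -/
lemma mulVec_mem_range_sum {R S : Type*} [CommRing R] [CommRing S] {d : ℕ}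
    (ρ : R →+* Matrix (Fin d) (Fin d) S) (gens : Finset R) {r : R}
    (hr : r ∈ Submodule.span R (gens : Set R)) (w : Fin d → S) :
    (ρ r).mulVec w ∈ LinearMap.range
      (∑ a : gens, (Matrix.mulVecLin (ρ a)).comp (LinearMap.proj a) :
        (gens → Fin d → S) →ₗ[S] (Fin d → S)) := by
  classical
  induction hr using Submodule.span_induction generalizing w with
  | mem x hx =>
    refine ⟨Pi.single ⟨x, hx⟩ w, ?_⟩
    simp only [LinearMap.sum_apply, LinearMap.comp_apply, LinearMap.proj_apply,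
      Matrix.mulVecLin_apply]
    rw [Finset.sum_eq_single (⟨x, hx⟩ : gens)]
    · rw [Pi.single_eq_same]
    · exact fun b _ hb => by rw [Pi.single_eq_of_ne hb, Matrix.mulVec_zero]
    · exact fun hb => absurd (Finset.mem_univ _) hb
  | zero => simp
  | add x y _ _ hx hy => rw [map_add, Matrix.add_mulVec]; exact add_mem (hx w) (hy w)
  | smul c x _ hx =>
    rw [smul_eq_mul, mul_comm, map_mul, ← Matrix.mulVec_mulVec]
    exact hx _

variable [IsAdicComplete (maximalIdeal 𝒪) 𝒪]

omit [IsAdicComplete (maximalIdeal 𝒪) 𝒪] in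
/-- Submodules of a free module over `O⟦X⟧` are closed. -/
lemma mem_of_forall_trunc {d : ℕ} (N : Submodule PS (Fin d → PS)) {v : Fin d → PS}
    (h : ∀ k, ∃ u ∈ N, ∀ j, v j - u j ∈ trunc 𝒪 D k) : v ∈ N := by
  rw [← Submodule.Quotient.mk_eq_zero, ← Submodule.mem_bot PS,
    ← Ideal.iInf_pow_smul_eq_bot_of_isLocalRing (maximalIdeal PS)
      (maximalIdeal.isMaximal PS).ne_top,
    Submodule.mem_iInf]
  intro k
  obtain ⟨u, hu, hv⟩ := h k
  have hmem : v - u ∈ maximalIdeal PS ^ k • (⊤ : Submodule PS (Fin d → PS)) := by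
    rw [pi_eq_sum_univ' (v - u)]
    exact sum_mem fun j _ => Submodule.smul_mem_smul (trunc_le_maximalIdeal_pow 𝒪 D k (hv j))
      trivial
  have h1 := Submodule.mem_map_of_mem (f := N.mkQ) hmem
  rw [Submodule.map_smul'', Submodule.map_top, Submodule.range_mkQ, map_sub] at h1
  rwa [Submodule.mkQ_apply, Submodule.mkQ_apply, (Submodule.Quotient.mk_eq_zero N).mpr hu,
    sub_zero] at h1

variable [Finite (ResidueField 𝒪)] {d : ℕ} {R : Type} [CommRing R] [IsLocalRing R]
  [IsNoetherianRing R] [IsAdicComplete (maximalIdeal R) R] [Finite (ResidueField R)]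
  [Algebra 𝒪 R] {A₀ : R →+* Matrix (Fin d) (Fin d) 𝒪}

omit [IsNoetherianRing R] [IsAdicComplete (maximalIdeal R) R] [Algebra 𝒪 R]
  [Finite (ResidueField R)] in
/-- If the squares of the variables move every level into `I` times itself, they do so in the
limit. -/
theorem single_sq_mem_range (L : PatchBase 𝒪 D d R A₀) {gens : Finset R}
    (hgens : Submodule.span R (gens : Set R) = maximalIdeal R)
    (sq_mem : ∀ n i j, (Pi.single j (Ideal.Quotient.mk (L.J n) (MvPowerSeries.X i ^ 2)) :
        Fin d → MvPowerSeries (Fin D) 𝒪 ⧸ L.J n) ∈ Submodule.span (MvPowerSeries (Fin D) 𝒪 ⧸ L.J n)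
      {v | ∃ r ∈ maximalIdeal R, ∃ w, (L.act n r).mulVec w = v}) (i : Fin D) (j : Fin d) :
    (Pi.single j (MvPowerSeries.X i ^ 2) : Fin d → PS) ∈ LinearMap.range
      (∑ a : gens, (Matrix.mulVecLin (L.limit a)).comp (LinearMap.proj a) :
        (gens → Fin d → PS) →ₗ[PS] (Fin d → PS)) := by
  classical
  refine mem_of_forall_trunc _ fun k => ?_
  have hev : ∀ᶠ n in (patchUltra : Filter ℕ), ∀ a ∈ gens, ∃ h : L.J n ≤ trunc 𝒪 D k,
      L.limk k a = (L.act n a).map (Ideal.Quotient.factor h) :=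
    (Finset.eventually_all gens).mpr fun a _ => L.eventually_limk k a
  obtain ⟨n, hn, h, -⟩ := (hev.and (L.eventually_limk k 0)).exists
  let S' := MvPowerSeries (Fin D) 𝒪 ⧸ L.J n
  let Φn : (gens → Fin d → S') →ₗ[S'] (Fin d → S') :=
    ∑ a : gens, (Matrix.mulVecLin (L.act n a)).comp (LinearMap.proj a)
  have hspan : Submodule.span S' {v | ∃ r ∈ maximalIdeal R, ∃ w, (L.act n r).mulVec w = v} ≤
      LinearMap.range Φn := by
    rw [Submodule.span_le]
    rintro _ ⟨r, hr, w, rfl⟩
    rw [← hgens] at hr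
    exact mulVec_mem_range_sum (L.act n) gens hr w
  obtain ⟨w, hw⟩ := hspan (sq_mem n i j)
  choose w' hw' using fun a b => Ideal.Quotient.mk_surjective (I := L.J n) (w a b)
  refine ⟨_, ⟨w', rfl⟩, fun b => ?_⟩
  rw [← Ideal.Quotient.eq, LinearMap.sum_apply, Finset.sum_apply, map_sum]
  have hfac : ∀ z, Ideal.Quotient.factor h (Ideal.Quotient.mk (L.J n) z) =
      Ideal.Quotient.mk (trunc 𝒪 D k) z := fun z => Ideal.Quotient.factor_mk h z
  calc Ideal.Quotient.mk (trunc 𝒪 D k) ((Pi.single j (MvPowerSeries.X i ^ 2) : Fin d → PS) b)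
      = Ideal.Quotient.factor h (Φn w b) := by
        rw [hw]
        by_cases hb : b = j
        · subst hb; rw [Pi.single_eq_same, Pi.single_eq_same, hfac]
        · rw [Pi.single_eq_of_ne hb, Pi.single_eq_of_ne hb, map_zero, map_zero]
    _ = _ := by
        simp only [Φn, LinearMap.sum_apply, Finset.sum_apply, LinearMap.comp_apply,
          LinearMap.proj_apply, Matrix.mulVecLin_apply, map_sum]
        refine Finset.sum_congr rfl fun a _ => ?_
        obtain ⟨_, ha⟩ := hn a a.2
        simp only [Matrix.mulVec, dotProduct, map_sum, map_mul]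
        refine Finset.sum_congr rfl fun c _ => ?_
        rw [← hw' a c, hfac]
        congr 1
        have := congrFun (congrFun ((L.map_limitFun k a).trans ha) b) c
        rw [Matrix.map_apply, Matrix.map_apply] at this
        exact this.symm

omit [Finite (ResidueField R)] in
/-- **No exact monodromy at a scalar prime**, soft patching: the squares of the variables move
every level into `𝔪_R` times itself. -/
theorem false_of_finite_patching (L : PatchBase 𝒪 D d R A₀)
    (hd : 0 < d) {ϖ : 𝒪} (hϖ : Irreducible ϖ) (hϖR : algebraMap 𝒪 R ϖ ∈ maximalIdeal R)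
    (act_ϖ : ∀ n, L.act n (algebraMap 𝒪 R ϖ) =
      Matrix.scalar (Fin d) (Ideal.Quotient.mk (L.J n) (MvPowerSeries.C ϖ)))
    (sq_mem : ∀ n i j, (Pi.single j (Ideal.Quotient.mk (L.J n) (MvPowerSeries.X i ^ 2)) :
        Fin d → MvPowerSeries (Fin D) 𝒪 ⧸ L.J n) ∈ Submodule.span (MvPowerSeries (Fin D) 𝒪 ⧸ L.J n)
      {v | ∃ r ∈ maximalIdeal R, ∃ w, (L.act n r).mulVec w = v})
    (N : Matrix (Fin 2) (Fin 2) R) (hN2 : N * N = 0) (u : Fin 2 → R)
    (hcover : ∀ K : Ideal R, ((D + 1 : ℕ) : WithBot ℕ∞) ≤ ringKrullDim (R ⧸ K) →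
      ∃ 𝔭 : Ideal R, 𝔭.IsPrime ∧ K ≤ 𝔭 ∧ algebraMap 𝒪 R ϖ ∈ 𝔭 ∧ (∀ i j, N i j ∈ 𝔭) ∧
        (u 0 ∉ 𝔭 ∨ u 1 ∉ 𝔭))
    (hNu : ∀ i, N i 0 * u 0 + N i 1 * u 1 ∈ Ideal.span {algebraMap 𝒪 R ϖ})
    (huN : ∀ j, u 0 * N 1 j - u 1 * N 0 j ∈ Ideal.span {algebraMap 𝒪 R ϖ})
    (hexact : ∀ w, resBlock A₀ N w = 0 → ∃ y, resBlock A₀ N y = w) : False := by
  classical
  let ρ : R →+* Matrix (Fin d) (Fin d) PS := L.limit
  have hρϖ : ρ (algebraMap 𝒪 R ϖ) = Matrix.scalar (Fin d) (MvPowerSeries.C ϖ) := by
    refine PatchBase.matrix_ext fun k => ?_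
    show (L.limitFun _).map _ = _
    rw [PatchBase.map_limitFun]
    obtain ⟨n, h, hn⟩ := (L.eventually_limk k (algebraMap 𝒪 R ϖ)).exists
    rw [hn, act_ϖ]
    ext a b
    by_cases hab : a = b
    · subst hab
      simp only [Matrix.map_apply, Matrix.scalar_apply, Matrix.diagonal_apply_eq]
      exact Ideal.Quotient.factor_mk h _
    · simp only [Matrix.map_apply, Matrix.scalar_apply, Matrix.diagonal_apply_ne _ hab]
      exact map_zero (Ideal.Quotient.factor h)
  -- the image of `𝔪_R` is a closed submodule containing `ϖ` and the squares of the variables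
  obtain ⟨gens, hgens⟩ := IsNoetherian.noetherian (maximalIdeal R)
  let Φ : (gens → Fin d → PS) →ₗ[PS] (Fin d → PS) :=
    ∑ a : gens, (Matrix.mulVecLin (ρ a)).comp (LinearMap.proj a)
  have hΦ : ∀ w j, Φ w j = ∑ a : gens, (ρ a).mulVec (w a) j := fun w j => by
    simp [Φ, LinearMap.sum_apply, Finset.sum_apply]
  have hsq := single_sq_mem_range L hgens sq_mem
  have hle : ∀ q ∈ Ideal.span {(MvPowerSeries.C ϖ : PS)} ⊔
      Ideal.span (Set.range fun i : Fin D => (MvPowerSeries.X i : PS) ^ 2),
      ∀ j, (Pi.single j q : Fin d → PS) ∈ LinearMap.range Φ := by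
    intro q hq j
    let J' : Ideal PS := (LinearMap.range Φ).comap (LinearMap.single PS (fun _ : Fin d => PS) j)
    suffices Ideal.span {(MvPowerSeries.C ϖ : PS)} ⊔
        Ideal.span (Set.range fun i : Fin D => (MvPowerSeries.X i : PS) ^ 2) ≤ J' from this hq
    refine sup_le ?_ (Ideal.span_le.mpr (Set.range_subset_iff.mpr fun i => hsq i j))
    rw [Ideal.span_le, Set.singleton_subset_iff]
    have hmax := hϖR
    rw [← hgens] at hmax
    have : _ ∈ LinearMap.range Φ := mulVec_mem_range_sum ρ gens hmax (Pi.single j 1)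
    rw [hρϖ, Matrix.scalar_apply, Matrix.diagonal_mulVec_single, mul_one] at this
    exact this
  have : Finite ((Fin d → PS) ⧸ LinearMap.range Φ) := by
    have := finite_quotient_sq (D := D) hϖ
    let Q := PS ⧸ (Ideal.span {(MvPowerSeries.C ϖ : PS)} ⊔
      Ideal.span (Set.range fun i : Fin D => (MvPowerSeries.X i : PS) ^ 2))
    refine Finite.of_surjective (fun z : Fin d → Q =>
      Submodule.Quotient.mk (p := LinearMap.range Φ) fun j => Quotient.out (z j)) fun y => ?_
    obtain ⟨v, rfl⟩ := Submodule.Quotient.mk_surjective _ y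
    refine ⟨fun j => Ideal.Quotient.mk _ (v j), ?_⟩
    rw [Submodule.Quotient.eq, ← Finset.univ_sum_single (_ - v)]
    refine sum_mem fun j _ => hle _ ?_ j
    rw [Pi.sub_apply, ← Ideal.Quotient.eq, Ideal.Quotient.mk_out]
  -- complete Nakayama
  let : Module R (Fin d → PS) := Module.compHom _
    ((Matrix.toLinAlgEquiv' (R := PS) (n := Fin d)).toRingEquiv.toRingHom.comp ρ)
  have hsmul : ∀ (r : R) (v : Fin d → PS), r • v = (ρ r).mulVec v := fun r v =>
    Matrix.toLinAlgEquiv'_apply (ρ r) v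
  have : IsHausdorff (maximalIdeal R) (Fin d → PS) := ⟨fun x hx => funext fun b =>
    eq_zero_of_mem_trunc 𝒪 D fun k => by
      obtain ⟨e, he⟩ := PatchBase.exists_pow_le_ker (L.limkHom k)
      have hxe := hx e
      rw [SModEq.zero] at hxe
      refine Submodule.smul_induction_on (p := fun v => v b ∈ trunc 𝒪 D k) hxe (fun r hr v _ => ?_)
        fun v v' hv hv' => add_mem hv hv'
      show (r • v) b ∈ trunc 𝒪 D k
      rw [hsmul]
      show ∑ c, ρ r b c * v c ∈ trunc 𝒪 D k
      refine sum_mem fun c _ => Ideal.mul_mem_right _ _ (Ideal.Quotient.eq_zero_iff_mem.mp ?_)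
      have h0 : L.limk k r = 0 := RingHom.mem_ker.mp (he hr)
      exact (congrFun (congrFun (L.map_limitFun k r) b) c).trans (by rw [h0]; rfl)⟩
  have := Fintype.ofFinite ((Fin d → PS) ⧸ LinearMap.range Φ)
  let f : (((Fin d → PS) ⧸ LinearMap.range Φ) → R) →ₗ[R] (Fin d → PS) :=
    Fintype.linearCombination R Quotient.out
  have : IsAdicComplete (maximalIdeal R) (((Fin d → PS) ⧸ LinearMap.range Φ) → R) :=
    IsAdicComplete.of_module_finite (maximalIdeal R) _
  have hsurj : Function.Surjective f := by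
    refine surjective_of_mkQ_comp_surjective (I := maximalIdeal R) fun y => ?_
    obtain ⟨y, rfl⟩ := Submodule.mkQ_surjective _ y
    refine ⟨Pi.single (Submodule.Quotient.mk y) 1, ?_⟩
    simp only [LinearMap.comp_apply, Submodule.mkQ_apply, f]
    rw [Submodule.Quotient.eq, Fintype.linearCombination_apply_single, one_smul]
    obtain ⟨w, hw⟩ := (Submodule.Quotient.eq (LinearMap.range Φ)).mp
      (Quotient.out_eq (Submodule.Quotient.mk (p := LinearMap.range Φ) y))
    rw [← hw]
    have e : Φ w = ∑ a : gens, (a : R) • w a := funext fun b => by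
      rw [hΦ, Finset.sum_apply]
      simp only [hsmul]
    rw [e]
    exact sum_mem fun a _ => Submodule.smul_mem_smul (hgens ▸ Submodule.subset_span a.2) trivial
  have : Module.Finite R (Fin d → PS) := Module.Finite.of_surjective f hsurj
  -- the algebra generated by the ring and the scalars
  let gensA : Set (Matrix (Fin d) (Fin d) PS) :=
    Set.range ρ ∪ Set.range (Matrix.scalar (Fin d) : PS → Matrix (Fin d) (Fin d) PS)
  have hcomm : ∀ a ∈ gensA, ∀ b ∈ gensA, a * b = b * a := by
    rintro _ (⟨x, rfl⟩ | ⟨i, rfl⟩) _ (⟨y, rfl⟩ | ⟨j, rfl⟩)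
    · rw [← map_mul, mul_comm, map_mul]
    · exact (Matrix.scalar_commute _ (fun r => Commute.all _ r) (ρ x)).eq.symm
    · exact (Matrix.scalar_commute _ (fun r => Commute.all _ r) (ρ y)).eq
    · rw [← map_mul, mul_comm, map_mul]
  let A : Subring (Matrix (Fin d) (Fin d) PS) := Subring.closure gensA
  let : CommRing A :=
    haveI := Subring.isMulCommutative_closure hcomm
    open scoped IsMulCommutative in inferInstance
  let ι : R →+* A := ρ.codRestrict A fun x => Subring.subset_closure (Or.inl ⟨x, rfl⟩)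
  let : Algebra R A := ι.toAlgebra
  let emb : A →ₗ[R] (Fin d → Fin d → PS) :=
    { toFun := fun a j => (a : Matrix (Fin d) (Fin d) PS).mulVec (Pi.single j 1)
      map_add' := fun a b => funext fun j => Matrix.add_mulVec _ _ _
      map_smul' := fun r a => funext fun j => by
        show (ρ r * (a : Matrix (Fin d) (Fin d) PS)).mulVec _ = r • _
        rw [← Matrix.mulVec_mulVec]
        exact (hsmul _ _).symm }
  have hemb : Function.Injective emb := fun a b hab => Subtype.ext (Matrix.ext fun i j => by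
    simpa [emb] using congrFun (congrFun hab j) i)
  have : Module.Finite R A := Module.Finite.of_injective emb hemb
  refine false_of_scalar_rep (R' := A) A.subtype
    (fun s => ⟨⟨_, Subring.subset_closure (Or.inr ⟨s, rfl⟩)⟩, rfl⟩) ι ?_ A₀
    (fun r => L.limit_aug r) hd hϖ hρϖ N hN2 u hcover hNu huN hexact
  exact (RingHom.Finite.of_surjective _ Ideal.Quotient.mk_surjective).comp
    (RingHom.finite_algebraMap.mpr ‹Module.Finite R A›)

end Fermat.Agent.LevelLowering
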