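import Fermat.Agent.Ihara.DegenComm

/-!
# The operator `U_q` and the degeneracy maps

For a prime `q ∤ N` the Atkin–Lehner involution exchanges the two degeneracy maps between
`Γ₀(N)` and `Γ₀(Nq)`, so `U_q = restriction ∘ transfer - w` and its composites with the degeneracy
maps and transfers are expressed through `T_q`. These are the relations of the descent step at a
Taylor–Wiles prime.
-/

noncomputable section

namespace Fermat.Agent.LevelLowering

open scoped MatrixGroups
open CongruenceSubgroup Fermat.Agent.Grp Fermat.Agent.Ihara Fermat.Agent.Hecke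

variable {N q : ℕ} [NeZero N] [NeZero q] (hq : q.Prime) (hqN : ¬ q ∣ N) {A : Type*}
  [AddCommGroup A]

include hq hqN

omit [NeZero N] in
/-- `w` followed by inclusion is `β` up to an inner automorphism of `Γ₀(N)`. -/
theorem degA_atkinLehner (x : Additive (Gamma0 N) →+ A) :
    (degA N q x).comp (MonoidHom.toAdditive (atkinLehner hq hqN)) = degB N q x := by
  refine addChar_ext fun γ => ?_
  have e : (atkinLehner hq hqN γ).1 =
      (upperEps hq hqN).1 * (betaHom N q γ).1 * (upperEps hq hqN).1⁻¹ := by
    have hM : alMatrix hq hqN = imat (upperEps hq hqN).1 * !![(q : ℤ), 0; 0, 1] := by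
      rw [alMatrix, imat, upperRepInf_inv_val]
      show _ = (upperEps hq hqN).1.1 * _
      rw [upperEps, mkGamma0_val]
      ext i j
      fin_cases i <;> fin_cases j <;> simp [Matrix.mul_apply, Fin.sum_univ_two] <;> ring
    refine imat_inj (X := alMatrix hq hqN) ?_ ?_
    · rw [det_alMatrix]; exact_mod_cast hq.ne_zero
    · rw [atkinLehner_spec, hM, mul_assoc, betaHom_spec, ← mul_assoc, ← mul_assoc]
      congr 1
      show ((upperEps hq hqN).1 * (betaHom N q γ).1).1 =
        ((upperEps hq hqN).1 * (betaHom N q γ).1 * (upperEps hq hqN).1⁻¹ *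
          (upperEps hq hqN).1).1
      rw [inv_mul_cancel_right]
  show x (Additive.ofMul (Subgroup.inclusion (Gamma0_le_mul N q) (atkinLehner hq hqN γ))) =
    x (Additive.ofMul (betaHom N q γ))
  rw [show Subgroup.inclusion (Gamma0_le_mul N q) (atkinLehner hq hqN γ) =
    upperEps hq hqN * betaHom N q γ * (upperEps hq hqN)⁻¹ from Subtype.ext e]
  exact apply_conj _ _ _

omit [NeZero N] in
/-- `w` followed by `β` is inclusion up to an inner automorphism of `Γ₀(N)`. -/
theorem degB_atkinLehner (x : Additive (Gamma0 N) →+ A) :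
    (degB N q x).comp (MonoidHom.toAdditive (atkinLehner hq hqN)) = degA N q x := by
  refine addChar_ext fun γ => ?_
  set z : Gamma0 N := (upperRepInf hq hqN)⁻¹
  have e : (betaHom N q (atkinLehner hq hqN γ)).1 = z.1 * γ.1 * z.1⁻¹ := by
    have hM : !![(q : ℤ), 0; 0, 1] * alMatrix hq hqN = (q : ℤ) • imat z.1 := by
      rw [alMatrix, ← mul_assoc, show !![(q : ℤ), 0; 0, 1] * !![1, 0; 0, (q : ℤ)] =
        (q : ℤ) • (1 : Matrix (Fin 2) (Fin 2) ℤ) by
          ext i j; fin_cases i <;> fin_cases j <;> simp [Matrix.mul_apply, Fin.sum_univ_two],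
        smul_mul_assoc, one_mul]
    refine imat_inj (X := !![(q : ℤ), 0; 0, 1] * alMatrix hq hqN) ?_ ?_
    · rw [Matrix.det_mul, det_alMatrix, Matrix.det_fin_two_of]
      simpa using hq.ne_zero
    · rw [← mul_assoc, ← betaHom_spec, mul_assoc, atkinLehner_spec, ← mul_assoc, hM,
        smul_mul_assoc, mul_smul_comm]
      congr 1
      show (z.1 * γ.1).1 = (z.1 * γ.1 * z.1⁻¹ * z.1).1
      rw [inv_mul_cancel_right]
  show x (Additive.ofMul (betaHom N q (atkinLehner hq hqN γ))) = _
  rw [show betaHom N q (atkinLehner hq hqN γ) =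
    z * Subgroup.inclusion (Gamma0_le_mul N q) γ * z⁻¹ from Subtype.ext e, apply_conj]
  rfl

omit [NeZero N] in
theorem atkinLehner_comp_comp (χ : Additive (Gamma0 (N * q)) →+ A) :
    (χ.comp (MonoidHom.toAdditive (atkinLehner hq hqN))).comp
      (MonoidHom.toAdditive (atkinLehner hq hqN)) = χ := by
  refine addChar_ext fun γ => ?_
  show χ (Additive.ofMul (atkinLehner hq hqN (atkinLehner hq hqN γ))) = _
  obtain ⟨g, hg⟩ := atkinLehner_atkinLehner hq hqN
  rw [hg, apply_conj]

theorem U_eq_sub (χ : Additive (Gamma0 (N * q)) →+ A) :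
    perTransfer (N * q) q A χ =
      degA N q (corB N q χ) - χ.comp (MonoidHom.toAdditive (atkinLehner hq hqN)) :=
  addChar_ext fun γ => eq_sub_of_add_eq (corB_res hq hqN χ γ).symm

theorem U_degA (x : Additive (Gamma0 N) →+ A) :
    perTransfer (N * q) q A (degA N q x) =
      degA N q (perTransfer N q A x) - degB N q x := by
  rw [U_eq_sub hq hqN, degA_atkinLehner hq hqN, corB_degA]

theorem U_degB (x : Additive (Gamma0 N) →+ A) :
    perTransfer (N * q) q A (degB N q x) = q • degA N q x := by
  rw [U_eq_sub hq hqN, degB_atkinLehner hq hqN, corB_degB hq hqN]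
  refine addChar_ext fun γ => ?_
  simp [degA, resHom, add_smul]

theorem corA_comp_atkinLehner (χ : Additive (Gamma0 (N * q)) →+ A) :
    corA N q (χ.comp (MonoidHom.toAdditive (atkinLehner hq hqN))) = corB N q χ := by
  rw [← corB_atkinLehner hq hqN, atkinLehner_comp_comp hq hqN]

theorem corA_U (χ : Additive (Gamma0 (N * q)) →+ A) :
    corA N q (perTransfer (N * q) q A χ) = q • corB N q χ := by
  have h : corA N q (degA N q (corB N q χ)) =
      corA N q (perTransfer (N * q) q A χ) +
        corA N q (χ.comp (MonoidHom.toAdditive (atkinLehner hq hqN))) := by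
    rw [corA, corA, corA, ← coresHom_add, U_eq_sub hq hqN, sub_add_cancel]
  rw [corA_degA hq hqN, corA_comp_atkinLehner hq hqN, succ_nsmul, add_left_inj] at h
  exact h.symm

theorem corB_U (χ : Additive (Gamma0 (N * q)) →+ A) :
    corB N q (perTransfer (N * q) q A χ) =
      perTransfer N q A (corB N q χ) - corA N q χ := by
  refine eq_sub_of_add_eq ?_
  rw [← corB_degA (corB N q χ), ← corB_atkinLehner hq hqN χ]
  rw [corB, corB, ← coresHom_add, ← AddMonoidHom.add_comp, U_eq_sub hq hqN, sub_add_cancel]
  rfl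

end Fermat.Agent.LevelLowering
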