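import Mathlib.Algebra.Algebra.Basic
import Mathlib.RingTheory.Adjoin.Basic
import Fermat.Agent.LevelLowering.FreeRoot

/-!
# The abstract descent step

Two levels connected by two degeneracy maps and their transfers, with `U` satisfying the
quadratic relation of `T_q`: if the residual roots are distinct, the part of the upper level at
one root is isomorphic to the part of the lower level.
-/

namespace Fermat.Agent.LevelLowering

open IsLocalRing

/-- Two levels connected by two degeneracy maps and their transfers. -/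
structure StepData (O : Type) [CommRing O] (ι : Type*) (A A' : Type) [CommRing A] [Algebra O A]
    [CommRing A'] [Algebra O A'] (V V' : Type*) [AddCommGroup V] [Module O V] [AddCommGroup V']
    [Module O V'] where
  /-- The action of the algebra of the lower level, which is faithful. -/
  ρ : A →ₐ[O] Module.End O V
  /-- The action of the algebra of the upper level. -/
  ρ' : A' →ₐ[O] Module.End O V'
  ρ_inj : Function.Injective ρ
  /-- Generators at the lower level: `some i` the common operators, `none` the operator `T_q`. -/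
  g : Option ι → A
  /-- Generators at the upper level: `some i` the common operators, `none` the operator `U`. -/
  g' : Option ι → A'
  gen : Algebra.adjoin O (Set.range g) = ⊤
  gen' : Algebra.adjoin O (Set.range g') = ⊤
  /-- The first degeneracy map. -/
  iA : V →ₗ[O] V'
  /-- The second degeneracy map. -/
  iB : V →ₗ[O] V'
  /-- The transfer of the first degeneracy map. -/
  jA : V' →ₗ[O] V
  /-- The transfer of the second degeneracy map. -/
  jB : V' →ₗ[O] V
  /-- The prime at which the level is raised, as a scalar. -/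
  q : O
  op_iA : ∀ i y, ρ' (g' (some i)) (iA y) = iA (ρ (g (some i)) y)
  op_iB : ∀ i y, ρ' (g' (some i)) (iB y) = iB (ρ (g (some i)) y)
  op_jA : ∀ i w, jA (ρ' (g' (some i)) w) = ρ (g (some i)) (jA w)
  op_jB : ∀ i w, jB (ρ' (g' (some i)) w) = ρ (g (some i)) (jB w)
  U_iA : ∀ y, ρ' (g' none) (iA y) = iA (ρ (g none) y) - iB y
  U_iB : ∀ y, ρ' (g' none) (iB y) = q • iA y
  jA_U : ∀ w, jA (ρ' (g' none) w) = q • jB w
  jB_U : ∀ w, jB (ρ' (g' none) w) = ρ (g none) (jB w) - jA w
  jA_iA : ∀ y, jA (iA y) = (q + 1) • y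
  jA_iB : ∀ y, jA (iB y) = ρ (g none) y
  jB_iA : ∀ y, jB (iA y) = ρ (g none) y
  jB_iB : ∀ y, jB (iB y) = (q + 1) • y
  U_sq : ∀ w, jA w = 0 → jB w = 0 → ρ' (g' none) (ρ' (g' none) w) = w

/-- The residual values with `v` at the distinguished generator. -/
def optVal {O ι : Type*} (v : O) (c : ι → O) : Option ι → O
  | none => v
  | some i => c i

theorem IsIdemAt.exists_inv_of_sub {O A : Type*} [CommRing O] [CommRing A] [Algebra O A]
    {𝔫 : Ideal A} {e : A} (h : IsIdemAt 𝔫 e) {x : A} {u : O} (hu : IsUnit u)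
    (hx : x - algebraMap O A u ∈ 𝔫) : ∃ b, x * b * e = e := by
  by_cases htop : 𝔫 = ⊤
  · exact ⟨0, by rw [h.eq_zero_of_top htop, mul_zero]⟩
  refine h.exists_inv x fun hmem => htop ?_
  have := sub_mem hmem hx
  rw [sub_sub_cancel] at this
  exact Ideal.eq_top_of_isUnit_mem _ this (hu.map _)

theorem algHom_mul_apply {O A V : Type*} [CommRing O] [CommRing A] [Algebra O A] [AddCommGroup V]
    [Module O V] (ρ : A →ₐ[O] Module.End O V) (a b : A) (y : V) : ρ (a * b) y = ρ a (ρ b y) := by
  rw [map_mul, Module.End.mul_apply]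

theorem algHom_comm_apply {O A V : Type*} [CommRing O] [CommRing A] [Algebra O A] [AddCommGroup V]
    [Module O V] (ρ : A →ₐ[O] Module.End O V) (a b : A) (y : V) :
    ρ a (ρ b y) = ρ b (ρ a y) := by
  rw [← algHom_mul_apply, mul_comm, algHom_mul_apply]

namespace StepData

variable {O : Type} [CommRing O] {ι : Type*} {A A' : Type} [CommRing A] [Algebra O A]
  [CommRing A'] [Algebra O A'] {V V' : Type*} [AddCommGroup V] [Module O V] [AddCommGroup V']
  [Module O V'] (D : StepData O ι A A' V V')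

/-- The eigenvectors of `U` over a root `s`. -/
def eigMap (s : A) : V →ₗ[O] V' := D.iB - D.iA ∘ₗ D.ρ s

theorem eigMap_apply (s : A) (y : V) : D.eigMap s y = D.iB y - D.iA (D.ρ s y) := rfl

theorem op_eigMap (s : A) (i : ι) (y : V) :
    D.ρ' (D.g' (some i)) (D.eigMap s y) = D.eigMap s (D.ρ (D.g (some i)) y) := by
  rw [eigMap_apply, eigMap_apply, map_sub, D.op_iA, D.op_iB, algHom_comm_apply D.ρ s]

theorem U_eigMap {s e : A}
    (hs : (s * s - D.g none * s + algebraMap O A D.q) * e = 0) {y : V} (hy : D.ρ e y = y) :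
    D.ρ' (D.g' none) (D.eigMap s y) = D.eigMap s (D.ρ s y) := by
  have h : D.ρ s (D.ρ s y) - D.ρ (D.g none) (D.ρ s y) + D.q • y = 0 := by
    have := congrArg (fun a => D.ρ a y) hs
    simpa [algHom_mul_apply, hy] using this
  rw [eigMap_apply, eigMap_apply, map_sub, D.U_iA, D.U_iB,
    show D.ρ (D.g none) (D.ρ s y) = D.ρ s (D.ρ s y) + D.q • y from
      (by rw [← sub_eq_zero, ← neg_eq_zero, ← h]; abel), map_add, map_smul]
  abel

theorem eq_of_forall_fixed {e a b : A} (he : e * e = e)
    (h : ∀ y, D.ρ e y = y → D.ρ a y = D.ρ b y) : a * e = b * e := by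
  refine D.ρ_inj (LinearMap.ext fun y => ?_)
  rw [algHom_mul_apply, algHom_mul_apply]
  exact h _ (by rw [← algHom_mul_apply, he])

theorem ker_stable (a : A') {w : V'} (hA : D.jA w = 0) (hB : D.jB w = 0) :
    D.jA (D.ρ' a w) = 0 ∧ D.jB (D.ρ' a w) = 0 := by
  have ha : a ∈ Algebra.adjoin O (Set.range D.g') := D.gen' ▸ Algebra.mem_top
  induction ha using Algebra.adjoin_induction generalizing w with
  | mem x hx =>
    obtain ⟨(_ | i), rfl⟩ := hx
    · exact ⟨by rw [D.jA_U, hB, smul_zero], by rw [D.jB_U, hA, hB, map_zero, sub_zero]⟩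
    · exact ⟨by rw [D.op_jA, hA, map_zero], by rw [D.op_jB, hB, map_zero]⟩
  | algebraMap r =>
    simp [hA, hB]
  | add x y _ _ hx hy =>
    simp [hx hA hB, hy hA hB]
  | mul x y _ _ hx hy =>
    rw [algHom_mul_apply]
    exact hx (hy hA hB).1 (hy hA hB).2

variable [IsLocalRing O]

/-- Both transfers of a fixed vector of the upper level are fixed. -/
theorem jA_jB_fixed (c : ι → O) {al be : O} (hab : al * be - D.q ∈ maximalIdeal O)
    (hal : IsUnit al) {e : A} {e' : A'}
    (hI : IsIdemAt (genIdeal D.g (optVal (al + be) c)) e)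
    (hI' : IsIdemAt (genIdeal D.g' (optVal al c)) e') {w : V'} (hw : D.ρ' e' w = w) :
    D.ρ e (D.jA w) = D.jA w ∧ D.ρ e (D.jB w) = D.jB w := by
  set 𝔫' := genIdeal D.g' (optVal al c)
  set U := D.g' none
  set T := D.g none
  obtain ⟨b, hb⟩ := hI'.exists_inv_of_sub hal (sub_mem_genIdeal D.g' (optVal al c) none)
  have hfix : ∀ (d : A') {u : V'}, D.ρ' e' u = u → D.ρ' e' (D.ρ' d u) = D.ρ' d u := fun d u hu => by
    rw [algHom_comm_apply, hu]
  let R : A → A' → Prop := fun a d => ∀ u, D.ρ' e' u = u →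
    D.ρ a (D.jA u) = D.jA (D.ρ' d u) ∧ D.ρ a (D.jB u) = D.jB (D.ρ' d u)
  have hmul : ∀ x y x' y', R x x' → R y y' → R (x * y) (x' * y') := by
    intro x y x' y' hx hy u hu
    rw [algHom_mul_apply, algHom_mul_apply, algHom_mul_apply, (hy u hu).1, (hy u hu).2]
    exact hx _ (hfix _ hu)
  obtain ⟨-, hideal⟩ := exists_partner D.g D.gen (optVal (al + be) c) 𝔫'
    (fun r hr => algebraMap_mem_genIdeal _ _ hr) R
    (fun r u _ => by simp)
    (fun x y x' y' hx hy u hu => by simp [(hx u hu).1, (hx u hu).2, (hy u hu).1, (hy u hu).2])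
    hmul (fun i => by
      rcases i with _ | i
      swap
      · exact ⟨D.g' (some i), fun u _ => ⟨(D.op_jA i u).symm, (D.op_jB i u).symm⟩,
          sub_mem_genIdeal D.g' (optVal al c) (some i)⟩
      refine ⟨U + algebraMap O A' D.q * b, fun u hu => ?_, ?_⟩
      · have hUb : D.ρ' U (D.ρ' b u) = u := by
          conv_lhs => rw [← hu]
          rw [← algHom_mul_apply, ← algHom_mul_apply, hb, hu]
        have h1 : D.q • D.jB (D.ρ' b u) = D.jA u := by rw [← D.jA_U, hUb]
        have h2 : D.jB u = D.ρ T (D.jB (D.ρ' b u)) - D.jA (D.ρ' b u) := by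
          rw [← D.jB_U, hUb]
        constructor
        · rw [map_add, LinearMap.add_apply, map_add, algHom_mul_apply, D.jA_U, AlgHom.commutes,
            Module.algebraMap_end_apply, map_smul, h2, smul_sub, ← map_smul, h1]
          abel
        · rw [map_add, LinearMap.add_apply, map_add, algHom_mul_apply, D.jB_U, AlgHom.commutes,
            Module.algebraMap_end_apply, map_smul, h1]
          abel
      · have h1 : algebraMap O A' D.q - algebraMap O A' be * U ∈ 𝔫' := by
          have := sub_mem (algebraMap_mem_genIdeal D.g' (optVal al c) (neg_mem hab))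
            (Ideal.mul_mem_left _ (algebraMap O A' be)
              (sub_mem_genIdeal D.g' (optVal al c) none))
          convert this using 1
          simp only [optVal, map_neg, map_sub, map_mul]
          ring
        have h2 := add_mem (sub_mem_genIdeal D.g' (optVal al c) none)
          (add_mem (Ideal.mul_mem_left _ (b * e') h1)
            (Ideal.mul_mem_right (algebraMap O A' D.q * b - algebraMap O A' be) _ hI'.one_sub_mem))
        convert h2 using 1
        simp only [optVal, map_add]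
        linear_combination algebraMap O A' be * hb)
  obtain ⟨d, hd, hRd⟩ := hideal (1 - e) hI.one_sub_mem
  have hRdd : R (1 - e) (d * d) := by
    have := hmul _ _ _ _ hRd hRd
    rwa [show (1 - e) * (1 - e) = 1 - e by linear_combination hI.idem] at this
  obtain ⟨b₂, hb₂⟩ := hI'.exists_inv_of_sub (O := O) isUnit_one
    (x := 1 - d) (by rw [map_one, sub_sub_cancel_left]; exact neg_mem hd)
  have hkey : D.jA (D.ρ' d w) = 0 ∧ D.jB (D.ρ' d w) = 0 := by
    have hu := hfix b₂ hw
    have hw' : D.ρ' (1 - d) (D.ρ' b₂ w) = w := by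
      conv_lhs => rw [← hw]
      rw [← algHom_mul_apply, ← algHom_mul_apply, hb₂, hw]
    constructor
    · rw [← hw', algHom_comm_apply, ← algHom_mul_apply, show (1 - d) * d = d - d * d by ring,
        map_sub, LinearMap.sub_apply, map_sub, ← (hRd _ hu).1, ← (hRdd _ hu).1, sub_self]
    · rw [← hw', algHom_comm_apply, ← algHom_mul_apply, show (1 - d) * d = d - d * d by ring,
        map_sub, LinearMap.sub_apply, map_sub, ← (hRd _ hu).2, ← (hRdd _ hu).2, sub_self]
  have h := hRd w hw
  rw [hkey.1, hkey.2, map_sub, map_one, LinearMap.sub_apply, LinearMap.sub_apply,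
    Module.End.one_apply, Module.End.one_apply, sub_eq_zero, sub_eq_zero] at h
  exact ⟨h.1.symm, h.2.symm⟩

/-- `eigMap s` is injective on the fixed vectors. -/
theorem eigMap_inj (c : ι → O) {al be : O}
    (hdet : IsUnit ((D.q + 1) * (D.q + 1) - (al + be) * (al + be))) {e : A}
    (hI : IsIdemAt (genIdeal D.g (optVal (al + be) c)) e) {s : A} {y : V} (hy : D.ρ e y = y)
    (h : D.eigMap s y = 0) : y = 0 := by
  set T := D.g none
  set Q := algebraMap O A (D.q + 1)
  obtain ⟨b, hb⟩ := hI.exists_inv_of_sub hdet (x := Q * Q - T * T) (by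
    have := Ideal.mul_mem_left _ (-(T + algebraMap O A (al + be)))
      (sub_mem_genIdeal D.g (optVal (al + be) c) none)
    convert this using 1
    simp only [optVal, map_sub, map_mul, Q]
    ring)
  have hA : D.ρ T y = D.ρ (Q * s) y := by
    have := congrArg D.jA h
    rw [eigMap_apply, map_sub, map_zero, D.jA_iA, D.jA_iB, sub_eq_zero] at this
    rw [this, algHom_mul_apply, AlgHom.commutes, Module.algebraMap_end_apply]
  have hB : D.ρ Q y = D.ρ (T * s) y := by
    have := congrArg D.jB h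
    rw [eigMap_apply, map_sub, map_zero, D.jB_iA, D.jB_iB, sub_eq_zero] at this
    rw [AlgHom.commutes, Module.algebraMap_end_apply, this, algHom_mul_apply]
  have h0 : D.ρ (Q * Q - T * T) y = 0 := by
    rw [map_sub, LinearMap.sub_apply, algHom_mul_apply, algHom_mul_apply, hB, hA,
      ← algHom_mul_apply, ← algHom_mul_apply, mul_left_comm, sub_self]
  rw [← hy, ← hb, show (Q * Q - T * T) * b * e = b * e * (Q * Q - T * T) by ring,
    algHom_mul_apply, h0, map_zero]

variable [IsNoetherianRing O] [IsAdicComplete (maximalIdeal O) O] [Module.Finite O A]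

include D in
omit [IsNoetherianRing O] [IsAdicComplete (maximalIdeal O) O] [Module.Finite O A] in
/-- A fixed vector of the upper level comes from a fixed eigenvector at the root `s`. -/
theorem exists_eigMap_eq (c : ι → O) {al be : O} (hab : al * be - D.q ∈ maximalIdeal O)
    (hal : IsUnit al) (hne : IsUnit (al - be)) (hsq : IsUnit (al * al - 1))
    (hdet : IsUnit ((D.q + 1) * (D.q + 1) - (al + be) * (al + be))) {e : A} {e' : A'}
    (hI : IsIdemAt (genIdeal D.g (optVal (al + be) c)) e)
    (hI' : IsIdemAt (genIdeal D.g' (optVal al c)) e') {s : A}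
    (hsr : s - algebraMap O A al ∈ genIdeal D.g (optVal (al + be) c))
    (hone : ∀ y, D.ρ e y = y → D.ρ' e' (D.eigMap s y) = D.eigMap s y)
    (hzero : ∀ y, D.ρ e y = y → D.ρ' e' (D.eigMap (D.g none - s) y) = 0) {w : V'}
    (hw : D.ρ' e' w = w) : ∃ y, D.ρ e y = y ∧ D.eigMap s y = w := by
  obtain ⟨hwA, hwB⟩ := D.jA_jB_fixed c hab hal hI hI' hw
  set T := D.g none
  set U := D.g' none
  set r := algebraMap O A al
  set s' := T - s
  have hT : T - algebraMap O A (al + be) ∈ genIdeal D.g (optVal (al + be) c) :=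
    sub_mem_genIdeal D.g (optVal (al + be) c) none
  have hfx : ∀ (z : A) {y : V}, D.ρ e y = y → D.ρ e (D.ρ z y) = D.ρ z y := fun z y hy => by
    rw [algHom_comm_apply, hy]
  set Q1 := algebraMap O A (D.q + 1)
  obtain ⟨dI, hdI⟩ := hI.exists_inv_of_sub hdet (x := Q1 * Q1 - T * T) (by
    have := Ideal.mul_mem_left _ (-(T + algebraMap O A (al + be))) hT
    convert this using 1
    simp only [map_sub, map_mul, Q1]
    ring)
  obtain ⟨δI, hδI⟩ := hI.exists_inv_of_sub hne.neg (x := T - 2 * s) (by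
    have := sub_mem hT (Ideal.mul_mem_left _ 2 hsr)
    convert this using 1
    simp only [map_neg, map_sub, map_add, r]
    ring)
  set x₁ := D.ρ (dI * Q1) (D.jA w) - D.ρ (dI * T) (D.jB w) with hx₁
  set x₂ := D.ρ (dI * Q1) (D.jB w) - D.ρ (dI * T) (D.jA w) with hx₂
  have hx₁e : D.ρ e x₁ = x₁ := by rw [hx₁, map_sub, hfx _ hwA, hfx _ hwB]
  have hx₂e : D.ρ e x₂ = x₂ := by rw [hx₂, map_sub, hfx _ hwA, hfx _ hwB]
  have hcancel : ∀ {u : V}, D.ρ e u = u → D.ρ ((Q1 * Q1 - T * T) * dI) u = u := fun {u} hu => by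
    conv_lhs => rw [← hu]
    rw [← algHom_mul_apply, hdI, hu]
  set v := w - (D.iA x₁ + D.iB x₂) with hv
  have hQ1 : ∀ u : V, (D.q + 1) • u = D.ρ Q1 u := fun u => by
    rw [AlgHom.commutes, Module.algebraMap_end_apply]
  have hvA : D.jA v = 0 := by
    rw [hv, map_sub, map_add, D.jA_iA, D.jA_iB, hQ1, hx₁, hx₂, sub_eq_zero]
    refine (hcancel hwA).symm.trans ?_
    simp only [map_sub, map_mul, Module.End.mul_apply, LinearMap.sub_apply,
      algHom_comm_apply D.ρ dI]
    rw [algHom_comm_apply D.ρ T Q1 (D.ρ dI (D.jB w))]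
    abel
  have hvB : D.jB v = 0 := by
    rw [hv, map_sub, map_add, D.jB_iA, D.jB_iB, hQ1, hx₁, hx₂, sub_eq_zero]
    refine (hcancel hwB).symm.trans ?_
    simp only [map_sub, map_mul, Module.End.mul_apply, LinearMap.sub_apply,
      algHom_comm_apply D.ρ dI]
    rw [algHom_comm_apply D.ρ T Q1 (D.ρ dI (D.jA w))]
    abel
  have hv0 : D.ρ' e' v = 0 := by
    obtain ⟨hA, hB⟩ := D.ker_stable e' hvA hvB
    have h2 : D.ρ' (U * U - 1) (D.ρ' e' v) = 0 := by
      rw [map_sub, map_one, LinearMap.sub_apply, algHom_mul_apply, Module.End.one_apply,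
        D.U_sq _ hA hB, sub_self]
    obtain ⟨b, hb⟩ := hI'.exists_inv_of_sub hsq (x := U * U - 1) (by
      have := Ideal.mul_mem_left _ (U + algebraMap O A' al)
        (sub_mem_genIdeal D.g' (optVal al c) none)
      convert this using 1
      simp only [optVal, map_sub, map_mul, map_one, U]
      ring)
    conv_lhs => rw [← hb]
    rw [show (U * U - 1) * b * e' = b * ((U * U - 1) * e') by ring, algHom_mul_apply,
      algHom_mul_apply, h2, map_zero]
  set y₁ := D.ρ δI (x₁ + D.ρ s' x₂) with hy₁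
  have hy₁e : D.ρ e y₁ = y₁ := hfx _ (by rw [map_add, hx₁e, hfx _ hx₂e])
  have hy₂e : D.ρ e (x₂ - y₁) = x₂ - y₁ := by rw [map_sub, hx₂e, hy₁e]
  have hsplit : D.eigMap s y₁ + D.eigMap s' (x₂ - y₁) = D.iA x₁ + D.iB x₂ := by
    have h : D.ρ s' y₁ - D.ρ s y₁ = x₁ + D.ρ s' x₂ := by
      rw [← LinearMap.sub_apply, ← map_sub, hy₁, ← algHom_mul_apply]
      have hu : D.ρ e (x₁ + D.ρ s' x₂) = x₁ + D.ρ s' x₂ := by rw [map_add, hx₁e, hfx _ hx₂e]
      conv_lhs => rw [← hu]
      rw [← algHom_mul_apply, show (s' - s) * δI * e = e by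
        simp only [s']; linear_combination hδI]
      exact hu
    have h' : x₁ = D.ρ s' y₁ - D.ρ s y₁ - D.ρ s' x₂ := by rw [h]; abel
    rw [h']
    simp only [eigMap_apply, map_sub]
    abel
  refine ⟨y₁, hy₁e, ?_⟩
  have := congrArg (D.ρ' e') hsplit
  rw [map_add, hone _ hy₁e, hzero _ hy₂e, add_zero] at this
  rw [this, ← sub_eq_zero, ← neg_eq_zero, neg_sub]
  nth_rw 1 [← hw]
  rw [← map_sub]
  exact hv0

/-- **The descent step.** -/
theorem exists_descent (c : ι → O) {al be : O} (hab : al * be - D.q ∈ maximalIdeal O)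
    (hal : IsUnit al) (hne : IsUnit (al - be)) (hsq : IsUnit (al * al - 1))
    (hdet : IsUnit ((D.q + 1) * (D.q + 1) - (al + be) * (al + be))) {e : A} {e' : A'}
    (hI : IsIdemAt (genIdeal D.g (optVal (al + be) c)) e)
    (hI' : IsIdemAt (genIdeal D.g' (optVal al c)) e') :
    ∃ Φ : V →ₗ[O] V', (∀ y, D.ρ' e' (Φ y) = Φ y) ∧ (∀ y, Φ (D.ρ e y) = Φ y) ∧
      (∀ w, D.ρ' e' w = w → ∃! y, D.ρ e y = y ∧ Φ y = w) ∧
      (∀ i y, D.ρ' (D.g' (some i)) (Φ y) = Φ (D.ρ (D.g (some i)) y)) ∧
      ∀ y, D.ρ' (D.g' none) (D.ρ' (D.g' none) (Φ y)) + D.q • Φ y =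
        D.ρ' (D.g' none) (Φ (D.ρ (D.g none) y)) := by
  set T := D.g none
  set U := D.g' none
  set Q := algebraMap O A D.q
  set 𝔫 := genIdeal D.g (optVal (al + be) c)
  have hT : T - algebraMap O A (al + be) ∈ 𝔫 := sub_mem_genIdeal D.g (optVal (al + be) c) none
  set r := algebraMap O A al
  obtain ⟨s, hs, hsr⟩ := hI.exists_root (O := O)
    (genIdeal_isMaximal_or_top _ _ D.gen) T Q r (by
      have := sub_mem (algebraMap_mem_genIdeal D.g (optVal (al + be) c) (neg_mem hab))
        (Ideal.mul_mem_left _ r hT)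
      convert this using 1
      simp only [map_neg, map_sub, map_mul, map_add, r, Q]
      ring) (by
      by_cases htop : 𝔫 = ⊤
      · exact Or.inr htop
      refine Or.inl fun hmem => htop (Ideal.eq_top_of_isUnit_mem _ ?_ (hne.map (algebraMap O A)))
      have := add_mem hmem hT
      convert this using 1
      simp only [map_sub, map_add, r]
      ring)
  set s' := T - s
  have hs' : (s' * s' - T * s' + Q) * e = 0 := by rw [← hs]; ring
  have hs'r : s' - algebraMap O A be ∈ 𝔫 := by
    have := sub_mem hT hsr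
    convert this using 1
    simp only [map_add, r, s']
    ring
  -- the partners of the algebra of the upper level
  have hpart : ∀ (t : A) (v : O), (t * t - T * t + Q) * e = 0 → t - algebraMap O A v ∈ 𝔫 →
      (∀ a, ∃ z, ∀ y, D.ρ e y = y → D.ρ' a (D.eigMap t y) = D.eigMap t (D.ρ z y)) ∧
      ∀ a ∈ genIdeal D.g' (optVal v c), ∃ z ∈ 𝔫,
        ∀ y, D.ρ e y = y → D.ρ' a (D.eigMap t y) = D.eigMap t (D.ρ z y) := by
    intro t v ht htv
    refine exists_partner D.g' D.gen' (optVal v c) 𝔫
      (fun r hr => algebraMap_mem_genIdeal _ _ hr)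
      (fun a z => ∀ y, D.ρ e y = y → D.ρ' a (D.eigMap t y) = D.eigMap t (D.ρ z y))
      (fun r y _ => by simp)
      (fun x y x' y' hx hy u hu => by simp [hx u hu, hy u hu])
      (fun x y x' y' hx hy u hu => ?_) (fun i => ?_)
    · rw [algHom_mul_apply, hy u hu, hx _ (by rw [algHom_comm_apply, hu]), algHom_mul_apply]
    · rcases i with _ | i
      · exact ⟨t, fun y hy => D.U_eigMap ht hy, htv⟩
      · exact ⟨D.g (some i), fun y _ => D.op_eigMap t i y,
          sub_mem_genIdeal D.g (optVal (al + be) c) (some i)⟩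
  have hinj : ∀ (t : A) {y y' : V}, D.ρ e y = y → D.ρ e y' = y' →
      D.eigMap t y = D.eigMap t y' → y = y' := fun t y y' hy hy' h =>
    sub_eq_zero.mp (D.eigMap_inj c hdet hI (by rw [map_sub, hy, hy'])
      (by rw [map_sub, h, sub_self]))
  have hfx : ∀ (z : A) {y : V}, D.ρ e y = y → D.ρ e (D.ρ z y) = D.ρ z y := fun z y hy => by
    rw [algHom_comm_apply, hy]
  -- `e'` fixes the `s`-eigenvectors
  have hone : ∀ y, D.ρ e y = y → D.ρ' e' (D.eigMap s y) = D.eigMap s y := by
    obtain ⟨hall, hideal⟩ := hpart s al hs hsr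
    obtain ⟨z, hz⟩ := hall e'
    obtain ⟨b, hb, hRb⟩ := hideal _ hI'.one_sub_mem
    have hzz : z * z * e = z * e := D.eq_of_forall_fixed hI.idem fun y hy =>
      hinj s (hfx _ hy) (hfx _ hy) (by
        rw [← hz y hy, algHom_mul_apply, ← hz _ (hfx _ hy), ← hz y hy, ← algHom_mul_apply,
          hI'.idem])
    have hbz : b * e = (1 - z) * e := D.eq_of_forall_fixed hI.idem fun y hy =>
      hinj s (hfx _ hy) (hfx _ hy) (by
        rw [← hRb y hy]
        simp [hz y hy])
    have hz1 : 1 - z ∈ 𝔫 := by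
      have := add_mem (Ideal.mul_mem_right e _ hb) (Ideal.mul_mem_left _ (1 - z) hI.one_sub_mem)
      rwa [hbz, show (1 - z) * e + (1 - z) * (1 - e) = 1 - z by ring] at this
    intro y hy
    rw [hz y hy]
    congr 1
    conv_lhs => rw [← hy]
    rw [← algHom_mul_apply, hI.mul_eq_self hzz hz1, hy]
  -- `e'` kills the `s'`-eigenvectors
  have hzero : ∀ y, D.ρ e y = y → D.ρ' e' (D.eigMap s' y) = 0 := by
    obtain ⟨hall, hideal⟩ := hpart s' be hs' hs'r
    obtain ⟨z, hz⟩ := hall e'
    obtain ⟨b', hb'⟩ := hI'.exists_inv_of_sub hne (x := U - algebraMap O A' be) (by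
      have := sub_mem_genIdeal D.g' (optVal al c) none
      convert this using 1
      simp only [optVal, map_sub, U]
      ring)
    obtain ⟨b₀, hb₀⟩ := hall (b' * e')
    obtain ⟨b₁, hb₁, hRb₁⟩ := hideal _ (sub_mem_genIdeal D.g' (optVal be c) none)
    have hzz : z * z * e = z * e := D.eq_of_forall_fixed hI.idem fun y hy =>
      hinj s' (hfx _ hy) (hfx _ hy) (by
        rw [← hz y hy, algHom_mul_apply, ← hz _ (hfx _ hy), ← hz y hy, ← algHom_mul_apply,
          hI'.idem])
    have hze : z * e = b₁ * b₀ * e := D.eq_of_forall_fixed hI.idem fun y hy =>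
      hinj s' (hfx _ hy) (hfx _ hy) (by
        rw [← hz y hy, algHom_mul_apply, ← hRb₁ _ (hfx _ hy), ← hb₀ y hy, ← algHom_mul_apply,
          show (D.g' none - algebraMap O A' (optVal be c none)) * (b' * e') = e' by
            rw [← mul_assoc]; exact hb'])
    have hz0 : z * e ∈ 𝔫 := hze ▸ Ideal.mul_mem_right e _ (Ideal.mul_mem_right b₀ _ hb₁)
    intro y hy
    rw [hz y hy]
    conv_lhs => rw [← hy]
    rw [← algHom_mul_apply, show z * e = z * e * e by rw [mul_assoc, hI.idem],
      hI.mul_eq_zero (by linear_combination e * hzz + z * z * hI.idem * e) hz0]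
    simp
  refine ⟨D.eigMap s ∘ₗ D.ρ e, fun y => ?_, fun y => ?_, fun w hw => ?_, fun i y => ?_,
    fun y => ?_⟩
  · exact hone _ (by rw [← algHom_mul_apply, hI.idem])
  · show D.eigMap s _ = D.eigMap s _
    rw [← algHom_mul_apply, hI.idem]
  · obtain ⟨y₁, hy₁e, hy₁⟩ := D.exists_eigMap_eq c hab hal hne hsq hdet hI hI' hsr hone hzero hw
    refine ⟨y₁, ⟨hy₁e, ?_⟩, fun y hy => hinj s hy.1 hy₁e ?_⟩
    · show D.eigMap s (D.ρ e y₁) = w
      rw [hy₁e, hy₁]
    · rw [hy₁]
      simpa [hy.1] using hy.2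
  · show D.ρ' _ (D.eigMap s _) = D.eigMap s _
    rw [D.op_eigMap, algHom_comm_apply]
  · have hye : D.ρ e (D.ρ e y) = D.ρ e y := by rw [← algHom_mul_apply, hI.idem]
    show D.ρ' U (D.ρ' U (D.eigMap s _)) + D.q • D.eigMap s _ = D.ρ' U (D.eigMap s _)
    rw [D.U_eigMap hs hye, D.U_eigMap hs (hfx _ hye), algHom_comm_apply D.ρ e T,
      D.U_eigMap hs (hfx _ hye), ← map_smul, ← map_add]
    congr 1
    have := congrArg (fun a => D.ρ a (D.ρ e y)) hs
    simp only [map_mul, map_add, map_sub, map_zero, Module.End.mul_apply, LinearMap.add_apply,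
      LinearMap.sub_apply, LinearMap.zero_apply, hye, Q, AlgHom.commutes,
      Module.algebraMap_end_apply] at this
    rw [algHom_comm_apply D.ρ s T, ← sub_eq_zero, ← this]
    abel

end StepData

end Fermat.Agent.LevelLowering
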