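import Fermat.Agent.Ihara.RaiseBase
import Fermat.Agent.LevelLowering.FreeAtkin
import Fermat.Agent.LevelLowering.FreeBase
import Fermat.Agent.LevelLowering.FreeDegen
import Fermat.Agent.LevelLowering.FreeStep

/-!
# Descent at one Taylor–Wiles prime

At a prime `q ∤ N` where the residual roots `α, β` are distinct, the part of
`Hom_cl(Γ₀(Nq), O)` at `U_q ↦ α` is isomorphic to the part of `Hom_cl(Γ₀(N), O)` at the residual
system: this instantiates the abstract descent step with the degeneracy maps.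
-/

noncomputable section

namespace Fermat.Agent.LevelLowering

open scoped MatrixGroups IsMulCommutative
open CongruenceSubgroup IsLocalRing Fermat.Agent.Grp Fermat.Agent.Ihara Fermat.Agent.Hecke

section Gen

/-- Residual ideals only depend on the residual values. -/
theorem genIdeal_le_of_congr {O A : Type*} [CommRing O] [IsLocalRing O] [CommRing A] [Algebra O A]
    {ι κ : Type*} {g : ι → A} {c : ι → O} {g' : κ → A} {c' : κ → O}
    (h : ∀ i, ∃ j, g i = g' j ∧ c i - c' j ∈ maximalIdeal O) :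
    genIdeal g c ≤ genIdeal g' c' := by
  refine sup_le (Ideal.map_le_iff_le_comap.mpr fun r hr => algebraMap_mem_genIdeal _ _ hr)
    (Ideal.span_le.mpr ?_)
  rintro _ ⟨i, rfl⟩
  obtain ⟨j, hj, hc⟩ := h i
  have := sub_mem (sub_mem_genIdeal g' c' j) (algebraMap_mem_genIdeal g' c' hc)
  rwa [← hj, map_sub, sub_sub, add_sub_cancel] at this

end Gen

variable (O : Type) [CommRing O] (N q : ℕ) [NeZero N] [NeZero q] (hq : q.Prime) (hqN : ¬ q ∣ N)
  (𝓟 : Set Nat.Primes) (hq𝓟 : (⟨q, hq⟩ : Nat.Primes) ∈ 𝓟)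

/-- The primes of `𝓟` other than `q`. -/
abbrev otherPrimes : Type := {i : 𝓟 // i.1 ≠ (⟨q, hq⟩ : Nat.Primes)}

/-- `𝓟` with `q` as the distinguished element. -/
def splitPrime : Option (otherPrimes q hq 𝓟) → 𝓟
  | none => ⟨_, hq𝓟⟩
  | some i => i.1

omit [NeZero q] in
theorem splitPrime_surjective : Function.Surjective (splitPrime q hq 𝓟 hq𝓟) := fun i => by
  by_cases h : i.1 = (⟨q, hq⟩ : Nat.Primes)
  · exact ⟨none, Subtype.ext h.symm⟩
  · exact ⟨some ⟨i, h⟩, rfl⟩

omit [NeZero N] [NeZero q] in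
theorem prime_ne {i : 𝓟} (h : i.1 ≠ (⟨q, hq⟩ : Nat.Primes)) : (i.1 : ℕ) ≠ q := fun e =>
  h (Subtype.ext e)

/-- The data of the descent step. -/
def degenData : StepData O (otherPrimes q hq 𝓟) (baseAlg O N 𝓟) (baseAlg O (N * q) 𝓟)
    (clH O N) (clH O (N * q)) where
  ρ := (baseAlg O N 𝓟).val
  ρ' := (baseAlg O (N * q) 𝓟).val
  ρ_inj := Subtype.val_injective
  g o := baseElt O N 𝓟 (splitPrime q hq 𝓟 hq𝓟 o)
  g' o := baseElt O (N * q) 𝓟 (splitPrime q hq 𝓟 hq𝓟 o)
  gen := by
    have e : Set.range (fun o => baseElt O N 𝓟 (splitPrime q hq 𝓟 hq𝓟 o)) =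
        Set.range (baseElt O N 𝓟) :=
      (splitPrime_surjective q hq 𝓟 hq𝓟).range_comp (baseElt O N 𝓟)
    rw [e]
    exact adjoin_baseElt O N 𝓟
  gen' := by
    have e : Set.range (fun o => baseElt O (N * q) 𝓟 (splitPrime q hq 𝓟 hq𝓟 o)) =
        Set.range (baseElt O (N * q) 𝓟) :=
      (splitPrime_surjective q hq 𝓟 hq𝓟).range_comp (baseElt O (N * q) 𝓟)
    rw [e]
    exact adjoin_baseElt O (N * q) 𝓟
  iA := clDegA O N q
  iB := clDegB O N q
  jA := clCorA O N q
  jB := clCorB O N q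
  q := q
  op_iA i y := by
    have : NeZero (i.1.1 : ℕ) := ⟨i.1.1.2.ne_zero⟩
    refine Subtype.ext ?_
    show ((baseOp O (N * q) i.1.1 _ : clH O (N * q)) : Additive _ →+ O) =
      degA N q (baseOp O N i.1.1 y : clH O N).1
    rw [coe_baseOp, coe_baseOp]
    exact op_degA i.1.1.2 hq (prime_ne q hq 𝓟 i.2) y.1
  op_iB i y := by
    have : NeZero (i.1.1 : ℕ) := ⟨i.1.1.2.ne_zero⟩
    refine Subtype.ext ?_
    show ((baseOp O (N * q) i.1.1 _ : clH O (N * q)) : Additive _ →+ O) =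
      degB N q (baseOp O N i.1.1 y : clH O N).1
    rw [coe_baseOp, coe_baseOp]
    exact op_degB i.1.1.2 hq (prime_ne q hq 𝓟 i.2) y.1
  op_jA i w := by
    have : NeZero (i.1.1 : ℕ) := ⟨i.1.1.2.ne_zero⟩
    refine Subtype.ext ?_
    show corA N q (baseOp O (N * q) i.1.1 w : clH O (N * q)).1 =
      ((baseOp O N i.1.1 _ : clH O N) : Additive _ →+ O)
    rw [coe_baseOp, coe_baseOp]
    exact op_corA i.1.1.2 hq (prime_ne q hq 𝓟 i.2) w.1
  op_jB i w := by
    have : NeZero (i.1.1 : ℕ) := ⟨i.1.1.2.ne_zero⟩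
    refine Subtype.ext ?_
    show corB N q (baseOp O (N * q) i.1.1 w : clH O (N * q)).1 =
      ((baseOp O N i.1.1 _ : clH O N) : Additive _ →+ O)
    rw [coe_baseOp, coe_baseOp]
    exact op_corB i.1.1.2 hq (prime_ne q hq 𝓟 i.2) w.1
  U_iA y := by
    refine Subtype.ext ?_
    show ((baseOp O (N * q) q _ : clH O (N * q)) : Additive _ →+ O) =
      degA N q (baseOp O N q y : clH O N).1 - degB N q y.1
    rw [coe_baseOp, coe_baseOp]
    exact U_degA hq hqN y.1
  U_iB y := by
    refine Subtype.ext ?_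
    show ((baseOp O (N * q) q _ : clH O (N * q)) : Additive _ →+ O) = (q : O) • degA N q y.1
    rw [coe_baseOp, Nat.cast_smul_eq_nsmul]
    exact U_degB hq hqN y.1
  jA_U w := by
    refine Subtype.ext ?_
    show corA N q (baseOp O (N * q) q w : clH O (N * q)).1 = (q : O) • corB N q w.1
    rw [coe_baseOp, Nat.cast_smul_eq_nsmul]
    exact corA_U hq hqN w.1
  jB_U w := by
    refine Subtype.ext ?_
    show corB N q (baseOp O (N * q) q w : clH O (N * q)).1 =
      ((baseOp O N q _ : clH O N) : Additive _ →+ O) - corA N q w.1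
    rw [coe_baseOp, coe_baseOp]
    exact corB_U hq hqN w.1
  jA_iA y := by
    refine Subtype.ext ?_
    show corA N q (degA N q y.1) = ((q : O) + 1) • y.1
    rw [corA_degA hq hqN, ← Nat.cast_smul_eq_nsmul O (q + 1), Nat.cast_add, Nat.cast_one]
  jA_iB y := by
    refine Subtype.ext ?_
    show corA N q (degB N q y.1) = ((baseOp O N q y : clH O N) : Additive _ →+ O)
    rw [coe_baseOp, corA_degB, monoTransfer_eq_perTransfer hq hqN]
  jB_iA y := by
    refine Subtype.ext ?_
    show corB N q (degA N q y.1) = ((baseOp O N q y : clH O N) : Additive _ →+ O)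
    rw [coe_baseOp, corB_degA]
  jB_iB y := by
    refine Subtype.ext ?_
    show corB N q (degB N q y.1) = ((q : O) + 1) • y.1
    rw [corB_degB hq hqN, ← Nat.cast_smul_eq_nsmul O (q + 1), Nat.cast_add, Nat.cast_one]
  U_sq w h1 h2 := by
    refine Subtype.ext ?_
    show ((baseOp O (N * q) q (baseOp O (N * q) q w) : clH O (N * q)) : Additive _ →+ O) = w.1
    rw [coe_baseOp, coe_baseOp]
    exact perTransfer_sq_of_cores hq hqN w.1 (congrArg Subtype.val h1) (congrArg Subtype.val h2)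

variable [IsLocalRing O] [IsNoetherianRing O] [IsAdicComplete (maximalIdeal O) O]

omit [NeZero q] in
theorem isIdemAt_split (a : Nat.Primes → ResidueField O) (al : O)
    (hal : residue O al = a ⟨q, hq⟩) :
    IsIdemAt (genIdeal (fun o => baseElt O N 𝓟 (splitPrime q hq 𝓟 hq𝓟 o))
      (optVal al fun i : otherPrimes q hq 𝓟 => liftSys O a i.1.1)) (baseIdem O N 𝓟 a) := by
  have e : genIdeal (fun o => baseElt O N 𝓟 (splitPrime q hq 𝓟 hq𝓟 o))
      (optVal al fun i : otherPrimes q hq 𝓟 => liftSys O a i.1.1) = baseIdeal O N 𝓟 a := by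
    have hd : al - liftSys O a (⟨q, hq⟩ : Nat.Primes) ∈ maximalIdeal O := by
      rw [← residue_eq_zero_iff, map_sub, hal, sub_eq_zero]
      exact (residue_liftSys O a _).symm
    refine le_antisymm (genIdeal_le_of_congr fun o => ⟨_, rfl, ?_⟩)
      (genIdeal_le_of_congr fun i => ?_)
    · rcases o with _ | o
      · exact hd
      · simp [optVal, splitPrime]
    · obtain ⟨o, rfl⟩ := splitPrime_surjective q hq 𝓟 hq𝓟 i
      refine ⟨o, rfl, ?_⟩
      rcases o with _ | o
      · exact neg_sub al (liftSys O a (⟨q, hq⟩ : Nat.Primes)) ▸ neg_mem hd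
      · simp [optVal, splitPrime]
  rw [e]
  exact isIdemAt_baseIdem O N 𝓟 a

include hqN hq𝓟 in
/-- **Descent at one Taylor-Wiles prime.** -/
theorem descent_step (a : Nat.Primes → ResidueField O) (α β : ResidueField O)
    (hq1 : (q : ResidueField O) = 1) (hαβ : α * β = 1) (hne : α ≠ β) :
    ∃ Φ : clH O N →ₗ[O] clH O (N * q),
      (∀ y, (baseIdem O (N * q) 𝓟 (Function.update a ⟨q, hq⟩ α)).1 (Φ y) = Φ y) ∧
      (∀ y, Φ ((baseIdem O N 𝓟 (Function.update a ⟨q, hq⟩ (α + β))).1 y) = Φ y) ∧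
      (∀ w, (baseIdem O (N * q) 𝓟 (Function.update a ⟨q, hq⟩ α)).1 w = w →
        ∃! y, (baseIdem O N 𝓟 (Function.update a ⟨q, hq⟩ (α + β))).1 y = y ∧ Φ y = w) ∧
      (∀ i : 𝓟, i.1 ≠ (⟨q, hq⟩ : Nat.Primes) → ∀ y,
        baseGen O (N * q) 𝓟 i (Φ y) = Φ (baseGen O N 𝓟 i y)) ∧
      ∀ y, baseOp O (N * q) q (baseOp O (N * q) q (Φ y)) + (q : O) • Φ y =
        baseOp O (N * q) q (Φ (baseOp O N q y)) := by
  have := finite_baseAlg O N 𝓟
  obtain ⟨al, hal⟩ := residue_surjective (R := O) α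
  obtain ⟨be, hbe⟩ := residue_surjective (R := O) β
  set D := degenData O N q hq hqN 𝓟 hq𝓟
  have hDq : residue O D.q = 1 := (map_natCast _ q).trans hq1
  have hunit : ∀ x : O, residue O x ≠ 0 → IsUnit x := fun x hx =>
    notMem_maximalIdeal.mp fun h => hx ((residue_eq_zero_iff x).mpr h)
  have hα : α ≠ 0 := left_ne_zero_of_mul_eq_one hαβ
  have hsq : α * α - 1 ≠ 0 := fun h => hne (mul_left_cancel₀ hα (by
    rw [sub_eq_zero] at h; rw [h, hαβ]))
  have e : (fun i : otherPrimes q hq 𝓟 => liftSys O (Function.update a ⟨q, hq⟩ α) i.1.1) =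
      fun i => liftSys O (Function.update a ⟨q, hq⟩ (α + β)) i.1.1 := funext fun i => by
    unfold liftSys
    simp [Function.update_of_ne i.2]
  have hI := isIdemAt_split O N q hq 𝓟 hq𝓟 (Function.update a ⟨q, hq⟩ (α + β)) (al + be)
    (by
      rw [map_add, hal, hbe]
      exact (Function.update_self (f := a) (a := (⟨q, hq⟩ : Nat.Primes)) ..).symm)
  have hI' := isIdemAt_split O (N * q) q hq 𝓟 hq𝓟 (Function.update a ⟨q, hq⟩ α) al
    (by rw [hal]; exact (Function.update_self (f := a) (a := (⟨q, hq⟩ : Nat.Primes)) ..).symm)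
  rw [e] at hI'
  obtain ⟨Φ, h1, h2, h3, h4, h5⟩ := D.exists_descent
    (fun i => liftSys O (Function.update a ⟨q, hq⟩ (α + β)) i.1.1) (al := al) (be := be)
    (by rw [← residue_eq_zero_iff, map_sub, map_mul, hal, hbe, hDq, hαβ, sub_self])
    (hunit _ (by rwa [hal]))
    (hunit _ (by rw [map_sub, hal, hbe, sub_ne_zero]; exact hne))
    (hunit _ (by rw [map_sub, map_mul, hal, map_one]; exact hsq))
    (hunit _ (by
      rw [map_sub, map_mul, map_mul, map_add, map_add, hal, hbe, hDq, map_one]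
      intro h
      refine hne (sub_eq_zero.mp (mul_self_eq_zero.mp ?_))
      linear_combination -h - 4 * hαβ))
    hI hI'
  refine ⟨Φ, h1, h2, h3, fun i hi y => ?_, fun y => h5 y⟩
  exact h4 ⟨i, hi⟩ y

end Fermat.Agent.LevelLowering
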