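import Fermat.Agent.LevelLowering.FreeGamma
import Fermat.Agent.LevelLowering.TWCharacter

/-!
# Elements killed by a coprime exponent in a `p`-group

In a `p`-group an element killed by an exponent prime to `p` is trivial. So the character of a
Taylor–Wiles level kills the elliptic elements of `Γ₀(N)`, as freeness requires.
-/

noncomputable section

namespace Fermat.Agent.LevelLowering

open scoped MatrixGroups
open CongruenceSubgroup Fermat.Agent.Grp Fermat.Agent.Ihara Fermat.Agent.Hecke

variable {N : ℕ} {Δ : Type*} [CommGroup Δ]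

/-- A coprime pair of exponents kills. -/
theorem eq_one_of_pow_of_isPGroup {p : ℕ} (hΔ : IsPGroup p Δ) {x : Δ} {n : ℕ}
    (hn : Nat.Coprime p n) (h : x ^ n = 1) : x = 1 := by
  obtain ⟨a, ha⟩ := hΔ x
  have := pow_gcd_eq_one.mpr ⟨ha, h⟩
  rwa [(Nat.Coprime.pow_left a hn).gcd_eq_one, pow_one] at this

end Fermat.Agent.LevelLowering
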