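import Mathlib.GroupTheory.FiniteAbelian.Duality
import Mathlib.LinearAlgebra.Matrix.Charpoly.Eigs
import Mathlib.RingTheory.Nakayama
import Mathlib.RingTheory.OrzechProperty
import Mathlib.RingTheory.RootsOfUnity.AlgebraicallyClosed
import Mathlib.RingTheory.RootsOfUnity.CyclotomicUnits
import Fermat.Agent.LevelLowering.GroupRing

/-!
# Galois diamonds act freely

`P = S^d` with `S = O[Δ]`, and commuting operators `uᵢ` with `(1 + uᵢ)^{pⁿ} = 1`. If the eigenvalues
of `1 + uᵢ` are `1` at characters trivial at `i`, and are not `1` at a character of order `p`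
supported at `i`, then `uᵢ P = Xᵢ P` (`exists_diamond_factor`), so that `P` is free over `O[Δ]`
through the `uᵢ`: there are coordinates in which they are the variables, for a family of such `P` at
once, intertwiners included (`exists_diamond_coordinates_family`).
-/

noncomputable section

namespace Fermat.Agent.LevelLowering

open IsLocalRing

section Eigen

variable {d : ℕ} {K : Type} [Field K] [IsAlgClosed K]

/-- An element of finite order with all eigenvalues `1` is `1`. -/
lemma eq_one_of_pow_eq_one {m : ℕ} (hm : (m : K) ≠ 0) (g : Matrix (Fin d) (Fin d) K)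
    (hg : g ^ m = 1) (h : ∀ e, g.charpoly.IsRoot e → e = 1) : g = 1 := by
  have hp : g.charpoly = (Polynomial.X - Polynomial.C 1) ^ d := by
    have hs := (IsAlgClosed.splits g.charpoly).eq_prod_roots_of_monic g.charpoly_monic
    have hr : g.charpoly.roots = Multiset.replicate d 1 := by
      refine Multiset.eq_replicate.mpr ⟨?_, fun e he => h e (Polynomial.isRoot_of_mem_roots he)⟩
      rw [← (IsAlgClosed.splits g.charpoly).natDegree_eq_card_roots,
        Matrix.charpoly_natDegree_eq_dim, Fintype.card_fin]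
    rw [hs, hr, Multiset.map_replicate, Multiset.prod_replicate]
  have hN : IsNilpotent (g - 1) := ⟨d, by
    have := g.aeval_self_charpoly
    rw [hp] at this
    simpa using this⟩
  have hu : IsUnit (∑ i ∈ Finset.range m, g ^ i) := by
    have hmu : IsUnit (m : Matrix (Fin d) (Fin d) K) := by
      rw [← map_natCast (Matrix.scalar (Fin d))]
      exact (isUnit_iff_ne_zero.mpr hm).map _
    have hn : IsNilpotent ((∑ i ∈ Finset.range m, g ^ i) - (m : Matrix (Fin d) (Fin d) K)) := by
      have hc : Commute (∑ i ∈ Finset.range m, ∑ j ∈ Finset.range i, g ^ j) (g - 1) :=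
        Commute.sum_left _ _ _ fun i _ => Commute.sum_left _ _ _ fun j _ =>
          ((Commute.refl g).pow_left j).sub_right (Commute.one_right _)
      have e : (∑ i ∈ Finset.range m, g ^ i) - (m : Matrix (Fin d) (Fin d) K) =
          (∑ i ∈ Finset.range m, ∑ j ∈ Finset.range i, g ^ j) * (g - 1) := by
        rw [Finset.sum_mul]
        simp only [geom_sum_mul]
        rw [Finset.sum_sub_distrib]
        simp
      rw [e]
      exact Commute.isNilpotent_mul_left hc hN
    have := hn.isUnit_add_left_of_commute hmu (Nat.cast_commute m _).symm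
    simpa using this
  have h0 : (∑ i ∈ Finset.range m, g ^ i) * (g - 1) = 0 := by rw [geom_sum_mul, hg, sub_self]
  exact sub_eq_zero.mp (hu.mul_right_eq_zero.mp h0)

/-- If for every eigenvalue `e` of `W` the element `1 + (z - 1) e` is a `p`-power root of unity
other than `1`, then `W` has unit determinant. -/
lemma isUnit_det_of_roots {B : Type} [CommRing B] [IsDomain B] [Algebra B K]
    [FaithfulSMul B K] [IsIntegrallyClosedIn B K] {p : ℕ} [hp : Fact p.Prime] {z : B}
    (hz : IsPrimitiveRoot z p) (hπ : ¬ IsUnit (z - 1)) {n : ℕ} (W : Matrix (Fin d) (Fin d) B)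
    (hW : ∀ e : K, (W.map (algebraMap B K)).charpoly.IsRoot e →
      (1 + algebraMap B K (z - 1) * e) ^ p ^ n = 1 ∧ 1 + algebraMap B K (z - 1) * e ≠ 1) :
    IsUnit W.det := by
  have hinj : Function.Injective (algebraMap B K) := FaithfulSMul.algebraMap_injective B K
  have hroot : ∀ e ∈ (W.map (algebraMap B K)).charpoly.roots,
      ∃ v : B, IsUnit v ∧ algebraMap B K v = e := by
    intro e he
    have he' := Polynomial.isRoot_of_mem_roots he
    obtain ⟨hpow, hne⟩ := hW e he'
    obtain ⟨v, rfl⟩ : ∃ v : B, algebraMap B K v = e := by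
      refine IsIntegralClosure.isIntegral_iff.mp ⟨W.charpoly, W.charpoly_monic, ?_⟩
      rw [← Polynomial.eval_map, ← Matrix.charpoly_map]
      exact he'
    refine ⟨v, ?_, rfl⟩
    rw [← map_one (algebraMap B K), ← map_mul, ← map_add, ← map_pow, map_one,
      ← (algebraMap B K).map_one] at hpow
    have hv : (1 + (z - 1) * v) ^ p ^ n = 1 := hinj hpow
    have hv1 : 1 + (z - 1) * v ≠ 1 := fun h => hne (by
      rw [← map_one (algebraMap B K), ← map_mul, ← map_add, h])
    obtain ⟨k, -, hk⟩ := (Nat.dvd_prime_pow hp.out).mp (orderOf_dvd_of_pow_eq_one hv)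
    rcases k with _ | k
    · rw [pow_zero, orderOf_eq_one_iff] at hk
      exact absurd hk hv1
    rcases k with _ | k
    · have h1 : (1 + (z - 1) * v) ^ p = 1 := by
        have := pow_orderOf_eq_one (1 + (z - 1) * v)
        rwa [hk, pow_one] at this
      obtain ⟨a, ha, ha'⟩ := hz.eq_pow_of_pow_eq_one h1
      have ha0 : a ≠ 0 := by
        rintro rfl
        exact hv1 (by rw [← ha', pow_zero])
      have hcop : a.Coprime p := (Nat.coprime_comm.mp
        ((hp.out.coprime_iff_not_dvd).mpr fun h => ha0 (Nat.eq_zero_of_dvd_of_lt h ha)))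
      obtain ⟨w, hw⟩ := hz.associated_sub_one_pow_sub_one_of_coprime hcop
      have h2 : (z - 1) * v = (z - 1) * w := by rw [hw, ha']; ring
      rw [mul_left_cancel₀ (sub_ne_zero.mpr (hz.ne_one hp.out.one_lt)) h2]
      exact Units.isUnit _
    · exfalso
      set x := 1 + (z - 1) * v
      have hpp : (p : B) ∈ Ideal.span {z - 1} := by
        rw [Ideal.mem_span_singleton]
        refine ⟨-(∑ i ∈ Finset.range p, ∑ j ∈ Finset.range i, z ^ j), ?_⟩
        have h0 : ∑ i ∈ Finset.range p, z ^ i = 0 := hz.geom_sum_eq_zero hp.out.one_lt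
        have : ∑ i ∈ Finset.range p, (z ^ i - 1) = -(p : B) := by
          rw [Finset.sum_sub_distrib, h0]; simp
        rw [mul_neg, eq_neg_iff_add_eq_zero, Finset.mul_sum]
        simp only [mul_geom_sum]
        rw [this, add_neg_cancel]
      have hx : x - 1 ∈ Ideal.span {z - 1} ^ 1 := by
        rw [pow_one, Ideal.mem_span_singleton]
        exact ⟨v, by simp [x]⟩
      have hs : ∀ j, x ^ p ^ (j + 1) - 1 ∈ Ideal.span {z - 1} ^ 2 := by
        intro j
        induction j with
        | zero =>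
          have := one_add_pow_prime_sub_one_mem _ hpp le_rfl hx
          simpa using this
        | succ j ih =>
          rw [pow_succ p (j + 1), pow_mul, ← Ideal.Quotient.eq_zero_iff_mem, map_sub, map_pow,
            map_one]
          rw [← Ideal.Quotient.eq_zero_iff_mem, map_sub, sub_eq_zero, map_one] at ih
          rw [ih, one_pow, sub_self]
      have hord : orderOf (x ^ p ^ (k + 1)) = p := by
        rw [orderOf_pow' _ (pow_ne_zero _ hp.out.ne_zero), hk,
          Nat.gcd_eq_right (pow_dvd_pow p (by omega)), Nat.pow_div (by omega) hp.out.pos]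
        rw [show k + 1 + 1 - (k + 1) = 1 by omega, pow_one]
      obtain ⟨a, ha, ha'⟩ := hz.eq_pow_of_pow_eq_one
        (show (x ^ p ^ (k + 1)) ^ p = 1 from
          (congrArg ((x ^ p ^ (k + 1)) ^ ·) hord.symm).trans (pow_orderOf_eq_one _))
      have ha0 : a ≠ 0 := by
        rintro rfl
        rw [pow_zero] at ha'
        rw [← ha', orderOf_one] at hord
        exact hp.out.one_lt.ne hord
      have hcop : a.Coprime p := (Nat.coprime_comm.mp
        ((hp.out.coprime_iff_not_dvd).mpr fun h => ha0 (Nat.eq_zero_of_dvd_of_lt h ha)))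
      obtain ⟨w, hw⟩ := hz.associated_sub_one_pow_sub_one_of_coprime hcop
      have := hs k
      rw [← ha', ← hw, Ideal.span_singleton_pow, Ideal.mem_span_singleton, sq] at this
      obtain ⟨t, ht⟩ := this
      rw [mul_assoc] at ht
      have h3 := mul_left_cancel₀ (sub_ne_zero.mpr (hz.ne_one hp.out.one_lt)) ht
      exact hπ (isUnit_of_mul_isUnit_left (h3 ▸ w.isUnit))
  choose v hvu hve using hroot
  have hdet : algebraMap B K W.det =
      algebraMap B K ((W.map (algebraMap B K)).charpoly.roots.attach.map fun e =>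
        v e.1 e.2).prod := by
    rw [RingHom.map_det, RingHom.mapMatrix_apply, Matrix.det_eq_prod_roots_charpoly,
      map_multiset_prod,
      Multiset.map_map]
    conv_lhs => rw [← Multiset.attach_map_val (W.map (algebraMap B K)).charpoly.roots]
    exact congrArg Multiset.prod (Multiset.map_congr rfl fun e _ => (hve e.1 e.2).symm)
  rw [hinj hdet]
  refine IsUnit.mem_submonoid_iff _ |>.mp ?_
  refine Submonoid.multiset_prod_mem _ _ fun x hx => ?_
  obtain ⟨e, -, rfl⟩ := Multiset.mem_map.mp hx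
  exact (IsUnit.mem_submonoid_iff _).mpr (hvu e.1 e.2)

end Eigen

variable {𝒪 : Type} [CommRing 𝒪] [IsDomain 𝒪] [IsDiscreteValuationRing 𝒪]
  [IsAdicComplete (maximalIdeal 𝒪) 𝒪] [Finite (ResidueField 𝒪)]
  {p r : ℕ} {lv : Fin r → ℕ} [hp : Fact p.Prime]

local notation "S" => MvPowerSeries (Fin r) 𝒪 ⧸ diamondIdeal (𝒪 := 𝒪) p lv

variable (𝒪 p lv) in
/-- The class of `Xᵢ` in `S`. -/
abbrev diaX (i : Fin r) : S := Ideal.Quotient.mk (diamondIdeal (𝒪 := 𝒪) p lv) (MvPowerSeries.X i)

local notation "Xq" => diaX 𝒪 p lv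

/-- A map from `S` given by the images of `1 + Xᵢ`. -/
lemma exists_diaHom {B : Type} [CommRing B] [Algebra 𝒪 B] (hp𝒪 : (p : 𝒪) ∈ maximalIdeal 𝒪)
    (g : Fin r → B) (hg : ∀ i, g i ^ p ^ lv i = 1) :
    ∃ φ : S →ₐ[𝒪] B, ∀ i, φ (Xq i) = g i - 1 := by
  obtain ⟨E, hE⟩ := exists_diaEquiv (lv := lv) hp𝒪
  refine ⟨(MonoidAlgebra.lift 𝒪 B (DiaGroup p lv) (diaLift g hg)).comp E.toAlgHom, fun i => ?_⟩
  show MonoidAlgebra.lift 𝒪 B (DiaGroup p lv) _ (E _) = _
  rw [hE, map_sub, MonoidAlgebra.lift_of, diaLift_gen, map_one]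

/-- The coordinates `O⟦X⟧ / ((1 + X) ^ p ^ lv - 1)` are finite over `O`. -/
lemma finite_diaCoords (hp𝒪 : (p : 𝒪) ∈ maximalIdeal 𝒪) : Module.Finite 𝒪 S := by
  obtain ⟨E, -⟩ := exists_diaEquiv (lv := lv) hp𝒪
  have : Module.Finite 𝒪 (DiaRing 𝒪 p lv) :=
    Module.Finite.equiv (MonoidAlgebra.coeffLinearEquiv 𝒪).symm
  exact Module.Finite.equiv E.symm.toLinearEquiv

variable {d : ℕ}

section Separation

variable {K : Type} [Field K] [IsAlgClosed K] [CharZero K] [Algebra 𝒪 K]

omit [IsDomain 𝒪] [IsDiscreteValuationRing 𝒪] [IsAdicComplete (maximalIdeal 𝒪) 𝒪]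
  [Finite (ResidueField 𝒪)] in
/-- Characters separate `O[Δ]`. -/
lemma eq_zero_of_forall_diaRing (hinj : Function.Injective (algebraMap 𝒪 K))
    (x : DiaRing 𝒪 p lv)
    (h : ∀ χ : DiaGroup p lv →* K, MonoidAlgebra.lift 𝒪 K _ χ x = 0) : x = 0 := by
  classical
  have hli : LinearIndependent K fun g : DiaGroup p lv =>
      fun χ : DiaGroup p lv →* K => χ g := by
    let ev : DiaGroup p lv → ((DiaGroup p lv →* K) →* K) := fun g =>
      { toFun := fun χ => χ g, map_one' := rfl, map_mul' := fun _ _ => rfl }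
    refine (linearIndependent_monoidHom (DiaGroup p lv →* K) K).comp ev fun a b hab => ?_
    by_contra hne
    obtain ⟨φ, hφ⟩ := CommGroup.exists_apply_ne_one_of_hasEnoughRootsOfUnity (DiaGroup p lv) K
      (show a / b ≠ 1 from fun he => hne (div_eq_one.mp he))
    refine hφ (Units.ext ?_)
    have e := DFunLike.congr_fun hab ((Units.coeHom K).comp φ)
    change ((φ a : Kˣ) : K) = ((φ b : Kˣ) : K) at e
    rw [map_div, Units.val_one]
    simp [Units.ext e]
  refine MonoidAlgebra.ext (Finsupp.ext fun g => hinj ?_)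
  rw [MonoidAlgebra.coeff_zero, Finsupp.zero_apply, map_zero]
  refine Fintype.linearIndependent_iff.mp hli (fun g => algebraMap 𝒪 K (x.coeff g)) ?_ g
  funext χ
  have := h χ
  rw [MonoidAlgebra.lift_apply, x.coeff.sum_fintype (fun a b => b • χ a) (fun _ => zero_smul _ _)]
    at this
  simpa [Algebra.smul_def, Finset.sum_apply] using this

/-- Killed at every point with `Xᵢ = 0` implies divisible by `Xᵢ`. -/
lemma mem_span_X_of_forall (hp𝒪 : (p : 𝒪) ∈ maximalIdeal 𝒪)
    (hinj : Function.Injective (algebraMap 𝒪 K)) (i : Fin r) (s : S)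
    (h : ∀ φ : S →ₐ[𝒪] K, φ (Xq i) = 0 → φ s = 0) : s ∈ Ideal.span {(Xq i : S)} := by
  classical
  obtain ⟨E, hE⟩ := exists_diaEquiv (lv := lv) hp𝒪
  let γ : Fin r → DiaRing 𝒪 p lv := fun j => if j = i then 1 else MonoidAlgebra.of 𝒪 _
      (diaGen p lv j)
  have hγ : ∀ j, γ j ^ p ^ lv j = 1 := fun j => by
    simp only [γ]
    split_ifs
    · exact one_pow _
    · rw [← map_pow, diaGen_pow, map_one]
  let P : DiaRing 𝒪 p lv →ₐ[𝒪] DiaRing 𝒪 p lv :=
    MonoidAlgebra.lift 𝒪 _ (DiaGroup p lv) (diaLift γ hγ)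
  set I : Ideal (DiaRing 𝒪 p lv) := Ideal.span {MonoidAlgebra.of 𝒪 _ (diaGen p lv i) - 1}
  have hP : (Ideal.Quotient.mkₐ 𝒪 I).comp P = Ideal.Quotient.mkₐ 𝒪 I := by
    refine (MonoidAlgebra.lift 𝒪 _ _).symm.injective (diaHom_ext fun j => ?_)
    show Ideal.Quotient.mk I (P (MonoidAlgebra.of 𝒪 _ (diaGen p lv j))) =
      Ideal.Quotient.mk I (MonoidAlgebra.of 𝒪 _ (diaGen p lv j))
    rw [show P (MonoidAlgebra.of 𝒪 _ (diaGen p lv j)) = γ j by
      rw [MonoidAlgebra.lift_of, diaLift_gen]]
    simp only [γ]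
    split_ifs with hj
    · subst hj
      rw [Ideal.Quotient.eq, ← neg_sub, neg_mem_iff]
      exact Ideal.mem_span_singleton_self _
    · rfl
  have hPs : P (E s) = 0 := by
    refine eq_zero_of_forall_diaRing hinj _ fun χ => ?_
    refine h (((MonoidAlgebra.lift 𝒪 K _ χ).comp P).comp E.toAlgHom) ?_
    show MonoidAlgebra.lift 𝒪 K _ χ (P (E _)) = 0
    rw [hE, map_sub P, map_one, show P (MonoidAlgebra.of 𝒪 _ (diaGen p lv i)) = γ i by
      rw [MonoidAlgebra.lift_of, diaLift_gen]]
    simp [γ]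
  have hEs : E s ∈ I := by
    rw [← Ideal.Quotient.eq_zero_iff_mem]
    have := AlgHom.congr_fun hP (E s)
    rw [AlgHom.comp_apply, hPs, map_zero] at this
    exact this.symm
  obtain ⟨c, hc⟩ := Ideal.mem_span_singleton.mp hEs
  rw [Ideal.mem_span_singleton]
  refine ⟨E.symm c, E.injective ?_⟩
  rw [map_mul, hE, E.apply_symm_apply, hc]

end Separation

omit [IsDomain 𝒪] [IsDiscreteValuationRing 𝒪] [IsAdicComplete (maximalIdeal 𝒪) 𝒪]
  [Finite (ResidueField 𝒪)] hp in
/-- The scalar embedding of `S`. -/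
lemma algebraMap_S (c : 𝒪) :
    algebraMap 𝒪 S c = Ideal.Quotient.mk (diamondIdeal (𝒪 := 𝒪) p lv) (MvPowerSeries.C c) := rfl

omit hp [IsDomain 𝒪] [IsDiscreteValuationRing 𝒪] [IsAdicComplete (maximalIdeal 𝒪) 𝒪]
  [Finite (ResidueField 𝒪)] in
/-- `S` is spanned by the constants and the ideal of the variables. -/
lemma exists_const_add (s : S) :
    ∃ (c : 𝒪) (t : S), t ∈ Ideal.span (Set.range (Xq : Fin r → S)) ∧ s = algebraMap 𝒪 S c + t := by
  obtain ⟨f, rfl⟩ := Ideal.Quotient.mk_surjective s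
  refine ⟨MvPowerSeries.constantCoeff f,
    Ideal.Quotient.mk _ (f - MvPowerSeries.C (MvPowerSeries.constantCoeff f)), ?_,
    by rw [algebraMap_S, map_sub, add_sub_cancel]⟩
  have h2 := Ideal.mem_map_of_mem (Ideal.Quotient.mk (diamondIdeal (𝒪 := 𝒪) p lv))
    (AV.Series.sub_C_constantCoeff_mem f)
  rw [Ideal.map_span, ← Set.range_comp] at h2
  exact h2

lemma smul_mulVec_of_mul_eq_one {R : Type} [CommRing R] {A u : Matrix (Fin d) (Fin d) R} (c : R)
    (hu : A * u = 1) (w : Fin d → R) : (c • A).mulVec (u.mulVec w) = fun b => c * w b := by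
  rw [Matrix.mulVec_mulVec, Matrix.smul_mul, hu, Matrix.smul_mulVec, Matrix.one_mulVec]
  rfl

omit [IsAdicComplete (maximalIdeal 𝒪) 𝒪] [Finite (ResidueField 𝒪)] hp in
/-- In `MatMod B`, a multiple of `Xᵢ` lies in `𝔪P`. -/
lemma mk_X_mul_mem (B : S →+* Matrix (Fin d) (Fin d) S) {W : Fin r → Matrix (Fin d) (Fin d) S}
    (hBX : ∀ i, B (Xq i) = (Xq i : S) • W i) (hdet : ∀ i, IsUnit (W i).det) (w : Fin d → S)
    (i : Fin r) :
    MatMod.mk B (fun b => (Xq i : S) * w b) ∈ maximalIdeal S • (⊤ : Submodule S (MatMod B)) := by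
  obtain ⟨u, hu⟩ := ((Matrix.isUnit_iff_isUnit_det _).mpr (hdet i)).exists_right_inv
  have key : ((Xq i : S) • W i).mulVec (u.mulVec w) = fun b => (Xq i : S) * w b := by
    exact smul_mulVec_of_mul_eq_one _ hu w
  have e : MatMod.mk B (fun b => (Xq i : S) * w b) = (Xq i : S) • MatMod.mk B (u.mulVec w) := by
    rw [← key, ← hBX]
    rfl
  rw [e]
  refine Submodule.smul_mem_smul ?_ Submodule.mem_top
  rw [← map_maximalIdeal_of_surjective (Ideal.Quotient.mk (diamondIdeal (𝒪 := 𝒪) p lv))
    Ideal.Quotient.mk_surjective]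
  exact Ideal.mem_map_of_mem _ (by simp [MvPowerSeries.isUnit_iff_constantCoeff])

/-- The change of coordinates attached to `B`. -/
lemma exists_matMod_equiv (hp𝒪 : (p : 𝒪) ∈ maximalIdeal 𝒪) (B : S →+* Matrix (Fin d) (Fin d) S)
    (hBC : ∀ c, B (algebraMap 𝒪 S c) = Matrix.scalar (Fin d) (algebraMap 𝒪 S c))
    {W : Fin r → Matrix (Fin d) (Fin d) S}
    (hBX : ∀ i, B (Xq i) = (Xq i : S) • W i) (hdet : ∀ i, IsUnit (W i).det) :
    ∃ e : (Fin d → S) ≃ₗ[S] MatMod B, (∀ b, e (Pi.single b 1) = MatMod.mk B (Pi.single b 1)) ∧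
      ∀ v b, e v b = ∑ a, B (v a) b a := by
  classical
  let Φ : (Fin d → S) →ₗ[S] MatMod B :=
    Fintype.linearCombination S fun a => MatMod.mk B (Pi.single a 1)
  have hΦ : ∀ v b, Φ v b = ∑ a, B (v a) b a := fun v b => by
    rw [Fintype.linearCombination_apply, MatMod.sum_apply]
    refine Finset.sum_congr rfl fun a _ => ?_
    rw [MatMod.smul_apply, Finset.sum_eq_single a]
    · show _ * (Pi.single a (1 : S) : Fin d → S) a = _
      rw [Pi.single_eq_same, mul_one]
    · intro c _ hc
      show _ * (Pi.single a (1 : S) : Fin d → S) c = 0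
      rw [Pi.single_eq_of_ne hc, mul_zero]
    · simp
  have hfinS : Module.Finite 𝒪 S := finite_diaCoords hp𝒪
  let modO : Module 𝒪 (MatMod B) := inferInstanceAs (Module 𝒪 (Fin d → S))
  have : Module.Finite 𝒪 (MatMod B) := inferInstanceAs (Module.Finite 𝒪 (Fin d → S))
  have : IsScalarTower 𝒪 S (MatMod B) := by
    refine ⟨fun c s v => funext fun a => ?_⟩
    show ((c • s) • v) a = c • (s • v) a
    rw [MatMod.smul_apply, MatMod.smul_apply, Finset.smul_sum]
    refine Finset.sum_congr rfl fun b _ => ?_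
    rw [Algebra.smul_def c s, map_mul, hBC, Matrix.scalar_apply, Matrix.diagonal_mul, mul_assoc]
    exact (Algebra.smul_def c _).symm
  have : Module.Finite S (MatMod B) := Module.Finite.of_restrictScalars_finite 𝒪 S (MatMod B)
  have hBs : ∀ (c : 𝒪) (v : MatMod B), algebraMap 𝒪 S c • v = c • v := fun c v =>
    algebraMap_smul S c v
  have hsingle : ∀ a s, MatMod.mk B (Pi.single a s) ∈
      LinearMap.range Φ ⊔ maximalIdeal S • (⊤ : Submodule S (MatMod B)) := by
    intro a s
    obtain ⟨c, t, ht, rfl⟩ := exists_const_add s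
    have hc : MatMod.mk B (Pi.single a (algebraMap 𝒪 S c)) ∈ LinearMap.range Φ := by
      refine ⟨algebraMap 𝒪 S c • Pi.single a 1, ?_⟩
      rw [map_smul, hBs, Fintype.linearCombination_apply_single, one_smul]
      funext b
      show c • (Pi.single a (1 : S) : Fin d → S) b = (Pi.single a (algebraMap 𝒪 S c) : Fin d → S) b
      by_cases hb : b = a
      · subst hb
        rw [Pi.single_eq_same, Pi.single_eq_same]
        exact (Algebra.algebraMap_eq_smul_one c).symm
      · rw [Pi.single_eq_of_ne hb, Pi.single_eq_of_ne hb, smul_zero]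
    have ht' : ∀ t ∈ Ideal.span (Set.range (Xq : Fin r → S)), ∀ s' : S,
        MatMod.mk B (Pi.single a (s' * t)) ∈ maximalIdeal S • (⊤ : Submodule S (MatMod B)) := by
      intro t ht
      refine Submodule.span_induction (p := fun t _ => ∀ s' : S,
        MatMod.mk B (Pi.single a (s' * t)) ∈
        maximalIdeal S • (⊤ : Submodule S (MatMod B))) ?_ ?_ ?_ ?_ ht
      · rintro _ ⟨i, rfl⟩ s'
        convert mk_X_mul_mem B hBX hdet (Pi.single a s') i using 2
        funext b
        show (Pi.single a (s' * _) : Fin d → S) b = _ * (Pi.single a s' : Fin d → S) b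
        by_cases hb : b = a
        · subst hb; simp [mul_comm]
        · simp [hb]
      · intro s'; rw [mul_zero, Pi.single_zero]; exact zero_mem _
      · intro x y _ _ hx hy s'
        rw [mul_add, Pi.single_add]
        exact add_mem (hx s') (hy s')
      · intro a' x _ hx s'
        rw [smul_eq_mul, ← mul_assoc]
        exact hx _
    have e : MatMod.mk B (Pi.single a (algebraMap 𝒪 S c + t)) =
        MatMod.mk B (Pi.single a (algebraMap 𝒪 S c)) + MatMod.mk B (Pi.single a (1 * t)) := by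
      rw [one_mul, Pi.single_add]; rfl
    rw [e]
    exact add_mem (Submodule.mem_sup_left hc) (Submodule.mem_sup_right (ht' t ht 1))
  have hsurj : Function.Surjective Φ := by
    rw [← LinearMap.range_eq_top, eq_top_iff]
    refine Submodule.le_of_le_smul_of_le_jacobson_bot (I := maximalIdeal S) Module.Finite.fg_top
      (maximalIdeal_le_jacobson ⊥) fun v _ => ?_
    have hv : v = ∑ a, MatMod.mk B (Pi.single a (v a)) := by
      funext b
      rw [MatMod.sum_apply]
      show v b = ∑ a, (Pi.single a (v a) : Fin d → S) b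
      exact (congrFun (Finset.univ_sum_single (v : Fin d → S)).symm b).trans
        (Finset.sum_apply _ _ _)
    rw [hv]
    exact sum_mem fun a _ => hsingle a _
  have hbij : Function.Bijective Φ := by
    refine ⟨?_, hsurj⟩
    let Φ' : (Fin d → S) →ₗ[𝒪] (Fin d → S) :=
      { toFun := fun v => (Φ v : Fin d → S)
        map_add' := fun u v => map_add Φ u v
        map_smul' := fun c v => by
          show Φ (c • v) = c • Φ v
          rw [← algebraMap_smul S c v, map_smul, hBs] }
    exact OrzechProperty.injective_of_surjective_endomorphism Φ' hsurj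
  refine ⟨LinearEquiv.ofBijective Φ hbij, fun b => ?_, fun v b => hΦ v b⟩
  show Φ _ = _
  rw [Fintype.linearCombination_apply_single, one_smul]

/-- A root of the characteristic polynomial of a matrix of finite order is a root of unity. -/
lemma pow_eq_one_of_isRoot_charpoly {K : Type} [Field K] {m : ℕ} (g : Matrix (Fin d) (Fin d) K)
    (hg : g ^ m = 1) {t : K} (ht : g.charpoly.IsRoot t) : t ^ m = 1 := by
  classical
  rw [Polynomial.IsRoot, Matrix.eval_charpoly] at ht
  obtain ⟨v, hv, hv0⟩ := Matrix.exists_mulVec_eq_zero_iff.mpr ht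
  have hgv : g.mulVec v = t • v := by
    rw [Matrix.sub_mulVec, sub_eq_zero] at hv0
    rw [← hv0]
    ext a
    simp [Matrix.mulVec_diagonal]
  have hk : ∀ k, (g ^ k).mulVec v = t ^ k • v := by
    intro k
    induction k with
    | zero => simp
    | succ k ih => rw [pow_succ', ← Matrix.mulVec_mulVec, ih, Matrix.mulVec_smul, hgv, smul_smul,
        pow_succ]
  have := hk m
  rw [hg, Matrix.one_mulVec] at this
  exact (smul_left_injective K hv (this.symm.trans (one_smul K v).symm))

local notation "augS" =>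
  Ideal.Quotient.lift (diamondIdeal (𝒪 := 𝒪) p lv) MvPowerSeries.constantCoeff
    (diamondIdeal_aug p lv)

/-! ### One level -/

/-- Where the eigenvalues are as at the Taylor–Wiles primes, the diamond is the variable times an
invertible matrix. -/
theorem exists_diamond_factor {d : ℕ} {K : Type} [Field K] [IsAlgClosed K] [CharZero K]
    [Algebra 𝒪 K] (hinj : Function.Injective (algebraMap 𝒪 K))
    (hp𝒪 : (p : 𝒪) ∈ maximalIdeal 𝒪) {T : Type} [CommRing T]
    (act : T →+* Matrix (Fin d) (Fin d) S) (i : Fin r) (δ : T)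
    (hpow : act (1 + δ) ^ p ^ lv i = 1)
    (hone : ∀ φ : S →ₐ[𝒪] K, φ (diaX 𝒪 p lv i) = 0 →
      ∀ e, ((act (1 + δ)).map φ).charpoly.IsRoot e → e = 1)
    (hne : ∃ φ : S →ₐ[𝒪] K, (∀ j, j ≠ i → φ (diaX 𝒪 p lv j) = 0) ∧
      IsPrimitiveRoot (1 + φ (diaX 𝒪 p lv i)) p ∧
      ∀ e, ((act (1 + δ)).map φ).charpoly.IsRoot e → e ≠ 1) :
    ∃ W : Matrix (Fin d) (Fin d) S, act δ = (diaX 𝒪 p lv i : S) • W ∧ IsUnit W.det := by
  classical
  have hgpow : ∀ φ : S →ₐ[𝒪] K, ((act (1 + δ)).map φ) ^ p ^ lv i = 1 := fun φ => by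
    rw [← AlgHom.mapMatrix_apply, ← map_pow, hpow, map_one]
  have hgadd : ∀ φ : S →ₐ[𝒪] K, (act (1 + δ)).map φ = 1 + (act δ).map φ := fun φ => by
    rw [map_add, map_one, ← AlgHom.mapMatrix_apply, map_add, map_one, AlgHom.mapMatrix_apply]
  have hzero : ∀ φ : S →ₐ[𝒪] K, φ (diaX 𝒪 p lv i) = 0 → (act δ).map φ = 0 := fun φ hφ => by
    have := eq_one_of_pow_eq_one (m := p ^ lv i) (by simp [hp.out.ne_zero]) _ (hgpow φ) (hone φ hφ)
    rw [hgadd] at this
    simpa using this
  have hdvd : ∀ a b, ∃ w : S, act δ a b = diaX 𝒪 p lv i * w := fun a b =>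
    Ideal.mem_span_singleton.mp (mem_span_X_of_forall hp𝒪 hinj i _ fun φ hφ =>
      congrFun (congrFun (hzero φ hφ) a) b)
  choose W hW using hdvd
  refine ⟨Matrix.of W, by ext a b; simpa [Matrix.smul_apply] using hW a b, ?_⟩
  obtain ⟨φ, hj, hz, hnei⟩ := hne
  have : FaithfulSMul 𝒪 K := (faithfulSMul_iff_algebraMap_injective 𝒪 K).mpr hinj
  have hfinS : Module.Finite 𝒪 S := finite_diaCoords hp𝒪
  let C := integralClosure 𝒪 K
  let φC : S →ₐ[𝒪] C := φ.codRestrict C fun s => (Algebra.IsIntegral.isIntegral s).map φ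
  set z : C := 1 + φC (diaX 𝒪 p lv i) with hzdef
  have hzC : IsPrimitiveRoot z p := IsPrimitiveRoot.of_map_of_injective (f := C.val) hz
    Subtype.val_injective
  obtain ⟨M, hM, hMover⟩ : ∃ M : Ideal C, M.IsMaximal ∧ M.comap (algebraMap 𝒪 C) = maximalIdeal 𝒪 :=
    Ideal.exists_ideal_over_maximal_of_isIntegral (maximalIdeal 𝒪)
    (by rw [(RingHom.injective_iff_ker_eq_bot _).mp (FaithfulSMul.algebraMap_injective 𝒪 C)];
        exact bot_le)
  have hpM : (p : C) ∈ M := by
    rw [← map_natCast (algebraMap 𝒪 C), ← Ideal.mem_comap, hMover]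
    exact hp𝒪
  have hzM : z - 1 ∈ M := by
    have := hM.isPrime
    have : Fact p.Prime := hp
    have : CharP (C ⧸ M) p := by
      refine (CharP.charP_iff_prime_eq_zero hp.out).mpr ?_
      rw [← map_natCast (Ideal.Quotient.mk M), Ideal.Quotient.eq_zero_iff_mem]
      exact hpM
    rw [← Ideal.Quotient.eq_zero_iff_mem, ← pow_eq_zero_iff hp.out.ne_zero, map_sub, map_one,
      sub_pow_char, ← map_pow, hzC.pow_eq_one, map_one, one_pow, sub_self]
  have hπ : ¬ IsUnit (z - 1) := fun h => hM.ne_top (Ideal.eq_top_of_isUnit_mem _ hzM h)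
  have hdetC : IsUnit ((Matrix.of W).map φC).det := by
    refine isUnit_det_of_roots (K := K) hzC hπ (n := lv i) _ fun e he => ?_
    have hmap : ((Matrix.of W).map φC).map (algebraMap C K) = (Matrix.of W).map φ := by
      ext a b; rfl
    rw [hmap] at he
    have hg : (act (1 + δ)).map φ = 1 + φ (diaX 𝒪 p lv i) • (Matrix.of W).map φ := by
      rw [hgadd]
      ext a b
      simp [hW]
    have hzK : algebraMap C K (z - 1) = φ (diaX 𝒪 p lv i) := by
      rw [hzdef, add_sub_cancel_left]; rfl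
    rw [hzK]
    have hroot : ((act (1 + δ)).map φ).charpoly.IsRoot (1 + φ (diaX 𝒪 p lv i) * e) := by
      rw [hg, Polynomial.IsRoot, Matrix.eval_charpoly]
      rw [Polynomial.IsRoot, Matrix.eval_charpoly] at he
      rw [show Matrix.scalar (Fin d) (1 + φ (diaX 𝒪 p lv i) * e) -
          (1 + φ (diaX 𝒪 p lv i) • (Matrix.of W).map φ)
          = φ (diaX 𝒪 p lv i) • (Matrix.scalar (Fin d) e - (Matrix.of W).map φ) from ?_,
        Matrix.det_smul, he, mul_zero]
      rw [map_add, map_one, add_sub_add_left_eq_sub, smul_sub]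
      congr 1
      ext a b
      by_cases hab : a = b <;> simp [hab]
    exact ⟨pow_eq_one_of_isRoot_charpoly _ (hgpow φ) hroot, hnei _ hroot⟩
  rw [← AlgHom.mapMatrix_apply, ← AlgHom.map_det] at hdetC
  obtain ⟨c, t, ht, hct⟩ := exists_const_add (Matrix.of W).det
  have htS : t ∈ maximalIdeal S := by
    refine (Ideal.span_le.mpr ?_) ht
    rintro _ ⟨j, rfl⟩
    rw [← map_maximalIdeal_of_surjective (Ideal.Quotient.mk (diamondIdeal (𝒪 := 𝒪) p lv))
      Ideal.Quotient.mk_surjective]
    exact Ideal.mem_map_of_mem _ (by simp [MvPowerSeries.isUnit_iff_constantCoeff])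
  have htM : φC t ∈ M := by
    have : t ∈ M.comap φC := by
      refine (Ideal.span_le.mpr ?_) ht
      rintro _ ⟨j, rfl⟩
      show φC (diaX 𝒪 p lv j) ∈ M
      by_cases hji : j = i
      · subst hji
        simpa [hzdef] using hzM
      · rw [show φC (diaX 𝒪 p lv j) = 0 from Subtype.ext (hj j hji)]
        exact zero_mem _
    exact this
  rw [hct]
  refine not_not.mp fun hnu => ?_
  have hcm : c ∈ maximalIdeal 𝒪 := (IsLocalRing.mem_maximalIdeal c).mpr fun hc => by
    have h' : algebraMap 𝒪 S c + t ∈ maximalIdeal S := (IsLocalRing.mem_maximalIdeal _).mpr hnu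
    have h2 := sub_mem h' htS
    rw [add_sub_cancel_right] at h2
    exact (IsLocalRing.mem_maximalIdeal _).mp h2 (hc.map _)
  refine hM.ne_top (Ideal.eq_top_of_isUnit_mem _ ?_ hdetC)
  rw [hct, map_add, AlgHom.commutes]
  refine add_mem ?_ htM
  rw [← Ideal.mem_comap, hMover]
  exact hcm

/-! ### The change of coordinates on a family -/

omit [IsDomain 𝒪] [IsDiscreteValuationRing 𝒪] [IsAdicComplete (maximalIdeal 𝒪) 𝒪]
  [Finite (ResidueField 𝒪)] hp in
/-- A ring map to matrices carrying each variable to a multiple of it is scalar modulo them. -/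
theorem map_augS_eq_scalar {d : ℕ} (B : S →+* Matrix (Fin d) (Fin d) S)
    (hC : ∀ c, B (algebraMap 𝒪 S c) = Matrix.scalar (Fin d) (algebraMap 𝒪 S c))
    (hX : ∀ i, ∃ W : Matrix (Fin d) (Fin d) S,
      B (diaX 𝒪 p lv i) = (diaX 𝒪 p lv i : S) • W) (s : S) :
    (B s).map augS = Matrix.scalar (Fin d) (augS s) := by
  set aug : S →+* 𝒪 := augS
  have haugX : ∀ i, aug (diaX 𝒪 p lv i) = 0 := fun i => by simp [aug]
  have haugC : ∀ c, aug (algebraMap 𝒪 S c) = c := fun c => by
    rw [algebraMap_S]; simp [aug]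
  choose W hW using hX
  obtain ⟨c, t, ht, rfl⟩ := exists_const_add s
  have ht' : t ∈ RingHom.ker ((aug.mapMatrix).comp B) ∧ aug t = 0 := by
    refine Submodule.span_induction (p := fun t _ =>
      t ∈ RingHom.ker ((aug.mapMatrix).comp B) ∧ aug t = 0) ?_
      ⟨zero_mem _, map_zero _⟩ ?_ ?_ ht
    · rintro _ ⟨i, rfl⟩
      refine ⟨RingHom.mem_ker.mpr (Matrix.ext fun a b => ?_), haugX i⟩
      show aug (B (diaX 𝒪 p lv i) a b) = 0
      rw [hW, Matrix.smul_apply, smul_eq_mul, map_mul, haugX, zero_mul]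
    · intro x y _ _ hx hy
      exact ⟨add_mem hx.1 hy.1, by rw [map_add, hx.2, hy.2, add_zero]⟩
    · intro a x _ hx
      exact ⟨Ideal.mul_mem_left _ a hx.1, by rw [smul_eq_mul, map_mul, hx.2, mul_zero]⟩
  have h1 : (B t).map aug = 0 := (RingHom.mem_ker (f := aug.mapMatrix.comp B)).mp ht'.1
  ext a b
  have h1ab : aug (B t a b) = 0 := congrFun (congrFun h1 a) b
  show aug (B (_ + t) a b) = _
  rw [map_add B, Matrix.add_apply, map_add, h1ab, add_zero, hC, map_add, ht'.2, add_zero,
    haugC]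
  by_cases hab : a = b
  · subst hab; simp [haugC]
  · simp [hab]

/-- **New coordinates on a family of levels, with the intertwiners.** -/
theorem exists_diamond_coordinates_family (hp𝒪 : (p : 𝒪) ∈ maximalIdeal 𝒪) {T : Type} [CommRing T]
    [Algebra 𝒪 T] {J : Type} (d : J → ℕ) (act : ∀ j, T →+* Matrix (Fin (d j)) (Fin (d j)) S)
    (hC : ∀ j c, act j (algebraMap 𝒪 T c) = Matrix.scalar (Fin (d j)) (algebraMap 𝒪 S c))
    (δ : Fin r → T) (hpow : ∀ i, (1 + δ i) ^ p ^ lv i = 1)
    (W : ∀ j, Fin r → Matrix (Fin (d j)) (Fin (d j)) S)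
    (hW : ∀ j i, act j (δ i) = (diaX 𝒪 p lv i : S) • W j i)
    (hdet : ∀ j i, IsUnit (W j i).det) :
    ∃ (act' : ∀ j, T →+* Matrix (Fin (d j)) (Fin (d j)) S)
      (τ : ∀ j k, Matrix (Fin (d k)) (Fin (d j)) S → Matrix (Fin (d k)) (Fin (d j)) S),
      (∀ j c, act' j (algebraMap 𝒪 T c) = Matrix.scalar (Fin (d j)) (algebraMap 𝒪 S c)) ∧
      (∀ j i, act' j (δ i) = Matrix.scalar (Fin (d j)) (diaX 𝒪 p lv i)) ∧
      (∀ j x, act' j x = 0 ↔ act j x = 0) ∧
      (∀ j x, (act' j x).map augS = (act j x).map augS) ∧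
      (∀ j x, τ j j (act j x) = act' j x) ∧
      (∀ j k F G, τ j k (F + G) = τ j k F + τ j k G) ∧
      (∀ j k F, τ j k F = 0 ↔ F = 0) ∧
      (∀ j k F, (τ j k F).map augS = F.map augS) ∧
      (∀ j k l F G, (∀ x, G * act k x = act l x * G) → τ j l (G * F) = τ k l G * τ j k F) ∧
      ∀ j k F, (∀ x, F * act j x = act k x * F) → ∀ x, τ j k F * act' j x = act' k x * τ j k F := by
  classical
  set aug : S →+* 𝒪 := augS
  obtain ⟨σ, hσ⟩ := exists_diaHom hp𝒪 (fun i => 1 + δ i) hpow
  have hσX : ∀ i, σ (diaX 𝒪 p lv i) = δ i := fun i => by rw [hσ, add_sub_cancel_left]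
  let B : ∀ j, S →+* Matrix (Fin (d j)) (Fin (d j)) S := fun j => (act j).comp σ.toRingHom
  have hBC : ∀ j c, B j (algebraMap 𝒪 S c) = Matrix.scalar (Fin (d j)) (algebraMap 𝒪 S c) :=
    fun j c => by
      show act j (σ _) = _
      rw [AlgHom.commutes, hC]
  have hBX : ∀ j i, B j (diaX 𝒪 p lv i) = (diaX 𝒪 p lv i : S) • W j i := fun j i => by
    show act j (σ _) = _
    rw [hσX, hW]
  have hBaug : ∀ j s, (B j s).map aug = Matrix.scalar (Fin (d j)) (aug s) := fun j s =>
    map_augS_eq_scalar (B j) (hBC j) (fun i => ⟨W j i, hBX j i⟩) s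
  choose e he1 heΦ using fun j => exists_matMod_equiv hp𝒪 (B j) (hBC j) (hBX j) (hdet j)
  have haΦ : ∀ j v c, aug (e j v c) = aug (v c) := fun j v c => by
    rw [heΦ, map_sum, Finset.sum_eq_single c]
    · rw [show aug (B j (v c) c c) = ((B j (v c)).map aug) c c from rfl, hBaug,
        Matrix.scalar_apply, Matrix.diagonal_apply_eq]
    · intro a' _ ha'
      rw [show aug (B j (v a') c a') = ((B j (v a')).map aug) c a' from rfl, hBaug,
        Matrix.scalar_apply, Matrix.diagonal_apply_ne _ (Ne.symm ha')]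
    · simp
  let τ : ∀ j k, Matrix (Fin (d k)) (Fin (d j)) S → Matrix (Fin (d k)) (Fin (d j)) S :=
    fun j k F => Matrix.of fun a b => (e k).symm (MatMod.mk (B k) fun c => F c b) a
  have hτcol : ∀ j k F b, (fun a => τ j k F a b) = (e k).symm (MatMod.mk (B k) fun c => F c b) :=
    fun j k F b => rfl
  -- the defining property, for intertwiners
  have hτmul : ∀ j k (F : Matrix (Fin (d k)) (Fin (d j)) S), (∀ x, F * act j x = act k x * F) →
      ∀ v, e k ((τ j k F).mulVec v) = MatMod.mk (B k) (F.mulVec (e j v)) := by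
    intro j k F hF v
    let Lk : (Fin (d j) → S) →ₗ[S] MatMod (B k) :=
      { toFun := fun w => MatMod.mk (B k) (F.mulVec (e j w))
        map_add' := fun u w => by
          rw [map_add]
          exact Matrix.mulVec_add _ _ _
        map_smul' := fun s w => by
          rw [map_smul]
          show F.mulVec ((B j s).mulVec (e j w)) = (B k s).mulVec (F.mulVec (e j w))
          exact (Matrix.mulVec_mulVec _ _ _).trans ((congrArg (fun X => Matrix.mulVec X _)
            (hF (σ s))).trans (Matrix.mulVec_mulVec _ _ _).symm) }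
    show ((e k).toLinearMap ∘ₗ Matrix.toLin' (τ j k F)) v = Lk v
    refine LinearMap.congr_fun ((Pi.basisFun S (Fin (d j))).ext fun b => ?_) v
    rw [Pi.basisFun_apply, LinearMap.comp_apply, Matrix.toLin'_apply, Matrix.mulVec_single_one]
    show e k (fun a => τ j k F a b) = _
    rw [hτcol, LinearEquiv.apply_symm_apply]
    show MatMod.mk (B k) _ = MatMod.mk (B k) (F.mulVec (e j (Pi.single b 1)))
    rw [he1]
    exact congrArg _ (Matrix.mulVec_single_one F b).symm
  have hτzero : ∀ j k F, τ j k F = 0 ↔ F = 0 := fun j k F => by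
    constructor
    · intro h
      ext c b
      have h1 : (e k).symm (MatMod.mk (B k) fun c => F c b) = 0 := by
        rw [← hτcol, h]; rfl
      exact congrFun ((e k).symm.map_eq_zero_iff.mp h1) c
    · rintro rfl
      ext a b
      show (e k).symm (MatMod.mk (B k) 0) a = 0
      exact congrFun ((e k).symm.map_zero) a
  have hτadd : ∀ j k F G, τ j k (F + G) = τ j k F + τ j k G := fun j k F G => by
    ext a b
    exact congrFun ((e k).symm.map_add (MatMod.mk (B k) fun c => F c b)
      (MatMod.mk (B k) fun c => G c b)) a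
  have hτaug : ∀ j k F, (τ j k F).map aug = F.map aug := fun j k F => by
    ext a b
    show aug (τ j k F a b) = aug (F a b)
    rw [← haΦ k (fun a => τ j k F a b) a, hτcol, LinearEquiv.apply_symm_apply]
    rfl
  have hτcomp : ∀ j k l (F : Matrix (Fin (d k)) (Fin (d j)) S)
      (G : Matrix (Fin (d l)) (Fin (d k)) S), (∀ x, G * act k x = act l x * G) →
      τ j l (G * F) = τ k l G * τ j k F := by
    intro j k l F G hG
    ext a b
    show (e l).symm (MatMod.mk (B l) fun c => (G * F) c b) a =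
      (τ k l G).mulVec (fun c => τ j k F c b) a
    refine congrFun ((e l).injective ?_) a
    rw [LinearEquiv.apply_symm_apply, hτmul k l G hG, hτcol, LinearEquiv.apply_symm_apply]
    rfl
  have hself : ∀ j x y, act j x * act j y = act j y * act j x := fun j x y => by
    rw [← map_mul, mul_comm, map_mul]
  have hτone : ∀ j, τ j j 1 = 1 := fun j => by
    ext a b
    show (e j).symm (MatMod.mk (B j) fun c => (1 : Matrix (Fin (d j)) (Fin (d j)) S) c b) a = _
    rw [show (fun c => (1 : Matrix (Fin (d j)) (Fin (d j)) S) c b) = Pi.single b 1 from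
      funext fun c => by simp [Matrix.one_apply, Pi.single_apply], ← he1,
      LinearEquiv.symm_apply_apply]
    simp [Matrix.one_apply, Pi.single_apply]
  let act' : ∀ j, T →+* Matrix (Fin (d j)) (Fin (d j)) S := fun j =>
    { toFun := fun x => τ j j (act j x)
      map_one' := by rw [map_one, hτone]
      map_mul' := fun x y => by rw [map_mul, hτcomp j j j _ _ (hself j x)]
      map_zero' := by rw [map_zero]; exact (hτzero j j 0).mpr rfl
      map_add' := fun x y => by rw [map_add, hτadd] }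
  have hscal : ∀ j s, act' j (σ s) = Matrix.scalar (Fin (d j)) s := fun j s => by
    refine Matrix.toLin'.injective (LinearMap.ext fun v => ?_)
    rw [Matrix.toLin'_apply, Matrix.toLin'_apply]
    refine (e j).injective ?_
    show e j ((τ j j (act j (σ s))).mulVec v) = _
    rw [hτmul j j _ (hself j (σ s)), show (Matrix.scalar (Fin (d j)) s).mulVec v = s • v from
      funext fun a => by simp [Matrix.mulVec_diagonal], map_smul]
    rfl
  refine ⟨act', τ, fun j c => ?_, fun j i => ?_, fun j x => hτzero j j _, fun j x => hτaug j j _,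
    fun j x => rfl, hτadd, hτzero, hτaug, hτcomp, fun j k F hF x => ?_⟩
  · rw [← σ.commutes c, hscal]
  · rw [← hσX i, hscal]
  · show τ j k F * τ j j (act j x) = τ k k (act k x) * τ j k F
    rw [← hτcomp j j k _ _ hF, ← hτcomp j k k _ _ (hself k x), hF]

end Fermat.Agent.LevelLowering

end
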