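import Mathlib.FieldTheory.Finite.Basic
import Mathlib.RingTheory.LocalRing.RingHom.Basic
import Fermat.Agent.LevelLowering.StructureProps

/-!
# The structure of a Hecke module with Galois action localised at a residually irreducible system

`H` is an abelian group with commuting actions of a ring `T` and a group `G`, such that
`τ g + χ g • τ g⁻¹` is a Hecke operator reducing to the trace of an irreducible two-dimensional
odd representation `ρ̄`, and `ker θ` is nilpotent on `H`.  Then the image `T ⧸ ker φ` is local and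
`H ≅ P × P` with `G` acting through a representation over it.
-/

namespace Fermat.Agent.LevelLowering

section Frame

variable {R : Type*} [CommRing R] {G : Type*} [Group G] {H : Type*} [AddCommGroup H] [Module R H]
  {k : Type*} [Field k] (π : R →+* k) [IsLocalHom π]
  {V : Type*} [AddCommGroup V] [Module k V]
  {η : R} {τ : G →* Module.End R H} {χ : G →* R} {t : G → R} {c : G}

omit [IsLocalHom π] in
/-- The residual representation satisfies the same relation. -/
theorem residual_oddQuad (hq : OddQuad η τ χ t c) (hV : Module.finrank k V = 2)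
    (ρ : G →* Module.End k V) (htr : ∀ g, π (t g) = LinearMap.trace k V (ρ g))
    (hdet : ∀ g, π (χ g) = LinearMap.det (ρ g)) :
    OddQuad (π η) ρ (π.toMonoidHom.comp χ) (π ∘ t) c where
  two := by rw [← map_ofNat π 2, ← map_mul, hq.two, map_one]
  c_mul_c := hq.c_mul_c
  char_c := by simp [hq.char_c]
  quad g := by
    have := Module.finite_of_finrank_eq_succ hV
    have h := quad_of_finrank_two hV ρ g
    rw [← hdet, ← htr] at h
    exact h

/-- An irreducible residual representation gives a frame. -/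
theorem exists_frame (hq : OddQuad η τ χ t c) (hV : Module.finrank k V = 2)
    (ρ : G →* Module.End k V) (htr : ∀ g, π (t g) = LinearMap.trace k V (ρ g))
    (hdet : ∀ g, π (χ g) = LinearMap.det (ρ g))
    (hirr : ∀ W : Submodule k V, (∀ g, ∀ x ∈ W, ρ g x ∈ W) → W = ⊥ ∨ W = ⊤) :
    ∃ g₀ h₀, IsUnit (crossP η t c g₀ h₀) ∧ IsUnit (crossM η t c h₀ g₀) := by
  have hq' := residual_oddQuad π hq hV ρ htr hdet
  have := Module.finite_of_finrank_eq_succ hV
  have h2 : LinearMap.det (ρ c) = -1 := by rw [← hdet, hq.char_c, map_neg, map_one]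
  have hne : (1 : k) ≠ -1 := fun h => by
    have h20 : (2 : k) = 0 := by linear_combination h
    have := hq'.two
    rw [h20, zero_mul] at this
    exact zero_ne_one this
  obtain ⟨g₀, h₀, h1, h3⟩ := exists_cross_ne_zero hq'
    (fun h => hne (by rw [← h2, h, map_one]))
    (fun h => hne (by
      rw [← h2, h, show (-1 : Module.End k V) = (-1 : k) • 1 by simp, LinearMap.det_smul, hV]
      simp)) hirr
  refine ⟨g₀, h₀, IsUnit.of_map π _ ?_, IsUnit.of_map π _ ?_⟩
  · rw [map_crossP]; exact h1.isUnit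
  · rw [map_crossM]; exact h3.isUnit

end Frame

section Image

variable {T : Type*} [CommRing T] {H : Type*} [AddCommGroup H] (φ : T →+* Module.End ℤ H)

/-- `H` as a module over the image of `T`. -/
@[reducible] def imageModule : Module (T ⧸ RingHom.ker φ) H :=
  Module.compHom H φ.kerLift

attribute [local instance] imageModule

theorem image_smul (a : T) (v : H) : (Ideal.Quotient.mk (RingHom.ker φ) a) • v = φ a v := rfl

theorem image_faithful (r : T ⧸ RingHom.ker φ) (h : ∀ v : H, r • v = 0) : r = 0 := by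
  obtain ⟨a, rfl⟩ := Ideal.Quotient.mk_surjective r
  exact Ideal.Quotient.eq_zero_iff_mem.mpr (LinearMap.ext fun v =>
    (image_smul φ a v).symm.trans (h v))

variable {k : Type*} [Field k] [Finite k] (θ : T →+* k)

theorem isUnit_image_of_ne_zero (hnil : ∃ j : ℕ, ∀ a, θ a = 0 → φ (a ^ j) = 0) {a : T}
    (ha : θ a ≠ 0) : IsUnit (Ideal.Quotient.mk (RingHom.ker φ) a) := by
  have := Fintype.ofFinite k
  obtain ⟨j, hj⟩ := hnil
  set m := Fintype.card k - 1
  have h1 : θ (1 - a ^ m) = 0 := by
    rw [map_sub, map_one, map_pow, FiniteField.pow_card_sub_one_eq_one _ ha, sub_self]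
  have hnilp : IsNilpotent (Ideal.Quotient.mk (RingHom.ker φ) (1 - a ^ m)) :=
    ⟨j, by rw [← map_pow, Ideal.Quotient.eq_zero_iff_mem]; exact hj _ h1⟩
  have h2 := hnilp.isUnit_one_sub
  rw [map_sub, map_one, sub_sub_cancel, map_pow] at h2
  exact (isUnit_pow_iff (Nat.sub_ne_zero_of_lt Fintype.one_lt_card)).mp h2

variable [Nontrivial H]

theorem ker_le_ker_theta (hnil : ∃ j : ℕ, ∀ a, θ a = 0 → φ (a ^ j) = 0) :
    RingHom.ker φ ≤ RingHom.ker θ := by
  intro a ha
  by_contra h
  obtain ⟨u, hu⟩ := (isUnit_image_of_ne_zero φ θ hnil h).exists_left_inv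
  rw [Ideal.Quotient.eq_zero_iff_mem.mpr ha, mul_zero] at hu
  obtain ⟨v, hv⟩ := exists_ne (0 : H)
  exact hv (by rw [← one_smul (T ⧸ RingHom.ker φ) v, ← hu, zero_smul])

/-- The residue map of the image of `T`. -/
def imageResidue (hnil : ∃ j : ℕ, ∀ a, θ a = 0 → φ (a ^ j) = 0) : T ⧸ RingHom.ker φ →+* k :=
  Ideal.Quotient.lift _ θ fun _ ha => ker_le_ker_theta φ θ hnil ha

theorem imageResidue_mk (hnil : ∃ j : ℕ, ∀ a, θ a = 0 → φ (a ^ j) = 0) (a : T) :
    imageResidue φ θ hnil (Ideal.Quotient.mk _ a) = θ a := rfl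

theorem isLocalHom_imageResidue (hnil : ∃ j : ℕ, ∀ a, θ a = 0 → φ (a ^ j) = 0) :
    IsLocalHom (imageResidue φ θ hnil) where
  map_nonunit r hr := by
    obtain ⟨a, rfl⟩ := Ideal.Quotient.mk_surjective r
    exact isUnit_image_of_ne_zero φ θ hnil (by
      rw [imageResidue_mk] at hr
      exact hr.ne_zero)

/-- If the kernel of `θ` acts nilpotently then the image of the algebra is local. -/
theorem isLocalRing_image (hnil : ∃ j : ℕ, ∀ a, θ a = 0 → φ (a ^ j) = 0) :
    IsLocalRing (T ⧸ RingHom.ker φ) := by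
  have := isLocalHom_imageResidue φ θ hnil
  exact RingHom.domain_isLocalRing (imageResidue φ θ hnil)

variable {G : Type*} [Group G] (τ : G →* Module.End ℤ H)

/-- The Galois action, linear over the image of `T`. -/
def tauImage (hcomm : ∀ g a v, τ g (φ a v) = φ a (τ g v)) :
    G →* Module.End (T ⧸ RingHom.ker φ) H where
  toFun g :=
    { toFun := τ g
      map_add' := map_add _
      map_smul' := fun r v => by
        obtain ⟨a, rfl⟩ := Ideal.Quotient.mk_surjective r
        exact hcomm g a v }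
  map_one' := LinearMap.ext fun v => by show τ 1 v = v; rw [map_one]; rfl
  map_mul' g h := LinearMap.ext fun v => by show τ (g * h) v = τ g (τ h v); rw [map_mul]; rfl

omit [Nontrivial H] in
theorem tauImage_apply (hcomm : ∀ g a v, τ g (φ a v) = φ a (τ g v)) (g : G) (v : H) :
    tauImage φ τ hcomm g v = τ g v := rfl

/-- **`H ≅ P × P`.** -/
theorem exists_heckeFrame (hnil : ∃ j : ℕ, ∀ a, θ a = 0 → φ (a ^ j) = 0)
    (hcomm : ∀ g a v, τ g (φ a v) = φ a (τ g v)) (χ : G → ℤ) (c : G) (hc : c * c = 1)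
    (hχ1 : ∀ v : H, χ 1 • v = v) (hχmul : ∀ g h (v : H), χ (g * h) • v = χ g • χ h • v)
    (hχc : ∀ v : H, χ c • v = -v)
    (η : ℤ) (hη : ∀ v : H, (2 * η) • v = v) {V : Type*} [AddCommGroup V] [Module k V]
    (hV : Module.finrank k V = 2) (ρ : G →* Module.End k V)
    (hdet : ∀ g, LinearMap.det (ρ g) = (χ g : k))
    (hirr : ∀ W : Submodule k V, (∀ g, ∀ x ∈ W, ρ g x ∈ W) → W = ⊥ ∨ W = ⊤)
    (hquad : ∀ g, ∃ b : T, τ g + χ g • τ g⁻¹ = φ b ∧ θ b = LinearMap.trace k V (ρ g)) :
    ∃ (η' : T ⧸ RingHom.ker φ) (χ' : G →* T ⧸ RingHom.ker φ) (t : G → T ⧸ RingHom.ker φ)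
      (g₀ h₀ : G),
      OddQuad η' (tauImage φ τ hcomm) χ' t c ∧ IsUnit (crossP η' t c g₀ h₀) ∧
        IsUnit (crossM η' t c h₀ g₀) ∧ (∀ g, (χ' g) = (χ g : T ⧸ RingHom.ker φ)) ∧
        (∀ g, imageResidue φ θ hnil (t g) = LinearMap.trace k V (ρ g)) := by
  set R := T ⧸ RingHom.ker φ
  have := isLocalHom_imageResidue φ θ hnil
  choose b hb hbθ using hquad
  have eqR : ∀ a b : R, (∀ v : H, a • v = b • v) → a = b := fun a b h =>
    sub_eq_zero.mp (image_faithful φ _ fun v => by rw [sub_smul, h, sub_self])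
  let χ' : G →* R :=
    { toFun := fun g => (χ g : R)
      map_one' := eqR _ _ fun v => by rw [Int.cast_smul_eq_zsmul, hχ1, one_smul]
      map_mul' := fun g h => eqR _ _ fun v => by
        rw [mul_smul, Int.cast_smul_eq_zsmul, Int.cast_smul_eq_zsmul, Int.cast_smul_eq_zsmul,
          hχmul] }
  have hq : OddQuad (η : R) (tauImage φ τ hcomm) χ' (fun g => Ideal.Quotient.mk _ (b g)) c :=
    { two := eqR _ _ fun v => by
        rw [show (2 : R) * (η : R) = ((2 * η : ℤ) : R) from ((Int.cast_mul 2 η).trans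
          (by rw [Int.cast_ofNat])).symm,
          Int.cast_smul_eq_zsmul, hη, one_smul]
      c_mul_c := hc
      char_c := eqR _ _ fun v => by
        show ((χ c : ℤ) : R) • v = (-1 : R) • v
        rw [Int.cast_smul_eq_zsmul, hχc, neg_one_smul]
      quad := fun g => LinearMap.ext fun v => by
        show τ g v + (χ g : R) • τ g⁻¹ v = Ideal.Quotient.mk (RingHom.ker φ) (b g) • v
        rw [Int.cast_smul_eq_zsmul, image_smul, ← hb]
        rfl }
  obtain ⟨g₀, h₀, h1, h2⟩ := exists_frame (imageResidue φ θ hnil) hq hV ρ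
    (fun g => by rw [imageResidue_mk, hbθ])
    (fun g => by show imageResidue φ θ hnil (χ g : R) = _; rw [map_intCast, hdet]) hirr
  exact ⟨_, χ', _, g₀, h₀, hq, h1, h2, fun _ => rfl, fun g => by rw [imageResidue_mk, hbθ]⟩

end Image

end Fermat.Agent.LevelLowering
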