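import Fermat.Prelude.Def_GaloisRep_ComplexConjugation
import Fermat.Prelude.Def_GaloisRep_Residual
import Fermat.Agent.Attach.Trace
import Fermat.Agent.LevelLowering.HeckeStructure

/-!
# The structure of the `θ`-part of `J₀(N)[pⁿ]`

`θ` is a mod `p` system of Hecke eigenvalues with irreducible residual representation `ρ̄`.
The generalised eigenspace of `θ` in `J₀(N)[pⁿ]` is `P × P` with Galois acting through a
representation over the image of the Hecke algebra.
-/

noncomputable section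

namespace Fermat.Agent.LevelLowering

open Attach

local notation "Qbar" => AlgebraicClosure ℚ
local notation "GQ" => (AlgebraicClosure ℚ ≃ₐ[ℚ] AlgebraicClosure ℚ)

section Cyc

variable (p : ℕ) [Fact p.Prime]

theorem mul_complexConjugation_of_pow_eq_one {ζ : Qbar} {m : ℕ} (hm : m ≠ 0) (hζ : ζ ^ m = 1) :
    ζ * complexConjugation ζ = 1 := by
  refine complexEmbedding.toRingHom.injective ?_
  show complexEmbedding (ζ * complexConjugation ζ) = complexEmbedding 1
  rw [map_mul, map_one, complexEmbedding_complexConjugation, Complex.mul_conj,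
    Complex.normSq_eq_norm_sq,
    Complex.norm_eq_one_of_pow_eq_one (by rw [← map_pow, hζ, map_one]) hm]
  simp

theorem cyc_complexConjugation (n : ℕ) : cyc p n complexConjugation = -1 := by
  have hm : p ^ n ≠ 0 := pow_ne_zero _ (Fact.out (p := p.Prime)).ne_zero
  rw [cyc_eq_natCast p n complexConjugation (p ^ n - 1) fun ζ hζ => ?_,
    Nat.cast_sub (Nat.one_le_iff_ne_zero.mpr hm), ZMod.natCast_self, Nat.cast_one, zero_sub]
  have h1 : ζ * ζ ^ (p ^ n - 1) = 1 := by
    rw [← pow_succ', Nat.sub_add_cancel (Nat.one_le_iff_ne_zero.mpr hm), hζ]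
  have h2 := mul_complexConjugation_of_pow_eq_one hm hζ
  exact mul_left_cancel₀ (left_ne_zero_of_mul_eq_one h1) (h2.trans h1.symm)

end Cyc

variable {N : ℕ} [NeZero N] {p : ℕ} [hp : Fact p.Prime] (M : TorsionModel N p)
  {S : Finset ℕ} (hNS : ∀ q, q.Prime → q ∣ N → q ∈ (↑S : Set ℕ))

/-- The Hecke action on coordinates of `J[pⁿ]`. -/
def heckeAct (n : ℕ) :
    CuspForm.heckeAlgebra N 2 (↑S : Set ℕ) →+*
      Module.End (ZMod (p ^ n)) (Fin M.rk → ZMod (p ^ n)) :=
  (Matrix.toLinAlgEquiv' (R := ZMod (p ^ n))).toRingEquiv.toRingHom.comp (M.matS hNS n)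

/-- The Galois action on coordinates of `J[pⁿ]`. -/
def galAct (n : ℕ) : GQ →* Module.End (ZMod (p ^ n)) (Fin M.rk → ZMod (p ^ n)) :=
  (Matrix.toLinAlgEquiv' (R := ZMod (p ^ n))).toRingEquiv.toMonoidHom.comp (M.rep n)

omit hp in
theorem galAct_commute (hG : TorsionGalois N p) (n : ℕ) (g : GQ)
    (a : CuspForm.heckeAlgebra N 2 (↑S : Set ℕ)) :
    Commute (galAct M n g) (heckeAct M hNS n a) :=
  (M.rep_commute hG n g (toAnemic hNS a)).map
    (Matrix.toLinAlgEquiv' (R := ZMod (p ^ n))).toRingEquiv.toRingHom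

variable {k : Type} [Field k] (θ : CuspForm.heckeAlgebra N 2 (↑S : Set ℕ) →+* k)

/-- The generalised `θ`-eigenspace. -/
def eigenPart (n : ℕ) : Submodule (ZMod (p ^ n)) (Fin M.rk → ZMod (p ^ n)) :=
  ⨅ a : RingHom.ker θ, Module.End.maxGenEigenspace (heckeAct M hNS n a) 0

omit hp in
theorem mem_eigenPart {n : ℕ} {v : Fin M.rk → ZMod (p ^ n)} :
    v ∈ eigenPart M hNS θ n ↔
      ∀ a, θ a = 0 → ∃ j : ℕ, ((heckeAct M hNS n a) ^ j) v = 0 := by
  simp [eigenPart, Submodule.mem_iInf, Module.End.mem_maxGenEigenspace, RingHom.mem_ker]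

omit hp in
theorem eigenPart_stable {n : ℕ} (f : Module.End (ZMod (p ^ n)) (Fin M.rk → ZMod (p ^ n)))
    (hf : ∀ a, Commute f (heckeAct M hNS n a)) {v : Fin M.rk → ZMod (p ^ n)}
    (hv : v ∈ eigenPart M hNS θ n) : f v ∈ eigenPart M hNS θ n := by
  rw [mem_eigenPart] at hv ⊢
  intro a ha
  obtain ⟨j, hj⟩ := hv a ha
  exact ⟨j, by
    rw [← Module.End.mul_apply, ← ((hf a).pow_right j).eq, Module.End.mul_apply, hj, map_zero]⟩

/-- The Hecke action on the `θ`-part. -/
def eigenHecke (n : ℕ) :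
    CuspForm.heckeAlgebra N 2 (↑S : Set ℕ) →+* Module.End ℤ (eigenPart M hNS θ n) where
  toFun a := ((heckeAct M hNS n a).restrict fun _ hv => eigenPart_stable M hNS θ _
    (fun b => (Commute.all a b).map (heckeAct M hNS n)) hv).toAddMonoidHom.toIntLinearMap
  map_one' := LinearMap.ext fun v => Subtype.ext (by simp)
  map_mul' a b := LinearMap.ext fun v => Subtype.ext (by simp [Module.End.mul_apply])
  map_zero' := LinearMap.ext fun v => Subtype.ext (by simp)
  map_add' a b := LinearMap.ext fun v => Subtype.ext (by simp)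

omit hp in
theorem coe_eigenHecke {n : ℕ} (a : CuspForm.heckeAlgebra N 2 (↑S : Set ℕ))
    (v : eigenPart M hNS θ n) :
    (eigenHecke M hNS θ n a v : Fin M.rk → ZMod (p ^ n)) = heckeAct M hNS n a v := rfl

/-- The Galois action on the `θ`-part. -/
def eigenGal (hG : TorsionGalois N p) (n : ℕ) : GQ →* Module.End ℤ (eigenPart M hNS θ n) where
  toFun g := ((galAct M n g).restrict fun _ hv => eigenPart_stable M hNS θ _
    (galAct_commute M hNS hG n g) hv).toAddMonoidHom.toIntLinearMap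
  map_one' := LinearMap.ext fun v => Subtype.ext (by simp)
  map_mul' a b := LinearMap.ext fun v => Subtype.ext (by simp [Module.End.mul_apply])

omit hp in
theorem coe_eigenGal (hG : TorsionGalois N p) {n : ℕ} (g : GQ) (v : eigenPart M hNS θ n) :
    (eigenGal M hNS θ hG n g v : Fin M.rk → ZMod (p ^ n)) = galAct M n g v := rfl

/-- A uniform power of every element killed by `θ` acts as zero on an eigenpart. -/
theorem eigenHecke_nilpotent (n : ℕ) :
    ∃ j : ℕ, ∀ a, θ a = 0 → eigenHecke M hNS θ n (a ^ j) = 0 := by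
  classical
  have : NeZero (p ^ n) := ⟨pow_ne_zero _ hp.out.ne_zero⟩
  let F : Set (Module.End ℤ (eigenPart M hNS θ n)) :=
    {f | ∃ a, θ a = 0 ∧ eigenHecke M hNS θ n a = f}
  have hF : F.Finite := by
    have : Finite (Module.End ℤ (eigenPart M hNS θ n)) :=
      Finite.of_injective (fun f => ⇑f) DFunLike.coe_injective
    exact Set.toFinite F
  have hj : ∀ f ∈ F, ∃ j : ℕ, f ^ j = 0 := by
    rintro f ⟨a, ha, rfl⟩
    choose j hj using fun v : eigenPart M hNS θ n => (mem_eigenPart M hNS θ).mp v.2 a ha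
    have := Fintype.ofFinite (eigenPart M hNS θ n)
    refine ⟨∑ v, j v, LinearMap.ext fun v => Subtype.ext ?_⟩
    rw [← map_pow, coe_eigenHecke, map_pow]
    obtain ⟨d, hd⟩ := Nat.exists_eq_add_of_le
      (Finset.single_le_sum (f := j) (fun _ _ => Nat.zero_le _) (Finset.mem_univ v))
    rw [hd, add_comm, pow_add, Module.End.mul_apply, hj, map_zero]
    rfl
  choose j hj using hj
  refine ⟨∑ f ∈ hF.toFinset.attach, j f (hF.mem_toFinset.mp f.2), fun a ha => ?_⟩
  have hmem : eigenHecke M hNS θ n a ∈ hF.toFinset := hF.mem_toFinset.mpr ⟨a, ha, rfl⟩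
  obtain ⟨d, hd⟩ := Nat.exists_eq_add_of_le
    (Finset.single_le_sum (f := fun f : hF.toFinset => j f (hF.mem_toFinset.mp f.2))
      (fun _ _ => Nat.zero_le _) (Finset.mem_attach _ ⟨_, hmem⟩))
  rw [map_pow, hd, pow_add, hj, zero_mul]

variable {V : Type} [AddCommGroup V] [Module k V]

/-- **Structure of the `θ`-part.** -/
theorem exists_jacobianFrame [Finite k] [CharP k p] (hp2 : p ≠ 2) (hG : TorsionGalois N p)
    (hpS : p ∈ S) (n : ℕ) (hn : 1 ≤ n) [Nontrivial (eigenPart M hNS θ n)]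
    (hV : Module.finrank k V = 2) (ρ : GQ →* Module.End k V)
    (hfin : ∃ L : IntermediateField ℚ Qbar, FiniteDimensional ℚ L ∧
      ∀ σ : GQ, (∀ x ∈ L, σ x = x) → ρ σ = 1)
    (hirr : ∀ W : Submodule k V, (∀ g, ∀ x ∈ W, ρ g x ∈ W) → W = ⊥ ∨ W = ⊤)
    (hfrob : ∀ (ℓ : ℕ) (hℓ : ℓ.Prime) (hℓN : ¬ ℓ ∣ N) (hℓS : ℓ ∉ (↑S : Set ℕ)),
      ∀ A : ValuationSubring Qbar, A.LiesOverPrime ℓ → ∀ σ : GQ, A.IsFrobeniusAt σ ℓ →
        LinearMap.trace k V (ρ σ) = θ (CuspForm.heckeAlgebra.T hℓ hℓN hℓS) ∧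
          LinearMap.det (ρ σ) = (ℓ : k)) :
    letI := imageModule (eigenHecke M hNS θ n)
    ∃ (η : _ ⧸ RingHom.ker (eigenHecke M hNS θ n))
      (hcomm : ∀ g a v, eigenGal M hNS θ hG n g (eigenHecke M hNS θ n a v) =
        eigenHecke M hNS θ n a (eigenGal M hNS θ hG n g v))
      (χ : GQ →* _ ⧸ RingHom.ker (eigenHecke M hNS θ n))
      (t : GQ → _ ⧸ RingHom.ker (eigenHecke M hNS θ n)) (g₀ h₀ : GQ),
      OddQuad η (tauImage (eigenHecke M hNS θ n) (eigenGal M hNS θ hG n) hcomm) χ t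
          complexConjugation ∧
        IsUnit (crossP η t complexConjugation g₀ h₀) ∧
        IsUnit (crossM η t complexConjugation h₀ g₀) ∧
        (∀ g, χ g = ((cyc p n g).val : _ ⧸ RingHom.ker (eigenHecke M hNS θ n))) ∧
        (∀ g, imageResidue (eigenHecke M hNS θ n) θ (eigenHecke_nilpotent M hNS θ n) (t g) =
          LinearMap.trace k V (ρ g)) ∧
        ∀ g, LinearMap.det (ρ g) = ((cyc p n g).val : k) := by
  let := imageModule (eigenHecke M hNS θ n)
  have : NeZero (p ^ n) := ⟨pow_ne_zero _ hp.out.ne_zero⟩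
  have hpn : p ∣ p ^ n := dvd_pow_self p (by omega)
  obtain ⟨L, hL, hρL⟩ := hfin
  have := Module.finite_of_finrank_eq_succ hV
  -- trace and determinant of the residual representation
  have hmain : ∀ g, ∃ b, eigenGal M hNS θ hG n g + ((cyc p n g).val : ℤ) •
        eigenGal M hNS θ hG n g⁻¹ = eigenHecke M hNS θ n b ∧
      θ b = LinearMap.trace k V (ρ g) ∧ LinearMap.det (ρ g) = ((cyc p n g).val : k) := by
    intro g
    obtain ⟨ℓ, hℓ, hℓN, hℓS, A, σ, j, hA, hσ, hLg, hcyc, hrep⟩ :=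
      M.exists_trace_element hG hpS hNS n g L
    have hρg : ρ g = ρ σ ^ j := by
      rw [← map_pow, ← mul_inv_cancel_left (σ ^ j) g, map_mul, hρL ((σ ^ j)⁻¹ * g) fun a ha => by
        show (σ ^ j)⁻¹ (g a) = a
        rw [hLg a ha]
        exact (σ ^ j).symm_apply_apply a, mul_one]
    obtain ⟨htr, hdet⟩ := hfrob ℓ hℓ hℓN hℓS A hA σ hσ
    have hdetg : LinearMap.det (ρ g) = ((cyc p n g).val : k) := by
      have e : ((cyc p n g).val : k) = ZMod.castHom hpn k (cyc p n g) := by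
        conv_rhs => rw [← ZMod.natCast_zmod_val (cyc p n g), map_natCast]
      rw [e, hcyc, map_pow, map_natCast, hρg, map_pow, hdet]
    refine ⟨powTrace (CuspForm.heckeAlgebra.T hℓ hℓN hℓS)
      (ℓ : CuspForm.heckeAlgebra N 2 (↑S : Set ℕ)) j, ?_, ?_, hdetg⟩
    · refine LinearMap.ext fun v => Subtype.ext ?_
      rw [LinearMap.add_apply, LinearMap.smul_apply, Submodule.coe_add, Submodule.coe_smul_of_tower,
        coe_eigenHecke, coe_eigenGal, coe_eigenGal]
      show (M.rep n g).mulVec _ + _ • (M.rep n g⁻¹).mulVec _ = (M.matS hNS n _).mulVec _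
      rw [← hrep, Matrix.add_mulVec, Matrix.smul_mulVec, ← Int.cast_smul_eq_zsmul (ZMod (p ^ n)),
        Int.cast_natCast, ZMod.natCast_zmod_val]
    · let bV := Module.finBasisOfFinrankEq k V hV
      have e : ∀ f : Module.End k V, LinearMap.trace k V f = (LinearMap.toMatrix bV bV f).trace :=
        fun f => LinearMap.trace_eq_matrix_trace k bV f
      have hdet0 : IsUnit (LinearMap.toMatrix bV bV (ρ σ)).det := by
        rw [LinearMap.det_toMatrix, hdet, isUnit_iff_ne_zero, Ne, CharP.cast_eq_zero_iff k p]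
        exact fun h => hℓS ((Nat.prime_dvd_prime_iff_eq hp.out hℓ).mp h ▸ hpS)
      rw [map_powTrace, map_natCast, ← htr, hρg, e, e, ← LinearMap.toMatrix_pow,
        trace_pow_eq_powTrace _ hdet0, LinearMap.det_toMatrix, hdet]
  choose b hb hbθ hdet using hmain
  have hcomm : ∀ g a v, eigenGal M hNS θ hG n g (eigenHecke M hNS θ n a v) =
      eigenHecke M hNS θ n a (eigenGal M hNS θ hG n g v) := fun g a v => Subtype.ext
    (LinearMap.congr_fun (galAct_commute M hNS hG n g a).eq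
      (v : Fin M.rk → ZMod (p ^ n)))
  have hsmul : ∀ (z : ℤ) (v : eigenPart M hNS θ n), z • v = (z : ZMod (p ^ n)) • v := fun z v =>
    (Int.cast_smul_eq_zsmul _ z v).symm
  have hodd : Odd (p ^ n) := (hp.out.odd_of_ne_two hp2).pow
  obtain ⟨m, hm⟩ := hodd
  obtain ⟨η, χ, t, g₀, h₀, hq, hu, hv, hχ, ht⟩ := exists_heckeFrame (eigenHecke M hNS θ n) θ
    (eigenGal M hNS θ hG n) (eigenHecke_nilpotent M hNS θ n) hcomm
    (fun g => ((cyc p n g).val : ℤ)) complexConjugation complexConjugation_mul_self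
    (fun v => by
      rw [hsmul, Int.cast_natCast, ZMod.natCast_zmod_val, map_one, one_smul])
    (fun g h v => by
      rw [hsmul, hsmul, hsmul, Int.cast_natCast, Int.cast_natCast, Int.cast_natCast,
        ZMod.natCast_zmod_val, ZMod.natCast_zmod_val, ZMod.natCast_zmod_val, map_mul, mul_smul])
    (fun v => by
      rw [hsmul, Int.cast_natCast, ZMod.natCast_zmod_val, cyc_complexConjugation]
      exact neg_one_smul (ZMod (p ^ n)) v)
    ((m + 1 : ℕ) : ℤ)
    (fun v => by
      rw [hsmul, show ((2 * ((m + 1 : ℕ) : ℤ) : ℤ) : ZMod (p ^ n)) = 1 by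
        rw [show (2 : ℤ) * ((m + 1 : ℕ) : ℤ) = ((p ^ n + 1 : ℕ) : ℤ) by push_cast [hm]; ring,
          Int.cast_natCast, Nat.cast_add, ZMod.natCast_self, zero_add, Nat.cast_one], one_smul])
    hV ρ (fun g => by rw [hdet, Int.cast_natCast]) hirr
    (fun g => ⟨b g, hb g, hbθ g⟩)
  exact ⟨η, hcomm, χ, t, g₀, h₀, hq, hu, hv, fun g => by rw [hχ, Int.cast_natCast], ht, hdet⟩

end Fermat.Agent.LevelLowering
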