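import Fermat.Prelude.Thm_IsLocalRing_isAdicComplete_of_module_finite
import Fermat.Agent.LevelLowering.PointTools
import Fermat.Agent.LevelLowering.Scalar.Assembly
import Fermat.Agent.LevelLowering.Scalar.Traces
import Fermat.Agent.LevelLowering.TWHecke
import Fermat.Agent.LevelLowering.TraceGlue

/-!
# The joint ring of finitely many points

Finitely many Galois points over finite extensions of `O` with one residual representation give
the subring of their product generated by the traces of Frobenius, with a representation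
(`exists_jointRing`).  It acts through every algebra of operators whose eigensystems are among the
points (`JointRing.exists_act`), and maps onto the joint ring of any family of points whose
eigensystems factor through it (`JointRing.exists_proj`).
-/

noncomputable section

namespace Fermat.Agent.LevelLowering

open IsLocalRing Polynomial Fermat.Agent.Gal Matrix

local notation "Qbar" => AlgebraicClosure ℚ
local notation "GQ" => (AlgebraicClosure ℚ ≃ₐ[ℚ] AlgebraicClosure ℚ)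

/-- Cyclotomic determinant from the determinant of Frobenius elements. -/
theorem detIsCyclotomic_of_frobenius {A : Type} [CommRing A] [IsLocalRing A] [IsNoetherianRing A]
    (ρ : GaloisRepAdic A) {p : ℕ} (hp : p.Prime) (hpA : (p : A) ∈ maximalIdeal A) (S : Finset ℕ)
    (h : ∀ ℓ : ℕ, ℓ.Prime → ℓ ∉ S → ∀ P : ValuationSubring Qbar, P.LiesOverPrime ℓ →
      ∀ σ : GQ, P.IsFrobeniusAt σ ℓ → LinearMap.det (ρ.ρ σ) = (ℓ : A)) :
    ρ.DetIsCyclotomic p := by
  refine ⟨hpA, fun n g a ha => ?_⟩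
  set I : Ideal A := Ideal.span {((p ^ n : ℕ) : A)}
  refine Attach.mem_of_forall_mem_sup I _ (maximalIdeal.isMaximal A).ne_top _ fun k => ?_
  rw [smul_eq_mul, Ideal.mul_top, sup_comm]
  obtain ⟨L, hL, hLk⟩ := ρ.isAdicContinuous k
  have : NeZero p := ⟨hp.ne_zero⟩
  obtain ⟨ζ, hζ⟩ := HasEnoughRootsOfUnity.exists_primitiveRoot Qbar (p ^ n)
  have : FiniteDimensional ℚ (IntermediateField.adjoin ℚ ({ζ} : Set Qbar)) :=
    IntermediateField.adjoin.finiteDimensional (Algebra.IsIntegral.isIntegral ζ)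
  obtain ⟨ℓ, hℓ, hℓS, P, hP, σ, hσ, j, -, hgσ, -⟩ :=
    Gal.exists_frobenius_generates (L ⊔ IntermediateField.adjoin ℚ ({ζ} : Set Qbar)) g (insert p S)
  rw [Finset.mem_insert, not_or] at hℓS
  have hndvd : ¬ ℓ ∣ p ^ n := fun hd =>
    hℓS.1 ((Nat.prime_dvd_prime_iff_eq hℓ hp).mp (hℓ.dvd_of_dvd_pow hd))
  have hpow : ∀ i : ℕ, (σ ^ i) ζ = ζ ^ ℓ ^ i := by
    intro i
    induction i with
    | zero => simp
    | succ i ih =>
      rw [pow_succ', AlgEquiv.mul_apply, ih, map_pow,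
        Gal.isFrobeniusAt_rootOfUnity hℓ hP hσ hndvd hζ.pow_eq_one, ← pow_mul, ← pow_succ']
  have hmem : ζ ∈ L ⊔ IntermediateField.adjoin ℚ ({ζ} : Set Qbar) :=
    le_sup_right (a := L) (IntermediateField.mem_adjoin_simple_self ℚ ζ)
  have hcong : (((ℓ ^ j : ℕ) : A) - (a : A)) ∈ I :=
    Attach.natCast_sub_mem_span_of_pow_eq hζ (by rw [← ha ζ hζ.pow_eq_one, hgσ ζ hmem, hpow])
  have hdet : LinearMap.det (ρ.ρ g) - LinearMap.det (ρ.ρ (σ ^ j)) ∈ maximalIdeal A ^ k := by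
    refine (Gal.trace_det_congr (Gal.basisTwo ρ.finrank_eq) fun v => ?_).2
    exact sub_mem_of_agree ρ hLk (fun x hx => hgσ x (le_sup_left
      (b := IntermediateField.adjoin ℚ ({ζ} : Set Qbar)) hx)) v
  rw [map_pow, map_pow, h ℓ hℓ hℓS.2 P hP σ hσ, ← Nat.cast_pow] at hdet
  have := add_mem (Ideal.mem_sup_left (T := I) hdet)
    (Ideal.mem_sup_right (S := maximalIdeal A ^ k) hcong)
  rwa [sub_add_sub_cancel] at this

/-- With cyclotomic determinant, inertia away from `p` has determinant one. -/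
theorem det_inertia_of_detIsCyclotomic {A : Type} [CommRing A] [IsLocalRing A] [IsNoetherianRing A]
    {ρ : GaloisRepAdic A} {p l : ℕ} (hdet : ρ.DetIsCyclotomic p) (hp : p.Prime) (hl : l.Prime)
    (hlp : l ≠ p) {P : ValuationSubring Qbar} (hP : P.LiesOverPrime l) {σ : GQ}
    (hσ : σ ∈ P.inertiaSubgroupIn ℚ) : LinearMap.det (ρ.ρ σ) = 1 := by
  refine sub_eq_zero.mp (eq_zero_of_forall_mem_pow _ fun n => ?_)
  have h := hdet.2 n σ 1 fun μ hμ => by
    rw [pow_one]
    exact Gal.inertia_rootOfUnity hl hP hσ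
      (fun hd => hlp ((Nat.prime_dvd_prime_iff_eq hl hp).mp (hl.dvd_of_dvd_pow hd))) hμ
  rw [Nat.cast_one] at h
  refine (Ideal.span_le.mpr ?_) h
  rw [Set.singleton_subset_iff, SetLike.mem_coe, Nat.cast_pow]
  exact Ideal.pow_mem_pow hdet.1 n

/-- Unipotence of inertia at one place gives it at all places over the same prime. -/
theorem isUnipotentOnInertiaAt_of_place {R : Type} [CommRing R] [IsLocalRing R]
    (ρ : GaloisRepAdic R) {l : ℕ} (hl : l.Prime) {A : ValuationSubring Qbar}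
    (hA : A.LiesOverPrime l)
    (h : ∀ σ ∈ A.inertiaSubgroupIn ℚ, LinearMap.charpoly (ρ.ρ σ) = (X - 1) ^ 2) :
    ρ.IsUnipotentOnInertiaAt l := fun P hP σ hσ => by
  obtain ⟨γ, hγ⟩ := Gal.exists_smul_eq hl hP hA
  have h1 := h _ (hγ ▸ Gal.conj_mem_inertia hσ γ)
  let u : ρ.V ≃ₗ[R] ρ.V := LinearEquiv.ofLinearMap (ρ.ρ γ) (ρ.ρ γ⁻¹)
    (by rw [← Module.End.mul_eq_comp, ← map_mul, mul_inv_cancel, map_one]; rfl)
    (by rw [← Module.End.mul_eq_comp, ← map_mul, inv_mul_cancel, map_one]; rfl)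
  rw [← h1, ← u.charpoly_conj (ρ.ρ σ)]
  congr 1
  refine LinearMap.ext fun v => ?_
  rw [LinearEquiv.conj_apply_apply, map_mul, map_mul]
  rfl

variable {O : Type} [CommRing O] [IsDomain O] [IsDiscreteValuationRing O]
  [IsAdicComplete (maximalIdeal O) O] [Finite (ResidueField O)]

/-- The ring generated by the traces at finitely many points, with its representation. -/
structure JointRing (p : ℕ) (ρbar : ResidualGaloisRep (ResidueField O)) (S : Finset ℕ)
    {ι : Type} (F : ι → Type) [∀ a, CommRing (F a)] [∀ a, IsLocalRing (F a)]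
    [∀ a, Algebra O (F a)] (c : ∀ a, ℕ → F a) (ρpt : ∀ a, GaloisRepAdic (F a)) : Type 1 where
  /-- The ring, finite over `O`. -/
  T : Type
  [instCommRing : CommRing T]
  [instLocal : IsLocalRing T]
  [instNoetherian : IsNoetherianRing T]
  [instComplete : IsAdicComplete (maximalIdeal T) T]
  [instAlgebra : Algebra O T]
  [instLocalHom : IsLocalHom (algebraMap O T)]
  [instFinite : Module.Finite O T]
  residue_surjective : Function.Surjective (residue T ∘ algebraMap O T)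
  /-- The representation over it, lifting `ρbar`. -/
  ρ : GaloisRepAdic T
  residual : ρ.residual.IsEquiv (ρbar.baseChangeAlong (ResidueField.map (algebraMap O T)))
  det : ρ.DetIsCyclotomic p
  /-- The traces of Frobenius at the good primes, which generate the ring. -/
  τ : ℕ → T
  trace_frob : ∀ ℓ : ℕ, ℓ.Prime → ℓ ∉ S → ∀ A : ValuationSubring Qbar, A.LiesOverPrime ℓ →
    ∀ σ : GQ, A.IsFrobeniusAt σ ℓ →
      LinearMap.trace T ρ.V (ρ.ρ σ) = τ ℓ ∧ LinearMap.det (ρ.ρ σ) = (ℓ : T)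
  gen : Algebra.adjoin O (τ '' {ℓ | ℓ.Prime ∧ ℓ ∉ S}) = ⊤
  /-- The map to each point. -/
  pt : ∀ a, T →ₐ[O] F a
  pt_local : ∀ a, IsLocalHom (pt a).toRingHom
  pt_injective : ∀ t, (∀ a, pt a t = 0) → t = 0
  pt_τ : ∀ ℓ : ℕ, ℓ.Prime → ℓ ∉ S → ∀ a, pt a (τ ℓ) = c a ℓ
  pt_equiv : ∀ a, (ρ.baseChangeAlong (pt a).toRingHom (pt_local a)).IsEquiv (ρpt a)

attribute [instance] JointRing.instCommRing JointRing.instLocal JointRing.instNoetherian
  JointRing.instComplete JointRing.instAlgebra JointRing.instLocalHom JointRing.instFinite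

variable {p : ℕ} [Fact p.Prime] {ρbar : ResidualGaloisRep (ResidueField O)} {S : Finset ℕ}
  {ι : Type} [Fintype ι] {F : ι → Type} [∀ a, CommRing (F a)] [∀ a, IsDomain (F a)]
  [∀ a, IsLocalRing (F a)] [∀ a, IsNoetherianRing (F a)] [∀ a, Algebra O (F a)]
  [∀ a, Module.Finite O (F a)] [∀ a, IsLocalHom (algebraMap O (F a))]
  {c : ∀ a, ℕ → F a} {ρpt : ∀ a, GaloisRepAdic (F a)}

/-- The tuple has a common residue, that of an element of `O`. -/
def HasResidue (t : ∀ a, F a) : Prop :=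
  ∃ o : O, ∀ a, t a - algebraMap O (F a) o ∈ maximalIdeal (F a)

omit [IsDomain O] [IsDiscreteValuationRing O] [IsAdicComplete (maximalIdeal O) O]
  [Finite (ResidueField O)] [Fintype ι] [∀ (a : ι), IsDomain (F a)]
  [∀ (a : ι), IsNoetherianRing (F a)] [∀ (a : ι), Module.Finite O (F a)]
  [∀ (a : ι), IsLocalHom (algebraMap O (F a))] in
/-- Tuples in the algebra generated by tuples with residues have residues. -/
theorem hasResidue_of_mem_adjoin {s : Set (∀ a, F a)} (hs : ∀ t ∈ s, HasResidue (O := O) t)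
    {t : ∀ a, F a} (ht : t ∈ Algebra.adjoin O s) : HasResidue (O := O) t := by
  induction ht using Algebra.adjoin_induction with
  | mem t ht => exact hs t ht
  | algebraMap r => exact ⟨r, fun a => by rw [Pi.algebraMap_apply, sub_self]; exact zero_mem _⟩
  | add u v _ _ hu hv =>
    obtain ⟨o, ho⟩ := hu
    obtain ⟨o', ho'⟩ := hv
    refine ⟨o + o', fun a => ?_⟩
    rw [Pi.add_apply, map_add, add_sub_add_comm]
    exact add_mem (ho a) (ho' a)
  | mul u v _ _ hu hv =>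
    obtain ⟨o, ho⟩ := hu
    obtain ⟨o', ho'⟩ := hv
    refine ⟨o * o', fun a => ?_⟩
    rw [Pi.mul_apply, map_mul, show u a * v a - algebraMap O (F a) o * algebraMap O (F a) o' =
      (u a - algebraMap O (F a) o) * v a + algebraMap O (F a) o * (v a - algebraMap O (F a) o') by
        ring]
    exact add_mem (Ideal.mul_mem_right _ _ (ho a)) (Ideal.mul_mem_left _ _ (ho' a))

/-- **The joint ring exists.** -/
theorem exists_jointRing [Nonempty ι] (h2 : IsUnit (2 : O)) (hp : (p : O) ∈ maximalIdeal O)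
    (habs : ρbar.IsAbsolutelyIrreducible)
    (hodd : ∃ g : GQ, g * g = 1 ∧ LinearMap.det (ρbar.ρ g) = -1) (c₀ : ℕ → O)
    (hbar : ∀ ℓ : ℕ, ℓ.Prime → ℓ ∉ S → ∀ P : ValuationSubring Qbar, P.LiesOverPrime ℓ →
      ∀ σ : GQ, P.IsFrobeniusAt σ ℓ → LinearMap.charpoly (ρbar.ρ σ) =
        X ^ 2 - C (residue O (c₀ ℓ)) * X + C (ℓ : ResidueField O))
    (hc : ∀ a, ∀ ℓ : ℕ, ℓ.Prime → ℓ ∉ S → c a ℓ - algebraMap O (F a) (c₀ ℓ) ∈ maximalIdeal (F a))
    (hfrob : ∀ a, ∀ ℓ : ℕ, ℓ.Prime → ℓ ∉ S → ∀ P : ValuationSubring Qbar, P.LiesOverPrime ℓ →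
      ∀ σ : GQ, P.IsFrobeniusAt σ ℓ →
        LinearMap.charpoly ((ρpt a).ρ σ) = X ^ 2 - C (c a ℓ) * X + C (ℓ : F a)) :
    Nonempty (JointRing p ρbar S F c ρpt) := by
  classical
  let G : Set (∀ a, F a) := (fun ℓ a => c a ℓ) '' {ℓ | ℓ.Prime ∧ ℓ ∉ S}
  let T := Algebra.adjoin O G
  have hG : ∀ t ∈ G, HasResidue (O := O) t := by
    rintro _ ⟨ℓ, ⟨hℓ, hℓS⟩, rfl⟩
    exact ⟨c₀ ℓ, fun a => hc a ℓ hℓ hℓS⟩
  have hres0 : ∀ t : T, HasResidue (O := O) t.1 := fun t => hasResidue_of_mem_adjoin hG t.2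
  have a₀ : ι := Classical.arbitrary ι
  have : IsNoetherian O (∀ a, F a) := isNoetherian_of_isNoetherianRing_of_finite O _
  have : Module.Finite O T := Module.Finite.of_fg (IsNoetherian.noetherian T.toSubmodule)
  have : IsNoetherianRing T := IsNoetherianRing.of_finite O T
  have : Algebra.IsIntegral O T := Algebra.IsIntegral.of_finite O T
  have : Algebra.IsIntegral T (∀ a, F a) :=
    Algebra.IsIntegral.tower_top (R := O)
  have hunit : ∀ t : T, (∀ a, IsUnit (t.1 a)) → IsUnit t := fun t ht => by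
    have : IsLocalHom (algebraMap T (∀ a, F a)) :=
      RingHom.IsIntegral.isLocalHom (f := algebraMap T (∀ a, F a))
        (Algebra.IsIntegral.isIntegral) Subtype.val_injective
    exact this.map_nonunit t (Pi.isUnit_iff.mpr ht)
  have hnonunit : ∀ t : T, ¬ IsUnit t → ∀ a, t.1 a ∈ maximalIdeal (F a) := fun t ht a => by
    obtain ⟨o, ho⟩ := hres0 t
    by_cases hou : IsUnit o
    · refine absurd (hunit t fun b => ?_) ht
      by_contra hb
      have hb' : algebraMap O (F b) o ∈ maximalIdeal (F b) := by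
        simpa using sub_mem ((mem_maximalIdeal _).mpr hb) (ho b)
      exact (mem_maximalIdeal _).mp hb' (hou.map _)
    · simpa using add_mem (ho a) (map_nonunit (algebraMap O (F a)) o hou)
  have : Nontrivial T := ⟨⟨0, 1, fun h => zero_ne_one (congrFun (congrArg Subtype.val h) a₀)⟩⟩
  have : IsLocalRing T := .of_nonunits_add fun u v hu hv huv =>
    (mem_maximalIdeal _).mp (add_mem (hnonunit u hu a₀) (hnonunit v hv a₀)) (by
      have := huv.map ((Pi.evalAlgHom O F a₀).comp T.val)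
      simpa using this)
  have hlocO : IsLocalHom (algebraMap O T) :=
    ((IsLocalRing.local_hom_TFAE (algebraMap O T)).out 0 4 rfl rfl).mpr
      (eq_maximalIdeal (Ideal.isMaximal_comap_of_isIntegral_of_isMaximal (R := O) (maximalIdeal T)))
  have : IsAdicComplete (maximalIdeal T) T := IsLocalRing.isAdicComplete_of_module_finite (𝒪 := O)
  let pt : ∀ a, T →ₐ[O] F a := fun a => (Pi.evalAlgHom O F a).comp T.val
  have hptloc : ∀ a, IsLocalHom (pt a).toRingHom := fun a => map_maximalIdeal_mem (pt a)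
  have hptinj : ∀ t : T, (∀ a, pt a t = 0) → t = 0 := fun t h => Subtype.ext (funext h)
  have hres : Function.Surjective (residue T ∘ algebraMap O T) := fun y => by
    obtain ⟨t, rfl⟩ := residue_surjective y
    obtain ⟨o, ho⟩ := hres0 t
    refine ⟨o, ?_⟩
    rw [Function.comp_apply, eq_comm, ← sub_eq_zero, ← map_sub, residue_eq_zero_iff,
      mem_maximalIdeal]
    exact fun hu => (mem_maximalIdeal _).mp (ho a₀) (by simpa [pt] using hu.map (pt a₀))
  let f : ResidueField O →+* ResidueField T := ResidueField.map (algebraMap O T)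
  have hf : Function.Surjective f := fun y => by
    obtain ⟨o, rfl⟩ := hres y
    exact ⟨residue O o, ResidueField.map_residue _ o⟩
  have : Finite (ResidueField T) := Finite.of_surjective f hf
  let τ : ℕ → T := fun ℓ => if h : ℓ.Prime ∧ ℓ ∉ S then
    ⟨fun a => c a ℓ, Algebra.subset_adjoin ⟨ℓ, h, rfl⟩⟩ else 0
  have hτpt : ∀ ℓ, ℓ.Prime → ℓ ∉ S → ∀ a, pt a (τ ℓ) = c a ℓ := fun ℓ h h' a => by
    simp only [τ, dif_pos (show ℓ.Prime ∧ ℓ ∉ S from ⟨h, h'⟩)]
    rfl
  have hpT : (p : T) ∈ maximalIdeal T := by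
    rw [← map_natCast (algebraMap O T)]; exact map_nonunit _ _ hp
  let ρT : ResidualGaloisRep (ResidueField T) := ρbar.baseChangeAlong f
  have hρTchar : ∀ g, LinearMap.charpoly (ρT.ρ g) = (LinearMap.charpoly (ρbar.ρ g)).map f :=
    fun g => by
      let : Algebra (ResidueField O) (ResidueField T) := f.toAlgebra
      exact LinearMap.charpoly_baseChange (ρbar.ρ g) (ResidueField T)
  have hbarT : ∀ ℓ : ℕ, ℓ.Prime → ℓ ∉ S → ∀ P : ValuationSubring Qbar, P.LiesOverPrime ℓ →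
      ∀ σ : GQ, P.IsFrobeniusAt σ ℓ → LinearMap.charpoly (ρT.ρ σ) =
        X ^ 2 - C (residue T (τ ℓ)) * X + C (ℓ : ResidueField T) := fun ℓ h h' P hP σ hσ => by
    have e : residue T (τ ℓ) = f (residue O (c₀ ℓ)) := by
      show _ = residue T (algebraMap O T (c₀ ℓ))
      rw [← sub_eq_zero, ← map_sub, residue_eq_zero_iff, mem_maximalIdeal]
      refine fun hu => (mem_maximalIdeal _).mp (hc a₀ ℓ h h') ?_
      have := hu.map (pt a₀)
      rwa [map_sub, hτpt ℓ h h', AlgHom.commutes] at this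
    rw [hρTchar, hbar ℓ h h' P hP σ hσ, e]
    simp
  obtain ⟨r, hr, hrres, -, hreq⟩ := exists_galoisRep_of_points (fun a => (pt a).toRingHom)
    (hinj := hptinj) ρpt S τ (fun a ℓ h h' P hP σ hσ => by
      rw [hfrob a ℓ h h' P hP σ hσ]
      exact congrArg (fun y => X ^ 2 - C y * X + C (ℓ : F a)) (hτpt ℓ h h' a).symm)
    ρT hbarT ((map_ofNat (algebraMap O T) 2) ▸ h2.map (algebraMap O T))
    (isAbsolutelyIrreducible_of_frobenius f ρbar habs ρT ∅ fun _ _ _ _ _ σ _ => hρTchar σ)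
    (hodd.imp fun g hg => ⟨hg.1, by
      let : Algebra (ResidueField O) (ResidueField T) := f.toAlgebra
      refine (LinearMap.det_baseChange (ρbar.ρ g)).trans ?_
      rw [hg.2, map_neg, map_one]⟩)
    fun a => inferInstance
  have htd : ∀ ℓ : ℕ, ℓ.Prime → ℓ ∉ S → ∀ P : ValuationSubring Qbar, P.LiesOverPrime ℓ →
      ∀ σ : GQ, P.IsFrobeniusAt σ ℓ →
        LinearMap.trace T r.V (r.ρ σ) = τ ℓ ∧ LinearMap.det (r.ρ σ) = (ℓ : T) :=
    fun ℓ h h' P hP σ hσ => trace_det_of_charpoly r.finrank_eq (hr ℓ h h' P hP σ hσ)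
  exact ⟨
    { T := T
      residue_surjective := hres
      ρ := r
      residual := hrres
      det := detIsCyclotomic_of_frobenius r (Fact.out : p.Prime) hpT S fun ℓ h h' P hP σ hσ =>
        (htd ℓ h h' P hP σ hσ).2
      τ := τ
      trace_frob := htd
      gen := by
        refine top_le_iff.mp fun t _ => ?_
        have key : ∀ u (hu : u ∈ T), (⟨u, hu⟩ : T) ∈
            Algebra.adjoin O (τ '' {ℓ | ℓ.Prime ∧ ℓ ∉ S}) := fun u hu => by
          induction hu using Algebra.adjoin_induction with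
          | mem u hu =>
            obtain ⟨ℓ, hℓ, rfl⟩ := hu
            exact Algebra.subset_adjoin ⟨ℓ, hℓ, Subtype.ext (funext fun a => hτpt ℓ hℓ.1 hℓ.2 a)⟩
          | algebraMap r => exact Subalgebra.algebraMap_mem _ r
          | add u v hu hv hu' hv' => exact add_mem hu' hv'
          | mul u v hu hv hu' hv' => exact mul_mem hu' hv'
        exact key t.1 t.2
      pt := pt
      pt_local := hptloc
      pt_injective := hptinj
      pt_τ := hτpt
      pt_equiv := hreq }⟩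

namespace JointRing

variable (P : JointRing p ρbar S F c ρpt)

omit [IsAdicComplete (maximalIdeal O) O] [Finite (ResidueField O)] [Fact (Nat.Prime p)] [Fintype ι]
  [∀ (a : ι), IsDomain (F a)] [∀ (a : ι), IsNoetherianRing (F a)] [∀ (a : ι), Module.Finite O (F a)]
  [∀ (a : ι), IsLocalHom (algebraMap O (F a))] in
/-- Two maps agreeing at the Frobenius traces agree. -/
theorem hom_ext {B : Type} [Semiring B] [Algebra O B] {f g : P.T →ₐ[O] B}
    (h : ∀ ℓ : ℕ, ℓ.Prime → ℓ ∉ S → f (P.τ ℓ) = g (P.τ ℓ)) : f = g :=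
  AlgHom.ext_of_adjoin_eq_top P.gen (by rintro _ ⟨ℓ, ⟨hℓ, hℓS⟩, rfl⟩; exact h ℓ hℓ hℓS)

omit [IsAdicComplete (maximalIdeal O) O] [Finite (ResidueField O)] [Fact (Nat.Prime p)] [Fintype ι]
  [∀ (a : ι), IsDomain (F a)] [∀ (a : ι), IsNoetherianRing (F a)] [∀ (a : ι), Module.Finite O (F a)]
  [∀ (a : ι), IsLocalHom (algebraMap O (F a))] in
/-- The traces generate the joint ring. -/
theorem adjoin_traces :
    Algebra.adjoin O (Set.range fun g : GQ => LinearMap.trace P.T P.ρ.V (P.ρ.ρ g)) = ⊤ := by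
  refine top_le_iff.mp (P.gen ▸ Algebra.adjoin_le ?_)
  rintro _ ⟨ℓ, ⟨hℓ, hℓS⟩, rfl⟩
  have : Fact ℓ.Prime := ⟨hℓ⟩
  obtain ⟨σ, hσ⟩ := Gal.exists_isFrobeniusAt hℓ (PT.padicPlace_liesOverPrime (q := ℓ))
  exact Algebra.subset_adjoin ⟨σ, (P.trace_frob ℓ hℓ hℓS _ PT.padicPlace_liesOverPrime σ hσ).1⟩

omit [IsAdicComplete (maximalIdeal O) O] [Finite (ResidueField O)] [Fact (Nat.Prime p)] [Fintype ι]
  [∀ (a : ι), IsDomain (F a)] [∀ (a : ι), IsNoetherianRing (F a)] [∀ (a : ι), Module.Finite O (F a)]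
  [∀ (a : ι), IsLocalHom (algebraMap O (F a))] in
/-- Eigensystems equal to points at the Frobenius traces take all their values. -/
theorem exists_lift {A : Type} [CommRing A] [Algebra O A] (x : ℕ → A) {κ : Type} {F' : κ → Type}
    [∀ i, CommRing (F' i)] [∀ i, Algebra O (F' i)] (χ : ∀ i, P.T →ₐ[O] F' i)
    (ev : ∀ i, A →ₐ[O] F' i)
    (hev : ∀ i, ∀ ℓ : ℕ, ℓ.Prime → ℓ ∉ S → ev i (x ℓ) = χ i (P.τ ℓ)) (t : P.T) :
    ∃ z, ∀ i, ev i z = χ i t := by
  have ht : t ∈ Algebra.adjoin O (P.τ '' {ℓ | ℓ.Prime ∧ ℓ ∉ S}) := P.gen ▸ Algebra.mem_top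
  induction ht using Algebra.adjoin_induction with
  | mem u hu =>
    obtain ⟨ℓ, ⟨hℓ, hℓS⟩, rfl⟩ := hu
    exact ⟨x ℓ, fun i => hev i ℓ hℓ hℓS⟩
  | algebraMap r => exact ⟨algebraMap O A r, fun i => by rw [AlgHom.commutes, AlgHom.commutes]⟩
  | add u v _ _ hu hv =>
    obtain ⟨z, hz⟩ := hu
    obtain ⟨z', hz'⟩ := hv
    exact ⟨z + z', fun i => by rw [map_add, map_add, hz, hz']⟩
  | mul u v _ _ hu hv =>
    obtain ⟨z, hz⟩ := hu
    obtain ⟨z', hz'⟩ := hv
    exact ⟨z * z', fun i => by rw [map_mul, map_mul, hz, hz']⟩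

omit [IsAdicComplete (maximalIdeal O) O] [Finite (ResidueField O)] [Fact (Nat.Prime p)] [Fintype ι]
  [∀ (a : ι), IsDomain (F a)] [∀ (a : ι), IsNoetherianRing (F a)] [∀ (a : ι), Module.Finite O (F a)]
  [∀ (a : ι), IsLocalHom (algebraMap O (F a))] in
/-- **Action of the joint ring.** `Φ` is an algebra of operators in coordinates whose eigensystems
`ev i` agree with the points `χ i` at the Frobenius traces. -/
theorem exists_act_of_points {d : ℕ} {B : Type} [CommRing B] [Algebra O B] {A : Type} [CommRing A]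
    [Algebra O A] (Φ : A →ₐ[O] Matrix (Fin d) (Fin d) B) (x : ℕ → A) {κ : Type} {F' : κ → Type}
    [∀ i, CommRing (F' i)] [∀ i, Algebra O (F' i)] (χ : ∀ i, P.T →ₐ[O] F' i)
    (ev : ∀ i, A →ₐ[O] F' i)
    (hev : ∀ i, ∀ ℓ : ℕ, ℓ.Prime → ℓ ∉ S → ev i (x ℓ) = χ i (P.τ ℓ))
    (hjinj : ∀ z, (∀ i, ev i z = 0) → Φ z = 0) :
    ∃ act : P.T →ₐ[O] Matrix (Fin d) (Fin d) B,
      (∀ ℓ : ℕ, ℓ.Prime → ℓ ∉ S → act (P.τ ℓ) = Φ (x ℓ)) ∧
      (∀ t, (∀ i, χ i t = 0) → act t = 0) ∧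
      (∀ t z, (∀ i, ev i z = χ i t) → act t = Φ z) ∧
      ∀ t, ∃ z, Φ z = act t ∧ ∀ i, ev i z = χ i t := by
  classical
  choose z hz using P.exists_lift x χ ev hev
  have hwd : ∀ t w, (∀ i, ev i w = χ i t) → Φ (z t) = Φ w := fun t w hw =>
    sub_eq_zero.mp (by
      rw [← map_sub]
      exact hjinj _ fun i => by rw [map_sub, hz, hw, sub_self])
  let act : P.T →ₐ[O] Matrix (Fin d) (Fin d) B :=
    { toFun := fun t => Φ (z t)
      map_one' := (hwd 1 1 fun i => by rw [map_one, map_one]).trans (map_one Φ)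
      map_mul' := fun u v => (hwd _ (z u * z v) fun i => by rw [map_mul, map_mul, hz, hz]).trans
        (map_mul Φ _ _)
      map_zero' := (hwd 0 0 fun i => by rw [map_zero, map_zero]).trans (map_zero Φ)
      map_add' := fun u v => (hwd _ (z u + z v) fun i => by rw [map_add, map_add, hz, hz]).trans
        (map_add Φ _ _)
      commutes' := fun r => (hwd _ (algebraMap O A r) fun i => by
        rw [AlgHom.commutes, AlgHom.commutes]).trans (Φ.commutes r) }
  exact ⟨act, fun ℓ h h' => hwd _ _ fun i => hev i ℓ h h',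
    fun t ht => (hwd t 0 fun i => by rw [map_zero, ht i]).trans (map_zero Φ), hwd,
    fun t => ⟨z t, rfl, hz t⟩⟩

omit [IsAdicComplete (maximalIdeal O) O] [Finite (ResidueField O)] [Fact (Nat.Prime p)] [Fintype ι]
  [∀ (a : ι), IsDomain (F a)] [∀ (a : ι), IsNoetherianRing (F a)] [∀ (a : ι), Module.Finite O (F a)]
  [∀ (a : ι), IsLocalHom (algebraMap O (F a))] in
/-- Action of the joint ring through an algebra of operators in coordinates whose eigensystems
`ev i` are the points `idx i`. -/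
theorem exists_act {d : ℕ} {B : Type} [CommRing B] [Algebra O B] {A : Type} [CommRing A]
    [Algebra O A] (Φ : A →ₐ[O] Matrix (Fin d) (Fin d) B) (x : ℕ → A) {κ : Type} (idx : κ → ι)
    (ev : ∀ i, A →ₐ[O] F (idx i))
    (hev : ∀ i, ∀ ℓ : ℕ, ℓ.Prime → ℓ ∉ S → ev i (x ℓ) = c (idx i) ℓ)
    (hjinj : ∀ z, (∀ i, ev i z = 0) → Φ z = 0) :
    ∃ act : P.T →ₐ[O] Matrix (Fin d) (Fin d) B,
      (∀ ℓ : ℕ, ℓ.Prime → ℓ ∉ S → act (P.τ ℓ) = Φ (x ℓ)) ∧
      (∀ t, (∀ i, P.pt (idx i) t = 0) → act t = 0) ∧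
      ∀ t, ∃ z, Φ z = act t ∧ ∀ i, ev i z = P.pt (idx i) t := by
  obtain ⟨act, h1, h2, -, h3⟩ := P.exists_act_of_points Φ x (fun i => P.pt (idx i)) ev
    (fun i ℓ h h' => (hev i ℓ h h').trans (P.pt_τ ℓ h h' (idx i)).symm) hjinj
  exact ⟨act, h1, h2, h3⟩

omit [Fintype ι] [∀ (a : ι), IsDomain (F a)] [∀ (a : ι), IsNoetherianRing (F a)]
  [∀ (a : ι), Module.Finite O (F a)] [∀ (a : ι), IsLocalHom (algebraMap O (F a))]
  [IsAdicComplete (maximalIdeal O) O] [Finite (ResidueField O)] [Fact (Nat.Prime p)] in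
/-- **Maps between joint rings.** If every point of `P₀` is an eigensystem of `P`, then `P` maps
onto `P₀`, compatibly with the traces. -/
theorem exists_proj {S₀ : Finset ℕ} (hS : S₀ ⊆ S) {ι₀ : Type}
    {F₀ : ι₀ → Type} [∀ a, CommRing (F₀ a)] [∀ a, IsLocalRing (F₀ a)]
    [∀ a, Algebra O (F₀ a)] {c' : ∀ a, ℕ → F₀ a}
    {ρpt' : ∀ a, GaloisRepAdic (F₀ a)} (P₀ : JointRing p ρbar S₀ F₀ c' ρpt')
    (χ : ∀ a, P.T →ₐ[O] F₀ a)
    (hχ : ∀ a, ∀ ℓ : ℕ, ℓ.Prime → ℓ ∉ S → χ a (P.τ ℓ) = c' a ℓ) :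
    ∃ π : P.T →ₐ[O] P₀.T, Function.Surjective π ∧
      (∀ a t, P₀.pt a (π t) = χ a t) ∧
      ∀ g : GQ, π (LinearMap.trace P.T P.ρ.V (P.ρ.ρ g)) =
        LinearMap.trace P₀.T P₀.ρ.V (P₀.ρ.ρ g) := by
  classical
  have hlift : ∀ t, ∃ u, ∀ a, P₀.pt a u = χ a t := P.exists_lift P₀.τ χ P₀.pt
    fun a ℓ hℓ hℓS => by rw [hχ a ℓ hℓ hℓS, P₀.pt_τ ℓ hℓ fun h => hℓS (hS h)]
  choose u hu using hlift
  have hwd : ∀ t w, (∀ a, P₀.pt a w = χ a t) → u t = w := fun t w hw =>
    sub_eq_zero.mp (P₀.pt_injective _ fun a => by rw [map_sub, hu, hw, sub_self])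
  let π : P.T →ₐ[O] P₀.T :=
    { toFun := u
      map_one' := hwd 1 1 fun i => by rw [map_one, map_one]
      map_mul' := fun s t => hwd _ _ fun i => by rw [map_mul, map_mul, hu, hu]
      map_zero' := hwd 0 0 fun i => by rw [map_zero, map_zero]
      map_add' := fun s t => hwd _ _ fun i => by rw [map_add, map_add, hu, hu]
      commutes' := fun r => hwd _ _ fun i => by rw [AlgHom.commutes, AlgHom.commutes] }
  have hπτ : ∀ ℓ : ℕ, ℓ.Prime → ℓ ∉ S → π (P.τ ℓ) = P₀.τ ℓ := fun ℓ hℓ hℓS =>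
    hwd _ _ fun a => by rw [hχ a ℓ hℓ hℓS, P₀.pt_τ ℓ hℓ fun h => hℓS (hS h)]
  have hπm : ∀ x ∈ maximalIdeal P.T, π x ∈ maximalIdeal P₀.T := fun x hx => by
    have := map_maximalIdeal_mem π
    exact (mem_maximalIdeal _).mpr fun h => (mem_maximalIdeal _).mp hx (this.map_nonunit x h)
  have htr : ∀ g : GQ, π (LinearMap.trace P.T P.ρ.V (P.ρ.ρ g)) =
      LinearMap.trace P₀.T P₀.ρ.V (P₀.ρ.ρ g) := fun g => by
    let b := Gal.basisTwo P.ρ.finrank_eq
    let b₀ := Gal.basisTwo P₀.ρ.finrank_eq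
    let M : GQ →* Matrix (Fin 2) (Fin 2) P₀.T :=
      π.toRingHom.mapMatrix.toMonoidHom.comp (Gal.matrixRep b P.ρ.ρ)
    have e : ∀ σ, (M σ).trace = π (LinearMap.trace P.T P.ρ.V (P.ρ.ρ σ)) := fun σ => by
      rw [← Gal.trace_matrixRep b]
      exact (AddMonoidHom.map_trace π.toRingHom.toAddMonoidHom _).symm
    rw [← e, ← Gal.trace_matrixRep b₀]
    refine Scalar.trace_eq_of_frobenius_outside
      (Scalar.AdicCont.map (fun k => Scalar.exists_nearOne P.ρ b k) _ hπm)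
      (fun k => Scalar.exists_nearOne P₀.ρ b₀ k) S (fun ℓ hℓ hℓS A hA σ hσ => ?_) g
    have hℓS₀ : ℓ ∉ S₀ := fun h => hℓS (hS h)
    obtain ⟨h1, h2⟩ := P₀.trace_frob ℓ hℓ hℓS₀ A hA σ hσ
    obtain ⟨h3, h4⟩ := P.trace_frob ℓ hℓ hℓS A hA σ hσ
    refine ⟨?_, ?_⟩
    · rw [e, h3, hπτ ℓ hℓ hℓS, Gal.trace_matrixRep b₀, h1]
    · rw [show (Gal.matrixRep b₀ P₀.ρ.ρ σ).det = LinearMap.det (P₀.ρ.ρ σ) from
        LinearMap.det_toMatrix b₀ _, h2, ← map_natCast π.toRingHom, ← h4,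
        ← LinearMap.det_toMatrix b]
      exact (RingHom.map_det π.toRingHom _).symm
  refine ⟨π, ?_, fun a t => hu t a, htr⟩
  rw [← AlgHom.range_eq_top, ← top_le_iff, ← P₀.adjoin_traces]
  refine Algebra.adjoin_le ?_
  rintro _ ⟨g, rfl⟩
  exact ⟨_, htr g⟩

end JointRing

end Fermat.Agent.LevelLowering

end
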