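import Mathlib.LinearAlgebra.Dimension.Finrank
import Mathlib.LinearAlgebra.FiniteDimensional.Lemmas
import Mathlib.RingTheory.AdicCompletion.Functoriality
import Mathlib.RingTheory.Filtration
import Mathlib.RingTheory.LocalRing.ResidueField.Basic
import Fermat.Agent.LevelLowering.Eval

/-!
# Generators compatible with a fixed quotient

Generators of the maximal ideal modulo `(c) + 𝔪_O T + 𝔪²` give surjective evaluation maps, and the
generators of all the rings of a patching datum can be chosen over fixed elements of their common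
quotient.
-/

namespace Fermat.Agent.LevelLowering

open IsLocalRing

section LinearAlgebra

variable {k V V₀ : Type} [Field k] [AddCommGroup V] [Module k V] [AddCommGroup V₀] [Module k V₀]

/-- Spanning vectors of `W` lifting a basis of its image, padded by zero. -/
lemma exists_lift_spanning (f : V →ₗ[k] V₀) (W : Submodule k V) [FiniteDimensional k W] {g g₀ : ℕ}
    (b : Module.Basis (Fin g₀) k (W.map f)) (hg : Module.finrank k W ≤ g) :
    ∃ v : Fin g → V, (∀ j, v j ∈ W) ∧ W ≤ Submodule.span k (Set.range v) ∧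
      ∀ j : Fin g, f (v j) = if h : (j : ℕ) < g₀ then (b ⟨j, h⟩ : V₀) else 0 := by
  classical
  let F : W →ₗ[k] W.map f := (f.domRestrict W).codRestrict _ fun w => ⟨w, w.2, rfl⟩
  have hF : Function.Surjective F := fun ⟨_, w, hw, h⟩ => ⟨⟨w, hw⟩, Subtype.ext h⟩
  have hrank := LinearMap.finrank_range_add_finrank_ker F
  rw [LinearMap.range_eq_top.mpr hF, finrank_top, Module.finrank_eq_card_basis b,
    Fintype.card_fin] at hrank
  set e := Module.finrank k (LinearMap.ker F)
  let c := Module.finBasis k (LinearMap.ker F)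
  choose l hl using fun i => hF (b i)
  let v : Fin g → W := fun j =>
    if h : (j : ℕ) < g₀ then l ⟨j, h⟩ else
      if h' : (j : ℕ) - g₀ < e then (c ⟨j - g₀, h'⟩ : W) else 0
  refine ⟨fun j => v j, fun j => (v j).2, ?_, fun j => ?_⟩
  · have htop : Submodule.span k (Set.range v) = ⊤ := by
      rw [eq_top_iff]
      intro w _
      have hl' : ∀ i, l i ∈ Submodule.span k (Set.range v) := fun i =>
        Submodule.subset_span ⟨⟨i, by omega⟩, by simp [v]⟩
      have hc' : ∀ i, (c i : W) ∈ Submodule.span k (Set.range v) := fun i =>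
        Submodule.subset_span ⟨⟨g₀ + i, by omega⟩, by simp [v, e]⟩
      have h1 : w - ∑ i, b.repr (F w) i • l i ∈ LinearMap.ker F := by
        rw [LinearMap.mem_ker, map_sub, map_sum]
        simp only [map_smul, hl]
        rw [b.sum_repr, sub_self]
      have h2 : w - ∑ i, b.repr (F w) i • l i ∈ Submodule.span k (Set.range v) := by
        have h3 := congrArg Subtype.val (c.sum_repr ⟨_, h1⟩)
        simp only [AddSubmonoidClass.coe_finsetSum, SetLike.val_smul] at h3
        rw [← h3]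
        exact sum_mem fun i _ => Submodule.smul_mem _ _ (hc' i)
      simpa using add_mem h2 (sum_mem (t := Finset.univ) fun i _ =>
        Submodule.smul_mem _ (b.repr (F w) i) (hl' i))
    intro w hw
    have := Submodule.mem_map_of_mem (f := W.subtype)
      (show (⟨w, hw⟩ : W) ∈ Submodule.span k (Set.range v) from htop ▸ Submodule.mem_top)
    rw [Submodule.map_span, ← Set.range_comp] at this
    exact this
  · simp only [v]
    split_ifs with h h'
    · exact congrArg Subtype.val (hl ⟨j, h⟩)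
    · exact congrArg Subtype.val (LinearMap.mem_ker.mp (c ⟨j - g₀, h'⟩).2)
    · simp

end LinearAlgebra

variable {𝒪 : Type} [CommRing 𝒪] [IsLocalRing 𝒪] {a g : ℕ}

section

variable {T : Type} [CommRing T] [IsLocalRing T] [Algebra 𝒪 T]

/-- `(c) + 𝔪_O T + 𝔪²`. -/
noncomputable def relIdeal (c : Fin a → T) : Ideal T :=
  Ideal.span (Set.range c) ⊔ (maximalIdeal 𝒪).map (algebraMap 𝒪 T) ⊔ maximalIdeal T ^ 2

/-- The residue field of `O` acts on `T / relIdeal`. -/
noncomputable abbrev relAlgebra (c : Fin a → T) :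
    Algebra (ResidueField 𝒪) (T ⧸ relIdeal (𝒪 := 𝒪) c) :=
  (Ideal.Quotient.lift (maximalIdeal 𝒪)
    ((Ideal.Quotient.mk (relIdeal (𝒪 := 𝒪) c)).comp (algebraMap 𝒪 T)) fun _ hx =>
      Ideal.Quotient.eq_zero_iff_mem.mpr
        (Ideal.mem_sup_left (Ideal.mem_sup_right (Ideal.mem_map_of_mem _ hx)))).toAlgebra

variable [IsNoetherianRing T] [IsLocalHom (algebraMap 𝒪 T)]

omit [IsNoetherianRing T] in
lemma relIdeal_le (c : Fin a → T) (hc : ∀ i, c i ∈ maximalIdeal T) :
    relIdeal (𝒪 := 𝒪) c ≤ maximalIdeal T := by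
  refine sup_le (sup_le (Ideal.span_le.mpr (Set.range_subset_iff.mpr hc)) ?_)
    (Ideal.pow_le_self two_ne_zero)
  exact Ideal.map_le_iff_le_comap.mpr fun x hx => map_nonunit (algebraMap 𝒪 T) x hx

omit [IsLocalRing T] [IsNoetherianRing T] [IsLocalHom (algebraMap 𝒪 T)] in
lemma smul_mk' {I : Ideal T} [Algebra (ResidueField 𝒪) (T ⧸ I)]
    (h : ∀ r : 𝒪, algebraMap (ResidueField 𝒪) (T ⧸ I) (residue 𝒪 r) =
      Ideal.Quotient.mk I (algebraMap 𝒪 T r)) (r : 𝒪) (z : T) :
    residue 𝒪 r • Ideal.Quotient.mk I z = Ideal.Quotient.mk I (algebraMap 𝒪 T r * z) := by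
  rw [Algebra.smul_def, h, map_mul]

omit [IsNoetherianRing T] [IsLocalHom (algebraMap 𝒪 T)] in
lemma smul_mk (c : Fin a → T) (r : 𝒪) (z : T) :
    letI := relAlgebra (𝒪 := 𝒪) c
    residue 𝒪 r • Ideal.Quotient.mk (relIdeal (𝒪 := 𝒪) c) z =
      Ideal.Quotient.mk (relIdeal (𝒪 := 𝒪) c) (algebraMap 𝒪 T r * z) :=
  letI := relAlgebra (𝒪 := 𝒪) c
  smul_mk' (fun _ => rfl) r z

/-- Generators modulo `relIdeal` give surjective evaluation maps. -/
theorem surjective_of_maximalIdeal_le [IsAdicComplete (maximalIdeal 𝒪) 𝒪]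
    (hres : Function.Surjective (residue T ∘ algebraMap 𝒪 T)) {N : ℕ}
    (ψ : MvPowerSeries (Fin N) 𝒪 →ₐ[𝒪] T) (hψ : ∀ k, ψ (MvPowerSeries.X k) ∈ maximalIdeal T)
    (hgen : maximalIdeal T ≤ Ideal.span (Set.range fun k => ψ (MvPowerSeries.X k)) ⊔
      (maximalIdeal 𝒪).map (algebraMap 𝒪 T) ⊔ maximalIdeal T ^ 2) :
    Function.Surjective ψ := by
  set S := MvPowerSeries (Fin N) 𝒪
  have hgen' : maximalIdeal T ≤ Ideal.span (Set.range fun k => ψ (MvPowerSeries.X k)) ⊔
      (maximalIdeal 𝒪).map (algebraMap 𝒪 T) := by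
    refine Submodule.le_of_le_smul_of_le_jacobson_bot (I := maximalIdeal T)
      (IsNoetherian.noetherian _) (maximalIdeal_le_jacobson ⊥) ?_
    rwa [smul_eq_mul, ← pow_two]
  have hmap : (maximalIdeal S).map (ψ : S →+* T) = maximalIdeal T := by
    refine le_antisymm ?_ (hgen'.trans (sup_le ?_ ?_))
    · refine Ideal.map_le_iff_le_comap.mpr fun f hf => ?_
      have h1 := algHom_sub_aeval_mem ψ hψ f 1
      rw [pow_one] at h1
      have h2 : MvPolynomial.aeval (fun i => ψ (MvPowerSeries.X i)) (MvPowerSeries.truncTotal 1 f) =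
          algebraMap 𝒪 T (MvPowerSeries.constantCoeff f) := by
        have : MvPowerSeries.truncTotal 1 f = MvPolynomial.C (MvPowerSeries.constantCoeff f) := by
          classical
          ext d
          rw [MvPowerSeries.coeff_truncTotal_eq_ite, MvPolynomial.coeff_C]
          rcases Nat.eq_zero_or_pos d.degree with hd | hd
          · obtain rfl := (Finsupp.degree_eq_zero_iff d).mp hd
            simp
          · rw [if_neg (by omega), if_neg]
            rintro rfl
            simp at hd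
        rw [this, MvPolynomial.aeval_C]
      rw [h2] at h1
      have h3 : algebraMap 𝒪 T (MvPowerSeries.constantCoeff f) ∈ maximalIdeal T := by
        refine map_nonunit (algebraMap 𝒪 T) _ ?_
        rw [mem_maximalIdeal, mem_nonunits_iff] at hf ⊢
        rwa [MvPowerSeries.isUnit_iff_constantCoeff] at hf
      simpa using add_mem h1 h3
    · rw [Ideal.span_le]
      rintro _ ⟨k, rfl⟩
      refine Ideal.mem_map_of_mem (ψ : S →+* T) ((mem_maximalIdeal _).mpr ?_)
      rw [mem_nonunits_iff, MvPowerSeries.isUnit_iff_constantCoeff, MvPowerSeries.constantCoeff_X]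
      exact not_isUnit_zero
    · refine Ideal.map_le_iff_le_comap.mpr fun x hx => ?_
      rw [Ideal.mem_comap, ← ψ.commutes x]
      refine Ideal.mem_map_of_mem (ψ : S →+* T) ?_
      rw [← MvPowerSeries.c_eq_algebraMap, mem_maximalIdeal, mem_nonunits_iff,
        MvPowerSeries.isUnit_iff_constantCoeff, MvPowerSeries.constantCoeff_C]
      exact hx
  refine surjective_of_mk_map_comp_surjective (I := maximalIdeal S) (ψ : S →+* T)
    (haus := hmap ▸ ⟨fun x hx => by
      rw [← Ideal.mem_bot, ← Ideal.iInf_pow_eq_bot_of_isLocalRing _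
        (maximalIdeal.isMaximal T).ne_top, Submodule.mem_iInf]
      intro k
      simpa [SModEq.zero, smul_eq_mul] using hx k⟩) fun z => ?_
  obtain ⟨y, rfl⟩ := Ideal.Quotient.mk_surjective z
  obtain ⟨c, hc⟩ := hres (residue T y)
  refine ⟨algebraMap 𝒪 S c, ?_⟩
  simp only [RingHom.comp_apply, RingHom.coe_coe, AlgHom.commutes]
  rw [Ideal.Quotient.eq, hmap]
  exact Ideal.Quotient.eq.mp hc

end

section Universal

variable {T₀ : Type} [CommRing T₀] [IsLocalRing T₀] [IsNoetherianRing T₀] [Algebra 𝒪 T₀]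

omit [IsNoetherianRing T₀] in
lemma finite_image {T : Type} [CommRing T] [IsLocalRing T] [Algebra 𝒪 T]
    (hres : Function.Surjective (residue T ∘ algebraMap 𝒪 T))
    (π : T →ₐ[𝒪] T₀) (hπ : Function.Surjective π) (c₀ : Fin a → T₀) (c : Fin a → T)
    (hc : ∀ i, π (c i) = c₀ i) (y : Fin g → T)
    (hym : ∀ j, y j ∈ maximalIdeal T)
    (hy : maximalIdeal T ≤ relIdeal (𝒪 := 𝒪) c ⊔ Ideal.span (Set.range y)) :
    letI := relAlgebra (𝒪 := 𝒪) c₀
    letI := relAlgebra (𝒪 := 𝒪) c
    FiniteDimensional (ResidueField 𝒪)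
        (((maximalIdeal T₀).map (Ideal.Quotient.mk (relIdeal (𝒪 := 𝒪) c₀))).restrictScalars
          (ResidueField 𝒪)) ∧
      ∃ F : (T ⧸ relIdeal (𝒪 := 𝒪) c) →ₗ[ResidueField 𝒪] T₀ ⧸ relIdeal (𝒪 := 𝒪) c₀,
        (∀ s, F (Ideal.Quotient.mk _ s) = Ideal.Quotient.mk _ (π s)) ∧
        (((maximalIdeal T).map (Ideal.Quotient.mk (relIdeal (𝒪 := 𝒪) c))).restrictScalars
          (ResidueField 𝒪)).map F =
          ((maximalIdeal T₀).map (Ideal.Quotient.mk (relIdeal (𝒪 := 𝒪) c₀))).restrictScalars _ ∧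
        FiniteDimensional (ResidueField 𝒪)
          (((maximalIdeal T).map (Ideal.Quotient.mk (relIdeal (𝒪 := 𝒪) c))).restrictScalars
            (ResidueField 𝒪)) ∧
        Module.finrank (ResidueField 𝒪)
          (((maximalIdeal T).map (Ideal.Quotient.mk (relIdeal (𝒪 := 𝒪) c))).restrictScalars
            (ResidueField 𝒪)) ≤ g := by
  let := relAlgebra (𝒪 := 𝒪) c₀
  let := relAlgebra (𝒪 := 𝒪) c
  let W := ((maximalIdeal T).map (Ideal.Quotient.mk (relIdeal (𝒪 := 𝒪) c))).restrictScalars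
      (ResidueField 𝒪)
  have hm : (maximalIdeal T).map (π : T →+* T₀) = maximalIdeal T₀ :=
    map_maximalIdeal_of_surjective _ hπ
  have hle : (relIdeal (𝒪 := 𝒪) c) ≤ (relIdeal (𝒪 := 𝒪) c₀).comap (π : T →+* T₀) := by
    rw [← Ideal.map_le_iff_le_comap]
    simp only [relIdeal, Ideal.map_sup, Ideal.map_span, Ideal.map_pow, hm, Ideal.map_map,
      AlgHom.comp_algebraMap, ← Set.range_comp]
    refine le_of_eq ?_
    congr 4
    funext i
    exact hc i
  let F : (T ⧸ (relIdeal (𝒪 := 𝒪) c)) →ₗ[ResidueField 𝒪] T₀ ⧸ (relIdeal (𝒪 := 𝒪) c₀) :=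
    { toFun := Ideal.quotientMap (relIdeal (𝒪 := 𝒪) c₀) (π : T →+* T₀) hle
      map_add' := map_add _
      map_smul' := fun r z => by
        obtain ⟨r, rfl⟩ := residue_surjective r
        obtain ⟨z, rfl⟩ := Ideal.Quotient.mk_surjective z
        rw [RingHom.id_apply, smul_mk, Ideal.quotientMap_mk, Ideal.quotientMap_mk, smul_mk,
          RingHom.coe_coe, map_mul, AlgHom.commutes] }
  have hF : ∀ s, F (Ideal.Quotient.mk _ s) = Ideal.Quotient.mk _ (π s) := fun s => rfl
  have hW : W ≤ Submodule.span (ResidueField 𝒪) (Set.range fun j =>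
      Ideal.Quotient.mk (relIdeal (𝒪 := 𝒪) c) (y j)) := by
    intro z hz
    obtain ⟨w, hw, rfl⟩ := (Ideal.mem_map_iff_of_surjective _ Ideal.Quotient.mk_surjective).mp hz
    obtain ⟨u, hu, v, hv, rfl⟩ := Submodule.mem_sup.mp (hy hw)
    rw [map_add, Ideal.Quotient.eq_zero_iff_mem.mpr hu, zero_add]
    obtain ⟨e, rfl⟩ := Ideal.mem_span_range_iff_exists_fun.mp hv
    rw [map_sum]
    refine sum_mem fun j _ => ?_
    rw [map_mul]
    obtain ⟨r, hr⟩ := hres (residue T (e j))
    have : Ideal.Quotient.mk (relIdeal (𝒪 := 𝒪) c) (e j) *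
        Ideal.Quotient.mk (relIdeal (𝒪 := 𝒪) c) (y j) =
        residue 𝒪 r • Ideal.Quotient.mk (relIdeal (𝒪 := 𝒪) c) (y j) := by
      rw [smul_mk, ← map_mul, Ideal.Quotient.eq, ← sub_mul]
      refine Ideal.mem_sup_right (pow_two (maximalIdeal T) ▸ Ideal.mul_mem_mul ?_ (hym j))
      exact Ideal.Quotient.eq.mp hr.symm
    rw [this]
    exact Submodule.smul_mem _ _ (Submodule.subset_span ⟨j, rfl⟩)
  have hWfin : FiniteDimensional (ResidueField 𝒪) W := by
    have := FiniteDimensional.span_of_finite (ResidueField 𝒪)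
      (Set.finite_range fun j => Ideal.Quotient.mk (relIdeal (𝒪 := 𝒪) c) (y j))
    exact Submodule.finiteDimensional_of_le hW
  have hWg : Module.finrank (ResidueField 𝒪) W ≤ g := by
    have := FiniteDimensional.span_of_finite (ResidueField 𝒪)
      (Set.finite_range fun j => Ideal.Quotient.mk (relIdeal (𝒪 := 𝒪) c) (y j))
    refine (Submodule.finrank_mono hW).trans ((finrank_range_le_card _).trans ?_)
    simp
  have hmap : W.map F = ((maximalIdeal T₀).map (Ideal.Quotient.mk
      (relIdeal (𝒪 := 𝒪) c₀))).restrictScalars _ := by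
    ext z
    constructor
    · rintro ⟨w, hw, rfl⟩
      obtain ⟨s, hs, rfl⟩ := (Ideal.mem_map_iff_of_surjective _ Ideal.Quotient.mk_surjective).mp hw
      rw [hF]
      exact Ideal.mem_map_of_mem _ (hm ▸ Ideal.mem_map_of_mem (π : T →+* T₀) hs)
    · intro hz
      obtain ⟨s, hs, rfl⟩ := (Ideal.mem_map_iff_of_surjective _ Ideal.Quotient.mk_surjective).mp hz
      obtain ⟨w, hw, rfl⟩ := (Ideal.mem_map_iff_of_surjective _ hπ).mp (hm.symm ▸ hs)
      exact ⟨Ideal.Quotient.mk (relIdeal (𝒪 := 𝒪) c) w, Ideal.mem_map_of_mem _ hw, hF w⟩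
  have : FiniteDimensional (ResidueField 𝒪) W := hWfin
  refine ⟨?_, F, hF, hmap, hWfin, hWg⟩
  rw [← hmap]
  exact Module.Finite.map W F

omit [IsNoetherianRing T₀] in
/-- **Compatible generators**: there are fixed elements of the quotient `T₀` which lift to
generators of every `T` over `T₀` needing at most `g` generators. -/
theorem exists_universal_lift (c₀ : Fin a → T₀) (_hc₀ : ∀ i, c₀ i ∈ maximalIdeal T₀)
    [IsLocalHom (algebraMap 𝒪 T₀)] :
    ∃ x₀ : Fin g → T₀, ∀ (T : Type) [CommRing T] [IsLocalRing T] [IsNoetherianRing T]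
      [Algebra 𝒪 T] [IsLocalHom (algebraMap 𝒪 T)],
      Function.Surjective (residue T ∘ algebraMap 𝒪 T) →
      ∀ (π : T →ₐ[𝒪] T₀), Function.Surjective π → ∀ (c : Fin a → T), (∀ i, π (c i) = c₀ i) →
        (∀ i, c i ∈ maximalIdeal T) → ∀ y : Fin g → T, (∀ j, y j ∈ maximalIdeal T) →
        maximalIdeal T ≤ relIdeal (𝒪 := 𝒪) c ⊔ Ideal.span (Set.range y) →
        ∃ x : Fin g → T, (∀ j, x j ∈ maximalIdeal T) ∧ (∀ j, π (x j) = x₀ j) ∧
          maximalIdeal T ≤ relIdeal (𝒪 := 𝒪) c ⊔ Ideal.span (Set.range x) := by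
  classical
  let := relAlgebra (𝒪 := 𝒪) c₀
  let W₀ : Submodule (ResidueField 𝒪) (T₀ ⧸ relIdeal (𝒪 := 𝒪) c₀) :=
    ((maximalIdeal T₀).map (Ideal.Quotient.mk _)).restrictScalars _
  by_cases hfd : FiniteDimensional (ResidueField 𝒪) W₀
  swap
  · refine ⟨0, fun T _ _ _ _ _ hres π hπ c hc hcm y hym hy => (hfd ?_).elim⟩
    let := relAlgebra (𝒪 := 𝒪) c
    exact (finite_image hres π hπ c₀ c hc y hym hy).1
  let b := Module.finBasis (ResidueField 𝒪) W₀
  have hlift : ∀ i, ∃ t ∈ maximalIdeal T₀, Ideal.Quotient.mk _ t =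
      (b i : T₀ ⧸ relIdeal (𝒪 := 𝒪) c₀) :=
    fun i => (Ideal.mem_map_iff_of_surjective _ Ideal.Quotient.mk_surjective).mp (b i).2
  choose t ht ht' using hlift
  refine ⟨fun j => if h : (j : ℕ) < Module.finrank (ResidueField 𝒪) W₀ then t ⟨j, h⟩ else 0,
    fun T _ _ _ _ _ hres π hπ c hc hcm y hym hy => ?_⟩
  let := relAlgebra (𝒪 := 𝒪) c
  obtain ⟨-, F, hF, hFW, hWfin, hWg⟩ := finite_image hres π hπ c₀ c hc y hym hy
  let W : Submodule (ResidueField 𝒪) (T ⧸ relIdeal (𝒪 := 𝒪) c) :=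
    ((maximalIdeal T).map (Ideal.Quotient.mk _)).restrictScalars _
  let b' : Module.Basis (Fin (Module.finrank (ResidueField 𝒪) W₀)) (ResidueField 𝒪) (W.map F) :=
    b.map (LinearEquiv.ofEq _ _ hFW.symm)
  have : FiniteDimensional (ResidueField 𝒪) W := hWfin
  obtain ⟨v, hvW, hspan, hFv⟩ := exists_lift_spanning F W b' hWg
  have hcorr : ∀ j : Fin g, ∃ x ∈ maximalIdeal T, Ideal.Quotient.mk _ x = v j ∧
      π x = if h : (j : ℕ) < Module.finrank (ResidueField 𝒪) W₀ then t ⟨j, h⟩ else 0 := by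
    intro j
    obtain ⟨s, hs, hs'⟩ := (Ideal.mem_map_iff_of_surjective _ Ideal.Quotient.mk_surjective).mp
        (hvW j)
    set z := if h : (j : ℕ) < Module.finrank (ResidueField 𝒪) W₀ then t ⟨j, h⟩ else 0
    have h1 : π s - z ∈ relIdeal (𝒪 := 𝒪) c₀ := by
      rw [← Ideal.Quotient.eq, ← hF, hs', hFv]
      simp only [z, b', Module.Basis.map_apply, LinearEquiv.coe_ofEq_apply]
      split_ifs with h
      · exact (ht' _).symm
      · exact (map_zero _).symm
    have h2 : relIdeal (𝒪 := 𝒪) c₀ ≤ (relIdeal (𝒪 := 𝒪) c).map (π : T →+* T₀) := by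
      have hm : (maximalIdeal T).map (π : T →+* T₀) = maximalIdeal T₀ :=
        map_maximalIdeal_of_surjective _ hπ
      simp only [relIdeal, Ideal.map_sup, Ideal.map_span, Ideal.map_pow, hm, Ideal.map_map,
        AlgHom.comp_algebraMap, ← Set.range_comp]
      refine le_of_eq ?_
      congr 4
      funext i
      exact (hc i).symm
    obtain ⟨u, hu, hu'⟩ := (Ideal.mem_map_iff_of_surjective _ hπ).mp (h2 h1)
    refine ⟨s - u, sub_mem hs (relIdeal_le c hcm hu), ?_, ?_⟩
    · rw [← hs', Ideal.Quotient.eq]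
      simpa using neg_mem hu
    · rw [map_sub]
      rw [show π u = π s - z from hu']
      exact sub_sub_cancel _ _
  choose x hx hxv hπx using hcorr
  refine ⟨x, hx, hπx, fun w hw => ?_⟩
  have h1 : Ideal.Quotient.mk (relIdeal (𝒪 := 𝒪) c) w ∈
      Submodule.span (ResidueField 𝒪) (Set.range v) := hspan (Ideal.mem_map_of_mem _ hw)
  have h2 : Submodule.span (ResidueField 𝒪) (Set.range v) ≤
      ((Ideal.span (Set.range x)).map (Ideal.Quotient.mk
        (relIdeal (𝒪 := 𝒪) c))).restrictScalars _ := by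
    rw [Submodule.span_le]
    rintro _ ⟨j, rfl⟩
    rw [← hxv j]
    exact Ideal.mem_map_of_mem _ (Ideal.subset_span ⟨j, rfl⟩)
  obtain ⟨u, hu, hu'⟩ := (Ideal.mem_map_iff_of_surjective _ Ideal.Quotient.mk_surjective).mp (h2 h1)
  rw [← sub_add_cancel w u]
  exact add_mem (Ideal.mem_sup_left (Ideal.Quotient.eq.mp hu'.symm)) (Ideal.mem_sup_right hu)

end Universal

end Fermat.Agent.LevelLowering
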