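import Fermat.Agent.LevelLowering.StPoint

/-!
# Charts of the Steinberg and unramified components at scalar primes

At each prime a choice of component: the Steinberg chart `(t, b, n)`, or the unramified component,
where monodromy vanishes and the three Frobenius coordinates are free.
-/

namespace Fermat.Agent.LevelLowering

open IsLocalRing

variable {m g : ℕ}

/-- The chart of one component. -/
def uChart {R : Type} [CommRing R] (b : Bool) (h : R) (y : Fin 3 → R) : Fin 6 → R :=
  if b then chart h (y 0) (y 1) (y 2) else ![y 0, y 1, y 2, 0, 0, 0]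

lemma map_uChart {R R' : Type} [CommRing R] [CommRing R'] (ψ : R →+* R') (b : Bool) (h : R)
    (y : Fin 3 → R) (k : Fin 6) : ψ (uChart b h y k) = uChart b (ψ h) (ψ ∘ y) k := by
  cases b
  · fin_cases k <;> simp [uChart]
  · simp [uChart, map_chart]

lemma uChart_mem {R : Type} [CommRing R] {I : Ideal R} {b : Bool} {h : R} {y : Fin 3 → R}
    (hh : h ∈ I) (h0 : b = false → y 0 ∈ I) (h1 : y 1 ∈ I) (h2 : y 2 ∈ I) (k : Fin 6) :
    uChart b h y k ∈ I := by
  cases b
  · fin_cases k <;> simp [uChart, h0 rfl, h1, h2]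
  · simpa [uChart] using chart_mem hh h1 h2 k

/-- The tuple of all primes and the free coordinates. -/
def uTuple {R : Type} [CommRing R] (χ : Fin m → Bool) (h : Fin m → R) (y : Fin m → Fin 3 → R)
    (x : Fin g → R) : Fin (m * 6 + g) → R :=
  pack (fun i => uChart (χ i) (h i) (y i)) x

lemma map_uTuple {R R' : Type} [CommRing R] [CommRing R'] (ψ : R →+* R') (χ : Fin m → Bool)
    (h : Fin m → R) (y : Fin m → Fin 3 → R) (x : Fin g → R) (k : Fin (m * 6 + g)) :
    ψ (uTuple χ h y x k) = uTuple χ (ψ ∘ h) (fun i => ψ ∘ y i) (ψ ∘ x) k := by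
  rcases idx_cases k with ⟨i, c, rfl⟩ | ⟨j, rfl⟩
  · simp [uTuple, map_uChart]
  · simp [uTuple]

variable {𝒪 : Type} [CommRing 𝒪] [IsDomain 𝒪] [IsDiscreteValuationRing 𝒪]
  [IsAdicComplete (maximalIdeal 𝒪) 𝒪] (h : Fin m → 𝒪) (hh : ∀ i, h i ∈ maximalIdeal 𝒪)
  (χ : Fin m → Bool)

variable (g) in
/-- The lifting coordinates as power series in the parameters of the components. -/
noncomputable def uVals (k : Fin (m * 6 + g)) : ChartRing 𝒪 m g :=
  uTuple χ (fun i => algebraMap 𝒪 _ (h i)) (fun i c => MvPowerSeries.X (zIdx g i c))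
    (fun j => MvPowerSeries.X (xIdx m 3 j)) k

omit [IsAdicComplete (maximalIdeal 𝒪) 𝒪] in
include hh in
lemma uVals_mem (k : Fin (m * 6 + g)) : uVals g h χ k ∈ maximalIdeal (ChartRing 𝒪 m g) :=
  forall_pack_mem (fun i => uChart_mem
    (y := fun c => (MvPowerSeries.X (zIdx g i c) : ChartRing 𝒪 m g))
    (algebraMap_mem_maximalIdeal_series (hh i)) (fun _ => X_mem_maximalIdeal_series _)
    (X_mem_maximalIdeal_series _) (X_mem_maximalIdeal_series _))
    (fun j => X_mem_maximalIdeal_series (xIdx m 3 j)) k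

variable (g) in
/-- The map to the parameters of the components. -/
noncomputable def uMap : CoordRing 𝒪 m g →ₐ[𝒪] ChartRing 𝒪 m g :=
  evalSeries (uVals g h χ) (uVals_mem h hh χ)

@[simp]
lemma uMap_X (k : Fin (m * 6 + g)) : uMap g h hh χ (MvPowerSeries.X k) = uVals g h χ k :=
  evalSeries_X _ _ k

variable {T : Type} [CommRing T] [Algebra 𝒪 T] [IsLocalRing T] [IsNoetherianRing T]

/-- A point on the chosen components, with arbitrary line parameters, kills the kernel. -/
lemma uMap_ker_le_of_params (hloc : ∀ c ∈ maximalIdeal 𝒪, algebraMap 𝒪 T c ∈ maximalIdeal T)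
    (ψ : CoordRing 𝒪 m g →ₐ[𝒪] T) (hψ : ∀ k, ψ (MvPowerSeries.X k) ∈ maximalIdeal T)
    (hy : ∀ i, ∃ y : Fin 3 → T, (χ i = false → y 0 ∈ maximalIdeal T) ∧ y 1 ∈ maximalIdeal T ∧
      y 2 ∈ maximalIdeal T ∧
      (fun c => ψ (MvPowerSeries.X (zIdx g i c))) = uChart (χ i) (algebraMap 𝒪 T (h i)) y)
    {f : CoordRing 𝒪 m g} (hf : uMap g h hh χ f = 0) : ψ f = 0 := by
  choose y hy0 hy1 hy2 hy using hy
  let v : Fin (m * 3 + g) → T := pack y fun j => ψ (MvPowerSeries.X (xIdx m 6 j))
  let w : Fin (m * 3 + g) → ℕ :=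
    pack (fun i => if χ i then ![0, 1, 1] else ![1, 1, 1]) fun _ => 1
  have hv : ∀ k, v k ∈ maximalIdeal T ^ w k := fun k => by
    rcases idx_cases k with ⟨i, c, rfl⟩ | ⟨j, rfl⟩
    · cases hi : χ i <;> fin_cases c <;>
        simp [v, w, hi, hy1, hy2, Ideal.one_eq_top]
      exact hy0 i hi
    · simp [v, w, hψ]
  let P : Fin (m * 6 + g) → MvPolynomial (Fin (m * 3 + g)) 𝒪 := fun k =>
    uTuple χ (fun i => algebraMap 𝒪 _ (h i)) (fun i c => MvPolynomial.X (zIdx g i c))
      (fun j => MvPolynomial.X (xIdx m 3 j)) k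
  have hP1 : (fun k => MvPolynomial.aeval v (P k)) = fun k => ψ (MvPowerSeries.X k) := by
    funext k
    rw [show MvPolynomial.aeval v (P k) = (MvPolynomial.aeval v).toRingHom (P k) from rfl,
      map_uTuple]
    rcases idx_cases k with ⟨i, c, rfl⟩ | ⟨j, rfl⟩
    · simp only [uTuple, pack_zIdx, Function.comp_def, AlgHom.toRingHom_eq_coe,
        RingHom.coe_coe, MvPolynomial.aeval_X, AlgHom.commutes, v]
      exact (congrFun (hy i) c).symm
    · simp [uTuple, v]
  have hP2 : ∀ k, ((P k : MvPolynomial (Fin (m * 3 + g)) 𝒪) : ChartRing 𝒪 m g) =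
      uVals g h χ k := fun k => by
    rw [← MvPolynomial.coeToMvPowerSeries.ringHom_apply, map_uTuple]
    simp only [uVals, Function.comp_def, MvPolynomial.coeToMvPowerSeries.ringHom_apply,
      MvPolynomial.coe_X, MvPolynomial.algebraMap_eq, MvPolynomial.coe_C,
      MvPowerSeries.c_eq_algebraMap]
  rw [← Ideal.mem_bot, ← Ideal.iInf_pow_eq_bot_of_isLocalRing (maximalIdeal T)
    (maximalIdeal.isMaximal T).ne_top, Submodule.mem_iInf]
  intro K
  set p := MvPowerSeries.truncTotal K f
  let G := MvPolynomial.aeval P p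
  have hwX : ∀ i c, (χ i = false ∨ c ≠ 0) → w (zIdx g i c) = 1 := fun i c hc => by
    cases hi : χ i <;> fin_cases c <;> simp_all [w]
  have hG : (G : ChartRing 𝒪 m g) ∈ wFil 𝒪 w K := by
    have h1 := algHom_sub_aeval_mem (uMap g h hh χ) (I := wFil 𝒪 w 1) (fun k => by
      rw [uMap_X]
      exact forall_pack_mem (fun i => uChart_mem
          (y := fun c => (MvPowerSeries.X (zIdx g i c) : ChartRing 𝒪 m g))
          (algebraMap_mem_wFil 𝒪 w (hh i))
          (fun hi => X_mem_wFil 𝒪 w (hwX i 0 (Or.inl hi)))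
          (X_mem_wFil 𝒪 w (hwX i 1 (Or.inr (by decide))))
          (X_mem_wFil 𝒪 w (hwX i 2 (Or.inr (by decide)))))
        (fun j => X_mem_wFil 𝒪 w (by simp [w])) k) f K
    rw [hf, zero_sub, neg_mem_iff] at h1
    have h2 : (G : ChartRing 𝒪 m g) = MvPolynomial.aeval
        (fun i => uMap g h hh χ (MvPowerSeries.X i)) p := by
      simp only [uMap_X, G]
      induction p using MvPolynomial.induction_on with
      | C a => simp [MvPolynomial.coe_C, MvPowerSeries.c_eq_algebraMap, MvPolynomial.algebraMap_eq]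
      | add p q hp hq => rw [map_add, map_add, MvPolynomial.coe_add, hp, hq]
      | mul_X p i hp => rw [map_mul, map_mul, MvPolynomial.coe_mul, hp, MvPolynomial.aeval_X,
          MvPolynomial.aeval_X, hP2]
    rw [h2]
    exact wFil_pow 𝒪 w K h1
  have h3 : MvPolynomial.aeval v G = MvPolynomial.aeval (fun i => ψ (MvPowerSeries.X i)) p := by
    rw [← hP1]
    exact MvPolynomial.comp_aeval_apply P (MvPolynomial.aeval v) p
  have h4 := aeval_mem_of_coe_mem_wFil w hloc hv G hG
  rw [h3] at h4
  have h5 := add_mem (algHom_sub_aeval_mem ψ hψ f K) h4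
  rwa [show MvPowerSeries.truncTotal K f = p from rfl, sub_add_cancel] at h5

omit [IsNoetherianRing T] in
lemma uParams_of_onChart {p : Fin 6 → T} (hψ : ∀ c, p c ∈ maximalIdeal T) {a t : T}
    (hp : OnChart a t p) :
    ∃ y : Fin 3 → T, (true = false → y 0 ∈ maximalIdeal T) ∧ y 1 ∈ maximalIdeal T ∧
      y 2 ∈ maximalIdeal T ∧ p = uChart true a y :=
  ⟨![t, p 1, p 4], fun h => absurd h (by simp), by simpa using hψ 1, by simpa using hψ 4,
    by simpa [uChart, OnChart] using hp⟩

/-- The kernel is stable under translation. -/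
lemma uMap_translateMap_eq_zero (c : Fin m → 𝒪) {f : CoordRing 𝒪 m g}
    (hf : uMap g h hh χ f = 0) : uMap g h hh χ (translateMap g h hh c f) = 0 := by
  refine uMap_ker_le_of_params (T := ChartRing 𝒪 m g) h hh χ
    (fun _ hc => algebraMap_mem_maximalIdeal_series hc)
    ((uMap g h hh χ).comp (translateMap g h hh c)) (fun k => ?_) (fun i => ?_) hf
  · rcases idx_cases k with ⟨i, a, rfl⟩ | ⟨j, rfl⟩
    · rw [AlgHom.comp_apply, comp_translateMap_z]
      exact translate_mem (algebraMap_mem_maximalIdeal_series (hh i))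
        (fun b => by rw [uMap_X]; exact uVals_mem h hh χ _) a
    · rw [AlgHom.comp_apply, translateMap_x, uMap_X]
      exact uVals_mem h hh χ _
  · simp only [AlgHom.comp_apply, comp_translateMap_z, uMap_X, uVals, uTuple, pack_zIdx]
    have hmem : ∀ b, translate (algebraMap 𝒪 (ChartRing 𝒪 m g) (h i)) (algebraMap 𝒪 _ (c i))
        (uChart (χ i) (algebraMap 𝒪 _ (h i)) fun c => MvPowerSeries.X (zIdx g i c)) b ∈
          maximalIdeal (ChartRing 𝒪 m g) :=
      translate_mem (algebraMap_mem_maximalIdeal_series (hh i))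
        (uChart_mem (algebraMap_mem_maximalIdeal_series (hh i))
          (fun _ => X_mem_maximalIdeal_series _) (X_mem_maximalIdeal_series _)
          (X_mem_maximalIdeal_series _))
    cases hi : χ i
    · rw [hi] at hmem
      refine ⟨fun a => translate (algebraMap 𝒪 (ChartRing 𝒪 m g) (h i)) (algebraMap 𝒪 _ (c i))
          (uChart false (algebraMap 𝒪 _ (h i)) fun c => MvPowerSeries.X (zIdx g i c))
          (a.castLE (by omega)), fun _ => hmem _, hmem _, hmem _, ?_⟩
      funext k
      fin_cases k <;> simp [uChart, translate]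
    · rw [hi] at hmem
      obtain ⟨u, hu⟩ := isUnit_iff_exists_inv'.mp (show IsUnit (1 + algebraMap 𝒪 (ChartRing 𝒪 m g)
          (c i) * MvPowerSeries.X (zIdx g i 0)) from by
            simp [MvPowerSeries.isUnit_iff_constantCoeff])
      refine uParams_of_onChart hmem (t := MvPowerSeries.X (zIdx g i 0) * u) ?_
      simp only [uChart, if_true]
      exact onChart_translate hu

/-- **Point lemma**: at each prime a common line, or no monodromy. -/
theorem uMap_ker_le (hloc : ∀ c ∈ maximalIdeal 𝒪, algebraMap 𝒪 T c ∈ maximalIdeal T)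
    (ψ : CoordRing 𝒪 m g →ₐ[𝒪] T) (hψ : ∀ k, ψ (MvPowerSeries.X k) ∈ maximalIdeal T)
    (hline : ∀ i, χ i = true → ∃ e, (IsUnit (e 0) ∨ IsUnit (e 1)) ∧
      OnLine (algebraMap 𝒪 T (h i)) e fun c => ψ (MvPowerSeries.X (zIdx g i c)))
    (hzero : ∀ i, χ i = false → ∀ c : Fin 6, 3 ≤ (c : ℕ) → ψ (MvPowerSeries.X (zIdx g i c)) = 0)
    {f : CoordRing 𝒪 m g} (hf : uMap g h hh χ f = 0) : ψ f = 0 := by
  classical
  choose e he hline using hline
  let c : Fin m → 𝒪 := fun i => if hi : χ i = true then (if IsUnit (e i hi 0) then 0 else 1) else 0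
  have h0 : ψ f = (ψ.comp (translateMap g h hh c)) (translateMap g h hh (-c) f) := by
    rw [AlgHom.comp_apply, ← AlgHom.comp_apply (translateMap g h hh c), translateMap_comp,
      AlgHom.id_apply]
  rw [h0]
  refine uMap_ker_le_of_params h hh χ hloc _ (fun k => ?_) (fun i => ?_)
    (uMap_translateMap_eq_zero h hh χ (-c) hf)
  · rcases idx_cases k with ⟨i, a, rfl⟩ | ⟨j, rfl⟩
    · rw [AlgHom.comp_apply, comp_translateMap_z]
      exact translate_mem (hloc _ (hh i)) (fun b => hψ _) a
    · rw [AlgHom.comp_apply, translateMap_x]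
      exact hψ _
  · simp only [AlgHom.comp_apply, comp_translateMap_z]
    have hmem : ∀ b, translate (algebraMap 𝒪 T (h i)) (algebraMap 𝒪 T (c i))
        (fun a => ψ (MvPowerSeries.X (zIdx g i a))) b ∈ maximalIdeal T :=
      translate_mem (hloc _ (hh i)) fun b => hψ _
    cases hi : χ i
    · refine ⟨fun a => ψ (MvPowerSeries.X (zIdx g i (a.castLE (by omega)))), fun _ => hψ _, hψ _,
        hψ _, ?_⟩
      have hc : c i = 0 := dif_neg (by simp [hi])
      have h3 := hzero i hi 3 le_rfl
      have h4 := hzero i hi 4 (by decide)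
      have h5 := hzero i hi 5 (by decide)
      funext k
      fin_cases k <;> simp [uChart, translate, hc, h3, h4, h5]
    · have hu : IsUnit (e i hi 0 + algebraMap 𝒪 T (c i) * e i hi 1) := by
        by_cases h1 : IsUnit (e i hi 0)
        · simp [c, hi, h1]
        · have h2 := (he i hi).resolve_left h1
          simp only [c, dif_pos hi, if_neg h1, map_one, one_mul]
          by_contra hne
          rw [← mem_nonunits_iff, ← mem_maximalIdeal] at hne
          have h0' : e i hi 0 ∈ maximalIdeal T := by rwa [mem_maximalIdeal, mem_nonunits_iff]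
          exact (mem_maximalIdeal _).mp (by simpa using sub_mem hne h0') h2
      obtain ⟨u, hu⟩ := isUnit_iff_exists_inv'.mp hu
      refine uParams_of_onChart hmem (t := u * e i hi 1) ?_
      exact ((hline i hi).translate (c := algebraMap 𝒪 T (c i))).onChart u (by simpa using hu)

end Fermat.Agent.LevelLowering
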