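import Fermat.Agent.LevelLowering.StRing
import Fermat.Agent.LevelLowering.UnionChart

/-!
# The union of the Steinberg and unramified components at scalar primes

`UnionRing` is the image of the coordinate ring in the product, over all choices of a component
at each prime, of the parameter rings.  Every quotient of dimension at least `2 + 3m + g - 1` is
supported on a whole component, and every component has a prime over `ϖ` where monodromy vanishes
and the vector `(B, -A')` does not.
-/

namespace Fermat.Agent.LevelLowering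

open IsLocalRing

/-- A quotient of top dimension is supported on one of finitely many components. -/
theorem exists_le_of_dim {A : Type} [CommRing A] {ι : Type} [Fintype ι] {n D : ℕ} (hn : n ≤ D)
    (p : ι → Ideal A) (hp : ∀ i, (p i).IsPrime) (hinf : ∀ x, (∀ i, x ∈ p i) → x = 0)
    (hdim : ∀ i, ringKrullDim (A ⧸ p i) ≤ ((n + 1 : ℕ) : WithBot ℕ∞)) {K : Ideal A}
    (hK : ((D + 1 : ℕ) : WithBot ℕ∞) ≤ ringKrullDim (A ⧸ K)) : ∃ i, K ≤ p i := by
  classical
  by_contra hne
  push Not at hne
  refine absurd hK (not_le.mpr (lt_of_le_of_lt (iSup_le fun s => ?_)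
    (show ((D : ℕ) : WithBot ℕ∞) < ((D + 1 : ℕ) : WithBot ℕ∞) from
      Nat.cast_lt.mpr (Nat.lt_succ_self D))))
  -- the bottom prime contains one component
  let Pb : Ideal A := s.head.asIdeal.comap (Ideal.Quotient.mk K)
  have hprod : ∏ i, p i ≤ Pb := by
    refine le_trans ?_ bot_le
    refine Ideal.prod_le_inf.trans fun x hx => (Submodule.mem_bot _).mpr (hinf x fun i => ?_)
    exact (Finset.inf_le (Finset.mem_univ i) : Finset.univ.inf p ≤ p i) hx
  obtain ⟨i, -, hi⟩ := (Ideal.IsPrime.prod_le (Ideal.IsPrime.comap _)).mp hprod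
  let fac : A ⧸ K →+* A ⧸ (p i ⊔ K) := Ideal.Quotient.factor le_sup_right
  have hfac : Function.Surjective fac := Ideal.Quotient.factor_surjective _
  have hkerfac : ∀ k, RingHom.ker fac ≤ (s k).asIdeal := fun k => by
    refine le_trans ?_ (show s.head.asIdeal ≤ (s k).asIdeal from s.monotone (Fin.zero_le k))
    intro z hz
    obtain ⟨y, rfl⟩ := Ideal.Quotient.mk_surjective z
    have hy : y ∈ p i ⊔ K := by rw [← Ideal.Quotient.eq_zero_iff_mem]; exact hz
    exact (sup_le hi (fun k hk => by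
      show Ideal.Quotient.mk K k ∈ s.head.asIdeal
      rw [Ideal.Quotient.eq_zero_iff_mem.mpr hk]
      exact zero_mem _) : p i ⊔ K ≤ Pb) hy
  have hcm : ∀ k, ((s k).asIdeal.map fac).comap fac = (s k).asIdeal := fun k =>
    (Ideal.comap_map_of_surjective' fac hfac _).trans (sup_eq_left.mpr (hkerfac k))
  let s' : LTSeries (PrimeSpectrum (A ⧸ (p i ⊔ K))) :=
    { length := s.length
      toFun := fun k => ⟨(s k).asIdeal.map fac, Ideal.map_isPrime_of_surjective hfac (hkerfac k)⟩
      step := fun k => by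
        have hlt := s.step k
        refine lt_of_le_of_ne (Ideal.map_mono hlt.le) fun e => hlt.ne (PrimeSpectrum.ext ?_)
        have e' := congrArg (Ideal.comap fac) e
        exact ((hcm _).symm.trans e').trans (hcm _) }
  have h1 : ((s.length : ℕ∞) : WithBot ℕ∞) ≤ ringKrullDim (A ⧸ (p i ⊔ K)) :=
    le_iSup (fun u : LTSeries (PrimeSpectrum _) => ((u.length : ℕ∞) : WithBot ℕ∞)) s'
  have := hp i
  have : IsDomain (A ⧸ p i) := Ideal.Quotient.isDomain _
  have hK' : K.map (Ideal.Quotient.mk (p i)) ≠ ⊥ := fun e => hne i (by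
    rwa [Ideal.map_eq_bot_iff_le_ker, Ideal.mk_ker] at e)
  have h2 := (ringKrullDim_quotient_succ_le_of_ne_bot hK').trans (hdim i)
  rw [ringKrullDim_eq_of_ringEquiv (DoubleQuot.quotQuotEquivQuotSup _ K)] at h2
  have h3 := (add_le_add_left h1 1).trans h2
  have h4 : (((s.length + 1 : ℕ)) : WithBot ℕ∞) ≤ ((n + 1 : ℕ) : WithBot ℕ∞) := by
    push_cast at h3 ⊢
    exact h3
  have h5 : s.length + 1 ≤ n + 1 := Nat.cast_le.mp h4
  exact Nat.cast_le.mpr (show s.length ≤ D by omega)

variable {𝒪 : Type} [CommRing 𝒪] [IsDomain 𝒪] [IsDiscreteValuationRing 𝒪]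
  [IsAdicComplete (maximalIdeal 𝒪) 𝒪] {m : ℕ} (g : ℕ) (h : Fin m → 𝒪)
  (hh : ∀ i, h i ∈ maximalIdeal 𝒪)

/-- The equations of the union of the components. -/
noncomputable def uIdeal : Ideal (CoordRing 𝒪 m g) :=
  ⨅ χ : Fin m → Bool, RingHom.ker (uMap g h hh χ)

/-- The union of the components, with `g` free variables. -/
abbrev UnionRing : Type := CoordRing 𝒪 m g ⧸ uIdeal g h hh

instance unionRing_nontrivial : Nontrivial (UnionRing g h hh) :=
  Ideal.Quotient.nontrivial_iff.mpr fun htop => by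
    have h1 : (1 : CoordRing 𝒪 m g) ∈ uIdeal g h hh := by rw [htop]; exact Submodule.mem_top
    exact RingHom.ker_ne_top _ ((Ideal.eq_top_iff_one _).mpr
      (Submodule.mem_iInf _ |>.mp h1 fun _ => true))

instance unionRing_isLocalRing : IsLocalRing (UnionRing g h hh) :=
  .of_surjective' (Ideal.Quotient.mk _) Ideal.Quotient.mk_surjective

instance unionRing_isNoetherianRing : IsNoetherianRing (UnionRing g h hh) :=
  Ideal.Quotient.isNoetherianRing _

instance unionRing_isAdicComplete :
    IsAdicComplete (maximalIdeal (UnionRing g h hh)) (UnionRing g h hh) := by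
  have : IsLocalHom (algebraMap (CoordRing 𝒪 m g) (UnionRing g h hh)) :=
    IsLocalHom.of_surjective _ Ideal.Quotient.mk_surjective
  exact IsLocalRing.isAdicComplete_of_module_finite (𝒪 := CoordRing 𝒪 m g)

/-- The map to the parameters of one choice of components. -/
noncomputable def uEmb (χ : Fin m → Bool) : UnionRing g h hh →ₐ[𝒪] ChartRing 𝒪 m g :=
  Ideal.Quotient.liftₐ _ (uMap g h hh χ) fun _ hf =>
    RingHom.mem_ker.mp (Submodule.mem_iInf _ |>.mp hf χ)

lemma uEmb_mk (χ : Fin m → Bool) (f : CoordRing 𝒪 m g) :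
    uEmb g h hh χ (Ideal.Quotient.mk _ f) = uMap g h hh χ f := rfl

lemma eq_zero_of_uEmb {x : UnionRing g h hh} (hx : ∀ χ, uEmb g h hh χ x = 0) : x = 0 := by
  obtain ⟨f, rfl⟩ := Ideal.Quotient.mk_surjective x
  exact Ideal.Quotient.eq_zero_iff_mem.mpr
    ((Submodule.mem_iInf _).mpr fun χ => RingHom.mem_ker.mpr (hx χ))

/-- The coordinates in the union ring. -/
noncomputable def uPt (i : Fin m) (c : Fin 6) : UnionRing g h hh :=
  Ideal.Quotient.mk _ (MvPowerSeries.X (zIdx g i c))

lemma uEmb_pt (χ : Fin m → Bool) (i : Fin m) (c : Fin 6) :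
    uEmb g h hh χ (uPt g h hh i c) =
      uChart (χ i) (algebraMap 𝒪 _ (h i)) (fun c => MvPowerSeries.X (zIdx g i c)) c := by
  rw [uPt, uEmb_mk, uMap_X]
  simp [uVals, uTuple]

/-- Monodromy at the `i`-th prime. -/
noncomputable def uN (i : Fin m) : Matrix (Fin 2) (Fin 2) (UnionRing g h hh) :=
  !![uPt g h hh i 3, uPt g h hh i 4; uPt g h hh i 5, -uPt g h hh i 3]

/-- A vector on the line of monodromy. -/
noncomputable def uU (i : Fin m) : Fin 2 → UnionRing g h hh :=
  ![uPt g h hh i 1, -uPt g h hh i 0]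

lemma uN_mul_self (i : Fin m) : uN g h hh i * uN g h hh i = 0 := by
  ext a b
  refine eq_zero_of_uEmb g h hh fun χ => ?_
  simp only [uN, Matrix.mul_apply, Fin.sum_univ_two]
  cases hi : χ i <;> fin_cases a <;> fin_cases b <;>
    simp [uEmb_pt, uChart, hi, chart] <;> ring

lemma uN_uU (i : Fin m) (a : Fin 2) :
    uN g h hh i a 0 * uU g h hh i 0 + uN g h hh i a 1 * uU g h hh i 1 = 0 := by
  refine eq_zero_of_uEmb g h hh fun χ => ?_
  cases hi : χ i <;> fin_cases a <;> simp [uN, uU, uEmb_pt, uChart, hi, chart] <;> ring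

lemma uU_uN (i : Fin m) (b : Fin 2) :
    uU g h hh i 0 * uN g h hh i 1 b - uU g h hh i 1 * uN g h hh i 0 b = 0 := by
  refine eq_zero_of_uEmb g h hh fun χ => ?_
  cases hi : χ i <;> fin_cases b <;> simp [uN, uU, uEmb_pt, uChart, hi, chart] <;> ring

/-- The specialisation of the parameters: `ϖ = 0` and no monodromy. -/
noncomputable def uSpecial (χ : Fin m → Bool) :
    ChartRing 𝒪 m g →+* MvPowerSeries (Fin (m * 3 + g)) (ResidueField 𝒪) :=
  (MvPowerSeries.map (residue 𝒪)).comp (evalSeries (T := ChartRing 𝒪 m g)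
    (pack (fun i => ![MvPowerSeries.X (zIdx g i 0), MvPowerSeries.X (zIdx g i 1),
        if χ i then 0 else MvPowerSeries.X (zIdx g i 2)])
      fun j => MvPowerSeries.X (xIdx m 3 j))
    (forall_pack_mem (fun i c => by
      cases χ i <;> fin_cases c <;> simp [MvPowerSeries.isUnit_iff_constantCoeff])
      fun _ => X_mem_maximalIdeal_series _)).toRingHom

/-- The prime over `ϖ` of a choice of components. -/
noncomputable def uPrime (χ : Fin m → Bool) : Ideal (UnionRing g h hh) :=
  RingHom.ker ((uSpecial g χ).comp (uEmb g h hh χ).toRingHom)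

instance uPrime_isPrime (χ : Fin m → Bool) : (uPrime g h hh χ).IsPrime := RingHom.ker_isPrime _

lemma mem_uPrime {χ : Fin m → Bool} {x : UnionRing g h hh} :
    x ∈ uPrime g h hh χ ↔ uSpecial g χ (uEmb g h hh χ x) = 0 := RingHom.mem_ker

lemma ker_uEmb_le_uPrime (χ : Fin m → Bool) :
    RingHom.ker (uEmb g h hh χ) ≤ uPrime g h hh χ := fun x hx => by
  rw [mem_uPrime, RingHom.mem_ker.mp hx, map_zero]

lemma algebraMap_mem_uPrime (χ : Fin m → Bool) {c : 𝒪} (hc : c ∈ maximalIdeal 𝒪) :
    algebraMap 𝒪 (UnionRing g h hh) c ∈ uPrime g h hh χ := by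
  rw [mem_uPrime, AlgHom.commutes, uSpecial, RingHom.comp_apply,
    AlgHom.toRingHom_eq_coe, RingHom.coe_coe, AlgHom.commutes, ← MvPowerSeries.c_eq_algebraMap,
    MvPowerSeries.map_C, (residue_eq_zero_iff c).mpr hc, map_zero]

lemma uN_mem_uPrime (χ : Fin m → Bool) (i : Fin m) (a b : Fin 2) :
    uN g h hh i a b ∈ uPrime g h hh χ := by
  rw [mem_uPrime]
  cases hi : χ i <;> fin_cases a <;> fin_cases b <;>
    simp [uN, uEmb_pt, uChart, hi, chart, uSpecial]

lemma uU_notMem_uPrime (χ : Fin m → Bool) (i : Fin m) : uU g h hh i 0 ∉ uPrime g h hh χ := by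
  rw [mem_uPrime]
  intro h0
  have key : (MvPowerSeries.X (zIdx g i (1 : Fin 3)) :
      MvPowerSeries (Fin (m * 3 + g)) (ResidueField 𝒪)) = 0 := by
    cases hi : χ i <;> simpa [uU, uEmb_pt, uChart, hi, chart, uSpecial] using h0
  have := congrArg (MvPowerSeries.coeff (Finsupp.single (zIdx g i (1 : Fin 3)) 1)) key
  simp at this

/-- One component. -/
abbrev CompRing (χ : Fin m → Bool) : Type := CoordRing 𝒪 m g ⧸ RingHom.ker (uMap g h hh χ)

instance compRing_isDomain (χ : Fin m → Bool) : IsDomain (CompRing g h hh χ) := by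
  have : (RingHom.ker (uMap g h hh χ)).IsPrime := RingHom.ker_isPrime _
  exact Ideal.Quotient.isDomain _

instance compRing_isLocalRing (χ : Fin m → Bool) : IsLocalRing (CompRing g h hh χ) :=
  .of_surjective' (Ideal.Quotient.mk _) Ideal.Quotient.mk_surjective

/-- The embedding of one component in its parameters. -/
noncomputable def compEmb (χ : Fin m → Bool) : CompRing g h hh χ →ₐ[𝒪] ChartRing 𝒪 m g :=
  Ideal.kerLiftAlg (uMap g h hh χ)

lemma compEmb_injective (χ : Fin m → Bool) : Function.Injective (compEmb g h hh χ) :=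
  Ideal.kerLiftAlg_injective _

private lemma ncard_range_le_card {α β : Type} [Finite α] (f : α → β) :
    (Set.range f).ncard ≤ Nat.card α := by
  rw [← Nat.card_coe_set_eq]
  exact Finite.card_range_le f

include hh in
/-- **The dimension of a component.** -/
theorem ringKrullDim_compRing_le (χ : Fin m → Bool) :
    ringKrullDim (CompRing g h hh χ) ≤ ((m * 3 + g + 1 : ℕ) : WithBot ℕ∞) := by
  classical
  obtain ⟨ϖ, hϖ⟩ := IsDiscreteValuationRing.exists_irreducible 𝒪
  have hmax : maximalIdeal 𝒪 = Ideal.span {ϖ} := hϖ.maximalIdeal_eq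
  have hloc : IsLocalHom (Ideal.Quotient.mk (RingHom.ker (uMap g h hh χ))) :=
    IsLocalHom.of_surjective _ Ideal.Quotient.mk_surjective
  let co : Fin (m * 6 + g) → CompRing g h hh χ := fun k => Ideal.Quotient.mk _ (MvPowerSeries.X k)
  let P : Fin m → Fin 6 → CompRing g h hh χ := fun i c => co (zIdx g i c)
  have hco : ∀ k, co k ∈ maximalIdeal (CompRing g h hh χ) := fun k =>
    (mem_maximalIdeal _).mpr fun hu =>
      (mem_maximalIdeal _).mp (X_mem_maximalIdeal_series k) ((isUnit_map_iff _ _).mp hu)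
  have hemb : ∀ i c, compEmb g h hh χ (P i c) =
      uChart (χ i) (algebraMap 𝒪 _ (h i)) (fun c => MvPowerSeries.X (zIdx g i c)) c := fun i c => by
    show Ideal.kerLiftAlg _ (Ideal.Quotient.mk _ _) = _
    rw [Ideal.kerLiftAlg_mk, uMap_X]
    simp [uVals, uTuple]
  let s : Set (CompRing g h hh χ) := {algebraMap 𝒪 _ ϖ} ∪ Set.range (fun q : Fin m × Fin 3 =>
      (if χ q.1 then ![P q.1 1, P q.1 5, P q.1 2 + P q.1 4]
        else ![P q.1 0, P q.1 1, P q.1 2]) q.2) ∪
    Set.range (fun j => co (xIdx m 6 j))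
  set I := Ideal.span s
  have hh' : ∀ i, algebraMap 𝒪 (CompRing g h hh χ) (h i) ∈ I := fun i => by
    obtain ⟨c, hc⟩ := Ideal.mem_span_singleton'.mp (hmax ▸ hh i)
    rw [← hc, map_mul]
    exact Ideal.mul_mem_left _ _ (Ideal.subset_span (Or.inl (Or.inl rfl)))
  have hpar : ∀ i k, (if χ i then ![P i 1, P i 5, P i 2 + P i 4] else ![P i 0, P i 1, P i 2]) k
      ∈ I := fun i k => Ideal.subset_span (Or.inl (Or.inr ⟨(i, k), rfl⟩))
  have hall6 : ∀ i c, P i c ∈ I.radical := by
    intro i c
    cases hi : χ i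
    · have hz : ∀ c : Fin 6, 3 ≤ (c : ℕ) → P i c = 0 := fun c hc => by
        refine compEmb_injective g h hh χ ?_
        rw [hemb, map_zero, hi]
        fin_cases c <;> simp_all [uChart]
      have h3 : ∀ k, ![P i 0, P i 1, P i 2] k ∈ I := fun k => by simpa [hi] using hpar i k
      fin_cases c
      · exact Ideal.le_radical (h3 0)
      · exact Ideal.le_radical (h3 1)
      · exact Ideal.le_radical (h3 2)
      · convert zero_mem I.radical; exact hz 3 (by decide)
      · convert zero_mem I.radical; exact hz 4 (by decide)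
      · convert zero_mem I.radical; exact hz 5 (by decide)
    · have h3 : ∀ k, ![P i 1, P i 5, P i 2 + P i 4] k ∈ I := fun k => by simpa [hi] using hpar i k
      have hB : P i 1 ∈ I := h3 0
      have hγ : P i 5 ∈ I := h3 1
      have hCβ : P i 2 + P i 4 ∈ I := h3 2
      have hA : P i 0 ∈ I.radical := by
        refine ⟨2, ?_⟩
        have : P i 0 ^ 2 = -(2 * algebraMap 𝒪 _ (h i) * P i 0) - P i 1 * P i 2 := by
          refine compEmb_injective g h hh χ ?_
          simp [hemb, hi, uChart, chart, map_ofNat]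
          ring
        rw [this]
        exact sub_mem (neg_mem (Ideal.mul_mem_right _ _ (Ideal.mul_mem_left _ _ (hh' i))))
          (Ideal.mul_mem_right _ _ hB)
      have hα : P i 3 ∈ I.radical := by
        refine ⟨2, ?_⟩
        have : P i 3 ^ 2 = -(P i 4 * P i 5) := by
          refine compEmb_injective g h hh χ ?_
          simp [hemb, hi, uChart, chart]
          ring
        rw [this]
        exact neg_mem (Ideal.mul_mem_left _ _ hγ)
      have hβ : P i 4 ∈ I.radical := by
        refine ⟨2, ?_⟩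
        have : P i 4 ^ 2 = (P i 2 + P i 4) * P i 4 +
            2 * algebraMap 𝒪 _ (h i) * P i 3 - P i 5 * P i 1 := by
          refine compEmb_injective g h hh χ ?_
          simp [hemb, hi, uChart, chart, map_ofNat]
          ring
        rw [this]
        exact sub_mem (add_mem (Ideal.mul_mem_right _ _ hCβ)
          (Ideal.mul_mem_right _ _ (Ideal.mul_mem_left _ _ (hh' i)))) (Ideal.mul_mem_right _ _ hγ)
      fin_cases c
      · exact hA
      · exact Ideal.le_radical hB
      · simpa using sub_mem (Ideal.le_radical hCβ) hβ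
      · exact hα
      · exact hβ
      · exact Ideal.le_radical hγ
  have hall : ∀ k, co k ∈ I.radical := fun k => by
    rcases idx_cases k with ⟨i, c, rfl⟩ | ⟨j, rfl⟩
    · exact hall6 i c
    · exact Ideal.le_radical (Ideal.subset_span (Or.inr ⟨j, rfl⟩))
  have hmaxle : maximalIdeal (CompRing g h hh χ) ≤ I.radical := by
    intro y hy
    obtain ⟨f, rfl⟩ := Ideal.Quotient.mk_surjective y
    have hf : f ∈ maximalIdeal (CoordRing 𝒪 m g) := (mem_maximalIdeal f).mpr fun hu =>
      (mem_maximalIdeal _).mp hy (hu.map _)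
    have hsplit := sub_truncTotal_mem f 1
    rw [pow_one] at hsplit
    have htr : ((MvPowerSeries.truncTotal 1 f : MvPolynomial (Fin (m * 6 + g)) 𝒪) :
        CoordRing 𝒪 m g) = MvPowerSeries.C (MvPowerSeries.constantCoeff f) := by
      ext d
      rw [MvPolynomial.coeff_coe, MvPowerSeries.coeff_truncTotal_eq_ite, MvPowerSeries.coeff_C]
      rcases Nat.eq_zero_or_pos d.degree with hd | hd
      · obtain rfl := (Finsupp.degree_eq_zero_iff d).mp hd
        simp
      · rw [if_neg (by omega), if_neg]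
        rintro rfl
        simp at hd
    rw [htr] at hsplit
    have h1 : Ideal.map (Ideal.Quotient.mk (RingHom.ker (uMap g h hh χ)))
        (Ideal.span (Set.range fun k => MvPowerSeries.X k)) ≤ I.radical := by
      rw [Ideal.map_span, Ideal.span_le]
      rintro _ ⟨_, ⟨k, rfl⟩, rfl⟩
      exact hall k
    have h2 : Ideal.Quotient.mk (RingHom.ker (uMap g h hh χ))
        (MvPowerSeries.C (MvPowerSeries.constantCoeff f)) ∈ I.radical := by
      have hc : MvPowerSeries.constantCoeff f ∈ maximalIdeal 𝒪 := by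
        rw [mem_maximalIdeal, mem_nonunits_iff] at hf ⊢
        rwa [MvPowerSeries.isUnit_iff_constantCoeff] at hf
      obtain ⟨c, hc'⟩ := Ideal.mem_span_singleton'.mp (hmax ▸ hc)
      refine Ideal.le_radical ?_
      rw [← hc', map_mul, map_mul]
      exact Ideal.mul_mem_left _ _ (Ideal.subset_span (Or.inl (Or.inl rfl)))
    have := add_mem (h1 (Ideal.mem_map_of_mem _ hsplit)) h2
    rwa [← map_add, sub_add_cancel] at this
  have hfin : s.Finite :=
    ((Set.finite_singleton _).union (Set.finite_range _)).union (Set.finite_range _)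
  have hsub : I ≤ maximalIdeal (CompRing g h hh χ) := by
    rw [Ideal.span_le]
    rintro x ((rfl | ⟨⟨i, c⟩, rfl⟩) | ⟨j, rfl⟩)
    · exact (mem_maximalIdeal _).mpr fun hu => by
        rw [← Ideal.Quotient.mk_algebraMap, isUnit_map_iff, ← MvPowerSeries.c_eq_algebraMap,
          MvPowerSeries.isUnit_iff_constantCoeff, MvPowerSeries.constantCoeff_C] at hu
        exact hϖ.not_isUnit hu
    · cases hi : χ i <;> fin_cases c <;> simp only [hi]
      all_goals first
        | exact hco _
        | exact add_mem (hco _) (hco _)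
    · exact hco _
  have hmin : maximalIdeal (CompRing g h hh χ) ∈ I.minimalPrimes :=
    ⟨⟨inferInstance, hsub⟩, fun q hq _ => hmaxle.trans (hq.1.radical_le_iff.mpr hq.2)⟩
  have : IsNoetherianRing (CompRing g h hh χ) := Ideal.Quotient.isNoetherianRing _
  have hle : (maximalIdeal (CompRing g h hh χ)).height ≤ (hfin.toFinset.card : ℕ∞) :=
    Ideal.height_le_card_of_mem_minimalPrimes_span_finset (by rwa [Set.Finite.coe_toFinset])
  have hcard : hfin.toFinset.card ≤ m * 3 + g + 1 := by
    rw [← Set.ncard_eq_toFinset_card s hfin]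
    refine (Set.ncard_union_le _ _).trans ((add_le_add ((Set.ncard_union_le _ _).trans
      (add_le_add (Set.ncard_singleton _).le (ncard_range_le_card _)))
        (ncard_range_le_card _)).trans ?_)
    simp
    omega
  rw [← IsLocalRing.maximalIdeal_height_eq_ringKrullDim]
  exact (WithBot.coe_le_coe (α := ℕ∞)).mpr (hle.trans (Nat.cast_le.mpr hcard))

/-- A large quotient contains a whole component in its support. -/
theorem exists_le_uPrime {D : ℕ} (hD : m * 3 + g ≤ D) {K : Ideal (UnionRing g h hh)}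
    (hK : ((D + 1 : ℕ) : WithBot ℕ∞) ≤ ringKrullDim (UnionRing g h hh ⧸ K)) :
    ∃ χ, K ≤ uPrime g h hh χ := by
  have hdim : ∀ χ, ringKrullDim (UnionRing g h hh ⧸ RingHom.ker (uEmb g h hh χ)) ≤
      ((m * 3 + g + 1 : ℕ) : WithBot ℕ∞) := fun χ => by
    refine le_trans (ringKrullDim_le_of_surjective
      (Ideal.Quotient.lift (RingHom.ker (uMap g h hh χ))
        ((Ideal.Quotient.mk (RingHom.ker (uEmb g h hh χ))).comp
          (Ideal.Quotient.mk (uIdeal g h hh)))
        (fun f hf => Ideal.Quotient.eq_zero_iff_mem.mpr (RingHom.mem_ker.mpr hf))) ?_)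
      (ringKrullDim_compRing_le g h hh χ)
    intro z
    obtain ⟨y, rfl⟩ := Ideal.Quotient.mk_surjective z
    obtain ⟨f, rfl⟩ := Ideal.Quotient.mk_surjective y
    exact ⟨Ideal.Quotient.mk _ f, rfl⟩
  obtain ⟨χ, hχ⟩ := exists_le_of_dim hD (fun χ => RingHom.ker (uEmb g h hh χ))
    (fun χ => RingHom.ker_isPrime _)
    (fun x hx => eq_zero_of_uEmb g h hh fun χ => RingHom.mem_ker.mp (hx χ)) hdim hK
  exact ⟨χ, hχ.trans (ker_uEmb_le_uPrime g h hh χ)⟩

variable {g h}

/-- A point in the union factors through the union ring. -/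
noncomputable def unionLift {T : Type} [CommRing T] [Algebra 𝒪 T]
    (ψ : CoordRing 𝒪 m g →ₐ[𝒪] T) (hker : ∀ f ∈ uIdeal g h hh, ψ f = 0) :
    UnionRing g h hh →ₐ[𝒪] T :=
  Ideal.Quotient.liftₐ _ ψ hker

/-- For a reduced target it is enough to look after injecting into local rings. -/
lemma uIdeal_le_of_family {T : Type} [CommRing T] [Algebra 𝒪 T] {ι : Type} {F : ι → Type}
    [∀ a, CommRing (F a)] [∀ a, IsLocalRing (F a)] [∀ a, IsNoetherianRing (F a)]
    [∀ a, Algebra 𝒪 (F a)]
    (hloc : ∀ a, ∀ c ∈ maximalIdeal 𝒪, algebraMap 𝒪 (F a) c ∈ maximalIdeal (F a))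
    (pt : ∀ a, T →ₐ[𝒪] F a) (hpt : ∀ x, (∀ a, pt a x = 0) → x = 0)
    (ψ : CoordRing 𝒪 m g →ₐ[𝒪] T)
    (hψ : ∀ a k, pt a (ψ (MvPowerSeries.X k)) ∈ maximalIdeal (F a))
    (hline : ∀ a i, (∀ c : Fin 6, 3 ≤ (c : ℕ) → pt a (ψ (MvPowerSeries.X (zIdx g i c))) = 0) ∨
      ∃ e, (IsUnit (e 0) ∨ IsUnit (e 1)) ∧
        OnLine (algebraMap 𝒪 (F a) (h i)) e fun c => pt a (ψ (MvPowerSeries.X (zIdx g i c))))
    {f : CoordRing 𝒪 m g} (hf : f ∈ uIdeal g h hh) : ψ f = 0 := by
  classical
  refine hpt _ fun a => ?_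
  let Z : Fin m → Prop := fun i =>
    ∀ c : Fin 6, 3 ≤ (c : ℕ) → pt a (ψ (MvPowerSeries.X (zIdx g i c))) = 0
  exact uMap_ker_le h hh (fun i => decide (¬ Z i)) (hloc a) ((pt a).comp ψ) (hψ a)
    (fun i hi => (hline a i).resolve_left (of_decide_eq_true hi))
    (fun i hi => not_not.mp (of_decide_eq_false hi))
    (RingHom.mem_ker.mp (Submodule.mem_iInf _ |>.mp hf _))

end Fermat.Agent.LevelLowering
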