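import Fermat.Agent.LevelLowering.FiniteLimit
import Fermat.Agent.LevelLowering.Lift
import Fermat.Agent.LevelLowering.UnionRing

/-!
# Level lowering at scalar primes from Taylor–Wiles levels

Input: at the minimal level a local ring `T₀` acting on `O^d`, and for each `n` a level with a
ring `T` over `T₀` with coordinates at the scalar primes, enough points with monodromy lines, the
generation bound, and a free action over `O⟦y⟧ / J` in which every `y_i²` moves the module into
`𝔪_T` times itself (soft local-global compatibility).  Output: the monodromy is not exact at the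
minimal level.
-/

namespace Fermat.Agent.LevelLowering

open IsLocalRing

/-- A point of `T` with a line or no monodromy at each scalar prime. -/
structure LinePoint {𝒪 : Type} [CommRing 𝒪] [IsLocalRing 𝒪] {m : ℕ} (h : Fin m → 𝒪) (T : Type)
    [CommRing T] [IsLocalRing T] [Algebra 𝒪 T] (coord : Fin m → Fin 6 → T) : Type 1 where
  /-- The local ring of the point. -/
  F : Type
  [instCommRing : CommRing F]
  [instLocal : IsLocalRing F]
  [instNoetherian : IsNoetherianRing F]
  [instAlgebra : Algebra 𝒪 F]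
  map_maximal : ∀ c ∈ maximalIdeal 𝒪, algebraMap 𝒪 F c ∈ maximalIdeal F
  /-- The point, a map out of `T`. -/
  pt : T →ₐ[𝒪] F
  pt_mem : ∀ x ∈ maximalIdeal T, pt x ∈ maximalIdeal F
  line : ∀ i, (∀ c : Fin 6, 3 ≤ (c : ℕ) → pt (coord i c) = 0) ∨
    ∃ e, (IsUnit (e 0) ∨ IsUnit (e 1)) ∧ OnLine (algebraMap 𝒪 F (h i)) e fun c => pt (coord i c)

attribute [instance] LinePoint.instCommRing LinePoint.instLocal LinePoint.instNoetherian
  LinePoint.instAlgebra

/-- One Taylor–Wiles level. -/
structure PatchLevel {𝒪 : Type} [CommRing 𝒪] [IsLocalRing 𝒪] {m : ℕ} (h : Fin m → 𝒪) (g D d : ℕ)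
    {T₀ : Type} [CommRing T₀] [Algebra 𝒪 T₀] (c₀ : Fin m → Fin 6 → T₀)
    (A : T₀ →+* Matrix (Fin d) (Fin d) 𝒪) : Type 1 where
  /-- The local ring of the level. -/
  T : Type
  [instCommRing : CommRing T]
  [instLocal : IsLocalRing T]
  [instNoetherian : IsNoetherianRing T]
  [instComplete : IsAdicComplete (maximalIdeal T) T]
  [instAlgebra : Algebra 𝒪 T]
  [instLocalHom : IsLocalHom (algebraMap 𝒪 T)]
  residue_surjective : Function.Surjective (residue T ∘ algebraMap 𝒪 T)
  /-- The map onto the ring of the minimal level. -/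
  proj : T →ₐ[𝒪] T₀
  proj_surjective : Function.Surjective proj
  /-- The six coordinates at each scalar prime. -/
  coord : Fin m → Fin 6 → T
  coord_mem : ∀ i c, coord i c ∈ maximalIdeal T
  proj_coord : ∀ i c, proj (coord i c) = c₀ i c
  /-- The index type of the points. -/
  ι : Type
  /-- The points, each with a line or no monodromy at every scalar prime. -/
  pts : ι → LinePoint h T coord
  pts_injective : ∀ x, (∀ a, (pts a).pt x = 0) → x = 0
  /-- `g` elements generating the maximal ideal with the `relIdeal` of the coordinates. -/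
  gens : Fin g → T
  gens_mem : ∀ j, gens j ∈ maximalIdeal T
  gens_le : maximalIdeal T ≤
    relIdeal (𝒪 := 𝒪) (fun k : Fin (m * 6) => coord (finProdFinEquiv.symm k).1
      (finProdFinEquiv.symm k).2) ⊔
      Ideal.span (Set.range gens)
  /-- The ideal of the power series ring cutting out the diamond ring of the level. -/
  J : Ideal (MvPowerSeries (Fin D) 𝒪)
  J_aug : ∀ s ∈ J, MvPowerSeries.constantCoeff s = 0
  /-- The action on `d` copies of the diamond ring. -/
  act : T →+* Matrix (Fin d) (Fin d) (MvPowerSeries (Fin D) 𝒪 ⧸ J)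
  act_algebraMap : ∀ c, act (algebraMap 𝒪 T c) =
    Matrix.scalar (Fin d) (Ideal.Quotient.mk J (MvPowerSeries.C c))
  act_aug : ∀ x, (act x).map (Ideal.Quotient.lift J MvPowerSeries.constantCoeff J_aug) = A (proj x)
  sq_mem : ∀ i j, (Pi.single j (Ideal.Quotient.mk J (MvPowerSeries.X i ^ 2)) :
      Fin d → MvPowerSeries (Fin D) 𝒪 ⧸ J) ∈ Submodule.span (MvPowerSeries (Fin D) 𝒪 ⧸ J)
    {v | ∃ t ∈ maximalIdeal T, ∃ w, (act t).mulVec w = v}

attribute [instance] PatchLevel.instCommRing PatchLevel.instLocal PatchLevel.instNoetherian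
  PatchLevel.instComplete PatchLevel.instAlgebra PatchLevel.instLocalHom

variable {𝒪 : Type} [CommRing 𝒪] [IsDomain 𝒪] [IsDiscreteValuationRing 𝒪]
  [IsAdicComplete (maximalIdeal 𝒪) 𝒪] [Finite (ResidueField 𝒪)]
  {m g D d : ℕ} {h : Fin m → 𝒪}

variable {T₀ : Type} [CommRing T₀] [IsLocalRing T₀] [IsNoetherianRing T₀]
  [IsAdicComplete (maximalIdeal T₀) T₀] [Algebra 𝒪 T₀] [IsLocalHom (algebraMap 𝒪 T₀)]
  {c₀ : Fin m → Fin 6 → T₀} {A : T₀ →+* Matrix (Fin d) (Fin d) 𝒪}

/-- Monodromy at the minimal level. -/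
def monoMatrix (c₀ : Fin m → Fin 6 → T₀) (i : Fin m) : Matrix (Fin 2) (Fin 2) T₀ :=
  !![c₀ i 3, c₀ i 4; c₀ i 5, -c₀ i 3]

omit [IsNoetherianRing T₀] in
/-- **Level lowering at scalar primes from Taylor–Wiles levels.** -/
theorem false_of_patchLevels (hh : ∀ i, h i ∈ maximalIdeal 𝒪) (hD : m * 3 + g ≤ D) (hd : 0 < d)
    (hc₀ : ∀ i c, c₀ i c ∈ maximalIdeal T₀)
    (L : ℕ → PatchLevel h g D d c₀ A)
    (hJ : ∀ k, ∀ᶠ n in Filter.atTop, (L n).J ≤ trunc 𝒪 D k)
    (i₀ : Fin m)
    (hexact : ∀ w, resBlock A (monoMatrix c₀ i₀) w = 0 →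
      ∃ y, resBlock A (monoMatrix c₀ i₀) y = w) : False := by
  classical
  have : NeZero d := ⟨hd.ne'⟩
  let flat : ∀ {α : Type}, (Fin m → Fin 6 → α) → Fin (m * 6) → α :=
    fun c k => c (finProdFinEquiv.symm k).1 (finProdFinEquiv.symm k).2
  obtain ⟨x₀, hx₀⟩ := exists_universal_lift (𝒪 := 𝒪) (g := g) (flat c₀) fun k => hc₀ _ _
  choose x hxm hπx hxle using fun n => hx₀ (L n).T (L n).residue_surjective (L n).proj
    (L n).proj_surjective (flat (L n).coord) (fun k => (L n).proj_coord _ _)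
    (fun k => (L n).coord_mem _ _) (L n).gens (L n).gens_mem (L n).gens_le
  let v : ∀ n, Fin (m * 6 + g) → (L n).T := fun n => pack (L n).coord (x n)
  have hvm : ∀ n k, v n k ∈ maximalIdeal (L n).T := fun n =>
    forall_pack_mem (L n).coord_mem (hxm n)
  let ψ : ∀ n, CoordRing 𝒪 m g →ₐ[𝒪] (L n).T := fun n => evalSeries (v n) (hvm n)
  have hψX : ∀ n k, ψ n (MvPowerSeries.X k) = v n k := fun n k => evalSeries_X _ _ k
  have hψsurj : ∀ n, Function.Surjective (ψ n) := fun n => by
    refine surjective_of_maximalIdeal_le (L n).residue_surjective _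
      (fun k => by rw [hψX]; exact hvm n k) ((hxle n).trans ?_)
    simp only [hψX, relIdeal]
    refine sup_le (sup_le (sup_le ?_ (le_sup_right.trans le_sup_left)) le_sup_right) ?_
    · refine le_trans (Ideal.span_mono ?_) (le_sup_left.trans le_sup_left)
      rintro _ ⟨k, rfl⟩
      exact ⟨zIdx g (finProdFinEquiv.symm k).1 (finProdFinEquiv.symm k).2, pack_zIdx _ _ _ _⟩
    · refine le_trans (Ideal.span_mono ?_) (le_sup_left.trans le_sup_left)
      rintro _ ⟨j, rfl⟩
      exact ⟨xIdx m 6 j, pack_xIdx _ _ _⟩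
  have hψker : ∀ n, ∀ f ∈ uIdeal g h hh, ψ n f = 0 := fun n f hf =>
    uIdeal_le_of_family hh (F := fun a => ((L n).pts a).F) (fun a => ((L n).pts a).map_maximal)
      (fun a => ((L n).pts a).pt) (L n).pts_injective (ψ n)
      (fun a k => ((L n).pts a).pt_mem _ (by rw [hψX]; exact hvm n k))
      (fun a i => by
        simp only [hψX, v, pack_zIdx]
        exact ((L n).pts a).line i) hf
  let φ : ∀ n, UnionRing g h hh →ₐ[𝒪] (L n).T := fun n => unionLift hh (ψ n) (hψker n)
  have hφ : ∀ n f, φ n (Ideal.Quotient.mk _ f) = ψ n f := fun _ _ => rfl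
  have hφsurj : ∀ n, Function.Surjective (φ n) := fun n y => by
    obtain ⟨f, rfl⟩ := hψsurj n y
    exact ⟨Ideal.Quotient.mk _ f, rfl⟩
  have hφloc : ∀ n, IsLocalHom (φ n).toRingHom := fun n => IsLocalHom.of_surjective _ (hφsurj n)
  -- the representation at the minimal level does not depend on `n`
  have hsame : ∀ n, ((L n).proj).comp (φ n) = ((L 0).proj).comp (φ 0) := fun n => by
    refine AlgHom.ext fun z => ?_
    obtain ⟨f, rfl⟩ := Ideal.Quotient.mk_surjective z
    simp only [AlgHom.comp_apply, hφ]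
    have : (L n).proj.comp (ψ n) = (L 0).proj.comp (ψ 0) := by
      refine algHom_ext_series (fun k => ?_) fun k => ?_
      · rw [AlgHom.comp_apply, hψX]
        exact map_maximalIdeal_of_surjective ((L n).proj : (L n).T →+* T₀) (L n).proj_surjective ▸
          Ideal.mem_map_of_mem _ (hvm n k)
      · simp only [AlgHom.comp_apply, hψX, v]
        rcases idx_cases k with ⟨i, c, rfl⟩ | ⟨j, rfl⟩
        · rw [pack_zIdx, pack_zIdx, (L n).proj_coord, (L 0).proj_coord]
        · rw [pack_xIdx, pack_xIdx, hπx, hπx]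
    exact AlgHom.congr_fun this f
  let A₀ : UnionRing g h hh →+* Matrix (Fin d) (Fin d) 𝒪 :=
    A.comp ((L 0).proj.comp (φ 0)).toRingHom
  let Sys : PatchBase 𝒪 D d (UnionRing g h hh) A₀ :=
    { J := fun n => (L n).J
      J_aug := fun n => (L n).J_aug
      J_trunc := hJ
      act := fun n => (L n).act.comp (φ n).toRingHom
      act_aug := fun n f => by
        show ((L n).act (φ n f)).map _ = A₀ f
        rw [(L n).act_aug]
        exact congrArg A (AlgHom.congr_fun (hsame n) f) }
  obtain ⟨ϖ, hϖ⟩ := IsDiscreteValuationRing.exists_irreducible 𝒪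
  have : Nonempty (Fin d) := ⟨⟨0, hd⟩⟩
  refine false_of_finite_patching Sys hd hϖ ?_ (fun n => ?_) (fun n i j => ?_) (uN g h hh i₀)
    (uN_mul_self g h hh i₀) (uU g h hh i₀) (fun K hK => ?_) (fun a => ?_) (fun b => ?_) ?_
  · exact IsLocalRing.le_maximalIdeal (uPrime_isPrime g h hh (fun _ => true)).ne_top
      (algebraMap_mem_uPrime g h hh _ ((mem_maximalIdeal ϖ).mpr hϖ.not_isUnit))
  · show (L n).act (φ n (algebraMap 𝒪 _ ϖ)) = _
    rw [AlgHom.commutes, (L n).act_algebraMap]
  · refine Submodule.span_mono ?_ ((L n).sq_mem i j)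
    rintro _ ⟨t, ht, w, rfl⟩
    obtain ⟨r, rfl⟩ := hφsurj n t
    exact ⟨r, (mem_maximalIdeal r).mpr fun hu => (mem_maximalIdeal _).mp ht (hu.map (φ n)), w, rfl⟩
  · obtain ⟨χ, hχ⟩ := exists_le_uPrime g h hh hD hK
    exact ⟨_, uPrime_isPrime g h hh χ, hχ,
      algebraMap_mem_uPrime g h hh χ ((mem_maximalIdeal ϖ).mpr hϖ.not_isUnit),
      uN_mem_uPrime g h hh χ i₀, Or.inl (uU_notMem_uPrime g h hh χ i₀)⟩
  · rw [uN_uU]
    exact zero_mem _
  · rw [uU_uN]
    exact zero_mem _
  · have hblock : resBlock A₀ (uN g h hh i₀) = resBlock A (monoMatrix c₀ i₀) := by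
      funext w p
      refine Finset.sum_congr rfl fun q _ => ?_
      have hc : ∀ c, ((L 0).proj.comp (φ 0)) (uPt g h hh i₀ c) = c₀ i₀ c := fun c => by
        rw [AlgHom.comp_apply, uPt, hφ, hψX]
        simp only [v, pack_zIdx]
        exact (L 0).proj_coord _ _
      have he : A₀ (uN g h hh i₀ p.1 q.1) = A (monoMatrix c₀ i₀ p.1 q.1) := by
        show A (((L 0).proj.comp (φ 0)) _) = _
        obtain ⟨a, x'⟩ := p
        obtain ⟨b, y'⟩ := q
        fin_cases a <;> fin_cases b <;> simp [uN, monoMatrix, hc, map_neg]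
      exact congrArg (fun M : Matrix (Fin d) (Fin d) 𝒪 => residue 𝒪 (M p.2 q.2) * w q) he
    rw [hblock]
    exact hexact

end Fermat.Agent.LevelLowering
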