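import Mathlib.RingTheory.Ideal.KrullsHeightTheorem
import Mathlib.RingTheory.MvPowerSeries.NoZeroDivisors
import Fermat.Prelude.Thm_IsLocalRing_isAdicComplete_of_module_finite
import Fermat.Agent.LevelLowering.ScalarPatching
import Fermat.Agent.LevelLowering.StPoint

/-!
# Power series over a domain form a domain

The coordinate rings of the charts are power series rings over a domain, hence domains.
-/

namespace Fermat.Agent.LevelLowering

instance series_isDomain {σ R : Type} [CommRing R] [IsDomain R] : IsDomain (MvPowerSeries σ R) :=
  NoZeroDivisors.to_isDomain _

end Fermat.Agent.LevelLowering
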